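import Mathlib

/-!
# A `ℚ`-valued additive valuation attached to a valuation subring

Let `A` be a valuation subring of a field `K` and `π ∈ K` a nonzero nonunit of `A` such that
every nonzero `x : K` satisfies `A.valuation x ^ n = A.valuation π ^ m` for some `n > 0`, `m : ℤ`
(`ford_IsRational`).  Then `x ↦ m / n` is an additive valuation `ford_v : AddValuation K (WithTop ℚ)`
with `0 ≤ v x ↔ x ∈ A`, `0 < v x ↔ x ∈ A.nonunits`, `v π = 1`.

For `K` algebraic over `ℚ` and `π = q` a prime number which is a nonunit of `A`, the hypothesis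
holds (`ford_isRational_of_isAlgebraic`), which gives `ford_vQ`.
-/

set_option autoImplicit false

namespace Fermat.Agent.Lib.Frey

section general

variable {K : Type*} [Field K] (A : ValuationSubring K) (π : K)

/-- Every nonzero element has a power whose valuation is an integral power of that of `π`. -/
def ford_IsRational : Prop :=
  ∀ x : K, x ≠ 0 → ∃ (n : ℕ) (m : ℤ), 0 < n ∧ A.valuation x ^ n = A.valuation π ^ m

open Classical in
/-- The rational number `m / n` where `A.valuation x ^ n = A.valuation π ^ m`. -/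
noncomputable def ford_ordQ (x : K) : ℚ :=
  if h : ∃ (n : ℕ) (m : ℤ), 0 < n ∧ A.valuation x ^ n = A.valuation π ^ m then
    (h.choose_spec.choose : ℚ) / (h.choose : ℚ) else 0

variable {A π}

lemma ford_val_pi_pos (hπ0 : π ≠ 0) : 0 < A.valuation π :=
  zero_lt_iff.mpr ((Valuation.ne_zero_iff _).mpr hπ0)

lemma ford_val_pi_lt_one (hπ : π ∈ A.nonunits) : A.valuation π < 1 :=
  A.mem_nonunits_iff.mp hπ

lemma ford_zpow_inj (hπ0 : π ≠ 0) (hπ : π ∈ A.nonunits) {a b : ℤ}
    (h : A.valuation π ^ a = A.valuation π ^ b) : a = b :=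
  zpow_right_injective₀ (ford_val_pi_pos hπ0) (ford_val_pi_lt_one hπ).ne h

lemma ford_ordQ_eq (hπ0 : π ≠ 0) (hπ : π ∈ A.nonunits) {x : K} {n : ℕ} {m : ℤ} (hn : 0 < n)
    (h : A.valuation x ^ n = A.valuation π ^ m) : ford_ordQ A π x = (m : ℚ) / (n : ℚ) := by
  have hex : ∃ (n : ℕ) (m : ℤ), 0 < n ∧ A.valuation x ^ n = A.valuation π ^ m := ⟨n, m, hn, h⟩
  rw [ford_ordQ, dif_pos hex]
  obtain ⟨hn', h'⟩ := hex.choose_spec.choose_spec
  set n' := hex.choose
  set m' := hex.choose_spec.choose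
  have key : m' * (n : ℤ) = m * (n' : ℤ) := by
    apply ford_zpow_inj hπ0 hπ
    rw [zpow_mul, zpow_mul, zpow_natCast, zpow_natCast, ← h', ← h, ← pow_mul, ← pow_mul,
      mul_comm]
  have hnq : (n : ℚ) ≠ 0 := by exact_mod_cast hn.ne'
  have hnq' : (n' : ℚ) ≠ 0 := by exact_mod_cast hn'.ne'
  rw [div_eq_div_iff hnq' hnq]
  exact_mod_cast key

lemma ford_ordQ_one (hπ0 : π ≠ 0) (hπ : π ∈ A.nonunits) : ford_ordQ A π 1 = 0 := by
  have := ford_ordQ_eq hπ0 hπ (x := 1) (n := 1) (m := 0) one_pos (by simp)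
  simpa using this

lemma ford_ordQ_pi (hπ0 : π ≠ 0) (hπ : π ∈ A.nonunits) : ford_ordQ A π π = 1 := by
  have := ford_ordQ_eq hπ0 hπ (x := π) (n := 1) (m := 1) one_pos (by simp)
  simpa using this

lemma ford_ordQ_mul (hπ0 : π ≠ 0) (hπ : π ∈ A.nonunits) (hrat : ford_IsRational A π)
    {x y : K} (hx : x ≠ 0) (hy : y ≠ 0) :
    ford_ordQ A π (x * y) = ford_ordQ A π x + ford_ordQ A π y := by
  obtain ⟨n, m, hn, h⟩ := hrat x hx
  obtain ⟨n', m', hn', h'⟩ := hrat y hy
  have hxy : A.valuation (x * y) ^ (n * n') = A.valuation π ^ (m * n' + m' * n) := by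
    rw [map_mul, mul_pow, pow_mul, h, mul_comm n n', pow_mul, h',
      zpow_add₀ (ford_val_pi_pos hπ0).ne', zpow_mul, zpow_mul, zpow_natCast, zpow_natCast]
  rw [ford_ordQ_eq hπ0 hπ hn h, ford_ordQ_eq hπ0 hπ hn' h',
    ford_ordQ_eq hπ0 hπ (Nat.mul_pos hn hn') hxy]
  have hnq : (n : ℚ) ≠ 0 := by exact_mod_cast hn.ne'
  have hnq' : (n' : ℚ) ≠ 0 := by exact_mod_cast hn'.ne'
  push_cast
  field_simp

lemma ford_ordQ_nonneg_iff (hπ0 : π ≠ 0) (hπ : π ∈ A.nonunits) (hrat : ford_IsRational A π)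
    {x : K} (hx : x ≠ 0) : 0 ≤ ford_ordQ A π x ↔ x ∈ A := by
  obtain ⟨n, m, hn, h⟩ := hrat x hx
  rw [ford_ordQ_eq hπ0 hπ hn h, ← A.valuation_le_one_iff,
    ← pow_le_one_iff_of_nonneg zero_le hn.ne', h,
    zpow_le_one_iff_right_of_lt_one₀ (ford_val_pi_pos hπ0) (ford_val_pi_lt_one hπ)]
  have hnq : (0 : ℚ) < (n : ℚ) := by exact_mod_cast hn
  rw [div_nonneg_iff]
  constructor
  · rintro (⟨h1, _⟩ | ⟨_, h2⟩)
    · exact_mod_cast h1
    · exact absurd h2 (not_le.mpr hnq)
  · intro h1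
    exact Or.inl ⟨by exact_mod_cast h1, hnq.le⟩

lemma ford_ordQ_pos_iff (hπ0 : π ≠ 0) (hπ : π ∈ A.nonunits) (hrat : ford_IsRational A π)
    {x : K} (hx : x ≠ 0) : 0 < ford_ordQ A π x ↔ x ∈ A.nonunits := by
  obtain ⟨n, m, hn, h⟩ := hrat x hx
  rw [ford_ordQ_eq hπ0 hπ hn h, A.mem_nonunits_iff,
    ← pow_lt_one_iff_of_nonneg zero_le hn.ne', h,
    zpow_lt_one_iff_right_of_lt_one₀ (ford_val_pi_pos hπ0) (ford_val_pi_lt_one hπ)]
  have hnq : (0 : ℚ) < (n : ℚ) := by exact_mod_cast hn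
  rw [div_pos_iff_of_pos_right hnq]
  exact_mod_cast Iff.rfl

lemma ford_ordQ_inv (hπ0 : π ≠ 0) (hπ : π ∈ A.nonunits) (hrat : ford_IsRational A π)
    {x : K} (hx : x ≠ 0) : ford_ordQ A π x⁻¹ = -ford_ordQ A π x := by
  have h := ford_ordQ_mul hπ0 hπ hrat hx (inv_ne_zero hx)
  rw [mul_inv_cancel₀ hx, ford_ordQ_one hπ0 hπ] at h
  linarith

/-- `ord x ≤ ord y` iff `A.valuation y ≤ A.valuation x`. -/
lemma ford_ordQ_le_iff (hπ0 : π ≠ 0) (hπ : π ∈ A.nonunits) (hrat : ford_IsRational A π)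
    {x y : K} (hx : x ≠ 0) (hy : y ≠ 0) :
    ford_ordQ A π x ≤ ford_ordQ A π y ↔ A.valuation y ≤ A.valuation x := by
  have hxv : 0 < A.valuation x := zero_lt_iff.mpr ((Valuation.ne_zero_iff _).mpr hx)
  have h1 : ford_ordQ A π (y * x⁻¹) = ford_ordQ A π y - ford_ordQ A π x := by
    rw [ford_ordQ_mul hπ0 hπ hrat hy (inv_ne_zero hx), ford_ordQ_inv hπ0 hπ hrat hx]
    ring
  rw [← sub_nonneg, ← h1, ford_ordQ_nonneg_iff hπ0 hπ hrat (mul_ne_zero hy (inv_ne_zero hx)),
    ← A.valuation_le_one_iff, map_mul, map_inv₀, ← div_eq_mul_inv, div_le_one₀ hxv]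

open Classical in
/-- The underlying function of `ford_v`. -/
noncomputable def ford_fun (A : ValuationSubring K) (π : K) (x : K) : WithTop ℚ :=
  if x = 0 then ⊤ else ((ford_ordQ A π x : ℚ) : WithTop ℚ)

lemma ford_fun_zero : ford_fun A π 0 = ⊤ := by
  unfold ford_fun; exact if_pos rfl

lemma ford_fun_of_ne {x : K} (hx : x ≠ 0) :
    ford_fun A π x = ((ford_ordQ A π x : ℚ) : WithTop ℚ) := by
  unfold ford_fun; exact if_neg hx

lemma ford_fun_add (hπ0 : π ≠ 0) (hπ : π ∈ A.nonunits) (hrat : ford_IsRational A π) (x y : K) :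
    min (ford_fun A π x) (ford_fun A π y) ≤ ford_fun A π (x + y) := by
  by_cases hx : x = 0
  · subst hx; rw [zero_add]; exact min_le_right _ _
  by_cases hy : y = 0
  · subst hy; rw [add_zero]; exact min_le_left _ _
  by_cases hxy : x + y = 0
  · rw [hxy, ford_fun_zero]; exact le_top
  rw [ford_fun_of_ne hx, ford_fun_of_ne hy, ford_fun_of_ne hxy, ← WithTop.coe_min,
    WithTop.coe_le_coe]
  rcases (A.valuation).map_add' x y with h | h
  · exact (min_le_left _ _).trans ((ford_ordQ_le_iff hπ0 hπ hrat hx hxy).mpr h)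
  · exact (min_le_right _ _).trans ((ford_ordQ_le_iff hπ0 hπ hrat hy hxy).mpr h)

lemma ford_fun_mul (hπ0 : π ≠ 0) (hπ : π ∈ A.nonunits) (hrat : ford_IsRational A π) (x y : K) :
    ford_fun A π (x * y) = ford_fun A π x + ford_fun A π y := by
  by_cases hx : x = 0
  · subst hx; rw [zero_mul, ford_fun_zero, top_add]
  by_cases hy : y = 0
  · subst hy; rw [mul_zero, ford_fun_zero, add_top]
  rw [ford_fun_of_ne hx, ford_fun_of_ne hy, ford_fun_of_ne (mul_ne_zero hx hy),
    ford_ordQ_mul hπ0 hπ hrat hx hy, WithTop.coe_add]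

/-- The `ℚ`-valued additive valuation attached to `A` and `π`. -/
noncomputable def ford_v (A : ValuationSubring K) (π : K) (hπ0 : π ≠ 0) (hπ : π ∈ A.nonunits)
    (hrat : ford_IsRational A π) : AddValuation K (WithTop ℚ) :=
  AddValuation.of (ford_fun A π) ford_fun_zero
    (by rw [ford_fun_of_ne one_ne_zero, ford_ordQ_one hπ0 hπ]; rfl)
    (ford_fun_add hπ0 hπ hrat) (ford_fun_mul hπ0 hπ hrat)

section props

variable (hπ0 : π ≠ 0) (hπ : π ∈ A.nonunits) (hrat : ford_IsRational A π)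

lemma ford_v_apply (x : K) : ford_v A π hπ0 hπ hrat x = ford_fun A π x := rfl

lemma ford_v_of_ne {x : K} (hx : x ≠ 0) :
    ford_v A π hπ0 hπ hrat x = ((ford_ordQ A π x : ℚ) : WithTop ℚ) := ford_fun_of_ne hx

lemma ford_v_nonneg_iff (x : K) : 0 ≤ ford_v A π hπ0 hπ hrat x ↔ x ∈ A := by
  by_cases hx : x = 0
  · subst hx
    rw [ford_v_apply, ford_fun_zero]
    exact ⟨fun _ => A.zero_mem, fun _ => le_top⟩
  · rw [ford_v_of_ne hπ0 hπ hrat hx, ← WithTop.coe_zero, WithTop.coe_le_coe]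
    exact ford_ordQ_nonneg_iff hπ0 hπ hrat hx

lemma ford_v_pos_iff (x : K) : 0 < ford_v A π hπ0 hπ hrat x ↔ x ∈ A.nonunits := by
  by_cases hx : x = 0
  · subst hx
    rw [ford_v_apply, ford_fun_zero]
    exact ⟨fun _ => A.nonunits.zero_mem, fun _ => WithTop.coe_lt_top 0⟩
  · rw [ford_v_of_ne hπ0 hπ hrat hx, ← WithTop.coe_zero, WithTop.coe_lt_coe]
    exact ford_ordQ_pos_iff hπ0 hπ hrat hx

lemma ford_v_pi : ford_v A π hπ0 hπ hrat π = 1 := by
  rw [ford_v_of_ne hπ0 hπ hrat hπ0, ford_ordQ_pi hπ0 hπ]; rfl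

/-- Comparison with the multiplicative valuation of `A`. -/
lemma ford_v_le_iff (x y : K) :
    ford_v A π hπ0 hπ hrat x ≤ ford_v A π hπ0 hπ hrat y ↔ A.valuation y ≤ A.valuation x := by
  by_cases hy : y = 0
  · subst hy
    rw [ford_v_apply _ _ _ 0, ford_fun_zero, map_zero]
    exact ⟨fun _ => zero_le, fun _ => le_top⟩
  by_cases hx : x = 0
  · subst hx
    rw [ford_v_apply _ _ _ 0, ford_fun_zero, map_zero, top_le_iff, le_zero_iff,
      AddValuation.top_iff, Valuation.zero_iff]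
  rw [ford_v_of_ne hπ0 hπ hrat hx, ford_v_of_ne hπ0 hπ hrat hy, WithTop.coe_le_coe]
  exact ford_ordQ_le_iff hπ0 hπ hrat hx hy

lemma ford_v_eq_iff (x y : K) :
    ford_v A π hπ0 hπ hrat x = ford_v A π hπ0 hπ hrat y ↔ A.valuation x = A.valuation y := by
  rw [le_antisymm_iff, le_antisymm_iff, ford_v_le_iff, ford_v_le_iff, and_comm]

lemma ford_v_eq_of_valuation_pow {x : K} {n : ℕ} {m : ℤ} (hn : 0 < n)
    (h : A.valuation x ^ n = A.valuation π ^ m) :
    ford_v A π hπ0 hπ hrat x = (((m : ℚ) / (n : ℚ) : ℚ) : WithTop ℚ) := by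
  have hx : x ≠ 0 := by
    rintro rfl
    rw [map_zero, zero_pow hn.ne'] at h
    exact (zpow_ne_zero m (ford_val_pi_pos hπ0).ne') h.symm
  rw [ford_v_of_ne hπ0 hπ hrat hx, ford_ordQ_eq hπ0 hπ hn h]

/-- Invariance under a ring automorphism preserving `A` and fixing `π`. -/
lemma ford_v_map (σ : K ≃+* K) (hσA : ∀ a ∈ A, σ a ∈ A) (hσπ : σ π = π) (x : K) :
    ford_v A π hπ0 hπ hrat (σ x) = ford_v A π hπ0 hπ hrat x := by
  by_cases hx : x = 0
  · subst hx; rw [map_zero]
  have hσx : σ x ≠ 0 := fun h => hx (by simpa using h)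
  obtain ⟨n, m, hn, h⟩ := hrat x hx
  have hunit : ∀ u : K, A.valuation u = 1 → A.valuation (σ u) = 1 := by
    intro u hu
    have hu0 : u ≠ 0 := by
      rintro rfl
      rw [map_zero] at hu
      exact zero_ne_one hu
    have h1 : σ u ∈ A := hσA u ((A.valuation_le_one_iff u).mp hu.le)
    have h2 : σ u⁻¹ ∈ A := hσA u⁻¹ ((A.valuation_le_one_iff _).mp (by rw [map_inv₀, hu, inv_one]))
    have h1' := (A.valuation_le_one_iff _).mpr h1
    have h2' := (A.valuation_le_one_iff _).mpr h2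
    rw [map_inv₀, map_inv₀] at h2'
    have hpos : 0 < A.valuation (σ u) :=
      zero_lt_iff.mpr ((Valuation.ne_zero_iff _).mpr (fun h => hu0 (by simpa using h)))
    exact le_antisymm h1' ((inv_le_one₀ hpos).mp h2')
  have hu : A.valuation (x ^ n * (π ^ m)⁻¹) = 1 := by
    rw [map_mul, map_pow, map_inv₀, map_zpow₀, h]
    exact mul_inv_cancel₀ (zpow_ne_zero m (ford_val_pi_pos hπ0).ne')
  have hu' := hunit _ hu
  rw [map_mul, map_pow, map_inv₀, map_zpow₀, hσπ, map_mul, map_pow, map_inv₀, map_zpow₀] at hu'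
  have h' : A.valuation (σ x) ^ n = A.valuation π ^ m := by
    have hne : A.valuation π ^ m ≠ 0 := zpow_ne_zero m (ford_val_pi_pos hπ0).ne'
    calc A.valuation (σ x) ^ n
        = A.valuation (σ x) ^ n * (A.valuation π ^ m)⁻¹ * A.valuation π ^ m := by
          rw [mul_assoc, inv_mul_cancel₀ hne, mul_one]
      _ = A.valuation π ^ m := by rw [hu', one_mul]
  rw [ford_v_eq_of_valuation_pow hπ0 hπ hrat hn h', ford_v_eq_of_valuation_pow hπ0 hπ hrat hn h]

end props

end general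

section sumzero

/-- In a vanishing finite sum with a nonzero term, two distinct terms share the same (nonzero)
valuation. -/
lemma ford_exists_eq_of_sum_eq_zero {Γ : Type*} [LinearOrderedCommGroupWithZero Γ] {R : Type*}
    [Ring R] (v : Valuation R Γ) {ι : Type*} [DecidableEq ι] (s : Finset ι) (f : ι → R)
    (hsum : ∑ i ∈ s, f i = 0) {j : ι} (hj : j ∈ s) (hfj : v (f j) ≠ 0) :
    ∃ i ∈ s, ∃ k ∈ s, i ≠ k ∧ v (f i) = v (f k) ∧ v (f i) ≠ 0 := by
  obtain ⟨j₀, hj₀, hmax⟩ := s.exists_max_image (fun i => v (f i)) ⟨j, hj⟩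
  have hj₀0 : v (f j₀) ≠ 0 := by
    intro h0
    have := hmax j hj
    rw [h0] at this
    exact hfj (le_zero_iff.mp this)
  by_contra hcon
  have hlt : ∀ i ∈ s \ {j₀}, v (f i) < v (f j₀) := by
    intro i hi
    rw [Finset.mem_sdiff, Finset.mem_singleton] at hi
    refine lt_of_le_of_ne (hmax i hi.1) ?_
    intro heq
    exact hcon ⟨j₀, hj₀, i, hi.1, fun h => hi.2 h.symm, heq.symm, hj₀0⟩
  have := v.map_sum_eq_of_lt hj₀ hlt
  rw [hsum, map_zero] at this
  exact hj₀0 this.symm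

end sumzero

section rat

variable {K : Type*} [Field K] [CharZero K] (A : ValuationSubring K) {q : ℕ}

omit [CharZero K] in
lemma ford_val_intCast_le_one (z : ℤ) : A.valuation (z : K) ≤ 1 :=
  (A.valuation_le_one_iff _).mpr (intCast_mem A z)

omit [CharZero K] in
lemma ford_val_natCast_le_one (n : ℕ) : A.valuation (n : K) ≤ 1 :=
  (A.valuation_le_one_iff _).mpr (natCast_mem A n)

variable {A}

/-- An integer prime to `q` is a unit of `A`. -/
lemma ford_val_intCast_of_not_dvd (hq : q.Prime) (hA : (q : K) ∈ A.nonunits) {z : ℤ}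
    (hz : ¬ (q : ℤ) ∣ z) : A.valuation (z : K) = 1 := by
  refine le_antisymm (ford_val_intCast_le_one A z) (not_lt.mp ?_)
  intro hlt
  have hcop : IsCoprime z (q : ℤ) :=
    ((Nat.prime_iff_prime_int.mp hq).coprime_iff_not_dvd.mpr hz).symm
  obtain ⟨a, b, hab⟩ := hcop
  have h1 : ((a : K) * (z : K) + (b : K) * ((q : ℤ) : K)) = 1 := by exact_mod_cast hab
  have hq1 : A.valuation (((q : ℤ) : K)) < 1 := by
    rw [Int.cast_natCast]; exact A.mem_nonunits_iff.mp hA
  have h2 : A.valuation ((a : K) * (z : K)) < 1 := by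
    rw [map_mul]
    exact mul_lt_one_of_nonneg_of_lt_one_right (ford_val_intCast_le_one A a) zero_le hlt
  have h3 : A.valuation ((b : K) * ((q : ℤ) : K)) < 1 := by
    rw [map_mul]
    exact mul_lt_one_of_nonneg_of_lt_one_right (ford_val_intCast_le_one A b) zero_le hq1
  have := (A.valuation).map_add_lt h2 h3
  rw [h1, map_one] at this
  exact lt_irrefl _ this

lemma ford_val_natCast_of_not_dvd (hq : q.Prime) (hA : (q : K) ∈ A.nonunits) {n : ℕ}
    (hn : ¬ q ∣ n) : A.valuation (n : K) = 1 := by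
  have := ford_val_intCast_of_not_dvd (z := (n : ℤ)) hq hA (by exact_mod_cast hn)
  simpa using this

/-- The valuation of a nonzero natural number. -/
lemma ford_val_natCast (hq : q.Prime) (hA : (q : K) ∈ A.nonunits) {n : ℕ} (hn : n ≠ 0) :
    A.valuation (n : K) = A.valuation (q : K) ^ (padicValNat q n) := by
  have h1 : q ^ (padicValNat q n) * (n / q ^ (padicValNat q n)) = n := by
    have := Nat.ordProj_mul_ordCompl_eq_self n q
    rwa [Nat.factorization_def n hq] at this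
  have h2 : ¬ q ∣ n / q ^ (padicValNat q n) := by
    have := Nat.not_dvd_ordCompl hq hn
    rwa [Nat.factorization_def n hq] at this
  conv_lhs => rw [← h1]
  rw [Nat.cast_mul, Nat.cast_pow, map_mul, map_pow, ford_val_natCast_of_not_dvd hq hA h2, mul_one]

/-- The valuation of a nonzero integer. -/
lemma ford_val_intCast (hq : q.Prime) (hA : (q : K) ∈ A.nonunits) {z : ℤ} (hz : z ≠ 0) :
    A.valuation (z : K) = A.valuation (q : K) ^ (padicValInt q z) := by
  have hn : z.natAbs ≠ 0 := Int.natAbs_ne_zero.mpr hz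
  have h := ford_val_natCast hq hA hn
  rw [padicValInt]
  rcases Int.natAbs_eq z with h' | h'
  · rw [← h]
    conv_lhs => rw [h']
    rw [Int.cast_natCast]
  · rw [← h]
    conv_lhs => rw [h']
    rw [Int.cast_neg, Int.cast_natCast, Valuation.map_neg]

/-- The valuation of a nonzero rational number. -/
lemma ford_val_ratCast (hq : q.Prime) (hA : (q : K) ∈ A.nonunits) {r : ℚ} (hr : r ≠ 0) :
    A.valuation (r : K) = A.valuation (q : K) ^ (padicValRat q r) := by
  have hq0 : (q : K) ≠ 0 := by exact_mod_cast hq.ne_zero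
  have hg : A.valuation (q : K) ≠ 0 := (Valuation.ne_zero_iff _).mpr hq0
  have hnum : r.num ≠ 0 := Rat.num_ne_zero.mpr hr
  have hden : r.den ≠ 0 := r.den_ne_zero
  have hcast : (r : K) = (r.num : K) / (r.den : K) := by
    conv_lhs => rw [← Rat.num_div_den r]
    push_cast
    rfl
  rw [hcast, map_div₀, ford_val_intCast hq hA hnum, ford_val_natCast hq hA hden, padicValRat,
    zpow_sub₀ hg, zpow_natCast, zpow_natCast]

variable [Algebra ℚ K] [Algebra.IsAlgebraic ℚ K]

/-- For an algebraic extension of `ℚ` and a prime `q` which is a nonunit of `A`, the value group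
of `A` is rationally generated by the valuation of `q`. -/
theorem ford_isRational_of_isAlgebraic (hq : q.Prime) (hA : (q : K) ∈ A.nonunits) :
    ford_IsRational A (q : K) := by
  intro x hx
  have hq0 : (q : K) ≠ 0 := by exact_mod_cast hq.ne_zero
  have hg : A.valuation (q : K) ≠ 0 := (Valuation.ne_zero_iff _).mpr hq0
  have hxv : A.valuation x ≠ 0 := (Valuation.ne_zero_iff _).mpr hx
  obtain ⟨p, hp0, hp⟩ := Algebra.IsAlgebraic.isAlgebraic (R := ℚ) x
  rw [Polynomial.aeval_eq_sum_range] at hp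
  have hlead : A.valuation (p.coeff p.natDegree • x ^ p.natDegree) ≠ 0 := by
    rw [Algebra.smul_def, map_mul, map_pow]
    refine mul_ne_zero ?_ (pow_ne_zero _ hxv)
    rw [Valuation.ne_zero_iff, Ne, map_eq_zero]
    exact Polynomial.leadingCoeff_ne_zero.mpr hp0
  obtain ⟨i, -, k, -, hik, heq, hne⟩ :=
    ford_exists_eq_of_sum_eq_zero A.valuation (Finset.range (p.natDegree + 1))
      (fun i => p.coeff i • x ^ i) hp (Finset.self_mem_range_succ _) hlead
  -- the two coefficients are nonzero rationals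
  have key : ∀ i k : ℕ, i < k →
      A.valuation (p.coeff i • x ^ i) = A.valuation (p.coeff k • x ^ k) →
      A.valuation (p.coeff i • x ^ i) ≠ 0 →
      ∃ (n : ℕ) (m : ℤ), 0 < n ∧ A.valuation x ^ n = A.valuation (q : K) ^ m := by
    intro i k hik heq hne
    have hne' : A.valuation (p.coeff k • x ^ k) ≠ 0 := heq ▸ hne
    simp only [Algebra.smul_def, map_mul, map_pow] at heq hne hne'
    have hci : p.coeff i ≠ 0 := by
      intro h0
      rw [h0, map_zero, map_zero, zero_mul] at hne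
      exact hne rfl
    have hck : p.coeff k ≠ 0 := by
      intro h0
      rw [h0, map_zero, map_zero, zero_mul] at hne'
      exact hne' rfl
    rw [eq_ratCast, eq_ratCast, ford_val_ratCast hq hA hci, ford_val_ratCast hq hA hck] at heq
    refine ⟨k - i, padicValRat q (p.coeff i) - padicValRat q (p.coeff k), Nat.sub_pos_of_lt hik, ?_⟩
    have hpow : A.valuation x ^ k = A.valuation x ^ (k - i) * A.valuation x ^ i := by
      rw [← pow_add, Nat.sub_add_cancel hik.le]
    have hxi : A.valuation x ^ i ≠ 0 := pow_ne_zero _ hxv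
    have hgk : A.valuation (q : K) ^ padicValRat q (p.coeff k) ≠ 0 := zpow_ne_zero _ hg
    rw [hpow, ← mul_assoc] at heq
    have h3 := mul_right_cancel₀ hxi heq
    rw [zpow_sub₀ hg, eq_div_iff hgk, mul_comm]
    exact h3.symm
  rcases lt_or_gt_of_ne hik with h | h
  · exact key i k h heq hne
  · exact key k i h heq.symm (heq ▸ hne)

/-- The `ℚ`-valued additive valuation on an algebraic extension `K` of `ℚ` attached to a
valuation subring `A` in which the prime `q` is a nonunit; normalised by `v q = 1`. -/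
noncomputable def ford_vQ (A : ValuationSubring K) (hq : q.Prime) (hA : (q : K) ∈ A.nonunits) :
    AddValuation K (WithTop ℚ) :=
  ford_v A (q : K) (by exact_mod_cast hq.ne_zero) hA (ford_isRational_of_isAlgebraic hq hA)

section vQ

variable (hq : q.Prime) (hA : (q : K) ∈ A.nonunits)

lemma ford_vQ_nonneg_iff (x : K) : 0 ≤ ford_vQ A hq hA x ↔ x ∈ A := ford_v_nonneg_iff _ _ _ x

lemma ford_vQ_pos_iff (x : K) : 0 < ford_vQ A hq hA x ↔ x ∈ A.nonunits := ford_v_pos_iff _ _ _ x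

lemma ford_vQ_q : ford_vQ A hq hA (q : K) = 1 := ford_v_pi _ _ _

lemma ford_vQ_le_iff (x y : K) :
    ford_vQ A hq hA x ≤ ford_vQ A hq hA y ↔ A.valuation y ≤ A.valuation x :=
  ford_v_le_iff _ _ _ x y

lemma ford_vQ_eq_iff (x y : K) :
    ford_vQ A hq hA x = ford_vQ A hq hA y ↔ A.valuation x = A.valuation y :=
  ford_v_eq_iff _ _ _ x y

lemma ford_vQ_intCast_nonneg (z : ℤ) : 0 ≤ ford_vQ A hq hA (z : K) :=
  (ford_vQ_nonneg_iff hq hA _).mpr (intCast_mem A z)

lemma ford_vQ_natCast {n : ℕ} (hn : n ≠ 0) :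
    ford_vQ A hq hA (n : K) = ((padicValNat q n : ℚ) : WithTop ℚ) := by
  have h := ford_val_natCast hq hA hn
  have h' : A.valuation (n : K) ^ 1 = A.valuation (q : K) ^ ((padicValNat q n : ℕ) : ℤ) := by
    rw [pow_one, zpow_natCast]; exact h
  rw [ford_vQ, ford_v_eq_of_valuation_pow _ _ _ one_pos h']
  simp

lemma ford_vQ_intCast {z : ℤ} (hz : z ≠ 0) :
    ford_vQ A hq hA (z : K) = ((padicValInt q z : ℚ) : WithTop ℚ) := by
  have h := ford_val_intCast hq hA hz
  have h' : A.valuation (z : K) ^ 1 = A.valuation (q : K) ^ ((padicValInt q z : ℕ) : ℤ) := by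
    rw [pow_one, zpow_natCast]; exact h
  rw [ford_vQ, ford_v_eq_of_valuation_pow _ _ _ one_pos h']
  simp

lemma ford_vQ_ratCast {r : ℚ} (hr : r ≠ 0) :
    ford_vQ A hq hA (r : K) = ((padicValRat q r : ℚ) : WithTop ℚ) := by
  have h := ford_val_ratCast hq hA hr
  have h' : A.valuation (r : K) ^ 1 = A.valuation (q : K) ^ (padicValRat q r) := by
    rw [pow_one]; exact h
  rw [ford_vQ, ford_v_eq_of_valuation_pow _ _ _ one_pos h']
  simp

lemma ford_vQ_algebraMap {r : ℚ} (hr : r ≠ 0) :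
    ford_vQ A hq hA (algebraMap ℚ K r) = ((padicValRat q r : ℚ) : WithTop ℚ) := by
  rw [eq_ratCast]; exact ford_vQ_ratCast hq hA hr

/-- Invariance under ring automorphisms preserving `A`. -/
lemma ford_vQ_map (σ : K ≃+* K) (hσA : ∀ a ∈ A, σ a ∈ A) (x : K) :
    ford_vQ A hq hA (σ x) = ford_vQ A hq hA x :=
  ford_v_map _ _ _ σ hσA (map_natCast σ q) x

open scoped Pointwise in
/-- Invariance under the decomposition group. -/
lemma ford_vQ_decomposition (σ : K ≃ₐ[ℚ] K) (hσ : σ ∈ A.decompositionSubgroup ℚ) (x : K) :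
    ford_vQ A hq hA (σ x) = ford_vQ A hq hA x := by
  have hσA : σ • A = A := hσ
  refine ford_vQ_map hq hA (σ : K ≃+* K) ?_ x
  intro a ha
  have := ValuationSubring.smul_mem_pointwise_smul σ a A ha
  rw [hσA] at this
  exact this

end vQ

end rat

/-- `AlgebraicClosure ℚ` is algebraic over `ℚ` (as an instance, for the `ℚ`-algebra structure found
by instance synthesis). -/
instance ford_isAlgebraic_algebraicClosureRat : Algebra.IsAlgebraic ℚ (AlgebraicClosure ℚ) :=
  AlgebraicClosure.isAlgebraic ℚ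

end Fermat.Agent.Lib.Frey
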