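import Mathlib
import Fermat.Agent.Lib.Frey.Ord
import Fermat.Prelude.Def_FLTPrelim_Ramification

/-!
# Inertia in terms of the `ℚ`-valued valuation `ford_vQ`

Unfolding of `ValuationSubring.inertiaSubgroupIn` (Prelude) and the resulting properties of
`ford_vQ A hq hA` under an element of the inertia group.
-/

set_option autoImplicit false

namespace Fermat.Agent.Lib.Frey

open scoped Pointwise

/-- An element of the inertia group lies in the decomposition group and acts trivially modulo the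
maximal ideal. -/
theorem ford_inertia_spec {K L : Type*} [Field K] [Field L] [Algebra K L] (A : ValuationSubring L)
    (σ : L ≃ₐ[K] L) (hσ : σ ∈ A.inertiaSubgroupIn K) :
    σ ∈ A.decompositionSubgroup K ∧ ∀ a ∈ A, σ a - a ∈ A.nonunits := by
  obtain ⟨τ, hτ, rfl⟩ := hσ
  refine ⟨τ.2, ?_⟩
  intro a ha
  have h1 : τ • (IsLocalRing.residue A ⟨a, ha⟩) = IsLocalRing.residue A ⟨a, ha⟩ :=
    RingEquiv.congr_fun (MonoidHom.mem_ker.mp hτ) (IsLocalRing.residue A ⟨a, ha⟩)
  rw [← IsLocalRing.ResidueField.residue_smul] at h1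
  have h2 : τ • (⟨a, ha⟩ : A) - ⟨a, ha⟩ ∈ IsLocalRing.maximalIdeal A := by
    rw [← Ideal.Quotient.eq]
    exact h1
  exact (ValuationSubring.coe_mem_nonunits_iff (A := A)).mpr h2

/-- An element of the decomposition group maps `A` into itself. -/
theorem ford_decomposition_mem {K L : Type*} [Field K] [Field L] [Algebra K L]
    (A : ValuationSubring L) (σ : L ≃ₐ[K] L) (hσ : σ ∈ A.decompositionSubgroup K) :
    ∀ a ∈ A, σ a ∈ A := by
  have hσA : σ • A = A := hσ
  intro a ha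
  have := ValuationSubring.smul_mem_pointwise_smul σ a A ha
  rw [hσA] at this
  exact this

section vQ

variable {K : Type*} [Field K] [CharZero K] [Algebra ℚ K] [Algebra.IsAlgebraic ℚ K]
  {A : ValuationSubring K} {q : ℕ} (hq : q.Prime) (hA : (q : K) ∈ A.nonunits)

/-- Inertia preserves the valuation and moves integral elements by elements of the maximal
ideal. -/
theorem ford_vQ_inertia (σ : K ≃ₐ[ℚ] K) (hσ : σ ∈ A.inertiaSubgroupIn ℚ) :
    (∀ x : K, ford_vQ A hq hA (σ x) = ford_vQ A hq hA x) ∧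
      (∀ a : K, 0 ≤ ford_vQ A hq hA a → 0 < ford_vQ A hq hA (σ a - a)) := by
  obtain ⟨hD, hI⟩ := ford_inertia_spec A σ hσ
  refine ⟨fun x => ford_vQ_decomposition hq hA σ hD x, ?_⟩
  intro a ha
  rw [ford_vQ_pos_iff]
  exact hI a ((ford_vQ_nonneg_iff hq hA a).mp ha)

/-- Packaged form: the `ℚ`-valued valuation attached to a valuation subring of an algebraic
extension of `ℚ` lying over the prime `q`, with all the properties used for the Frey curve. -/
theorem ford_exists_v (A : ValuationSubring K) (hq : q.Prime) (hA : A.LiesOverPrime q) :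
    ∃ v : AddValuation K (WithTop ℚ),
      v (q : K) = 1 ∧
      (∀ x : K, 0 ≤ v x ↔ x ∈ A) ∧
      (∀ x : K, 0 < v x ↔ x ∈ A.nonunits) ∧
      (∀ z : ℤ, 0 ≤ v (z : K)) ∧
      (∀ z : ℤ, z ≠ 0 → v (z : K) = ((padicValInt q z : ℚ) : WithTop ℚ)) ∧
      (∀ r : ℚ, r ≠ 0 → v (algebraMap ℚ K r) = ((padicValRat q r : ℚ) : WithTop ℚ)) ∧
      (∀ σ : K ≃ₐ[ℚ] K, σ ∈ A.inertiaSubgroupIn ℚ →
        (∀ x : K, v (σ x) = v x) ∧ (∀ a : K, 0 ≤ v a → 0 < v (σ a - a))) :=
  ⟨ford_vQ A hq hA, ford_vQ_q hq hA, ford_vQ_nonneg_iff hq hA, ford_vQ_pos_iff hq hA,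
    ford_vQ_intCast_nonneg hq hA, fun _ hz => ford_vQ_intCast hq hA hz,
    fun _ hr => ford_vQ_algebraMap hq hA hr, fun σ hσ => ford_vQ_inertia hq hA σ hσ⟩

end vQ

end Fermat.Agent.Lib.Frey
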