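/-
S05 (the mod-`p` representation of the Frey curve is unramified at odd `q ≠ p`):
common definitions for the elementary proof (no Tate curve).

Conventions: `v : AddValuation K (WithTop ℚ)` on a field `K`; integrality is `0 ≤ v x`,
the maximal ideal is `0 < v x`.  The Legendre-type model is `Y² = X (X − δ) (X − ε)` with
`v δ = m > 0`, `v ε = 0`, `v 2 = 0`, and `γ² = −ε` (the two tangent directions at the node).
-/
import Mathlib

namespace Fermat.Agent.Lib.Frey

open WeierstrassCurve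

variable {K : Type*} [Field K]

/-- The Legendre-type model `Y² = X (X − δ) (X − ε) = X³ − (δ+ε) X² + δ ε X`. -/
def fl_curve (δ ε : K) : WeierstrassCurve K := ⟨0, -(δ + ε), 0, δ * ε, 0⟩

@[simp] lemma fl_curve_a₁ (δ ε : K) : (fl_curve δ ε).a₁ = 0 := rfl
@[simp] lemma fl_curve_a₂ (δ ε : K) : (fl_curve δ ε).a₂ = -(δ + ε) := rfl
@[simp] lemma fl_curve_a₃ (δ ε : K) : (fl_curve δ ε).a₃ = 0 := rfl
@[simp] lemma fl_curve_a₄ (δ ε : K) : (fl_curve δ ε).a₄ = δ * ε := rfl
@[simp] lemma fl_curve_a₆ (δ ε : K) : (fl_curve δ ε).a₆ = 0 := rfl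

lemma fl_curve_equation_iff (δ ε x y : K) :
    (fl_curve δ ε).toAffine.Equation x y ↔ y ^ 2 = x * (x - δ) * (x - ε) := by
  rw [Affine.equation_iff]
  simp only [fl_curve_a₁, fl_curve_a₂, fl_curve_a₃, fl_curve_a₄, fl_curve_a₆]
  constructor <;> intro h <;> linear_combination h

/-- The kernel of reduction: the point at infinity and the affine points with `v X < 0`. -/
def fl_InE1 (v : AddValuation K (WithTop ℚ)) {W : WeierstrassCurve K}
    (P : W.toAffine.Point) : Prop :=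
  P = 0 ∨ ∃ (x y : K) (h : W.toAffine.Nonsingular x y), P = .some x y h ∧ v x < 0

/-- The points with non-singular reduction for the model `fl_curve δ ε` (node at the origin):
the point at infinity and the affine points with `v X ≤ 0`. -/
def fl_InE0 (v : AddValuation K (WithTop ℚ)) {W : WeierstrassCurve K}
    (P : W.toAffine.Point) : Prop :=
  P = 0 ∨ ∃ (x y : K) (h : W.toAffine.Nonsingular x y), P = .some x y h ∧ v x ≤ 0

lemma fl_InE1.inE0 {v : AddValuation K (WithTop ℚ)} {W : WeierstrassCurve K}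
    {P : W.toAffine.Point} (h : fl_InE1 v P) : fl_InE0 v P := by
  rcases h with h | ⟨x, y, hxy, hP, hx⟩
  · exact Or.inl h
  · exact Or.inr ⟨x, y, hxy, hP, hx.le⟩

/-- The level relation: `fl_HasLevel v γ m X Y t` says that the point `(X, Y)` of
`Y² = X (X − δ) (X − ε)` (`v δ = m`, `γ² = −ε`) has (lifted) level `t ∈ ℚ`; the level itself is
the class of `t` in `ℚ ⧸ 2 m ℤ`.
* `v X ≤ 0`: level `0` (non-singular reduction);
* `0 < v X = s < m` and `Y/X ≡ γ`: level `s`;
* `0 < v X = s < m` and `Y/X ≡ -γ`: level `-s`;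
* `m ≤ v X` (including `X = 0`): level `m`. -/
def fl_HasLevel (v : AddValuation K (WithTop ℚ)) (γ : K) (m : ℚ) (X Y : K) (t : ℚ) : Prop :=
  (v X ≤ 0 ∧ t = 0) ∨
  (∃ s : ℚ, v X = s ∧ 0 < s ∧ s < m ∧ (s : WithTop ℚ) < v (Y - γ * X) ∧ t = s) ∨
  (∃ s : ℚ, v X = s ∧ 0 < s ∧ s < m ∧ (s : WithTop ℚ) < v (Y + γ * X) ∧ t = -s) ∨
  ((m : WithTop ℚ) ≤ v X ∧ t = m)

end Fermat.Agent.Lib.Frey
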