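import Mathlib

/-!
# Valuation casework for the unsigned-level route (S05, route U)

Pure valued-field statements: `v : AddValuation K (WithTop ℚ)`, `v δ = m > 0`, `v ε = 0`, `v 2 = 0`.
`fuc_IsLvl v m X t` says that an `X`-coordinate has unsigned level `t ∈ [0, m]`.
Main results: `fuc_lemmaU` (levels of the two roots `T₁, T₂` of the quadratic satisfied by
`X (P ± Q)`) and `fuc_lemmaDup` (level of `X (2 P)`).
-/

namespace Fermat.Agent.Lib.Frey

variable {K : Type*} [Field K] (v : AddValuation K (WithTop ℚ))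

/-- `X` (the `X`-coordinate of an affine point of `Y² = X (X - δ) (X - ε)`, `v δ = m`) has unsigned
level `t`: `0` if `v X ≤ 0`, `v X` if `0 < v X < m`, `m` if `m ≤ v X` (including `X = 0`). -/
def fuc_IsLvl (m : ℚ) (X : K) (t : ℚ) : Prop :=
  (v X ≤ 0 ∧ t = 0) ∨ (∃ s : ℚ, v X = s ∧ 0 < s ∧ s < m ∧ t = s) ∨ ((m : WithTop ℚ) ≤ v X ∧ t = m)

theorem fuc_isLvl_nonneg {m : ℚ} (hm : 0 < m) {X : K} {t : ℚ} (h : fuc_IsLvl v m X t) : 0 ≤ t := by
  rcases h with ⟨_, rfl⟩ | ⟨s, _, h1, _, rfl⟩ | ⟨_, rfl⟩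
  · exact le_rfl
  · exact h1.le
  · exact hm.le

theorem fuc_isLvl_le {m : ℚ} (hm : 0 < m) {X : K} {t : ℚ} (h : fuc_IsLvl v m X t) : t ≤ m := by
  rcases h with ⟨_, rfl⟩ | ⟨s, _, _, h1, rfl⟩ | ⟨_, rfl⟩
  · exact hm.le
  · exact h1.le
  · exact le_rfl

theorem fuc_isLvl_exists (m : ℚ) (X : K) : ∃ t, fuc_IsLvl v m X t := by
  rcases le_or_gt (v X) 0 with h | h
  · exact ⟨0, Or.inl ⟨h, rfl⟩⟩
  · rcases le_or_gt (m : WithTop ℚ) (v X) with h' | h'
    · exact ⟨m, Or.inr (Or.inr ⟨h', rfl⟩)⟩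
    · have hne : v X ≠ ⊤ := ne_top_of_lt h'
      refine ⟨(v X).untop hne, Or.inr (Or.inl ⟨_, (WithTop.coe_untop _ hne).symm, ?_, ?_, rfl⟩)⟩
      · have : (0 : WithTop ℚ) < ((v X).untop hne : ℚ) := by rwa [WithTop.coe_untop]
        exact_mod_cast this
      · have : (((v X).untop hne : ℚ) : WithTop ℚ) < (m : WithTop ℚ) := by rwa [WithTop.coe_untop]
        exact_mod_cast this

theorem fuc_isLvl_unique {m : ℚ} (hm : 0 < m) {X : K} {t t' : ℚ} (h : fuc_IsLvl v m X t)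
    (h' : fuc_IsLvl v m X t') : t = t' := by
  rcases h with ⟨h1, e⟩ | ⟨s, h1, h2, h3, e⟩ | ⟨h1, e⟩ <;>
  rcases h' with ⟨h1', e'⟩ | ⟨s', h1', h2', h3', e'⟩ | ⟨h1', e'⟩
  · rw [e, e']
  · exfalso; rw [h1'] at h1
    have : s' ≤ 0 := by exact_mod_cast h1
    linarith
  · exfalso
    have := h1'.trans h1
    have : m ≤ 0 := by exact_mod_cast this
    linarith
  · exfalso; rw [h1] at h1'
    have : s ≤ 0 := by exact_mod_cast h1'
    linarith
  · rw [h1] at h1'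
    have : s = s' := by exact_mod_cast h1'
    rw [e, e', this]
  · exfalso; rw [h1] at h1'
    have : m ≤ s := by exact_mod_cast h1'
    linarith
  · exfalso
    have := h1.trans h1'
    have : m ≤ 0 := by exact_mod_cast this
    linarith
  · exfalso; rw [h1'] at h1
    have : m ≤ s' := by exact_mod_cast h1
    linarith
  · rw [e, e']

theorem fuc_isLvl_zero_iff {m : ℚ} (hm : 0 < m) {X : K} : fuc_IsLvl v m X 0 ↔ v X ≤ 0 := by
  constructor
  · rintro (⟨h, _⟩ | ⟨s, _, h1, _, h2⟩ | ⟨_, h⟩)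
    · exact h
    · exfalso; linarith
    · exfalso; linarith
  · intro h; exact Or.inl ⟨h, rfl⟩

/-! ### toolkit: exact values `v x = ↑s` and lower bounds `↑s ≤ v x` -/

theorem fuc_ex_mul {x y : K} {s t : ℚ} (hx : v x = s) (hy : v y = t) :
    v (x * y) = ((s + t : ℚ) : WithTop ℚ) := by
  rw [v.map_mul, hx, hy, WithTop.coe_add]

theorem fuc_ex_sq {x : K} {s : ℚ} (hx : v x = s) : v (x ^ 2) = ((2 * s : ℚ) : WithTop ℚ) := by
  rw [pow_two, fuc_ex_mul v hx hx]; congr 1; ring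

theorem fuc_lb_mul {x y : K} {s t : ℚ} (hx : (s : WithTop ℚ) ≤ v x) (hy : (t : WithTop ℚ) ≤ v y) :
    ((s + t : ℚ) : WithTop ℚ) ≤ v (x * y) := by
  rw [v.map_mul, WithTop.coe_add]; exact add_le_add hx hy

theorem fuc_lb_sq {x : K} {s : ℚ} (hx : (s : WithTop ℚ) ≤ v x) :
    ((2 * s : ℚ) : WithTop ℚ) ≤ v (x ^ 2) := by
  rw [pow_two, two_mul]; exact fuc_lb_mul v hx hx

theorem fuc_lb_add {x y : K} {s t r : ℚ} (hx : (s : WithTop ℚ) ≤ v x) (hy : (t : WithTop ℚ) ≤ v y)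
    (hrs : r ≤ s) (hrt : r ≤ t) : (r : WithTop ℚ) ≤ v (x + y) :=
  v.map_le_add (le_trans (by exact_mod_cast hrs) hx) (le_trans (by exact_mod_cast hrt) hy)

theorem fuc_lb_sub {x y : K} {s t r : ℚ} (hx : (s : WithTop ℚ) ≤ v x) (hy : (t : WithTop ℚ) ≤ v y)
    (hrs : r ≤ s) (hrt : r ≤ t) : (r : WithTop ℚ) ≤ v (x - y) :=
  v.map_le_sub (le_trans (by exact_mod_cast hrs) hx) (le_trans (by exact_mod_cast hrt) hy)

theorem fuc_lb_mono {x : K} {s r : ℚ} (hx : (s : WithTop ℚ) ≤ v x) (hrs : r ≤ s) :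
    (r : WithTop ℚ) ≤ v x := le_trans (by exact_mod_cast hrs) hx

theorem fuc_ex_add {x y : K} {s t : ℚ} (hx : v x = s) (hy : (t : WithTop ℚ) ≤ v y) (h : s < t) :
    v (x + y) = s := by
  rw [v.map_add_eq_of_lt_left, hx]
  rw [hx]; exact lt_of_lt_of_le (by exact_mod_cast h) hy

theorem fuc_ex_add' {x y : K} {s t : ℚ} (hx : v x = s) (hy : (t : WithTop ℚ) ≤ v y) (h : s < t) :
    v (y + x) = s := by
  rw [add_comm]; exact fuc_ex_add v hx hy h

theorem fuc_ex_sub {x y : K} {s t : ℚ} (hx : v x = s) (hy : (t : WithTop ℚ) ≤ v y) (h : s < t) :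
    v (x - y) = s := by
  rw [sub_eq_add_neg]; exact fuc_ex_add v hx (by rwa [v.map_neg]) h

theorem fuc_ex_sub' {x y : K} {s t : ℚ} (hx : v x = s) (hy : (t : WithTop ℚ) ≤ v y) (h : s < t) :
    v (y - x) = s := by
  rw [v.map_sub_swap]; exact fuc_ex_sub v hx hy h

theorem fuc_ex_of_mul {x y : K} {s t : ℚ} (hxy : v (x * y) = s) (hy : v y = t) :
    v x = ((s - t : ℚ) : WithTop ℚ) := by
  rw [v.map_mul, hy] at hxy
  induction h : v x using WithTop.recTopCoe with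
  | top => rw [h] at hxy; simp at hxy
  | coe r =>
    rw [h] at hxy
    have : r + t = s := by exact_mod_cast hxy
    congr 1; linarith

theorem fuc_lb_of_mul {x y : K} {s t : ℚ} (hxy : (s : WithTop ℚ) ≤ v (x * y)) (hy : v y = t) :
    ((s - t : ℚ) : WithTop ℚ) ≤ v x := by
  rw [v.map_mul, hy] at hxy
  induction h : v x using WithTop.recTopCoe with
  | top => exact le_top
  | coe r =>
    rw [h] at hxy
    have : s ≤ r + t := by exact_mod_cast hxy
    have : s - t ≤ r := by linarith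
    exact_mod_cast this

theorem fuc_le_of_ex_lb {x : K} {s t : ℚ} (hx : v x = s) (hx' : (t : WithTop ℚ) ≤ v x) : t ≤ s := by
  rw [hx] at hx'; exact_mod_cast hx'

theorem fuc_ex_unique {x : K} {s t : ℚ} (hx : v x = s) (hx' : v x = t) : s = t := by
  rw [hx] at hx'; exact_mod_cast hx'

theorem fuc_exists_ex {x : K} (hx : x ≠ 0) : ∃ s : ℚ, v x = s := by
  have : v x ≠ ⊤ := (v.ne_top_iff).mpr hx
  exact ⟨(v x).untop this, (WithTop.coe_untop _ this).symm⟩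

theorem fuc_ne_zero_of_ex {x : K} {s : ℚ} (hx : v x = s) : x ≠ 0 := by
  rintro rfl; rw [v.map_zero] at hx; simp at hx

/-! ### the two roots of a quadratic -/

/-- sum exact `σ`, product `≥ π`, `2σ < π`: one root has value `σ`, the other `≥ π - σ`. -/
theorem fuc_pair_split {T₁ T₂ : K} {σ π : ℚ} (hs : v (T₁ + T₂) = σ)
    (hp : (π : WithTop ℚ) ≤ v (T₁ * T₂)) (h : 2 * σ < π) :
    (v T₁ = σ ∧ ((π - σ : ℚ) : WithTop ℚ) ≤ v T₂) ∨
    (v T₂ = σ ∧ ((π - σ : ℚ) : WithTop ℚ) ≤ v T₁) := by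
  rcases lt_trichotomy (v T₁) (v T₂) with hlt | heq | hgt
  · left
    have h1 : v T₁ = σ := by rw [← v.map_add_eq_of_lt_left hlt, hs]
    refine ⟨h1, ?_⟩
    rw [mul_comm] at hp
    exact fuc_lb_of_mul v hp h1
  · exfalso
    have hle : v T₁ ≤ σ := by
      have := v.map_add T₁ T₂
      rw [← heq, min_self, hs] at this; exact this
    induction h1 : v T₁ using WithTop.recTopCoe with
    | top => rw [h1] at hle; simp at hle
    | coe r =>
      rw [h1] at hle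
      have hr : r ≤ σ := by exact_mod_cast hle
      have h2 : v T₂ = r := by rw [← heq, h1]
      have := fuc_le_of_ex_lb v (fuc_ex_mul v h1 h2) hp
      linarith
  · right
    have h1 : v T₂ = σ := by rw [← v.map_add_eq_of_lt_right hgt, hs]
    exact ⟨h1, fuc_lb_of_mul v hp h1⟩

/-- sum `≥ σ`, product `≥ 2σ`: both roots `≥ σ`. -/
theorem fuc_pair_ge {T₁ T₂ : K} {σ : ℚ} (hs : (σ : WithTop ℚ) ≤ v (T₁ + T₂))
    (hp : ((2 * σ : ℚ) : WithTop ℚ) ≤ v (T₁ * T₂)) :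
    (σ : WithTop ℚ) ≤ v T₁ ∧ (σ : WithTop ℚ) ≤ v T₂ := by
  rcases lt_trichotomy (v T₁) (v T₂) with hlt | heq | hgt
  · have h1 : (σ : WithTop ℚ) ≤ v T₁ := by rwa [← v.map_add_eq_of_lt_left hlt]
    exact ⟨h1, h1.trans hlt.le⟩
  · have h1 : (σ : WithTop ℚ) ≤ v T₁ := by
      induction h1 : v T₁ using WithTop.recTopCoe with
      | top => exact le_top
      | coe r =>
        have h2 : v T₂ = r := by rw [← heq, h1]
        have := fuc_le_of_ex_lb v (fuc_ex_mul v h1 h2) hp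
        have : σ ≤ r := by linarith
        exact_mod_cast this
    exact ⟨h1, heq ▸ h1⟩
  · have h1 : (σ : WithTop ℚ) ≤ v T₂ := by rwa [← v.map_add_eq_of_lt_right hgt]
    exact ⟨h1.trans hgt.le, h1⟩

/-- product exact `π ≤ 0`, sum `≥ π`: both roots `≤ 0`. -/
theorem fuc_pair_le_zero {T₁ T₂ : K} {π : ℚ} (hp : v (T₁ * T₂) = π) (hπ : π ≤ 0)
    (hs : (π : WithTop ℚ) ≤ v (T₁ + T₂)) : v T₁ ≤ 0 ∧ v T₂ ≤ 0 := by
  have hne := fuc_ne_zero_of_ex v hp
  obtain ⟨τ₁, h1⟩ := fuc_exists_ex v (left_ne_zero_of_mul hne)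
  obtain ⟨τ₂, h2⟩ := fuc_exists_ex v (right_ne_zero_of_mul hne)
  have hsum : τ₁ + τ₂ = π := fuc_ex_unique v (fuc_ex_mul v h1 h2) hp
  constructor
  · by_contra hcon
    rw [h1, not_le] at hcon
    have hτ : 0 < τ₁ := by exact_mod_cast hcon
    have := fuc_ex_add' v h2 h1.ge (by linarith)
    have := fuc_le_of_ex_lb v this hs
    linarith
  · by_contra hcon
    rw [h2, not_le] at hcon
    have hτ : 0 < τ₂ := by exact_mod_cast hcon
    have := fuc_ex_add v h1 h2.ge (by linarith)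
    have := fuc_le_of_ex_lb v this hs
    linarith

/-- sum `≥ σ`, product exact `π ≤ 2σ`: both roots have value `π/2`. -/
theorem fuc_pair_eq {T₁ T₂ : K} {σ π : ℚ} (hs : (σ : WithTop ℚ) ≤ v (T₁ + T₂))
    (hp : v (T₁ * T₂) = π) (h : π ≤ 2 * σ) :
    v T₁ = ((π / 2 : ℚ) : WithTop ℚ) ∧ v T₂ = ((π / 2 : ℚ) : WithTop ℚ) := by
  have hne := fuc_ne_zero_of_ex v hp
  obtain ⟨τ₁, h1⟩ := fuc_exists_ex v (left_ne_zero_of_mul hne)
  obtain ⟨τ₂, h2⟩ := fuc_exists_ex v (right_ne_zero_of_mul hne)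
  have hsum : τ₁ + τ₂ = π := fuc_ex_unique v (fuc_ex_mul v h1 h2) hp
  rcases lt_trichotomy τ₁ τ₂ with hlt | heq | hgt
  · exfalso
    have := fuc_le_of_ex_lb v (fuc_ex_add v h1 h2.ge hlt) hs
    linarith
  · have e1 : τ₁ = π / 2 := by linarith
    have e2 : τ₂ = π / 2 := by linarith
    rw [h1, h2, e1, e2]; exact ⟨rfl, rfl⟩
  · exfalso
    have := fuc_le_of_ex_lb v (fuc_ex_add' v h2 h1.ge hgt) hs
    linarith

end Fermat.Agent.Lib.Frey
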