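import Mathlib
import Fermat.Agent.Lib.Frey.Defs

set_option autoImplicit false

/-!
# S05 (L2): kernel of reduction `E_1` for `Y² = X³ + a₂X² + a₄X + a₆` over a valued field

Pure `x`-coordinate approach (no formal group): for a valuation `v` on a field `K` with `v 2 = 1` and
a Weierstrass curve `W` over `K` with `a₁ = a₃ = 0` and integral `a₂, a₄, a₆`, the set
`E_1 = {O} ∪ {P : 1 < v (x P)}` is closed under the group law (`fe1_E1_add`, `fe1_E1_neg`,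
`fe1_E1_sub`) and has no `p`-torsion for odd primes `p` with `v p = 1` (`fe1_E1_torsion_free`).
Method: with `u = 1 / x`, the pair `u (P + Q)`, `u (P - Q)` is the root pair of an explicit quadratic
with integral coefficients (`fe1_usum`), which gives `v (u (P ± Q)) ≤ max (v (u P)) (v (u Q))` and
`u ((k+1) P) + u ((k-1) P) ≡ 2 (u (k P) + u P)` modulo `u²`, hence `u (k P) ≡ k² u (P)`; if `p P = O`
then `((p+1)/2) P = -((p-1)/2) P` forces `p u ≡ 0`, impossible for a unit `p`.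
The last section restates the results for `v : AddValuation K (WithTop ℚ)` and `fl_InE1`
(`fe1_add_mem`, `fe1_neg_mem`, `fe1_sub_mem`, `fe1_torsion`).
-/

namespace Fermat.Agent.Lib.Frey

open WeierstrassCurve WeierstrassCurve.Affine

section algebra

variable {K : Type*} [Field K]

theorem fe1_eqn {W : Affine K} (h1 : W.a₁ = 0) (h3 : W.a₃ = 0) {x y : K} (h : W.Equation x y) :
    y ^ 2 = x ^ 3 + W.a₂ * x ^ 2 + W.a₄ * x + W.a₆ := by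
  rw [equation_iff] at h; rw [h1, h3] at h; linear_combination h

/-- Sum of the `x`-coordinates of `P + Q` and `P - Q`. -/
theorem fe1_sum {a2 a4 a6 x1 y1 x2 y2 : K} (hx : x1 ≠ x2)
    (e1 : y1 ^ 2 = x1 ^ 3 + a2 * x1 ^ 2 + a4 * x1 + a6)
    (e2 : y2 ^ 2 = x2 ^ 3 + a2 * x2 ^ 2 + a4 * x2 + a6) :
    (((y1 - y2) / (x1 - x2)) ^ 2 - a2 - x1 - x2) + (((y1 + y2) / (x1 - x2)) ^ 2 - a2 - x1 - x2) =
      2 * (x1 * x2 * (x1 + x2) + 2 * a2 * (x1 * x2) + a4 * (x1 + x2) + 2 * a6) / (x1 - x2) ^ 2 := by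
  have hd : x1 - x2 ≠ 0 := sub_ne_zero.mpr hx
  field_simp
  linear_combination 2 * e1 + 2 * e2

/-- Product of the `x`-coordinates of `P + Q` and `P - Q`. -/
theorem fe1_prod {a2 a4 a6 x1 y1 x2 y2 : K} (hx : x1 ≠ x2)
    (e1 : y1 ^ 2 = x1 ^ 3 + a2 * x1 ^ 2 + a4 * x1 + a6)
    (e2 : y2 ^ 2 = x2 ^ 3 + a2 * x2 ^ 2 + a4 * x2 + a6) :
    (((y1 - y2) / (x1 - x2)) ^ 2 - a2 - x1 - x2) * (((y1 + y2) / (x1 - x2)) ^ 2 - a2 - x1 - x2) =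
      ((x1 * x2 - a4) ^ 2 - 4 * a6 * (x1 + x2 + a2)) / (x1 - x2) ^ 2 := by
  have hd : x1 - x2 ≠ 0 := sub_ne_zero.mpr hx
  have hg : y1 ^ 2 - y2 ^ 2 = (x1 - x2) * (x1 ^ 2 + x1 * x2 + x2 ^ 2 + a2 * (x1 + x2) + a4) := by
    rw [e1, e2]; ring
  have hA : ((y1 - y2) / (x1 - x2)) ^ 2 + ((y1 + y2) / (x1 - x2)) ^ 2 =
      2 * (y1 ^ 2 + y2 ^ 2) / (x1 - x2) ^ 2 := by
    field_simp; ring
  have hB : ((y1 - y2) / (x1 - x2)) ^ 2 * ((y1 + y2) / (x1 - x2)) ^ 2 =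
      (x1 ^ 2 + x1 * x2 + x2 ^ 2 + a2 * (x1 + x2) + a4) ^ 2 / (x1 - x2) ^ 2 := by
    have : ((y1 - y2) / (x1 - x2)) ^ 2 * ((y1 + y2) / (x1 - x2)) ^ 2 =
        ((y1 ^ 2 - y2 ^ 2) / (x1 - x2) ^ 2) ^ 2 := by
      field_simp; ring
    rw [this, hg]; field_simp
  have key : ∀ A B c : K, (A - c) * (B - c) = A * B - c * (A + B) + c ^ 2 := by intros; ring
  have h1 : ((y1 - y2) / (x1 - x2)) ^ 2 - a2 - x1 - x2 =
      ((y1 - y2) / (x1 - x2)) ^ 2 - (a2 + x1 + x2) := by ring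
  have h2 : ((y1 + y2) / (x1 - x2)) ^ 2 - a2 - x1 - x2 =
      ((y1 + y2) / (x1 - x2)) ^ 2 - (a2 + x1 + x2) := by ring
  rw [h1, h2, key, hA, hB, e1, e2]
  field_simp
  ring

/-- The same in the coordinate `u = 1/x`. -/
theorem fe1_usum {a2 a4 a6 x1 y1 x2 y2 : K} (hx : x1 ≠ x2) (hx1 : x1 ≠ 0) (hx2 : x2 ≠ 0)
    (e1 : y1 ^ 2 = x1 ^ 3 + a2 * x1 ^ 2 + a4 * x1 + a6)
    (e2 : y2 ^ 2 = x2 ^ 3 + a2 * x2 ^ 2 + a4 * x2 + a6)
    (hE : (1 - a4 * (x1⁻¹ * x2⁻¹)) ^ 2 - 4 * a6 * (x1⁻¹ * x2⁻¹) * (x1⁻¹ + x2⁻¹) -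
      4 * a2 * a6 * (x1⁻¹ * x2⁻¹) ^ 2 ≠ 0) :
    (((y1 - y2) / (x1 - x2)) ^ 2 - a2 - x1 - x2) ≠ 0 ∧
    (((y1 + y2) / (x1 - x2)) ^ 2 - a2 - x1 - x2) ≠ 0 ∧
    (((y1 - y2) / (x1 - x2)) ^ 2 - a2 - x1 - x2)⁻¹ + (((y1 + y2) / (x1 - x2)) ^ 2 - a2 - x1 - x2)⁻¹ =
      2 * ((x1⁻¹ + x2⁻¹) + 2 * a2 * (x1⁻¹ * x2⁻¹) + a4 * (x1⁻¹ + x2⁻¹) * (x1⁻¹ * x2⁻¹) +
        2 * a6 * (x1⁻¹ * x2⁻¹) ^ 2) /
      ((1 - a4 * (x1⁻¹ * x2⁻¹)) ^ 2 - 4 * a6 * (x1⁻¹ * x2⁻¹) * (x1⁻¹ + x2⁻¹) -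
        4 * a2 * a6 * (x1⁻¹ * x2⁻¹) ^ 2) ∧
    (((y1 - y2) / (x1 - x2)) ^ 2 - a2 - x1 - x2)⁻¹ * (((y1 + y2) / (x1 - x2)) ^ 2 - a2 - x1 - x2)⁻¹ =
      (x1⁻¹ - x2⁻¹) ^ 2 /
      ((1 - a4 * (x1⁻¹ * x2⁻¹)) ^ 2 - 4 * a6 * (x1⁻¹ * x2⁻¹) * (x1⁻¹ + x2⁻¹) -
        4 * a2 * a6 * (x1⁻¹ * x2⁻¹) ^ 2) := by
  have hS := fe1_sum hx e1 e2
  have hP := fe1_prod hx e1 e2
  set T1 := ((y1 - y2) / (x1 - x2)) ^ 2 - a2 - x1 - x2 with hT1
  set T2 := ((y1 + y2) / (x1 - x2)) ^ 2 - a2 - x1 - x2 with hT2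
  have hd : x1 - x2 ≠ 0 := sub_ne_zero.mpr hx
  set E := (1 - a4 * (x1⁻¹ * x2⁻¹)) ^ 2 - 4 * a6 * (x1⁻¹ * x2⁻¹) * (x1⁻¹ + x2⁻¹) -
      4 * a2 * a6 * (x1⁻¹ * x2⁻¹) ^ 2 with hEdef
  have hnumP : (x1 * x2 - a4) ^ 2 - 4 * a6 * (x1 + x2 + a2) = E * (x1 * x2) ^ 2 := by
    rw [hEdef]; field_simp; ring
  have hnumS : x1 * x2 * (x1 + x2) + 2 * a2 * (x1 * x2) + a4 * (x1 + x2) + 2 * a6 =
      ((x1⁻¹ + x2⁻¹) + 2 * a2 * (x1⁻¹ * x2⁻¹) + a4 * (x1⁻¹ + x2⁻¹) * (x1⁻¹ * x2⁻¹) +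
        2 * a6 * (x1⁻¹ * x2⁻¹) ^ 2) * (x1 * x2) ^ 2 := by
    field_simp; ring
  have hprod0 : T1 * T2 ≠ 0 := by
    rw [hP, hnumP]
    exact div_ne_zero (mul_ne_zero hE (pow_ne_zero _ (mul_ne_zero hx1 hx2))) (pow_ne_zero _ hd)
  have hT10 : T1 ≠ 0 := left_ne_zero_of_mul hprod0
  have hT20 : T2 ≠ 0 := right_ne_zero_of_mul hprod0
  refine ⟨hT10, hT20, ?_, ?_⟩
  · have : T1⁻¹ + T2⁻¹ = (T1 + T2) / (T1 * T2) := by field_simp; ring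
    rw [this, hS, hP, hnumP, hnumS]
    field_simp
  · rw [← mul_inv, hP, hnumP]
    field_simp
    ring

/-- Duplication in the coordinate `u = 1/x`. -/
theorem fe1_udbl {a2 a4 a6 x y : K} (hx0 : x ≠ 0) (hy : y ≠ 0) (h2 : (2 : K) ≠ 0)
    (e : y ^ 2 = x ^ 3 + a2 * x ^ 2 + a4 * x + a6)
    (hH : 1 - 2 * a4 * x⁻¹ ^ 2 - 8 * a6 * x⁻¹ ^ 3 + (a4 ^ 2 - 4 * a2 * a6) * x⁻¹ ^ 4 ≠ 0) :
    (((3 * x ^ 2 + 2 * a2 * x + a4) / (2 * y)) ^ 2 - a2 - x - x) ≠ 0 ∧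
    (((3 * x ^ 2 + 2 * a2 * x + a4) / (2 * y)) ^ 2 - a2 - x - x)⁻¹ =
      4 * x⁻¹ * (1 + a2 * x⁻¹ + a4 * x⁻¹ ^ 2 + a6 * x⁻¹ ^ 3) /
      (1 - 2 * a4 * x⁻¹ ^ 2 - 8 * a6 * x⁻¹ ^ 3 + (a4 ^ 2 - 4 * a2 * a6) * x⁻¹ ^ 4) := by
  set H := 1 - 2 * a4 * x⁻¹ ^ 2 - 8 * a6 * x⁻¹ ^ 3 + (a4 ^ 2 - 4 * a2 * a6) * x⁻¹ ^ 4 with hHdef
  have hnum : x ^ 4 - 2 * a4 * x ^ 2 - 8 * a6 * x + a4 ^ 2 - 4 * a2 * a6 = H * x ^ 4 := by
    rw [hHdef]; field_simp; ring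
  have h4 : (4 : K) ≠ 0 := by
    have : (4 : K) = 2 * 2 := by norm_num
    rw [this]; exact mul_ne_zero h2 h2
  have hT : ((3 * x ^ 2 + 2 * a2 * x + a4) / (2 * y)) ^ 2 - a2 - x - x =
      (H * x ^ 4) / (4 * y ^ 2) := by
    rw [← hnum, eq_div_iff (mul_ne_zero h4 (pow_ne_zero 2 hy)), div_pow, mul_pow]
    have h2y : (2 : K) ^ 2 * y ^ 2 ≠ 0 := mul_ne_zero (pow_ne_zero 2 h2) (pow_ne_zero 2 hy)
    have e4 : (4 : K) * y ^ 2 = 2 ^ 2 * y ^ 2 := by norm_num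
    rw [e4, sub_mul, sub_mul, sub_mul, div_mul_cancel₀ _ h2y]
    linear_combination (-(4 : K) * (a2 + 2 * x)) * e
  refine ⟨?_, ?_⟩
  · rw [hT]
    exact div_ne_zero (mul_ne_zero hH (pow_ne_zero _ hx0)) (mul_ne_zero h4 (pow_ne_zero _ hy))
  · rw [hT, inv_div, e]
    field_simp

end algebra

section valuation

variable {K : Type*} [Field K] {Γ₀ : Type*} [LinearOrderedCommGroupWithZero Γ₀] (v : Valuation K Γ₀)

theorem fe1_mem_of_lt {x : K} (h : v x < 1) : x ∈ v.integer := (v.mem_integer_iff x).mpr h.le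

/-- `v (x * r) ≤ v x` for integral `r`. -/
theorem fe1_mul_int_le {x r : K} (hr : r ∈ v.integer) : v (x * r) ≤ v x := by
  rw [map_mul]
  exact mul_le_of_le_one_right' ((v.mem_integer_iff r).mp hr)

theorem fe1_pair_E {u1 u2 a2 a4 a6 : K} (hu1 : v u1 < 1) (hu2 : v u2 < 1)
    (ha2 : v a2 ≤ 1) (ha4 : v a4 ≤ 1) (ha6 : v a6 ≤ 1) :
    v ((1 - a4 * (u1 * u2)) ^ 2 - 4 * a6 * (u1 * u2) * (u1 + u2) - 4 * a2 * a6 * (u1 * u2) ^ 2) = 1 := by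
  have m1 := fe1_mem_of_lt v hu1
  have m2 := fe1_mem_of_lt v hu2
  have k2 : a2 ∈ v.integer := ha2
  have k4 : a4 ∈ v.integer := ha4
  have k6 : a6 ∈ v.integer := ha6
  have e : (1 - a4 * (u1 * u2)) ^ 2 - 4 * a6 * (u1 * u2) * (u1 + u2) - 4 * a2 * a6 * (u1 * u2) ^ 2 =
      1 - u1 * (2 * a4 * u2 - a4 ^ 2 * u1 * u2 ^ 2 + 4 * a6 * u2 * (u1 + u2) +
        4 * a2 * a6 * u1 * u2 ^ 2) := by ring
  rw [e]
  apply Valuation.map_one_sub_of_lt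
  refine lt_of_le_of_lt (fe1_mul_int_le v ?_) hu1
  have h2 : (2 : K) ∈ v.integer := ofNat_mem _ 2
  have h4 : (4 : K) ∈ v.integer := ofNat_mem _ 4
  apply_rules (maxDepth := 200) [Subring.add_mem, Subring.sub_mem, Subring.mul_mem,
    Subring.pow_mem, m1, m2, k2, k4, k6, h2, h4]

/-- Root bound: a root of `U² - S U + Π` with `v S ≤ M`, `v Π ≤ M²` has `v U ≤ M`. -/
theorem fe1_root_le {U1 U2 : K} {M : Γ₀} (hS : v (U1 + U2) ≤ M) (hP : v (U1 * U2) ≤ M ^ 2) :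
    v U1 ≤ M := by
  by_contra hlt
  push Not at hlt
  have hpos : 0 < v U1 := lt_of_le_of_lt zero_le hlt
  have e : U1 ^ 2 = (U1 + U2) * U1 - U1 * U2 := by ring
  have h1 : v (U1 ^ 2) ≤ max (v ((U1 + U2) * U1)) (v (U1 * U2)) := by
    rw [e]; exact v.map_sub _ _
  have h2 : v ((U1 + U2) * U1) < v U1 ^ 2 := by
    rw [map_mul, sq]
    exact lt_of_le_of_lt (mul_le_mul_left hS _) (mul_lt_mul_of_pos_right hlt hpos)
  have h3 : v (U1 * U2) < v U1 ^ 2 := by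
    refine lt_of_le_of_lt hP ?_
    rw [sq, sq]
    exact mul_lt_mul'' hlt hlt zero_le zero_le
  rw [map_pow] at h1
  exact absurd h1 (not_le.mpr (max_lt h2 h3))

theorem fe1_pair_le {u1 u2 a2 a4 a6 U1 U2 : K} (hu1 : v u1 < 1) (hu2 : v u2 < 1)
    (ha2 : v a2 ≤ 1) (ha4 : v a4 ≤ 1) (ha6 : v a6 ≤ 1)
    (hS : U1 + U2 = 2 * ((u1 + u2) + 2 * a2 * (u1 * u2) + a4 * (u1 + u2) * (u1 * u2) +
      2 * a6 * (u1 * u2) ^ 2) /
      ((1 - a4 * (u1 * u2)) ^ 2 - 4 * a6 * (u1 * u2) * (u1 + u2) - 4 * a2 * a6 * (u1 * u2) ^ 2))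
    (hP : U1 * U2 = (u1 - u2) ^ 2 /
      ((1 - a4 * (u1 * u2)) ^ 2 - 4 * a6 * (u1 * u2) * (u1 + u2) - 4 * a2 * a6 * (u1 * u2) ^ 2)) :
    v U1 ≤ max (v u1) (v u2) := by
  have hE := fe1_pair_E v hu1 hu2 ha2 ha4 ha6
  have m1 := fe1_mem_of_lt v hu1
  have m2 := fe1_mem_of_lt v hu2
  have k2 : a2 ∈ v.integer := ha2
  have k4 : a4 ∈ v.integer := ha4
  have k6 : a6 ∈ v.integer := ha6
  have h2 : (2 : K) ∈ v.integer := ofNat_mem _ 2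
  have h4 : (4 : K) ∈ v.integer := ofNat_mem _ 4
  set M := max (v u1) (v u2) with hM
  have l1 : v u1 ≤ M := le_max_left _ _
  have l2 : v u2 ≤ M := le_max_right _ _
  apply fe1_root_le v (U2 := U2)
  · rw [hS, map_div₀, hE, div_one]
    have e : 2 * ((u1 + u2) + 2 * a2 * (u1 * u2) + a4 * (u1 + u2) * (u1 * u2) +
        2 * a6 * (u1 * u2) ^ 2) =
        u1 * (2 * (1 + 2 * a2 * u2 + a4 * (u1 + u2) * u2 + 2 * a6 * u1 * u2 ^ 2)) + u2 * 2 := by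
      ring
    rw [e]
    refine v.map_add_le ((fe1_mul_int_le v ?_).trans l1) ((fe1_mul_int_le v h2).trans l2)
    apply_rules (maxDepth := 200) [Subring.add_mem, Subring.sub_mem, Subring.mul_mem,
      Subring.pow_mem, Subring.one_mem, m1, m2, k2, k4, k6, h2, h4]
  · rw [hP, map_div₀, hE, div_one, map_pow]
    exact pow_le_pow_left₀ zero_le (v.map_sub_le l1 l2) 2

theorem fe1_pair_sum {u1 u2 a2 a4 a6 U1 U2 : K} (hu1 : v u1 < 1) (hu2 : v u2 < 1)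
    (ha2 : v a2 ≤ 1) (ha4 : v a4 ≤ 1) (ha6 : v a6 ≤ 1)
    (hS : U1 + U2 = 2 * ((u1 + u2) + 2 * a2 * (u1 * u2) + a4 * (u1 + u2) * (u1 * u2) +
      2 * a6 * (u1 * u2) ^ 2) /
      ((1 - a4 * (u1 * u2)) ^ 2 - 4 * a6 * (u1 * u2) * (u1 + u2) - 4 * a2 * a6 * (u1 * u2) ^ 2)) :
    v (U1 + U2 - 2 * (u1 + u2)) ≤ v u1 * v u2 := by
  have hE := fe1_pair_E v hu1 hu2 ha2 ha4 ha6
  have m1 := fe1_mem_of_lt v hu1
  have m2 := fe1_mem_of_lt v hu2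
  have k2 : a2 ∈ v.integer := ha2
  have k4 : a4 ∈ v.integer := ha4
  have k6 : a6 ∈ v.integer := ha6
  have h2 : (2 : K) ∈ v.integer := ofNat_mem _ 2
  have h4 : (4 : K) ∈ v.integer := ofNat_mem _ 4
  set E := (1 - a4 * (u1 * u2)) ^ 2 - 4 * a6 * (u1 * u2) * (u1 + u2) - 4 * a2 * a6 * (u1 * u2) ^ 2
    with hEdef
  have hE0 : E ≠ 0 := by
    intro h0; rw [h0, map_zero] at hE; exact zero_ne_one hE
  have e : U1 + U2 - 2 * (u1 + u2) =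
      (u1 * u2) * (2 * (2 * a2 + a4 * (u1 + u2) + 2 * a6 * (u1 * u2) +
      (u1 + u2) * (2 * a4 - a4 ^ 2 * (u1 * u2) + 4 * a6 * (u1 + u2) +
        4 * a2 * a6 * (u1 * u2)))) / E := by
    rw [hS]; field_simp; rw [hEdef]; ring
  rw [e, map_div₀, hE, div_one, ← map_mul]
  apply fe1_mul_int_le
  apply_rules (maxDepth := 200) [Subring.add_mem, Subring.sub_mem, Subring.mul_mem,
      Subring.pow_mem, Subring.one_mem, m1, m2, k2, k4, k6, h2, h4]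

theorem fe1_dbl_H {u a2 a4 a6 : K} (hu : v u < 1)
    (ha2 : v a2 ≤ 1) (ha4 : v a4 ≤ 1) (ha6 : v a6 ≤ 1) :
    v (1 - 2 * a4 * u ^ 2 - 8 * a6 * u ^ 3 + (a4 ^ 2 - 4 * a2 * a6) * u ^ 4) = 1 := by
  have m1 := fe1_mem_of_lt v hu
  have k2 : a2 ∈ v.integer := ha2
  have k4 : a4 ∈ v.integer := ha4
  have k6 : a6 ∈ v.integer := ha6
  have h2 : (2 : K) ∈ v.integer := ofNat_mem _ 2
  have h4 : (4 : K) ∈ v.integer := ofNat_mem _ 4
  have h8 : (8 : K) ∈ v.integer := ofNat_mem _ 8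
  have e : 1 - 2 * a4 * u ^ 2 - 8 * a6 * u ^ 3 + (a4 ^ 2 - 4 * a2 * a6) * u ^ 4 =
      1 - u * (2 * a4 * u + 8 * a6 * u ^ 2 - (a4 ^ 2 - 4 * a2 * a6) * u ^ 3) := by ring
  rw [e]
  apply Valuation.map_one_sub_of_lt
  refine lt_of_le_of_lt (fe1_mul_int_le v ?_) hu
  apply_rules (maxDepth := 200) [Subring.add_mem, Subring.sub_mem, Subring.mul_mem,
    Subring.pow_mem, m1, k2, k4, k6, h2, h4, h8]

theorem fe1_dbl_le {u a2 a4 a6 U : K} (hu : v u < 1)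
    (ha2 : v a2 ≤ 1) (ha4 : v a4 ≤ 1) (ha6 : v a6 ≤ 1)
    (hU : U = 4 * u * (1 + a2 * u + a4 * u ^ 2 + a6 * u ^ 3) /
      (1 - 2 * a4 * u ^ 2 - 8 * a6 * u ^ 3 + (a4 ^ 2 - 4 * a2 * a6) * u ^ 4)) :
    v U ≤ v u ∧ v (U - 4 * u) ≤ v u ^ 2 := by
  have hH := fe1_dbl_H v hu ha2 ha4 ha6
  have m1 := fe1_mem_of_lt v hu
  have k2 : a2 ∈ v.integer := ha2
  have k4 : a4 ∈ v.integer := ha4
  have k6 : a6 ∈ v.integer := ha6
  have h2 : (2 : K) ∈ v.integer := ofNat_mem _ 2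
  have h4 : (4 : K) ∈ v.integer := ofNat_mem _ 4
  have h8 : (8 : K) ∈ v.integer := ofNat_mem _ 8
  set H := 1 - 2 * a4 * u ^ 2 - 8 * a6 * u ^ 3 + (a4 ^ 2 - 4 * a2 * a6) * u ^ 4 with hHdef
  have hH0 : H ≠ 0 := by
    intro h0; rw [h0, map_zero] at hH; exact zero_ne_one hH
  constructor
  · have e : U = u * (4 * (1 + a2 * u + a4 * u ^ 2 + a6 * u ^ 3)) / H := by rw [hU]; ring
    rw [e, map_div₀, hH, div_one]
    apply fe1_mul_int_le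
    apply_rules (maxDepth := 200) [Subring.add_mem, Subring.sub_mem, Subring.mul_mem,
      Subring.pow_mem, Subring.one_mem, m1, k2, k4, k6, h2, h4, h8]
  · have e : U - 4 * u = u ^ 2 * (4 * (a2 + a4 * u + a6 * u ^ 2 + 2 * a4 * u + 8 * a6 * u ^ 2 -
        (a4 ^ 2 - 4 * a2 * a6) * u ^ 3)) / H := by
      rw [hU]; field_simp; rw [hHdef]; ring
    rw [e, map_div₀, hH, div_one, ← map_pow]
    apply fe1_mul_int_le
    apply_rules (maxDepth := 200) [Subring.add_mem, Subring.sub_mem, Subring.mul_mem,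
      Subring.pow_mem, Subring.one_mem, m1, k2, k4, k6, h2, h4, h8]

end valuation

section points

variable {K : Type*} [Field K] {W : Affine K}

/-- The `x`-coordinate of a point (`0` at the point at infinity). -/
def fe1_X : W.Point → K
  | .zero => 0
  | .some x _ _ => x

@[simp] theorem fe1_X_zero : fe1_X (0 : W.Point) = 0 := rfl

@[simp] theorem fe1_X_some {x y : K} (h : W.Nonsingular x y) : fe1_X (Point.some x y h) = x := rfl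

theorem fe1_X_neg (P : W.Point) : fe1_X (-P) = fe1_X P := by
  cases P <;> rfl

variable {Γ₀ : Type*} [LinearOrderedCommGroupWithZero Γ₀] (v : Valuation K Γ₀)

/-- The kernel of reduction: the point at infinity together with the points whose `x`-coordinate is
not integral. -/
def fe1_E1 (P : W.Point) : Prop := P = 0 ∨ 1 < v (fe1_X P)

theorem fe1_E1_zero : fe1_E1 v (0 : W.Point) := Or.inl rfl

theorem fe1_E1_neg {P : W.Point} (h : fe1_E1 v P) : fe1_E1 v (-P) := by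
  rcases h with h | h
  · left; rw [h]; exact Point.neg_zero
  · right; rwa [fe1_X_neg]

theorem fe1_one_lt_of_inv {x : K} (hx : x ≠ 0) (h : v x⁻¹ < 1) : 1 < v x := by
  rw [map_inv₀] at h
  have h0 : 0 < v x := lt_of_le_of_ne zero_le (Ne.symm ((v.ne_zero_iff).mpr hx))
  exact (inv_lt_one₀ h0).mp h

theorem fe1_inv_lt_one {x : K} (h : 1 < v x) : v x⁻¹ < 1 := by
  rw [map_inv₀]
  exact (inv_lt_one₀ (lt_trans zero_lt_one h)).mpr h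

theorem fe1_ne_zero_of_one_lt {x : K} (h : 1 < v x) : x ≠ 0 := by
  rintro rfl; rw [map_zero] at h; exact absurd h (not_lt.mpr zero_le)

variable [DecidableEq K]

theorem fe1_X_add_sub (h1 : W.a₁ = 0) (h3 : W.a₃ = 0) {x1 y1 x2 y2 : K}
    (hP : W.Nonsingular x1 y1) (hQ : W.Nonsingular x2 y2) (hx : x1 ≠ x2) :
    Point.some x1 y1 hP + Point.some x2 y2 hQ ≠ 0 ∧
    Point.some x1 y1 hP - Point.some x2 y2 hQ ≠ 0 ∧
    fe1_X (Point.some x1 y1 hP + Point.some x2 y2 hQ) =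
      ((y1 - y2) / (x1 - x2)) ^ 2 - W.a₂ - x1 - x2 ∧
    fe1_X (Point.some x1 y1 hP - Point.some x2 y2 hQ) =
      ((y1 + y2) / (x1 - x2)) ^ 2 - W.a₂ - x1 - x2 := by
  refine ⟨?_, ?_, ?_, ?_⟩
  · rw [Point.add_of_X_ne hx]; exact Point.some_ne_zero _
  · rw [sub_eq_add_neg, Point.neg_some, Point.add_of_X_ne hx]; exact Point.some_ne_zero _
  · rw [Point.add_of_X_ne hx, fe1_X_some, addX, slope_of_X_ne hx, h1]; ring
  · rw [sub_eq_add_neg, Point.neg_some, Point.add_of_X_ne hx, fe1_X_some, addX, slope_of_X_ne hx,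
      negY, h1, h3]
    ring

theorem fe1_X_dbl (h1 : W.a₁ = 0) (h3 : W.a₃ = 0) {x y : K}
    (hP : W.Nonsingular x y) (hy : y ≠ 0) (h2 : (2 : K) ≠ 0) :
    Point.some x y hP + Point.some x y hP ≠ 0 ∧
    fe1_X (Point.some x y hP + Point.some x y hP) =
      ((3 * x ^ 2 + 2 * W.a₂ * x + W.a₄) / (2 * y)) ^ 2 - W.a₂ - x - x := by
  have hne : y ≠ W.negY x y := by
    rw [negY, h1, h3]
    intro h
    apply mul_ne_zero h2 hy
    linear_combination h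
  refine ⟨?_, ?_⟩
  · rw [Point.add_self_of_Y_ne hne]; exact Point.some_ne_zero _
  · rw [Point.add_self_of_Y_ne hne, fe1_X_some, addX, slope_of_Y_ne rfl hne, negY, h1, h3]
    have : y - (-y - 0 * x - 0) = 2 * y := by ring
    rw [this]; ring

/-- Two points of `E_1` with distinct `x`-coordinates: `P ± Q` are affine with non-integral
`x`-coordinates, `v (u (P ± Q)) ≤ max (v (u P)) (v (u Q))` and
`u (P + Q) + u (P - Q) ≡ 2 (u P + u Q)` modulo `u P * u Q` (where `u = 1 / x`). -/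
theorem fe1_pair (h1 : W.a₁ = 0) (h3 : W.a₃ = 0) (ha2 : v W.a₂ ≤ 1) (ha4 : v W.a₄ ≤ 1)
    (ha6 : v W.a₆ ≤ 1) {x1 y1 x2 y2 : K}
    (hP : W.Nonsingular x1 y1) (hQ : W.Nonsingular x2 y2) (hx : x1 ≠ x2)
    (hv1 : 1 < v x1) (hv2 : 1 < v x2) :
    Point.some x1 y1 hP + Point.some x2 y2 hQ ≠ 0 ∧
    Point.some x1 y1 hP - Point.some x2 y2 hQ ≠ 0 ∧
    fe1_X (Point.some x1 y1 hP + Point.some x2 y2 hQ) ≠ 0 ∧
    fe1_X (Point.some x1 y1 hP - Point.some x2 y2 hQ) ≠ 0 ∧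
    v (fe1_X (Point.some x1 y1 hP + Point.some x2 y2 hQ))⁻¹ ≤ max (v x1⁻¹) (v x2⁻¹) ∧
    v (fe1_X (Point.some x1 y1 hP - Point.some x2 y2 hQ))⁻¹ ≤ max (v x1⁻¹) (v x2⁻¹) ∧
    v ((fe1_X (Point.some x1 y1 hP + Point.some x2 y2 hQ))⁻¹ +
      (fe1_X (Point.some x1 y1 hP - Point.some x2 y2 hQ))⁻¹ - 2 * (x1⁻¹ + x2⁻¹)) ≤
      v x1⁻¹ * v x2⁻¹ := by
  obtain ⟨n1, n2, e1, e2⟩ := fe1_X_add_sub h1 h3 hP hQ hx
  have hu1 := fe1_inv_lt_one v hv1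
  have hu2 := fe1_inv_lt_one v hv2
  have hx1 := fe1_ne_zero_of_one_lt v hv1
  have hx2 := fe1_ne_zero_of_one_lt v hv2
  have hE := fe1_pair_E v hu1 hu2 ha2 ha4 ha6
  have hE0 : (1 - W.a₄ * (x1⁻¹ * x2⁻¹)) ^ 2 - 4 * W.a₆ * (x1⁻¹ * x2⁻¹) * (x1⁻¹ + x2⁻¹) -
      4 * W.a₂ * W.a₆ * (x1⁻¹ * x2⁻¹) ^ 2 ≠ 0 := by
    intro h0; rw [h0, map_zero] at hE; exact zero_ne_one hE
  obtain ⟨t1, t2, hS, hPi⟩ := fe1_usum hx hx1 hx2 (fe1_eqn h1 h3 hP.1) (fe1_eqn h1 h3 hQ.1) hE0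
  rw [e1, e2]
  refine ⟨n1, n2, t1, t2, ?_, ?_, ?_⟩
  · exact fe1_pair_le v hu1 hu2 ha2 ha4 ha6 hS hPi
  · refine fe1_pair_le v hu1 hu2 ha2 ha4 ha6
      (U2 := (((y1 - y2) / (x1 - x2)) ^ 2 - W.a₂ - x1 - x2)⁻¹) ?_ ?_
    · rw [add_comm]; exact hS
    · rw [mul_comm]; exact hPi
  · exact fe1_pair_sum v hu1 hu2 ha2 ha4 ha6 hS

/-- Doubling a point of `E_1`. -/
theorem fe1_dbl (h1 : W.a₁ = 0) (h3 : W.a₃ = 0) (ha2 : v W.a₂ ≤ 1) (ha4 : v W.a₄ ≤ 1)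
    (ha6 : v W.a₆ ≤ 1) (h2 : v (2 : K) = 1) {x y : K} (hP : W.Nonsingular x y) (hv : 1 < v x) :
    Point.some x y hP + Point.some x y hP ≠ 0 ∧
    fe1_X (Point.some x y hP + Point.some x y hP) ≠ 0 ∧
    v (fe1_X (Point.some x y hP + Point.some x y hP))⁻¹ ≤ v x⁻¹ ∧
    v ((fe1_X (Point.some x y hP + Point.some x y hP))⁻¹ - 4 * x⁻¹) ≤ v x⁻¹ ^ 2 := by
  have hu := fe1_inv_lt_one v hv
  have hx0 := fe1_ne_zero_of_one_lt v hv
  have h20 : (2 : K) ≠ 0 := by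
    intro h0; rw [h0, map_zero] at h2; exact zero_ne_one h2
  have e := fe1_eqn h1 h3 hP.1
  have m1 := fe1_mem_of_lt v hu
  have k2 : W.a₂ ∈ v.integer := ha2
  have k4 : W.a₄ ∈ v.integer := ha4
  have k6 : W.a₆ ∈ v.integer := ha6
  -- `y ≠ 0`
  have hG : v (1 + x⁻¹ * (W.a₂ + W.a₄ * x⁻¹ + W.a₆ * x⁻¹ ^ 2)) = 1 := by
    apply Valuation.map_one_add_of_lt
    refine lt_of_le_of_lt (fe1_mul_int_le v ?_) hu
    apply_rules (maxDepth := 200) [Subring.add_mem, Subring.sub_mem, Subring.mul_mem,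
      Subring.pow_mem, m1, k2, k4, k6]
  have hf : x ^ 3 + W.a₂ * x ^ 2 + W.a₄ * x + W.a₆ =
      x ^ 3 * (1 + x⁻¹ * (W.a₂ + W.a₄ * x⁻¹ + W.a₆ * x⁻¹ ^ 2)) := by
    field_simp
    ring
  have hy : y ≠ 0 := by
    intro hy0
    rw [hy0, hf] at e
    have : (1 + x⁻¹ * (W.a₂ + W.a₄ * x⁻¹ + W.a₆ * x⁻¹ ^ 2)) = 0 := by
      have h3 : x ^ 3 ≠ 0 := pow_ne_zero _ hx0
      have := e.symm
      simp only [ne_eq, OfNat.ofNat_ne_zero, not_false_eq_true, zero_pow] at this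
      exact (mul_eq_zero.mp this).resolve_left h3
    rw [this, map_zero] at hG
    exact zero_ne_one hG
  obtain ⟨n1, e1⟩ := fe1_X_dbl h1 h3 hP hy h20
  have hH := fe1_dbl_H v hu ha2 ha4 ha6
  have hH0 : 1 - 2 * W.a₄ * x⁻¹ ^ 2 - 8 * W.a₆ * x⁻¹ ^ 3 +
      (W.a₄ ^ 2 - 4 * W.a₂ * W.a₆) * x⁻¹ ^ 4 ≠ 0 := by
    intro h0; rw [h0, map_zero] at hH; exact zero_ne_one hH
  obtain ⟨t1, hU⟩ := fe1_udbl hx0 hy h20 e hH0
  rw [e1]
  obtain ⟨b1, b2⟩ := fe1_dbl_le v hu ha2 ha4 ha6 hU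
  exact ⟨n1, t1, b1, b2⟩

/-- `E_1` is closed under addition, with control of `v (1 / x)`. -/
theorem fe1_E1_add_le (h1 : W.a₁ = 0) (h3 : W.a₃ = 0) (ha2 : v W.a₂ ≤ 1) (ha4 : v W.a₄ ≤ 1)
    (ha6 : v W.a₆ ≤ 1) (h2 : v (2 : K) = 1) {P Q : W.Point} (hP : fe1_E1 v P) (hQ : fe1_E1 v Q) :
    fe1_E1 v (P + Q) ∧ v (fe1_X (P + Q))⁻¹ ≤ max (v (fe1_X P)⁻¹) (v (fe1_X Q)⁻¹) := by
  rcases P with _ | ⟨x1, y1, hP'⟩
  · change fe1_E1 v (0 + Q) ∧ v (fe1_X (0 + Q))⁻¹ ≤ _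
    rw [zero_add]; exact ⟨hQ, le_max_right _ _⟩
  rcases Q with _ | ⟨x2, y2, hQ'⟩
  · change fe1_E1 v (Point.some x1 y1 hP' + 0) ∧ v (fe1_X (Point.some x1 y1 hP' + 0))⁻¹ ≤ _
    rw [add_zero]; exact ⟨hP, le_max_left _ _⟩
  have hv1 : 1 < v x1 := hP.resolve_left (Point.some_ne_zero _)
  have hv2 : 1 < v x2 := hQ.resolve_left (Point.some_ne_zero _)
  simp only [fe1_X_some]
  by_cases hx : x1 = x2
  · rcases Y_eq_of_X_eq hP'.1 hQ'.1 hx with hy | hy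
    · subst hx; subst hy
      obtain ⟨-, t1, b1, -⟩ := fe1_dbl v h1 h3 ha2 ha4 ha6 h2 hP' hv1
      refine ⟨Or.inr (fe1_one_lt_of_inv v t1 (lt_of_le_of_lt b1 (fe1_inv_lt_one v hv1))), ?_⟩
      exact b1.trans (le_max_left _ _)
    · rw [Point.add_of_Y_eq hx hy]
      refine ⟨fe1_E1_zero v, ?_⟩
      simp
  · obtain ⟨-, -, t1, -, b1, -, -⟩ := fe1_pair v h1 h3 ha2 ha4 ha6 hP' hQ' hx hv1 hv2
    refine ⟨Or.inr (fe1_one_lt_of_inv v t1 (lt_of_le_of_lt b1 ?_)), b1⟩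
    exact max_lt (fe1_inv_lt_one v hv1) (fe1_inv_lt_one v hv2)

theorem fe1_E1_add (h1 : W.a₁ = 0) (h3 : W.a₃ = 0) (ha2 : v W.a₂ ≤ 1) (ha4 : v W.a₄ ≤ 1)
    (ha6 : v W.a₆ ≤ 1) (h2 : v (2 : K) = 1) {P Q : W.Point} (hP : fe1_E1 v P) (hQ : fe1_E1 v Q) :
    fe1_E1 v (P + Q) :=
  (fe1_E1_add_le v h1 h3 ha2 ha4 ha6 h2 hP hQ).1

theorem fe1_E1_sub (h1 : W.a₁ = 0) (h3 : W.a₃ = 0) (ha2 : v W.a₂ ≤ 1) (ha4 : v W.a₄ ≤ 1)
    (ha6 : v W.a₆ ≤ 1) (h2 : v (2 : K) = 1) {P Q : W.Point} (hP : fe1_E1 v P) (hQ : fe1_E1 v Q) :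
    fe1_E1 v (P - Q) := by
  rw [sub_eq_add_neg]
  exact fe1_E1_add v h1 h3 ha2 ha4 ha6 h2 hP (fe1_E1_neg v hQ)

omit [DecidableEq K] in
theorem fe1_exists_some {P : W.Point} (h : P ≠ 0) :
    ∃ (x y : K) (h' : W.Nonsingular x y), P = Point.some x y h' := by
  rcases P with _ | ⟨x, y, h'⟩
  · exact absurd rfl h
  · exact ⟨x, y, h', rfl⟩

/-- `E_1` has no `p`-torsion for an odd prime `p` which is a unit. -/
theorem fe1_E1_torsion_free (h1 : W.a₁ = 0) (h3 : W.a₃ = 0) (ha2 : v W.a₂ ≤ 1) (ha4 : v W.a₄ ≤ 1)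
    (ha6 : v W.a₆ ≤ 1) (h2 : v (2 : K) = 1) {p : ℕ} (hp : p.Prime) (hp2 : p ≠ 2)
    (hvp : v (p : K) = 1) {P : W.Point} (hP : fe1_E1 v P) (hpP : p • P = 0) : P = 0 := by
  by_contra hP0
  obtain ⟨x, y, hxy, rfl⟩ := fe1_exists_some hP0
  have hX : 1 < v x := hP.resolve_left hP0
  have hu1 : v x⁻¹ < 1 := fe1_inv_lt_one v hX
  have hu0 : 0 < v x⁻¹ := by
    rw [map_inv₀]; exact inv_pos.mpr (lt_trans zero_lt_one hX)
  have h2mem : (2 : K) ∈ v.integer := ofNat_mem _ 2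
  -- the order of `P` is `p`
  have : Fact p.Prime := ⟨hp⟩
  have hop : addOrderOf (Point.some x y hxy) = p := addOrderOf_eq_prime hpP hP0
  have hord : ∀ k : ℕ, 0 < k → k < p → k • (Point.some x y hxy) ≠ 0 := by
    intro k hk hkp h0
    have hd := addOrderOf_dvd_of_nsmul_eq_zero h0
    rw [hop] at hd
    exact absurd (Nat.le_of_dvd hk hd) (not_le.mpr hkp)
  -- all multiples lie in `E_1`, with `v (u (k • P)) ≤ v u`
  have hmult : ∀ k : ℕ, fe1_E1 v (k • (Point.some x y hxy)) ∧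
      v (fe1_X (k • (Point.some x y hxy)))⁻¹ ≤ v x⁻¹ := by
    intro k
    induction k with
    | zero => rw [zero_nsmul]; exact ⟨fe1_E1_zero v, by simp⟩
    | succ k ih =>
      rw [succ_nsmul]
      obtain ⟨hE, hle⟩ := fe1_E1_add_le v h1 h3 ha2 ha4 ha6 h2 ih.1 hP
      exact ⟨hE, hle.trans (max_le ih.2 (by simp))⟩
  -- main congruence `u (k • P) ≡ k² u (P)` modulo `u²`
  have claim : ∀ k : ℕ, k + 1 < p →
      v ((fe1_X (k • (Point.some x y hxy)))⁻¹ - (k : K) ^ 2 * x⁻¹) ≤ v x⁻¹ ^ 2 ∧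
      v ((fe1_X ((k + 1) • (Point.some x y hxy)))⁻¹ - ((k + 1 : ℕ) : K) ^ 2 * x⁻¹) ≤
        v x⁻¹ ^ 2 := by
    intro k
    induction k with
    | zero => intro _; simp
    | succ k ih =>
      intro hk
      obtain ⟨c0, c1⟩ := ih (by omega)
      refine ⟨c1, ?_⟩
      rcases Nat.eq_zero_or_pos k with rfl | hkpos
      · -- doubling
        obtain ⟨-, -, -, b2⟩ := fe1_dbl v h1 h3 ha2 ha4 ha6 h2 hxy hX
        have e2 : (0 + 1 + 1) • (Point.some x y hxy) = Point.some x y hxy + Point.some x y hxy := by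
          rw [zero_add, two_nsmul]
        rw [e2]
        have e4 : (((0 + 1 + 1 : ℕ) : K)) ^ 2 = 4 := by norm_num
        rw [e4]
        exact b2
      · -- the recursion
        obtain ⟨xk, yk, hk', hPk⟩ := fe1_exists_some (hord (k + 1) (by omega) (by omega))
        have hvxk : 1 < v xk := by
          have := (hmult (k + 1)).1
          rw [hPk] at this
          exact this.resolve_left (Point.some_ne_zero _)
        have hukle : v xk⁻¹ ≤ v x⁻¹ := by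
          have := (hmult (k + 1)).2
          rwa [hPk, fe1_X_some] at this
        have hne : xk ≠ x := by
          intro hxe
          have := (Point.X_eq_iff (h₁ := hk') (h₂ := hxy)).mp hxe
          rw [← hPk] at this
          rcases this with h | h
          · have h0 : k • (Point.some x y hxy) = 0 := by
              rw [succ_nsmul] at h; exact add_eq_right.mp h
            exact hord k hkpos (by omega) h0
          · have h0 : (k + 1 + 1) • (Point.some x y hxy) = 0 := by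
              rw [succ_nsmul, h, neg_add_cancel]
            exact hord (k + 1 + 1) (by omega) hk h0
        obtain ⟨-, -, -, -, -, -, hsum⟩ := fe1_pair v h1 h3 ha2 ha4 ha6 hk' hxy hne hvxk hX
        rw [← hPk] at hsum
        have e1 : (k + 1) • (Point.some x y hxy) + Point.some x y hxy =
            (k + 1 + 1) • (Point.some x y hxy) := (succ_nsmul _ (k + 1)).symm
        have e2 : (k + 1) • (Point.some x y hxy) - Point.some x y hxy =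
            k • (Point.some x y hxy) := by
          rw [succ_nsmul, add_sub_cancel_right]
        rw [e1, e2] at hsum
        rw [hPk, fe1_X_some] at c1
        set U2 := (fe1_X ((k + 1 + 1) • (Point.some x y hxy)))⁻¹ with hU2
        set U0 := (fe1_X (k • (Point.some x y hxy)))⁻¹ with hU0
        have hsum' : v (U2 + U0 - 2 * (xk⁻¹ + x⁻¹)) ≤ v x⁻¹ ^ 2 := by
          refine hsum.trans ?_
          rw [sq]
          exact mul_le_mul_left hukle _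
        have key : U2 - ((k + 1 + 1 : ℕ) : K) ^ 2 * x⁻¹ =
            (U2 + U0 - 2 * (xk⁻¹ + x⁻¹)) - (U0 - (k : K) ^ 2 * x⁻¹) +
              (xk⁻¹ - ((k + 1 : ℕ) : K) ^ 2 * x⁻¹) * 2 := by
          push_cast; ring
        rw [key]
        exact v.map_add_le (v.map_sub_le hsum' c0) ((fe1_mul_int_le v h2mem).trans c1)
  -- the contradiction
  obtain ⟨a, rfl⟩ : ∃ a, p = 2 * a + 1 := by
    rcases hp.eq_two_or_odd' with h | h
    · exact absurd h hp2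
    · exact h
  have ha : 0 < a := by
    rcases Nat.eq_zero_or_pos a with rfl | h
    · exact absurd hp (by norm_num)
    · exact h
  obtain ⟨c0, c1⟩ := claim a (by omega)
  have hneg : (a + 1) • (Point.some x y hxy) = -(a • (Point.some x y hxy)) := by
    rw [eq_neg_iff_add_eq_zero, ← add_nsmul]
    have : a + 1 + a = 2 * a + 1 := by ring
    rw [this]; exact hpP
  rw [hneg, fe1_X_neg] at c1
  have hdiff : v (((2 * a + 1 : ℕ) : K) * x⁻¹) ≤ v x⁻¹ ^ 2 := by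
    have e : ((2 * a + 1 : ℕ) : K) * x⁻¹ =
        ((fe1_X (a • (Point.some x y hxy)))⁻¹ - (a : K) ^ 2 * x⁻¹) -
        ((fe1_X (a • (Point.some x y hxy)))⁻¹ - ((a + 1 : ℕ) : K) ^ 2 * x⁻¹) := by
      push_cast; ring
    rw [e]
    exact v.map_sub_le c0 c1
  rw [map_mul, hvp, one_mul, sq] at hdiff
  have : v x⁻¹ * v x⁻¹ < v x⁻¹ * 1 := mul_lt_mul_of_pos_left hu1 hu0
  rw [mul_one] at this
  exact absurd hdiff (not_le.mpr this)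

end points

/-! ### Additive form (`v : AddValuation K (WithTop ℚ)`, `fl_InE1` from `Defs.lean`) -/

section additive

variable {K : Type*} [Field K]

/-- An additive valuation, seen as a (multiplicative) valuation. -/
abbrev fe1_mul (v : AddValuation K (WithTop ℚ)) : Valuation K (Multiplicative (WithTop ℚ)ᵒᵈ) := v

theorem fe1_inE1_iff (v : AddValuation K (WithTop ℚ)) {W : WeierstrassCurve K}
    (P : W.toAffine.Point) : fl_InE1 v P ↔ fe1_E1 (fe1_mul v) P := by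
  rcases P with _ | ⟨x, y, h⟩
  · exact ⟨fun _ => Or.inl rfl, fun _ => Or.inl rfl⟩
  · constructor
    · rintro (h0 | ⟨x', y', h', hP, hx⟩)
      · exact absurd h0 (Point.some_ne_zero _)
      · right
        have hxx : x = x' := by injection hP
        subst hxx
        exact hx
    · rintro (h0 | hx)
      · exact absurd h0 (Point.some_ne_zero _)
      · exact Or.inr ⟨x, y, h, rfl, hx⟩

variable [DecidableEq K] (v : AddValuation K (WithTop ℚ)) {W : WeierstrassCurve K}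

/-- **(L2a)** `E_1` is closed under addition. -/
theorem fe1_add_mem (h1 : W.a₁ = 0) (h3 : W.a₃ = 0) (ha2 : 0 ≤ v W.a₂) (ha4 : 0 ≤ v W.a₄)
    (ha6 : 0 ≤ v W.a₆) (h2 : v (2 : K) = 0) {P Q : W.toAffine.Point}
    (hP : fl_InE1 v P) (hQ : fl_InE1 v Q) : fl_InE1 v (P + Q) :=
  (fe1_inE1_iff v _).mpr (fe1_E1_add (fe1_mul v) (W := W.toAffine) h1 h3 ha2 ha4 ha6 h2
    ((fe1_inE1_iff v _).mp hP) ((fe1_inE1_iff v _).mp hQ))

omit [DecidableEq K] in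
theorem fe1_neg_mem {P : W.toAffine.Point} (hP : fl_InE1 v P) : fl_InE1 v (-P) :=
  (fe1_inE1_iff v _).mpr (fe1_E1_neg (fe1_mul v) ((fe1_inE1_iff v _).mp hP))

/-- **(L2a)** `E_1` is closed under subtraction. -/
theorem fe1_sub_mem (h1 : W.a₁ = 0) (h3 : W.a₃ = 0) (ha2 : 0 ≤ v W.a₂) (ha4 : 0 ≤ v W.a₄)
    (ha6 : 0 ≤ v W.a₆) (h2 : v (2 : K) = 0) {P Q : W.toAffine.Point}
    (hP : fl_InE1 v P) (hQ : fl_InE1 v Q) : fl_InE1 v (P - Q) :=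
  (fe1_inE1_iff v _).mpr (fe1_E1_sub (fe1_mul v) (W := W.toAffine) h1 h3 ha2 ha4 ha6 h2
    ((fe1_inE1_iff v _).mp hP) ((fe1_inE1_iff v _).mp hQ))

/-- **(L2b)** `E_1` has no `p`-torsion for an odd prime `p` with `v p = 0`. -/
theorem fe1_torsion (h1 : W.a₁ = 0) (h3 : W.a₃ = 0) (ha2 : 0 ≤ v W.a₂) (ha4 : 0 ≤ v W.a₄)
    (ha6 : 0 ≤ v W.a₆) (h2 : v (2 : K) = 0) (p : ℕ) (hp : p.Prime) (hp2 : p ≠ 2)
    (hvp : v (p : K) = 0) {P : W.toAffine.Point} (hP : fl_InE1 v P) (hpP : p • P = 0) : P = 0 :=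
  fe1_E1_torsion_free (fe1_mul v) (W := W.toAffine) h1 h3 ha2 ha4 ha6 h2 hp hp2 hvp
    ((fe1_inE1_iff v _).mp hP) hpP

end additive

end Fermat.Agent.Lib.Frey
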