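import Fermat.Agent.Lib.Frey.ULevelVal

/-!
# Lemma U (S05, route U): the unsigned levels of `X (P + Q)` and `X (P - Q)`

Pure valued-field statement.  `T₁, T₂` are the two roots of the quadratic with
`(T₁ + T₂) (x₁ - x₂)² = 2 ((x₁ + x₂) (x₁ x₂ + δ ε) - 2 (δ + ε) x₁ x₂)` and
`T₁ T₂ (x₁ - x₂)² = (x₁ x₂ - δ ε)²`.
-/

namespace Fermat.Agent.Lib.Frey

variable {K : Type*} [Field K] (v : AddValuation K (WithTop ℚ))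

/-! ### variants of the toolkit with a prescribed target value -/

theorem fuc_exm {x y : K} {s t : ℚ} (r : ℚ) (hx : v x = s) (hy : v y = t) (h : r = s + t) :
    v (x * y) = (r : WithTop ℚ) := by rw [h]; exact fuc_ex_mul v hx hy

theorem fuc_lbm {x y : K} {s t : ℚ} (r : ℚ) (hx : (s : WithTop ℚ) ≤ v x) (hy : (t : WithTop ℚ) ≤ v y)
    (h : r ≤ s + t) : (r : WithTop ℚ) ≤ v (x * y) :=
  le_trans (by exact_mod_cast h) (fuc_lb_mul v hx hy)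

theorem fuc_zero_cast {x : K} (h : v x = 0) : v x = ((0 : ℚ) : WithTop ℚ) := by rw [h]; rfl

section setup

variable {δ ε : K} {m : ℚ}

theorem fuc_v_sum (hm : 0 < m) (hδ : v δ = (m : ℚ)) (hε : v ε = 0) :
    v (δ + ε) = ((0 : ℚ) : WithTop ℚ) := by
  rw [add_comm]; exact fuc_ex_add v (fuc_zero_cast v hε) hδ.ge hm

theorem fuc_v_prod (hδ : v δ = (m : ℚ)) (hε : v ε = 0) : v (δ * ε) = (m : WithTop ℚ) :=
  fuc_exm v m hδ (fuc_zero_cast v hε) (by ring)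

theorem fuc_v_two_sum (hm : 0 < m) (hδ : v δ = (m : ℚ)) (hε : v ε = 0) (h2 : v 2 = 0) :
    v (2 * (δ + ε)) = ((0 : ℚ) : WithTop ℚ) :=
  fuc_exm v 0 (fuc_zero_cast v h2) (fuc_v_sum v hm hδ hε) (by ring)

end setup

section sumprod

variable {T₁ T₂ x₁ x₂ N M : K} {d g : ℚ}

theorem fuc_sum_lb (h2 : v 2 = 0) (hd : v (x₁ - x₂) = d) (hS : (T₁ + T₂) * (x₁ - x₂) ^ 2 = 2 * N)
    (hN : (g : WithTop ℚ) ≤ v N) (r : ℚ) (hr : r ≤ g - 2 * d) : (r : WithTop ℚ) ≤ v (T₁ + T₂) := by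
  have h1 : (g : WithTop ℚ) ≤ v ((T₁ + T₂) * (x₁ - x₂) ^ 2) := by
    rw [hS]; exact fuc_lbm v g (fuc_zero_cast v h2).ge hN (by linarith)
  exact fuc_lb_mono v (fuc_lb_of_mul v h1 (fuc_ex_sq v hd)) hr

theorem fuc_sum_ex (h2 : v 2 = 0) (hd : v (x₁ - x₂) = d) (hS : (T₁ + T₂) * (x₁ - x₂) ^ 2 = 2 * N)
    (hN : v N = g) (r : ℚ) (hr : r = g - 2 * d) : v (T₁ + T₂) = (r : WithTop ℚ) := by
  have h1 : v ((T₁ + T₂) * (x₁ - x₂) ^ 2) = (g : WithTop ℚ) := by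
    rw [hS]; exact fuc_exm v g (fuc_zero_cast v h2) hN (by linarith)
  rw [hr]; exact fuc_ex_of_mul v h1 (fuc_ex_sq v hd)

theorem fuc_prod_lb (hd : v (x₁ - x₂) = d) (hP : T₁ * T₂ * (x₁ - x₂) ^ 2 = M ^ 2)
    (hM : (g : WithTop ℚ) ≤ v M) (r : ℚ) (hr : r ≤ 2 * g - 2 * d) : (r : WithTop ℚ) ≤ v (T₁ * T₂) := by
  have h1 : ((2 * g : ℚ) : WithTop ℚ) ≤ v (T₁ * T₂ * (x₁ - x₂) ^ 2) := by
    rw [hP]; exact fuc_lb_sq v hM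
  exact fuc_lb_mono v (fuc_lb_of_mul v h1 (fuc_ex_sq v hd)) hr

theorem fuc_prod_ex (hd : v (x₁ - x₂) = d) (hP : T₁ * T₂ * (x₁ - x₂) ^ 2 = M ^ 2)
    (hM : v M = g) (r : ℚ) (hr : r = 2 * g - 2 * d) : v (T₁ * T₂) = (r : WithTop ℚ) := by
  have h1 : v (T₁ * T₂ * (x₁ - x₂) ^ 2) = ((2 * g : ℚ) : WithTop ℚ) := by
    rw [hP]; exact fuc_ex_sq v hM
  rw [hr]; exact fuc_ex_of_mul v h1 (fuc_ex_sq v hd)

end sumprod

section regimes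

variable {δ ε x₁ x₂ T₁ T₂ : K} {m : ℚ}

/-- regime ZZ -/
theorem fuc_regime_ZZ (hm : 0 < m) (hδ : v δ = (m : ℚ)) (hε : v ε = 0) (h2 : v 2 = 0) (hne : x₁ ≠ x₂)
    (hS : (T₁ + T₂) * (x₁ - x₂) ^ 2 = 2 * ((x₁ + x₂) * (x₁ * x₂ + δ * ε) - 2 * (δ + ε) * x₁ * x₂))
    (hP : T₁ * T₂ * (x₁ - x₂) ^ 2 = (x₁ * x₂ - δ * ε) ^ 2)
    (h₁ : v x₁ ≤ 0) (h₂ : v x₂ ≤ 0) : v T₁ ≤ 0 ∧ v T₂ ≤ 0 := by
  have hx1 : x₁ ≠ 0 := by rintro rfl; rw [v.map_zero] at h₁; simp at h₁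
  have hx2 : x₂ ≠ 0 := by rintro rfl; rw [v.map_zero] at h₂; simp at h₂
  obtain ⟨t₁, e1⟩ := fuc_exists_ex v hx1
  obtain ⟨t₂, e2⟩ := fuc_exists_ex v hx2
  obtain ⟨d, ed⟩ := fuc_exists_ex v (sub_ne_zero.mpr hne)
  have ht1 : t₁ ≤ 0 := by rw [e1] at h₁; exact_mod_cast h₁
  have ht2 : t₂ ≤ 0 := by rw [e2] at h₂; exact_mod_cast h₂
  have hd : min t₁ t₂ ≤ d :=
    fuc_le_of_ex_lb v ed (fuc_lb_sub v e1.ge e2.ge (min_le_left _ _) (min_le_right _ _))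
  have hC := fuc_exm v (t₁ + t₂) e1 e2 rfl
  have hδε := fuc_v_prod v hδ hε
  have hM := fuc_ex_sub v hC hδε.ge (by linarith)
  have hA := fuc_ex_add v hC hδε.ge (by linarith)
  have hB : ((min t₁ t₂ : ℚ) : WithTop ℚ) ≤ v (x₁ + x₂) :=
    fuc_lb_add v e1.ge e2.ge (min_le_left _ _) (min_le_right _ _)
  have hBA := fuc_lbm v (min t₁ t₂ + t₁ + t₂) hB hA.ge (by linarith)
  have hterm : v (2 * (δ + ε) * x₁ * x₂) = ((t₁ + t₂ : ℚ) : WithTop ℚ) :=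
    fuc_exm v _ (fuc_exm v t₁ (fuc_v_two_sum v hm hδ hε h2) e1 (by ring)) e2 rfl
  have hN := fuc_lb_sub v hBA hterm.ge le_rfl (by linarith [min_le_left t₁ t₂])
  have hs := fuc_sum_lb v h2 ed hS hN (2 * (t₁ + t₂) - 2 * d) (by
    rcases min_choice t₁ t₂ with h | h <;> rw [h] <;> linarith)
  have hp := fuc_prod_ex v ed hP hM (2 * (t₁ + t₂) - 2 * d) rfl
  refine fuc_pair_le_zero v hp ?_ hs
  rcases min_choice t₁ t₂ with h | h <;> rw [h] at hd <;> linarith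

/-- regime ZN -/
theorem fuc_regime_ZN (hm : 0 < m) (hδ : v δ = (m : ℚ)) (hε : v ε = 0) (h2 : v 2 = 0)
    (hS : (T₁ + T₂) * (x₁ - x₂) ^ 2 = 2 * ((x₁ + x₂) * (x₁ * x₂ + δ * ε) - 2 * (δ + ε) * x₁ * x₂))
    (hP : T₁ * T₂ * (x₁ - x₂) ^ 2 = (x₁ * x₂ - δ * ε) ^ 2)
    (h₁ : v x₁ ≤ 0) {s : ℚ} (e2 : v x₂ = s) (hs0 : 0 < s) (hsm : s < m) :
    v T₁ = (s : WithTop ℚ) ∧ v T₂ = (s : WithTop ℚ) := by
  have hx1 : x₁ ≠ 0 := by rintro rfl; rw [v.map_zero] at h₁; simp at h₁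
  obtain ⟨t₁, e1⟩ := fuc_exists_ex v hx1
  have ht1 : t₁ ≤ 0 := by rw [e1] at h₁; exact_mod_cast h₁
  have ed := fuc_ex_sub v e1 e2.ge (by linarith)
  have hC := fuc_exm v (t₁ + s) e1 e2 rfl
  have hδε := fuc_v_prod v hδ hε
  have hM := fuc_ex_sub v hC hδε.ge (by linarith)
  have hA := fuc_ex_add v hC hδε.ge (by linarith)
  have hB := fuc_ex_add v e1 e2.ge (by linarith)
  have hBA := fuc_exm v (2 * t₁ + s) hB hA (by ring)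
  have hterm : v (2 * (δ + ε) * x₁ * x₂) = ((t₁ + s : ℚ) : WithTop ℚ) :=
    fuc_exm v _ (fuc_exm v t₁ (fuc_v_two_sum v hm hδ hε h2) e1 (by ring)) e2 rfl
  have hN := fuc_lb_sub v hBA.ge hterm.ge le_rfl (by linarith)
  have hs := fuc_sum_lb v h2 ed hS hN s (by linarith)
  have hp := fuc_prod_ex v ed hP hM (2 * s) (by ring)
  have := fuc_pair_eq v hs hp le_rfl
  rwa [show (2 * s / 2 : ℚ) = s by ring] at this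

/-- regime ZM -/
theorem fuc_regime_ZM (hm : 0 < m) (hδ : v δ = (m : ℚ)) (hε : v ε = 0) (h2 : v 2 = 0)
    (hS : (T₁ + T₂) * (x₁ - x₂) ^ 2 = 2 * ((x₁ + x₂) * (x₁ * x₂ + δ * ε) - 2 * (δ + ε) * x₁ * x₂))
    (hP : T₁ * T₂ * (x₁ - x₂) ^ 2 = (x₁ * x₂ - δ * ε) ^ 2)
    (h₁ : v x₁ ≤ 0) (h₂ : (m : WithTop ℚ) ≤ v x₂) :
    (m : WithTop ℚ) ≤ v T₁ ∧ (m : WithTop ℚ) ≤ v T₂ := by
  have hx1 : x₁ ≠ 0 := by rintro rfl; rw [v.map_zero] at h₁; simp at h₁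
  obtain ⟨t₁, e1⟩ := fuc_exists_ex v hx1
  have ht1 : t₁ ≤ 0 := by rw [e1] at h₁; exact_mod_cast h₁
  have ed := fuc_ex_sub v e1 h₂ (by linarith)
  have hC := fuc_lbm v (t₁ + m) e1.ge h₂ le_rfl
  have hδε := fuc_v_prod v hδ hε
  have hM := fuc_lb_sub v hC hδε.ge le_rfl (by linarith)
  have hA := fuc_lb_add v hC hδε.ge le_rfl (by linarith)
  have hB := fuc_ex_add v e1 h₂ (by linarith)
  have hBA := fuc_lbm v (2 * t₁ + m) hB.ge hA (by linarith)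
  have hterm : ((t₁ + m : ℚ) : WithTop ℚ) ≤ v (2 * (δ + ε) * x₁ * x₂) :=
    fuc_lbm v _ (fuc_exm v t₁ (fuc_v_two_sum v hm hδ hε h2) e1 (by ring)).ge h₂ le_rfl
  have hN := fuc_lb_sub v hBA hterm le_rfl (by linarith)
  have hs := fuc_sum_lb v h2 ed hS hN m (by linarith)
  have hp := fuc_prod_lb v ed hP hM (2 * m) (by linarith)
  exact fuc_pair_ge v hs hp

/-- regime NM -/
theorem fuc_regime_NM (hm : 0 < m) (hδ : v δ = (m : ℚ)) (hε : v ε = 0) (h2 : v 2 = 0)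
    (hS : (T₁ + T₂) * (x₁ - x₂) ^ 2 = 2 * ((x₁ + x₂) * (x₁ * x₂ + δ * ε) - 2 * (δ + ε) * x₁ * x₂))
    (hP : T₁ * T₂ * (x₁ - x₂) ^ 2 = (x₁ * x₂ - δ * ε) ^ 2)
    {s : ℚ} (e1 : v x₁ = s) (hs0 : 0 < s) (hsm : s < m) (h₂ : (m : WithTop ℚ) ≤ v x₂) :
    v T₁ = ((m - s : ℚ) : WithTop ℚ) ∧ v T₂ = ((m - s : ℚ) : WithTop ℚ) := by
  have ed := fuc_ex_sub v e1 h₂ hsm
  have hC := fuc_lbm v (s + m) e1.ge h₂ le_rfl
  have hδε := fuc_v_prod v hδ hε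
  have hM := fuc_ex_sub' v hδε hC (by linarith)
  have hA := fuc_ex_add' v hδε hC (by linarith)
  have hB := fuc_ex_add v e1 h₂ hsm
  have hBA := fuc_exm v (s + m) hB hA rfl
  have hterm : ((s + m : ℚ) : WithTop ℚ) ≤ v (2 * (δ + ε) * x₁ * x₂) :=
    fuc_lbm v _ (fuc_exm v s (fuc_v_two_sum v hm hδ hε h2) e1 (by ring)).ge h₂ le_rfl
  have hN := fuc_lb_sub v hBA.ge hterm le_rfl le_rfl
  have hs := fuc_sum_lb v h2 ed hS hN (m - s) (by linarith)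
  have hp := fuc_prod_ex v ed hP hM (2 * (m - s)) (by ring)
  have := fuc_pair_eq v hs hp le_rfl
  rwa [show (2 * (m - s) / 2 : ℚ) = m - s by ring] at this

/-- regime MM -/
theorem fuc_regime_MM (hm : 0 < m) (hδ : v δ = (m : ℚ)) (hε : v ε = 0) (h2 : v 2 = 0) (hne : x₁ ≠ x₂)
    (hS : (T₁ + T₂) * (x₁ - x₂) ^ 2 = 2 * ((x₁ + x₂) * (x₁ * x₂ + δ * ε) - 2 * (δ + ε) * x₁ * x₂))
    (hP : T₁ * T₂ * (x₁ - x₂) ^ 2 = (x₁ * x₂ - δ * ε) ^ 2)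
    (h₁ : (m : WithTop ℚ) ≤ v x₁) (h₂ : (m : WithTop ℚ) ≤ v x₂) : v T₁ ≤ 0 ∧ v T₂ ≤ 0 := by
  obtain ⟨d, ed⟩ := fuc_exists_ex v (sub_ne_zero.mpr hne)
  have hd : m ≤ d := fuc_le_of_ex_lb v ed (fuc_lb_sub v h₁ h₂ le_rfl le_rfl)
  have hC := fuc_lbm v (2 * m) h₁ h₂ (by linarith)
  have hδε := fuc_v_prod v hδ hε
  have hM := fuc_ex_sub' v hδε hC (by linarith)
  have hA := fuc_ex_add' v hδε hC (by linarith)
  have hB := fuc_lb_add v h₁ h₂ le_rfl le_rfl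
  have hBA := fuc_lbm v (2 * m) hB hA.ge (by linarith)
  have hterm : ((2 * m : ℚ) : WithTop ℚ) ≤ v (2 * (δ + ε) * x₁ * x₂) :=
    fuc_lbm v _ (fuc_lbm v m (fuc_v_two_sum v hm hδ hε h2).ge h₁ (by linarith)) h₂ (by linarith)
  have hN := fuc_lb_sub v hBA hterm le_rfl le_rfl
  have hs := fuc_sum_lb v h2 ed hS hN (2 * m - 2 * d) le_rfl
  have hp := fuc_prod_ex v ed hP hM (2 * m - 2 * d) rfl
  exact fuc_pair_le_zero v hp (by linarith) hs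

/-- auxiliary for regime NN: the levels of the two roots once their valuations are known -/
theorem fuc_regime_NN_aux {T T' : K} {s₁ s₂ d : ℚ} (hs0 : 0 < s₁) (hle : s₁ ≤ s₂) (hsm : s₂ < m)
    (hd : s₁ ≤ d) (hd' : s₁ < s₂ → d = s₁)
    (hT : v T = ((s₁ + s₂ - 2 * d : ℚ) : WithTop ℚ))
    (hlow : ((2 * min (s₁ + s₂) m - s₁ - s₂ : ℚ) : WithTop ℚ) ≤ v T')
    (hlt : s₁ + s₂ < m → v (T' * T) = ((2 * (s₁ + s₂) - 2 * d : ℚ) : WithTop ℚ))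
    (hgt : m < s₁ + s₂ → v (T' * T) = ((2 * m - 2 * d : ℚ) : WithTop ℚ)) :
    fuc_IsLvl v m T (s₂ - s₁) ∧ fuc_IsLvl v m T' (min (s₁ + s₂) (2 * m - s₁ - s₂)) := by
  constructor
  · rcases lt_or_eq_of_le hle with h | h
    · refine Or.inr (Or.inl ⟨s₂ - s₁, ?_, by linarith, by linarith, rfl⟩)
      rw [hT, hd' h]; congr 1; ring
    · refine Or.inl ⟨?_, by linarith⟩
      rw [hT]
      have : s₁ + s₂ - 2 * d ≤ 0 := by linarith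
      exact_mod_cast this
  · rcases lt_trichotomy (s₁ + s₂) m with h | h | h
    · have e := fuc_ex_of_mul v (hlt h) hT
      rw [min_eq_left (by linarith : s₁ + s₂ ≤ 2 * m - s₁ - s₂)]
      refine Or.inr (Or.inl ⟨s₁ + s₂, ?_, by linarith, h, rfl⟩)
      rw [e]; congr 1; ring
    · rw [min_eq_left (by linarith : s₁ + s₂ ≤ 2 * m - s₁ - s₂), h]
      refine Or.inr (Or.inr ⟨?_, rfl⟩)
      rw [h, min_self] at hlow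
      exact fuc_lb_mono v hlow (by linarith)
    · have e := fuc_ex_of_mul v (hgt h) hT
      rw [min_eq_right (by linarith : 2 * m - s₁ - s₂ ≤ s₁ + s₂)]
      refine Or.inr (Or.inl ⟨2 * m - s₁ - s₂, ?_, by linarith, by linarith, rfl⟩)
      rw [e]; congr 1; ring

/-- regime NN -/
theorem fuc_regime_NN (hm : 0 < m) (hδ : v δ = (m : ℚ)) (hε : v ε = 0) (h2 : v 2 = 0) (hne : x₁ ≠ x₂)
    (hS : (T₁ + T₂) * (x₁ - x₂) ^ 2 = 2 * ((x₁ + x₂) * (x₁ * x₂ + δ * ε) - 2 * (δ + ε) * x₁ * x₂))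
    (hP : T₁ * T₂ * (x₁ - x₂) ^ 2 = (x₁ * x₂ - δ * ε) ^ 2)
    {s₁ s₂ : ℚ} (e1 : v x₁ = s₁) (e2 : v x₂ = s₂) (hs0 : 0 < s₁) (hle : s₁ ≤ s₂) (hsm : s₂ < m) :
    (fuc_IsLvl v m T₁ (s₂ - s₁) ∧ fuc_IsLvl v m T₂ (min (s₁ + s₂) (2 * m - s₁ - s₂))) ∨
    (fuc_IsLvl v m T₂ (s₂ - s₁) ∧ fuc_IsLvl v m T₁ (min (s₁ + s₂) (2 * m - s₁ - s₂))) := by
  obtain ⟨d, ed⟩ := fuc_exists_ex v (sub_ne_zero.mpr hne)
  have hd : s₁ ≤ d := fuc_le_of_ex_lb v ed (fuc_lb_sub v e1.ge e2.ge le_rfl hle)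
  have hd' : s₁ < s₂ → d = s₁ := fun h => fuc_ex_unique v ed (fuc_ex_sub v e1 e2.ge h)
  have hC := fuc_exm v (s₁ + s₂) e1 e2 rfl
  have hδε := fuc_v_prod v hδ hε
  have hterm : v (2 * (δ + ε) * x₁ * x₂) = ((s₁ + s₂ : ℚ) : WithTop ℚ) :=
    fuc_exm v _ (fuc_exm v s₁ (fuc_v_two_sum v hm hδ hε h2) e1 (by ring)) e2 rfl
  have hB := fuc_lb_add v e1.ge e2.ge le_rfl hle
  have hA := fuc_lb_add v hC.ge hδε.ge (min_le_left (s₁ + s₂) m) (min_le_right _ _)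
  have hM := fuc_lb_sub v hC.ge hδε.ge (min_le_left (s₁ + s₂) m) (min_le_right _ _)
  have hBA := fuc_lbm v (s₁ + min (s₁ + s₂) m) hB hA le_rfl
  have hρ : s₂ < min (s₁ + s₂) m := lt_min (by linarith) hsm
  have hN := fuc_ex_sub' v hterm hBA (by linarith)
  have hs := fuc_sum_ex v h2 ed hS hN (s₁ + s₂ - 2 * d) rfl
  have hp := fuc_prod_lb v ed hP hM (2 * min (s₁ + s₂) m - 2 * d) le_rfl
  have hlt : s₁ + s₂ < m → v (T₁ * T₂) = ((2 * (s₁ + s₂) - 2 * d : ℚ) : WithTop ℚ) := fun h =>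
    fuc_prod_ex v ed hP (fuc_ex_sub v hC hδε.ge h) _ rfl
  have hgt : m < s₁ + s₂ → v (T₁ * T₂) = ((2 * m - 2 * d : ℚ) : WithTop ℚ) := fun h =>
    fuc_prod_ex v ed hP (fuc_ex_sub' v hδε hC.ge h) _ rfl
  have hcond : 2 * (s₁ + s₂ - 2 * d) < 2 * min (s₁ + s₂) m - 2 * d := by
    rcases min_choice (s₁ + s₂) m with h | h <;> rw [h] <;> linarith
  rcases fuc_pair_split v hs hp hcond with ⟨hT, hlow⟩ | ⟨hT, hlow⟩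
  · left
    refine fuc_regime_NN_aux v hs0 hle hsm hd hd' hT (fuc_lb_mono v hlow (by linarith)) ?_ ?_
    · intro h; rw [mul_comm]; exact hlt h
    · intro h; rw [mul_comm]; exact hgt h
  · right
    exact fuc_regime_NN_aux v hs0 hle hsm hd hd' hT (fuc_lb_mono v hlow (by linarith)) hlt hgt

end regimes

section main

variable {δ ε x₁ x₂ T₁ T₂ : K} {m a₁ a₂ : ℚ}

theorem fuc_min_val {a b c : ℚ} (h : (c = a ∧ a ≤ b) ∨ (c = b ∧ b ≤ a)) : c = min a b := by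
  rcases h with ⟨rfl, h⟩ | ⟨rfl, h⟩
  · exact (min_eq_left h).symm
  · exact (min_eq_right h).symm

theorem fuc_abs_val {a c : ℚ} (h : (c = a ∧ 0 ≤ a) ∨ (c = -a ∧ a ≤ 0)) : c = |a| := by
  rcases h with ⟨rfl, h⟩ | ⟨rfl, h⟩
  · exact (abs_of_nonneg h).symm
  · exact (abs_of_nonpos h).symm

/-- **Lemma U** (valuation form): the unsigned levels of the two roots `T₁, T₂`. -/
theorem fuc_lemmaU (hm : 0 < m) (hδ : v δ = (m : ℚ)) (hε : v ε = 0) (h2 : v 2 = 0) (hne : x₁ ≠ x₂)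
    (hS : (T₁ + T₂) * (x₁ - x₂) ^ 2 = 2 * ((x₁ + x₂) * (x₁ * x₂ + δ * ε) - 2 * (δ + ε) * x₁ * x₂))
    (hP : T₁ * T₂ * (x₁ - x₂) ^ 2 = (x₁ * x₂ - δ * ε) ^ 2)
    (h₁ : fuc_IsLvl v m x₁ a₁) (h₂ : fuc_IsLvl v m x₂ a₂) :
    ∃ b₁ b₂ : ℚ, fuc_IsLvl v m T₁ b₁ ∧ fuc_IsLvl v m T₂ b₂ ∧
      ((b₁ = min (a₁ + a₂) (2 * m - a₁ - a₂) ∧ b₂ = |a₁ - a₂|) ∨
       (b₁ = |a₁ - a₂| ∧ b₂ = min (a₁ + a₂) (2 * m - a₁ - a₂))) := by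
  have hS' : (T₁ + T₂) * (x₂ - x₁) ^ 2 =
      2 * ((x₂ + x₁) * (x₂ * x₁ + δ * ε) - 2 * (δ + ε) * x₂ * x₁) := by linear_combination hS
  have hP' : T₁ * T₂ * (x₂ - x₁) ^ 2 = (x₂ * x₁ - δ * ε) ^ 2 := by linear_combination hP
  rcases h₁ with ⟨h1, ea1⟩ | ⟨s₁, e1, hs1, hs1m, ea1⟩ | ⟨h1, ea1⟩ <;>
  rcases h₂ with ⟨h2', ea2⟩ | ⟨s₂, e2, hs2, hs2m, ea2⟩ | ⟨h2', ea2⟩
  · -- ZZ
    obtain ⟨k1, k2⟩ := fuc_regime_ZZ v hm hδ hε h2 hne hS hP h1 h2'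
    refine ⟨0, 0, Or.inl ⟨k1, rfl⟩, Or.inl ⟨k2, rfl⟩, Or.inl ⟨?_, ?_⟩⟩
    · rw [ea1, ea2]; exact fuc_min_val (Or.inl ⟨by ring, by linarith⟩)
    · rw [ea1, ea2]; simp
  · -- ZN
    obtain ⟨k1, k2⟩ := fuc_regime_ZN v hm hδ hε h2 hS hP h1 e2 hs2 hs2m
    refine ⟨s₂, s₂, Or.inr (Or.inl ⟨s₂, k1, hs2, hs2m, rfl⟩), Or.inr (Or.inl ⟨s₂, k2, hs2, hs2m, rfl⟩),
      Or.inl ⟨?_, ?_⟩⟩
    · rw [ea1, ea2]; exact fuc_min_val (Or.inl ⟨by ring, by linarith⟩)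
    · rw [ea1, ea2]; exact fuc_abs_val (Or.inr ⟨by ring, by linarith⟩)
  · -- ZM
    obtain ⟨k1, k2⟩ := fuc_regime_ZM v hm hδ hε h2 hS hP h1 h2'
    refine ⟨m, m, Or.inr (Or.inr ⟨k1, rfl⟩), Or.inr (Or.inr ⟨k2, rfl⟩), Or.inl ⟨?_, ?_⟩⟩
    · rw [ea1, ea2]; exact fuc_min_val (Or.inl ⟨by ring, by linarith⟩)
    · rw [ea1, ea2]; exact fuc_abs_val (Or.inr ⟨by ring, by linarith⟩)
  · -- NZ
    obtain ⟨k1, k2⟩ := fuc_regime_ZN v hm hδ hε h2 hS' hP' h2' e1 hs1 hs1m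
    refine ⟨s₁, s₁, Or.inr (Or.inl ⟨s₁, k1, hs1, hs1m, rfl⟩), Or.inr (Or.inl ⟨s₁, k2, hs1, hs1m, rfl⟩),
      Or.inl ⟨?_, ?_⟩⟩
    · rw [ea1, ea2]; exact fuc_min_val (Or.inl ⟨by ring, by linarith⟩)
    · rw [ea1, ea2]; exact fuc_abs_val (Or.inl ⟨by ring, by linarith⟩)
  · -- NN
    rcases le_or_gt s₁ s₂ with hle | hgt
    · have habs : s₂ - s₁ = |a₁ - a₂| := by
        rw [ea1, ea2]; exact fuc_abs_val (Or.inr ⟨by ring, by linarith⟩)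
      rcases fuc_regime_NN v hm hδ hε h2 hne hS hP e1 e2 hs1 hle hs2m with ⟨k1, k2⟩ | ⟨k2, k1⟩
      · exact ⟨_, _, k1, k2, Or.inr ⟨habs, by rw [ea1, ea2]⟩⟩
      · exact ⟨_, _, k1, k2, Or.inl ⟨by rw [ea1, ea2], habs⟩⟩
    · have habs : s₁ - s₂ = |a₁ - a₂| := by
        rw [ea1, ea2]; exact fuc_abs_val (Or.inl ⟨by ring, by linarith⟩)
      have hmin : min (s₂ + s₁) (2 * m - s₂ - s₁) = min (a₁ + a₂) (2 * m - a₁ - a₂) := by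
        rw [ea1, ea2]; congr 1 <;> ring
      rcases fuc_regime_NN v hm hδ hε h2 hne.symm hS' hP' e2 e1 hs2 hgt.le hs1m with ⟨k1, k2⟩ | ⟨k2, k1⟩
      · exact ⟨_, _, k1, k2, Or.inr ⟨habs, hmin⟩⟩
      · exact ⟨_, _, k1, k2, Or.inl ⟨hmin, habs⟩⟩
  · -- NM
    obtain ⟨k1, k2⟩ := fuc_regime_NM v hm hδ hε h2 hS hP e1 hs1 hs1m h2'
    refine ⟨m - s₁, m - s₁, Or.inr (Or.inl ⟨m - s₁, k1, by linarith, by linarith, rfl⟩),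
      Or.inr (Or.inl ⟨m - s₁, k2, by linarith, by linarith, rfl⟩), Or.inl ⟨?_, ?_⟩⟩
    · rw [ea1, ea2]; exact fuc_min_val (Or.inr ⟨by ring, by linarith⟩)
    · rw [ea1, ea2]; exact fuc_abs_val (Or.inr ⟨by ring, by linarith⟩)
  · -- MZ
    obtain ⟨k1, k2⟩ := fuc_regime_ZM v hm hδ hε h2 hS' hP' h2' h1
    refine ⟨m, m, Or.inr (Or.inr ⟨k1, rfl⟩), Or.inr (Or.inr ⟨k2, rfl⟩), Or.inl ⟨?_, ?_⟩⟩
    · rw [ea1, ea2]; exact fuc_min_val (Or.inl ⟨by ring, by linarith⟩)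
    · rw [ea1, ea2]; exact fuc_abs_val (Or.inl ⟨by ring, by linarith⟩)
  · -- MN
    obtain ⟨k1, k2⟩ := fuc_regime_NM v hm hδ hε h2 hS' hP' e2 hs2 hs2m h1
    refine ⟨m - s₂, m - s₂, Or.inr (Or.inl ⟨m - s₂, k1, by linarith, by linarith, rfl⟩),
      Or.inr (Or.inl ⟨m - s₂, k2, by linarith, by linarith, rfl⟩), Or.inl ⟨?_, ?_⟩⟩
    · rw [ea1, ea2]; exact fuc_min_val (Or.inr ⟨by ring, by linarith⟩)
    · rw [ea1, ea2]; exact fuc_abs_val (Or.inl ⟨by ring, by linarith⟩)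
  · -- MM
    obtain ⟨k1, k2⟩ := fuc_regime_MM v hm hδ hε h2 hne hS hP h1 h2'
    refine ⟨0, 0, Or.inl ⟨k1, rfl⟩, Or.inl ⟨k2, rfl⟩, Or.inl ⟨?_, ?_⟩⟩
    · rw [ea1, ea2]; exact fuc_min_val (Or.inr ⟨by ring, by linarith⟩)
    · rw [ea1, ea2]; simp

end main

end Fermat.Agent.Lib.Frey
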