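/-
S05 (Frey curve unramified at odd q ≠ p), Layer 1: the action of a ring automorphism on the points
of a Weierstrass curve with fixed coefficients, and the ABSTRACT inertia theorem
`fab_fixed_of_sub_inE0`: from (L1) (difference lemma), (L2) (`E₁` is a subgroup without
`p`-torsion) and a decomposition `x = W + j • P₀` with `W ∈ E₀`, `σ P₀ = P₀`, deduce `σ x = x`.
-/
import Mathlib
import Fermat.Agent.Lib.Frey.Defs

set_option autoImplicit false

namespace Fermat.Agent.Lib.Frey

open WeierstrassCurve WeierstrassCurve.Affine WeierstrassCurve.Affine.Point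

variable {K : Type*} [Field K] [DecidableEq K]

/-! ### The action of a ring endomorphism on points -/

/-- Transport of points along an equality of curves. -/
def fab_congr {W₁ W₂ : WeierstrassCurve K} (h : W₁ = W₂) :
    W₁.toAffine.Point ≃+ W₂.toAffine.Point := by
  subst h; exact AddEquiv.refl _

lemma fab_congr_some {W₁ W₂ : WeierstrassCurve K} (h : W₁ = W₂) {x y : K}
    (hxy : W₁.toAffine.Nonsingular x y) :
    fab_congr h (Point.some x y hxy) = Point.some x y (h ▸ hxy) := by
  subst h; rfl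

/-- The map on points induced by a ring hom of fields. -/
noncomputable def fab_mapHom {F : Type*} [Field F] [DecidableEq F] (φ : F →+* K)
    (W : WeierstrassCurve F) : W.toAffine.Point →+ (W.map φ).toAffine.Point :=
  letI := φ.toAlgebra
  (Point.map (W' := W.toAffine) (Algebra.ofId F K) : (W.toAffine⁄F).Point →+ (W.toAffine⁄K).Point)

omit [DecidableEq K] in
lemma fab_map_nonsingular {F : Type*} [Field F] (φ : F →+* K) (W : WeierstrassCurve F) {x y : F}
    (h : W.toAffine.Nonsingular x y) : (W.map φ).toAffine.Nonsingular (φ x) (φ y) :=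
  (Affine.map_nonsingular W.toAffine φ.injective x y).mpr h

lemma fab_mapHom_some {F : Type*} [Field F] [DecidableEq F] (φ : F →+* K)
    (W : WeierstrassCurve F) {x y : F} (h : W.toAffine.Nonsingular x y) :
    fab_mapHom φ W (Point.some x y h) = Point.some (φ x) (φ y) (fab_map_nonsingular φ W h) := rfl

/-- The action of a ring endomorphism fixing the coefficients of the curve. -/
noncomputable def fab_sigma (σ : K →+* K) (W : WeierstrassCurve K) (hW : W.map σ = W) :
    W.toAffine.Point →+ W.toAffine.Point :=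
  (fab_congr hW).toAddMonoidHom.comp (fab_mapHom σ W)

lemma fab_sigma_some (σ : K →+* K) (W : WeierstrassCurve K) (hW : W.map σ = W) {x y : K}
    (h : W.toAffine.Nonsingular x y) :
    fab_sigma σ W hW (Point.some x y h) =
      Point.some (σ x) (σ y) (hW ▸ fab_map_nonsingular σ W h) := by
  simp only [fab_sigma, AddMonoidHom.comp_apply, fab_mapHom_some, AddEquiv.coe_toAddMonoidHom,
    fab_congr_some]

omit [DecidableEq K] in
lemma fab_fl_curve_map (σ : K →+* K) {δ ε : K} (hδ : σ δ = δ) (hε : σ ε = ε) :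
    (fl_curve δ ε).map σ = fl_curve δ ε := by
  ext <;> simp [fl_curve, WeierstrassCurve.map, hδ, hε]

/-! ### Hypothesis shapes of (L1) and (L2) -/

/-- (L2): the kernel of reduction `E₁` is closed under subtraction and has no `p`-torsion. -/
structure fab_HypL2 (v : AddValuation K (WithTop ℚ)) (W : WeierstrassCurve K) (p : ℕ) : Prop where
  sub_mem : ∀ P Q : W.toAffine.Point, fl_InE1 v P → fl_InE1 v Q → fl_InE1 v (P - Q)
  torsion : ∀ P : W.toAffine.Point, fl_InE1 v P → p • P = 0 → P = 0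

/-- (L1): two integral points with the same non-singular reduction differ by an element of `E₁`. -/
def fab_HypL1 (v : AddValuation K (WithTop ℚ)) (W : WeierstrassCurve K) : Prop :=
  ∀ (x₁ y₁ x₂ y₂ : K) (h₁ : W.toAffine.Nonsingular x₁ y₁) (h₂ : W.toAffine.Nonsingular x₂ y₂),
    0 ≤ v x₁ → 0 ≤ v y₁ → 0 ≤ v x₂ → 0 ≤ v y₂ → 0 < v (x₁ - x₂) → 0 < v (y₁ - y₂) →
    (v y₁ = 0 ∨ v (3 * x₁ ^ 2 + 2 * W.a₂ * x₁ + W.a₄) = 0) →
    fl_InE1 v (Point.some x₁ y₁ h₁ - Point.some x₂ y₂ h₂)

/-! ### The abstract theorem -/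

section abstract

variable (v : AddValuation K (WithTop ℚ)) (W : WeierstrassCurve K) (σ : K →+* K)
  (hW : W.map σ = W)

include hW in
omit [DecidableEq K] in
lemma fab_sigma_a₂ : σ W.a₂ = W.a₂ := by
  have := congrArg WeierstrassCurve.a₂ hW
  simpa using this

include hW in
omit [DecidableEq K] in
lemma fab_sigma_a₄ : σ W.a₄ = W.a₄ := by
  have := congrArg WeierstrassCurve.a₄ hW
  simpa using this

variable {v W σ}

/-- `σ P − P ∈ E₁` for an integral point `P` with non-singular reduction, `σ` trivial modulo the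
maximal ideal. -/
theorem fab_sigma_sub_mem_E1_of_integral (hσv : ∀ a, v (σ a) = v a)
    (hσI : ∀ a, 0 ≤ v a → 0 < v (σ a - a)) (L1 : fab_HypL1 v W) {a b : K}
    (h : W.toAffine.Nonsingular a b) (ha : 0 ≤ v a) (hb : 0 ≤ v b)
    (hns : v b = 0 ∨ v (3 * a ^ 2 + 2 * W.a₂ * a + W.a₄) = 0) :
    fl_InE1 v (fab_sigma σ W hW (Point.some a b h) - Point.some a b h) := by
  rw [fab_sigma_some]
  refine L1 _ _ _ _ _ _ (by rw [hσv]; exact ha) (by rw [hσv]; exact hb) ha hb (hσI a ha)
    (hσI b hb) ?_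
  rcases hns with hns | hns
  · left; rw [hσv]; exact hns
  · right
    have : 3 * σ a ^ 2 + 2 * W.a₂ * σ a + W.a₄ = σ (3 * a ^ 2 + 2 * W.a₂ * a + W.a₄) := by
      simp only [map_add, map_mul, map_pow, map_ofNat, fab_sigma_a₂ W σ hW, fab_sigma_a₄ W σ hW]
    rw [this, hσv]; exact hns

/-- `σ` preserves `E₁`. -/
theorem fab_sigma_mem_E1 (hσv : ∀ a, v (σ a) = v a) {P : W.toAffine.Point} (hP : fl_InE1 v P) :
    fl_InE1 v (fab_sigma σ W hW P) := by
  rcases hP with rfl | ⟨x, y, h, rfl, hx⟩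
  · left; exact _root_.map_zero _
  · right
    exact ⟨σ x, σ y, _, fab_sigma_some σ W hW h, by rw [hσv]; exact hx⟩

/-- **Abstract inertia theorem.**  If `x` is `p`-torsion, `x − j • P₀ ∈ E₀` for a `σ`-fixed
point `P₀`, and (L1), (L2) hold, then `σ x = x`. -/
theorem fab_fixed_of_sub_inE0 (hσv : ∀ a, v (σ a) = v a)
    (hσI : ∀ a, 0 ≤ v a → 0 < v (σ a - a)) (L1 : fab_HypL1 v W) {p : ℕ} (L2 : fab_HypL2 v W p)
    (hns : ∀ a b : K, W.toAffine.Nonsingular a b → v a = 0 →
      0 ≤ v b ∧ (v b = 0 ∨ v (3 * a ^ 2 + 2 * W.a₂ * a + W.a₄) = 0))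
    {x P₀ : W.toAffine.Point} (hP₀ : fab_sigma σ W hW P₀ = P₀) (hx : p • x = 0) (j : ℤ)
    (hj : fl_InE0 v (x - j • P₀)) : fab_sigma σ W hW x = x := by
  set s := fab_sigma σ W hW with hs
  have hD : s x - x = s (x - j • P₀) - (x - j • P₀) := by
    rw [map_sub, map_zsmul, hP₀]; abel
  have hE1 : fl_InE1 v (s x - x) := by
    rw [hD]
    rcases hj with h0 | ⟨a, b, h, hab, ha⟩
    · rw [h0, _root_.map_zero, sub_zero]; left; rfl
    · rw [hab]
      rcases lt_or_eq_of_le ha with ha' | ha'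
      · have h1 : fl_InE1 v (Point.some a b h) := Or.inr ⟨a, b, h, rfl, ha'⟩
        exact L2.sub_mem _ _ (fab_sigma_mem_E1 hW hσv h1) h1
      · obtain ⟨hb, hns'⟩ := hns a b h ha'
        exact fab_sigma_sub_mem_E1_of_integral hW hσv hσI L1 h ha'.ge hb hns'
  have hp : p • (s x - x) = 0 := by
    rw [smul_sub, ← map_nsmul, hx, _root_.map_zero, sub_zero]
  exact sub_eq_zero.mp (L2.torsion _ hE1 hp)

/-- Coordinate form of `σ P = P`. -/
theorem fab_coords_of_sigma_eq {X Y : K} {h : W.toAffine.Nonsingular X Y}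
    (hfix : fab_sigma σ W hW (Point.some X Y h) = Point.some X Y h) : σ X = X ∧ σ Y = Y := by
  rw [fab_sigma_some, Point.some.injEq] at hfix
  exact hfix

/-- A point with `σ`-fixed coordinates is `σ`-fixed. -/
theorem fab_sigma_eq_of_coords {X Y : K} {h : W.toAffine.Nonsingular X Y}
    (hX : σ X = X) (hY : σ Y = Y) : fab_sigma σ W hW (Point.some X Y h) = Point.some X Y h := by
  rw [fab_sigma_some, Point.some.injEq]
  exact ⟨hX, hY⟩

end abstract

end Fermat.Agent.Lib.Frey
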