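/-
S05 (helper4's elementary plan), step (L1): the DIFFERENCE LEMMA.

`K` a field with a valuation `v`, `W` a Weierstrass curve over `K` with `v`-integral coefficients.
If two affine points `P = (x₁, y₁)`, `Q = (x₂, y₂)` with integral coordinates have the same
reduction and this reduction is a nonsingular point of the reduced curve, then `P - Q` lies in the
kernel of reduction `E₁ = {O} ∪ {v(X) > 1}`.  No hypothesis on the residue characteristic.
-/
import Mathlib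
import Fermat.Agent.Lib.Frey.Defs

set_option autoImplicit false

namespace Fermat.Agent.Lib.Frey

open WeierstrassCurve WeierstrassCurve.Affine

variable {K : Type*} [Field K] {Γ₀ : Type*} [LinearOrderedCommGroupWithZero Γ₀]
  (v : Valuation K Γ₀) (W : Affine K)

/-- The Weierstrass model has `v`-integral coefficients. -/
structure frd_Integral : Prop where
  a1 : v W.a₁ ≤ 1
  a2 : v W.a₂ ≤ 1
  a3 : v W.a₃ ≤ 1
  a4 : v W.a₄ ≤ 1
  a6 : v W.a₆ ≤ 1

/-- The kernel of reduction: `O` and the affine points with non-integral `X`. -/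
def frd_E1 (P : W.Point) : Prop :=
  P = 0 ∨ ∃ (x y : K) (h : W.Nonsingular x y), P = Point.some x y h ∧ 1 < v x

variable {v W}

theorem frd_E1_zero : frd_E1 v W 0 := Or.inl rfl

theorem frd_E1_some {x y : K} (h : W.Nonsingular x y) :
    frd_E1 v W (Point.some x y h) ↔ 1 < v x := by
  constructor
  · rintro (h0 | ⟨x', y', h', he, hv⟩)
    · exact absurd h0 (Point.some_ne_zero h)
    · simp only [Point.some.injEq] at he
      rw [he.1]; exact hv
  · intro hv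
    exact Or.inr ⟨x, y, h, rfl, hv⟩

/-- A non-integral slope gives a non-integral `X`-coordinate of the sum. -/
theorem frd_one_lt_addX (hW : frd_Integral v W) {x₁ x₂ ℓ : K} (hx₁ : v x₁ ≤ 1) (hx₂ : v x₂ ≤ 1)
    (hℓ : 1 < v ℓ) : 1 < v (W.addX x₁ x₂ ℓ) := by
  have h1 : v (ℓ + W.a₁) = v ℓ :=
    Valuation.map_add_eq_of_lt_left v (lt_of_le_of_lt hW.a1 hℓ)
  have h2 : v (ℓ ^ 2 + W.a₁ * ℓ) = v ℓ * v ℓ := by
    rw [show ℓ ^ 2 + W.a₁ * ℓ = ℓ * (ℓ + W.a₁) by ring, map_mul, h1]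
  have h3 : 1 < v ℓ * v ℓ := by
    calc (1 : Γ₀) = 1 * 1 := (one_mul 1).symm
      _ < v ℓ * v ℓ := mul_lt_mul'' hℓ hℓ zero_le_one zero_le_one
  have h4 : v (W.a₂ + x₁ + x₂) ≤ 1 :=
    Valuation.map_add_le v (Valuation.map_add_le v hW.a2 hx₁) hx₂
  have h5 : W.addX x₁ x₂ ℓ = (ℓ ^ 2 + W.a₁ * ℓ) - (W.a₂ + x₁ + x₂) := by
    rw [addX]; ring
  rw [h5, Valuation.map_sub_eq_of_lt_left v (by rw [h2]; exact lt_of_le_of_lt h4 h3), h2]
  exact h3

/-- **(L1), the difference lemma.** -/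
theorem frd_sub_mem_E1 [DecidableEq K] (hW : frd_Integral v W) {x₁ y₁ x₂ y₂ : K} (h₁ : W.Nonsingular x₁ y₁)
    (h₂ : W.Nonsingular x₂ y₂) (hx₁ : v x₁ ≤ 1) (hy₁ : v y₁ ≤ 1) (hx : v (x₁ - x₂) < 1)
    (hy : v (y₁ - y₂) < 1)
    (hns : v (W.polynomialX.evalEval x₁ y₁) = 1 ∨ v (W.polynomialY.evalEval x₁ y₁) = 1) :
    frd_E1 v W (Point.some x₁ y₁ h₁ - Point.some x₂ y₂ h₂) := by
  have hx₂ : v x₂ ≤ 1 := by
    have : x₂ = x₁ - (x₁ - x₂) := by ring
    rw [this]; exact Valuation.map_sub_le v hx₁ hx.le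
  have hy₂ : v y₂ ≤ 1 := by
    have : y₂ = y₁ - (y₁ - y₂) := by ring
    rw [this]; exact Valuation.map_sub_le v hy₁ hy.le
  rw [sub_eq_add_neg, Point.neg_some]
  rw [evalEval_polynomialX, evalEval_polynomialY] at hns
  have he₁ := (equation_iff _ _).mp h₁.1
  have he₂ := (equation_iff _ _).mp h₂.1
  by_cases hxx : x₁ = x₂
  · -- same `X`
    subst hxx
    by_cases hyy : y₁ = y₂
    · -- `P = Q`
      subst hyy
      left
      exact Point.add_of_Y_eq rfl (by rw [negY_negY])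
    · -- `P = -Q`, `P - Q = 2 P`
      have hy' : y₁ = W.negY x₁ y₂ := by
        rcases Y_eq_of_X_eq h₁.1 h₂.1 rfl with h | h
        · exact absurd h hyy
        · exact h
      have hne : y₁ ≠ W.negY x₁ (W.negY x₁ y₂) := by rw [negY_negY]; exact hyy
      rw [Point.add_of_Y_ne hne, frd_E1_some]
      apply frd_one_lt_addX hW hx₁ hx₁
      -- the slope
      have hslope : W.slope x₁ x₁ y₁ (W.negY x₁ y₂)
          = (3 * x₁ ^ 2 + 2 * W.a₂ * x₁ + W.a₄ - W.a₁ * y₁) / (y₁ - W.negY x₁ y₁) := by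
        rw [Affine.slope, if_pos rfl, if_neg hne]
      have hden : y₁ - W.negY x₁ y₁ = y₁ - y₂ := by
        have h := hy'
        rw [negY] at h ⊢
        rw [h]; ring
      have hden0 : y₁ - y₂ ≠ 0 := sub_ne_zero.mpr hyy
      -- `W_Y(P) = y₁ - y₂` is a non-unit, so `W_X(P)` is a unit
      have hWY : 2 * y₁ + W.a₁ * x₁ + W.a₃ = y₁ - y₂ := by
        have := hy'; rw [negY] at this; rw [this]; ring
      have hnum : v (3 * x₁ ^ 2 + 2 * W.a₂ * x₁ + W.a₄ - W.a₁ * y₁) = 1 := by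
        rcases hns with h | h
        · rw [← h, ← Valuation.map_neg]; congr 1; ring
        · rw [hWY] at h; exact absurd h (ne_of_lt hy)
      rw [hslope, hden, map_div₀, hnum]
      have hpos : 0 < v (y₁ - y₂) := (Valuation.pos_iff v).mpr hden0
      rw [one_div]
      exact (one_lt_inv₀ hpos).mpr hy
  · -- different `X`
    rw [Point.add_of_X_ne hxx, frd_E1_some]
    apply frd_one_lt_addX hW hx₁ hx₂
    have hslope : W.slope x₁ x₂ y₁ (W.negY x₂ y₂) = (y₁ - W.negY x₂ y₂) / (x₁ - x₂) := by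
      rw [Affine.slope, if_neg hxx]
    have hxne : x₁ - x₂ ≠ 0 := sub_ne_zero.mpr hxx
    have hxpos : 0 < v (x₁ - x₂) := (Valuation.pos_iff v).mpr hxne
    -- `N = y₁ - negY x₂ y₂ ≡ W_Y(P)`
    set N := y₁ - W.negY x₂ y₂ with hN
    have hNeq : N = (2 * y₁ + W.a₁ * x₁ + W.a₃) - ((y₁ - y₂) + W.a₁ * (x₁ - x₂)) := by
      rw [hN, negY]; ring
    have hsmall : v ((y₁ - y₂) + W.a₁ * (x₁ - x₂)) < 1 := by
      apply Valuation.map_add_lt v hy
      rw [map_mul]
      calc v W.a₁ * v (x₁ - x₂) ≤ 1 * v (x₁ - x₂) := mul_le_mul_left hW.a1 _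
        _ = v (x₁ - x₂) := one_mul _
        _ < 1 := hx
    rw [hslope, map_div₀]
    by_cases hWY : v (2 * y₁ + W.a₁ * x₁ + W.a₃) = 1
    · -- `W_Y(P)` unit: numerator unit
      have hNv : v N = 1 := by
        rw [hNeq, Valuation.map_sub_eq_of_lt_left v (by rw [hWY]; exact hsmall), hWY]
      rw [hNv, one_div]
      exact (one_lt_inv₀ hxpos).mpr hx
    · -- `W_X(P)` unit
      have hWX : v (W.a₁ * y₁ - (3 * x₁ ^ 2 + 2 * W.a₂ * x₁ + W.a₄)) = 1 := by
        rcases hns with h | h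
        · exact h
        · exact absurd h hWY
      -- `(y₁ - y₂) * N = -(x₁ - x₂) * G`
      set G := W.a₁ * y₁ - (x₁ ^ 2 + x₁ * x₂ + x₂ ^ 2) - W.a₂ * (x₁ + x₂) - W.a₄ with hG
      have hkey : (y₁ - y₂) * N = -((x₁ - x₂) * G) := by
        rw [hN, negY, hG]
        linear_combination he₁ - he₂
      have hGeq : G = (W.a₁ * y₁ - (3 * x₁ ^ 2 + 2 * W.a₂ * x₁ + W.a₄))
          + (x₁ - x₂) * (2 * x₁ + x₂ + W.a₂) := by
        rw [hG]; ring
      have hGv : v G = 1 := by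
        have hs : v ((x₁ - x₂) * (2 * x₁ + x₂ + W.a₂)) < 1 := by
          rw [map_mul]
          have h2 : v (2 * x₁ + x₂ + W.a₂) ≤ 1 := by
            apply Valuation.map_add_le v (Valuation.map_add_le v _ hx₂) hW.a2
            rw [two_mul]; exact Valuation.map_add_le v hx₁ hx₁
          calc v (x₁ - x₂) * v (2 * x₁ + x₂ + W.a₂) ≤ v (x₁ - x₂) * 1 := mul_le_mul_right h2 _
            _ = v (x₁ - x₂) := mul_one _
            _ < 1 := hx
        rw [hGeq, Valuation.map_add_eq_of_lt_left v (by rw [hWX]; exact hs), hWX]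
      have hyne : y₁ - y₂ ≠ 0 := by
        intro h0
        rw [h0, zero_mul] at hkey
        have : (x₁ - x₂) * G = 0 := by linear_combination hkey
        rcases mul_eq_zero.mp this with h | h
        · exact hxne h
        · rw [h, map_zero] at hGv; exact zero_ne_one hGv
      have hypos : 0 < v (y₁ - y₂) := (Valuation.pos_iff v).mpr hyne
      have hvkey : v (y₁ - y₂) * v N = v (x₁ - x₂) := by
        rw [← map_mul, hkey, Valuation.map_neg, map_mul, hGv, mul_one]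
      -- `v N / v (x₁ - x₂) = 1 / v (y₁ - y₂)`
      have : v N / v (x₁ - x₂) = (v (y₁ - y₂))⁻¹ := by
        have hNpos : 0 < v N := by
          rcases eq_or_lt_of_le (zero_le (a := v N)) with h | h
          · rw [← h, mul_zero] at hvkey
            exact absurd hvkey.symm (ne_of_gt hxpos)
          · exact h
        rw [← hvkey, div_eq_mul_inv, mul_inv, mul_comm (v (y₁ - y₂))⁻¹, ← mul_assoc,
          mul_inv_cancel₀ (ne_of_gt hNpos), one_mul]
      rw [this]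
      exact (one_lt_inv₀ hypos).mpr hy


/-! ### Complements: negation, numerals -/

theorem frd_E1_neg {P : W.Point} (h : frd_E1 v W P) : frd_E1 v W (-P) := by
  rcases h with h | ⟨x, y, hxy, hP, hx⟩
  · left; rw [h]; rfl
  · right
    exact ⟨x, W.negY x y, (nonsingular_neg ..).mpr hxy, by rw [hP, Point.neg_some], hx⟩

theorem frd_natCast_le_one (n : ℕ) : v (n : K) ≤ 1 := by
  induction n with
  | zero => simp
  | succ n ih =>
    rw [Nat.cast_succ]
    exact Valuation.map_add_le v ih (le_of_eq (Valuation.map_one v))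

/-- Symmetric form of (L1): the non-singularity hypothesis on the second point. -/
theorem frd_sub_mem_E1' [DecidableEq K] (hW : frd_Integral v W) {x₁ y₁ x₂ y₂ : K}
    (h₁ : W.Nonsingular x₁ y₁) (h₂ : W.Nonsingular x₂ y₂) (hx₂ : v x₂ ≤ 1) (hy₂ : v y₂ ≤ 1)
    (hx : v (x₁ - x₂) < 1) (hy : v (y₁ - y₂) < 1)
    (hns : v (W.polynomialX.evalEval x₂ y₂) = 1 ∨ v (W.polynomialY.evalEval x₂ y₂) = 1) :
    frd_E1 v W (Point.some x₁ y₁ h₁ - Point.some x₂ y₂ h₂) := by
  have h := frd_sub_mem_E1 hW h₂ h₁ hx₂ hy₂ (by rwa [Valuation.map_sub_swap])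
    (by rwa [Valuation.map_sub_swap]) hns
  have := frd_E1_neg h
  rwa [neg_sub] at this

/-! ### Good reduction: every integral point reduces to a non-singular point -/

/-- If the discriminant is a unit, every integral point has non-singular reduction. -/
theorem frd_hns_of_disc (hW : frd_Integral v W) (hΔ : v W.Δ = 1) {x y : K}
    (h : W.Equation x y) (hx : v x ≤ 1) (hy : v y ≤ 1) :
    v (W.polynomialX.evalEval x y) = 1 ∨ v (W.polynomialY.evalEval x y) = 1 := by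
  rw [evalEval_polynomialX, evalEval_polynomialY]
  have he := (equation_iff _ _).mp h
  -- integrality helpers
  have I2 : v (2 : K) ≤ 1 := by exact_mod_cast frd_natCast_le_one (v := v) 2
  have I3 : v (3 : K) ≤ 1 := by exact_mod_cast frd_natCast_le_one (v := v) 3
  have Imul : ∀ {a b : K}, v a ≤ 1 → v b ≤ 1 → v (a * b) ≤ 1 := by
    intro a b ha hb
    rw [map_mul]; exact mul_le_one' ha hb
  have Iadd : ∀ {a b : K}, v a ≤ 1 → v b ≤ 1 → v (a + b) ≤ 1 :=
    fun ha hb => Valuation.map_add_le v ha hb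
  have Isub : ∀ {a b : K}, v a ≤ 1 → v b ≤ 1 → v (a - b) ≤ 1 :=
    fun ha hb => Valuation.map_sub_le v ha hb
  have Ineg : ∀ {a : K}, v a ≤ 1 → v (-a) ≤ 1 := by
    intro a ha; rwa [Valuation.map_neg]
  have Ipow : ∀ {a : K} (n : ℕ), v a ≤ 1 → v (a ^ n) ≤ 1 := by
    intro a n ha
    rw [map_pow]; exact pow_le_one' ha n
  have Inat : ∀ n : ℕ, v (n : K) ≤ 1 := frd_natCast_le_one
  -- the translated coefficients
  set A2 := W.a₂ + 3 * x with hA2
  set A3 := 2 * y + W.a₁ * x + W.a₃ with hA3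
  set A4 := 3 * x ^ 2 + 2 * W.a₂ * x + W.a₄ - W.a₁ * y with hA4
  have IA2 : v A2 ≤ 1 := Iadd hW.a2 (Imul I3 hx)
  have IA3 : v A3 ≤ 1 := Iadd (Iadd (Imul I2 hy) (Imul hW.a1 hx)) hW.a3
  have IA4 : v A4 ≤ 1 :=
    Isub (Iadd (Iadd (Imul I3 (Ipow 2 hx)) (Imul (Imul I2 hW.a2) hx)) hW.a4) (Imul hW.a1 hy)
  set b2 := W.a₁ ^ 2 + 4 * A2 with hb2
  set b4 := 2 * A4 + W.a₁ * A3 with hb4
  have I4 : v (4 : K) ≤ 1 := by exact_mod_cast Inat 4
  have Ib2 : v b2 ≤ 1 := Iadd (Ipow 2 hW.a1) (Imul I4 IA2)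
  have Ib4 : v b4 ≤ 1 := Iadd (Imul I2 IA4) (Imul hW.a1 IA3)
  set P := b2 ^ 2 * W.a₁ * A4 - b2 ^ 2 * A2 * A3 - 8 * b4 ^ 2 * W.a₁ - 27 * A3 ^ 3
    + 9 * b2 * b4 * A3 with hP
  set Q := b2 ^ 2 * A4 - 16 * b4 ^ 2 with hQ
  have I8 : v (8 : K) ≤ 1 := by exact_mod_cast Inat 8
  have I9 : v (9 : K) ≤ 1 := by exact_mod_cast Inat 9
  have I16 : v (16 : K) ≤ 1 := by exact_mod_cast Inat 16
  have I27 : v (27 : K) ≤ 1 := by exact_mod_cast Inat 27
  have IP : v P ≤ 1 :=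
    Iadd (Isub (Isub (Isub (Imul (Imul (Ipow 2 Ib2) hW.a1) IA4) (Imul (Imul (Ipow 2 Ib2) IA2) IA3))
      (Imul (Imul I8 (Ipow 2 Ib4)) hW.a1)) (Imul I27 (Ipow 3 IA3))) (Imul (Imul (Imul I9 Ib2) Ib4) IA3)
  have IQ : v Q ≤ 1 := Isub (Imul (Ipow 2 Ib2) IA4) (Imul I16 (Ipow 2 Ib4))
  have hkey : W.Δ = A3 * P + A4 * Q := by
    rw [hP, hQ, hb2, hb4, hA2, hA3, hA4]
    simp only [WeierstrassCurve.Δ, WeierstrassCurve.b₂, WeierstrassCurve.b₄, WeierstrassCurve.b₆,
      WeierstrassCurve.b₈]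
    linear_combination
      ((W.a₁ ^ 2 + 4 * (W.a₂ + 3 * x)) ^ 3 + 216 * (2 * y + W.a₁ * x + W.a₃) ^ 2
        - 36 * (W.a₁ ^ 2 + 4 * (W.a₂ + 3 * x))
          * (2 * (3 * x ^ 2 + 2 * W.a₂ * x + W.a₄ - W.a₁ * y)
            + W.a₁ * (2 * y + W.a₁ * x + W.a₃))
        + 432 * (x ^ 3 + W.a₂ * x ^ 2 + W.a₄ * x + W.a₆ - y ^ 2 - W.a₁ * x * y - W.a₃ * y))
      * he
  by_contra hcon
  rw [not_or] at hcon
  obtain ⟨h4, h3⟩ := hcon
  have h3' : v A3 < 1 := lt_of_le_of_ne IA3 h3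
  have h4' : v A4 < 1 := by
    have : v A4 = v (W.a₁ * y - (3 * x ^ 2 + 2 * W.a₂ * x + W.a₄)) := by
      rw [← Valuation.map_neg]; congr 1; rw [hA4]; ring
    rw [this]
    exact lt_of_le_of_ne (by rw [← this]; exact IA4) h4
  have : v W.Δ < 1 := by
    rw [hkey]
    apply Valuation.map_add_lt v
    · rw [map_mul]
      calc v A3 * v P ≤ v A3 * 1 := mul_le_mul_right IP _
        _ = v A3 := mul_one _
        _ < 1 := h3'
    · rw [map_mul]
      calc v A4 * v Q ≤ v A4 * 1 := mul_le_mul_right IQ _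
        _ = v A4 := mul_one _
        _ < 1 := h4'
  rw [hΔ] at this
  exact lt_irrefl _ this

/-- **(L1) in the good reduction case**: two integral points with the same reduction differ by
an element of `E₁`. -/
theorem frd_sub_mem_E1_of_disc [DecidableEq K] (hW : frd_Integral v W) (hΔ : v W.Δ = 1)
    {x₁ y₁ x₂ y₂ : K} (h₁ : W.Nonsingular x₁ y₁) (h₂ : W.Nonsingular x₂ y₂) (hx₁ : v x₁ ≤ 1)
    (hy₁ : v y₁ ≤ 1) (hx : v (x₁ - x₂) < 1) (hy : v (y₁ - y₂) < 1) :
    frd_E1 v W (Point.some x₁ y₁ h₁ - Point.some x₂ y₂ h₂) :=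
  frd_sub_mem_E1 hW h₁ h₂ hx₁ hy₁ hx hy (frd_hns_of_disc hW hΔ h₁.1 hx₁ hy₁)


/-! ### The multiplicative (Legendre-type) model: points with unit `X` -/

/-- For `Y² = X³ + a₂X² + a₄X` with `a₂` a unit and `a₄` in the maximal ideal (node at the
origin), a point with unit `X`-coordinate reduces to a non-singular point. -/
theorem frd_hns_leg (h1 : W.a₁ = 0) (h3 : W.a₃ = 0) (h6 : W.a₆ = 0) (ha2 : v W.a₂ = 1)
    (ha4 : v W.a₄ < 1) (h2 : v (2 : K) = 1) {x y : K} (h : W.Equation x y) (hx : v x = 1)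
    (hy : v y ≤ 1) :
    v (W.polynomialX.evalEval x y) = 1 ∨ v (W.polynomialY.evalEval x y) = 1 := by
  rw [evalEval_polynomialX, evalEval_polynomialY, h1, h3]
  have he := (equation_iff _ _).mp h
  rw [h1, h3, h6] at he
  by_cases hy1 : v y = 1
  · right
    rw [zero_mul, add_zero, add_zero, map_mul, h2, hy1, one_mul]
  · left
    have hy' : v y < 1 := lt_of_le_of_ne hy hy1
    -- `x²(x + a₂) = y² - a₄x` is in the maximal ideal, so `x + a₂` is
    have hprod : v (x ^ 2 * (x + W.a₂)) < 1 := by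
      have : x ^ 2 * (x + W.a₂) = y ^ 2 - W.a₄ * x := by linear_combination -he
      rw [this]
      apply Valuation.map_sub_lt v
      · rw [map_pow]
        calc v y ^ 2 = v y * v y := sq _
          _ ≤ v y * 1 := mul_le_mul_right hy _
          _ = v y := mul_one _
          _ < 1 := hy'
      · rw [map_mul, hx, mul_one]; exact ha4
    have hsum : v (x + W.a₂) < 1 := by
      rwa [map_mul, map_pow, hx, one_pow, one_mul] at hprod
    -- `3x² + 2a₂x + a₄ = -a₂x + (3x(x + a₂) + a₄)`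
    have I3 : v (3 : K) ≤ 1 := by exact_mod_cast frd_natCast_le_one (v := v) 3
    have hsmall : v (3 * x * (x + W.a₂) + W.a₄) < 1 := by
      apply Valuation.map_add_lt v _ ha4
      rw [map_mul, map_mul, hx, mul_one]
      calc v 3 * v (x + W.a₂) ≤ 1 * v (x + W.a₂) := mul_le_mul_left I3 _
        _ = v (x + W.a₂) := one_mul _
        _ < 1 := hsum
    have hunit : v (W.a₂ * x) = 1 := by rw [map_mul, ha2, hx, one_mul]
    have : 0 * y - (3 * x ^ 2 + 2 * W.a₂ * x + W.a₄)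
        = W.a₂ * x - (3 * x * (x + W.a₂) + W.a₄) := by ring
    rw [this, Valuation.map_sub_eq_of_lt_left v (by rw [hunit]; exact hsmall), hunit]

end Fermat.Agent.Lib.Frey

/-! ### Additive versions, in the conventions of `Defs.lean` -/

namespace Fermat.Agent.Lib.Frey

open WeierstrassCurve WeierstrassCurve.Affine

variable {K : Type*} [Field K]

/-- the multiplicative valuation underlying an additive one (same function) -/
abbrev frd_mul (v : AddValuation K (WithTop ℚ)) : Valuation K (Multiplicative (WithTop ℚ)ᵒᵈ) := v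

theorem frd_inE1_iff (v : AddValuation K (WithTop ℚ)) {W : WeierstrassCurve K}
    (P : W.toAffine.Point) : fl_InE1 v P ↔ frd_E1 (frd_mul v) W.toAffine P := Iff.rfl

/-- **(L1), additive form.**  `W` any Weierstrass curve with integral coefficients, `P`, `Q`
integral affine points with the same reduction, the reduction of `P` non-singular. -/
theorem frd_sub_inE1 [DecidableEq K] (v : AddValuation K (WithTop ℚ)) {W : WeierstrassCurve K}
    (ha1 : 0 ≤ v W.a₁) (ha2 : 0 ≤ v W.a₂) (ha3 : 0 ≤ v W.a₃) (ha4 : 0 ≤ v W.a₄)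
    (ha6 : 0 ≤ v W.a₆) {x₁ y₁ x₂ y₂ : K} (h₁ : W.toAffine.Nonsingular x₁ y₁)
    (h₂ : W.toAffine.Nonsingular x₂ y₂) (hx₁ : 0 ≤ v x₁) (hy₁ : 0 ≤ v y₁)
    (hx : 0 < v (x₁ - x₂)) (hy : 0 < v (y₁ - y₂))
    (hns : v (W.toAffine.polynomialX.evalEval x₁ y₁) = 0 ∨
      v (W.toAffine.polynomialY.evalEval x₁ y₁) = 0) :
    fl_InE1 v (Point.some x₁ y₁ h₁ - Point.some x₂ y₂ h₂) :=
  frd_sub_mem_E1 (v := frd_mul v) (W := W.toAffine) ⟨ha1, ha2, ha3, ha4, ha6⟩ h₁ h₂ hx₁ hy₁ hx hy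
    hns

/-- (L1) for short models `Y² = X³ + a₂X² + a₄X + a₆` with `v 2 = 0`: the non-singularity of the
reduction reads `v Y = 0 ∨ v f'(X) = 0`. -/
theorem frd_sub_inE1_short [DecidableEq K] (v : AddValuation K (WithTop ℚ))
    {W : WeierstrassCurve K} (h1 : W.a₁ = 0) (h3 : W.a₃ = 0)
    (ha2 : 0 ≤ v W.a₂) (ha4 : 0 ≤ v W.a₄) (ha6 : 0 ≤ v W.a₆) (h2 : v (2 : K) = 0)
    {x₁ y₁ x₂ y₂ : K} (h₁ : W.toAffine.Nonsingular x₁ y₁)
    (h₂ : W.toAffine.Nonsingular x₂ y₂) (hx₁ : 0 ≤ v x₁) (hy₁ : 0 ≤ v y₁)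
    (hx : 0 < v (x₁ - x₂)) (hy : 0 < v (y₁ - y₂))
    (hns : v y₁ = 0 ∨ v (3 * x₁ ^ 2 + 2 * W.a₂ * x₁ + W.a₄) = 0) :
    fl_InE1 v (Point.some x₁ y₁ h₁ - Point.some x₂ y₂ h₂) := by
  refine frd_sub_inE1 v (by rw [h1, AddValuation.map_zero]; exact le_top) ha2
    (by rw [h3, AddValuation.map_zero]; exact le_top) ha4 ha6 h₁ h₂ hx₁ hy₁ hx hy ?_
  rw [evalEval_polynomialX, evalEval_polynomialY, h1, h3]
  rcases hns with h | h
  · right
    rw [zero_mul, add_zero, add_zero, AddValuation.map_mul, h2, h, add_zero]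
  · left
    rw [zero_mul, zero_sub, AddValuation.map_neg]; exact h

/-- **(L1), good reduction**: unit discriminant, any two integral points with the same
reduction. -/
theorem frd_sub_inE1_of_disc [DecidableEq K] (v : AddValuation K (WithTop ℚ))
    {W : WeierstrassCurve K} (ha1 : 0 ≤ v W.a₁) (ha2 : 0 ≤ v W.a₂) (ha3 : 0 ≤ v W.a₃)
    (ha4 : 0 ≤ v W.a₄) (ha6 : 0 ≤ v W.a₆) (hΔ : v W.Δ = 0) {x₁ y₁ x₂ y₂ : K}
    (h₁ : W.toAffine.Nonsingular x₁ y₁) (h₂ : W.toAffine.Nonsingular x₂ y₂) (hx₁ : 0 ≤ v x₁)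
    (hy₁ : 0 ≤ v y₁) (hx : 0 < v (x₁ - x₂)) (hy : 0 < v (y₁ - y₂)) :
    fl_InE1 v (Point.some x₁ y₁ h₁ - Point.some x₂ y₂ h₂) :=
  frd_sub_mem_E1_of_disc (v := frd_mul v) (W := W.toAffine) ⟨ha1, ha2, ha3, ha4, ha6⟩ hΔ h₁ h₂
    hx₁ hy₁ hx hy

/-- **(L1) for the Legendre-type model** `Y² = X (X − δ) (X − ε)`, `v δ > 0`, `v ε = 0`,
`v 2 = 0`: two points with the same reduction, the first with unit `X`-coordinate (i.e. in
`E₀ \ E₁`), differ by an element of `E₁`. -/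
theorem frd_sub_inE1_leg [DecidableEq K] (v : AddValuation K (WithTop ℚ)) {δ ε : K}
    (hδ : 0 < v δ) (hε : v ε = 0) (h2 : v (2 : K) = 0) {x₁ y₁ x₂ y₂ : K}
    (h₁ : (fl_curve δ ε).toAffine.Nonsingular x₁ y₁)
    (h₂ : (fl_curve δ ε).toAffine.Nonsingular x₂ y₂) (hx₁ : v x₁ = 0)
    (hx : 0 < v (x₁ - x₂)) (hy : 0 < v (y₁ - y₂)) :
    fl_InE1 v (Point.some x₁ y₁ h₁ - Point.some x₂ y₂ h₂) := by
  have hsum : v (δ + ε) = 0 := by
    rw [AddValuation.map_add_eq_of_lt_right (v := v) (by rw [hε]; exact hδ), hε]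
  have ha2 : v (fl_curve δ ε).a₂ = 0 := by rw [fl_curve_a₂, AddValuation.map_neg, hsum]
  have ha4 : 0 < v (fl_curve δ ε).a₄ := by
    rw [fl_curve_a₄, AddValuation.map_mul, hε, add_zero]; exact hδ
  -- `y₁` is integral
  have hy₁ : 0 ≤ v y₁ := by
    have he := (fl_curve_equation_iff δ ε x₁ y₁).mp h₁.1
    have h0 : 0 ≤ v (y₁ ^ 2) := by
      rw [he, AddValuation.map_mul, AddValuation.map_mul, hx₁, zero_add]
      have hd : 0 ≤ v (x₁ - δ) := AddValuation.map_le_sub v hx₁.ge hδ.le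
      have he' : 0 ≤ v (x₁ - ε) := AddValuation.map_le_sub v hx₁.ge hε.ge
      exact add_nonneg hd he'
    rw [AddValuation.map_pow] at h0
    by_contra hneg
    rw [not_le] at hneg
    obtain ⟨r, hr, hr0⟩ := WithTop.lt_iff_exists_coe.mp hneg
    rw [hr] at h0
    have hr0' : r < 0 := by exact_mod_cast hr0
    have h0' : (0 : ℚ) ≤ 2 • r := by exact_mod_cast h0
    rw [two_nsmul] at h0'
    linarith
  refine frd_sub_inE1 v (by rw [fl_curve_a₁, AddValuation.map_zero]; exact le_top) ha2.ge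
    (by rw [fl_curve_a₃, AddValuation.map_zero]; exact le_top) ha4.le
    (by rw [fl_curve_a₆, AddValuation.map_zero]; exact le_top) h₁ h₂ hx₁.ge hy₁ hx hy ?_
  exact frd_hns_leg (v := frd_mul v) (W := (fl_curve δ ε).toAffine) rfl rfl rfl ha2 ha4 h2 h₁.1
    hx₁ hy₁


/-! ### Corollaries for an "inertial" automorphism `σ` -/

/-- On a short integral model, an integral `X` forces an integral `Y`. -/
theorem frd_y_integral (v : AddValuation K (WithTop ℚ)) {W : WeierstrassCurve K}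
    (h1 : W.a₁ = 0) (h3 : W.a₃ = 0) (ha2 : 0 ≤ v W.a₂) (ha4 : 0 ≤ v W.a₄) (ha6 : 0 ≤ v W.a₆)
    {x y : K} (h : W.toAffine.Equation x y) (hx : 0 ≤ v x) : 0 ≤ v y := by
  have he := (equation_iff _ _).mp h
  rw [h1, h3] at he
  have h0 : 0 ≤ v (y ^ 2) := by
    have : y ^ 2 = x ^ 3 + W.a₂ * x ^ 2 + W.a₄ * x + W.a₆ := by linear_combination he
    rw [this]
    have hx2 : 0 ≤ v (x ^ 2) := by
      rw [AddValuation.map_pow]; exact nsmul_nonneg hx 2
    have hx3 : 0 ≤ v (x ^ 3) := by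
      rw [AddValuation.map_pow]; exact nsmul_nonneg hx 3
    refine AddValuation.map_le_add v (AddValuation.map_le_add v (AddValuation.map_le_add v hx3 ?_)
      ?_) ha6
    · rw [AddValuation.map_mul]; exact add_nonneg ha2 hx2
    · rw [AddValuation.map_mul]; exact add_nonneg ha4 hx
  rw [AddValuation.map_pow] at h0
  by_contra hneg
  rw [not_le] at hneg
  obtain ⟨r, hr, hr0⟩ := WithTop.lt_iff_exists_coe.mp hneg
  rw [hr] at h0
  have hr0' : r < 0 := by exact_mod_cast hr0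
  have h0' : (0 : ℚ) ≤ 2 • r := by exact_mod_cast h0
  rw [two_nsmul] at h0'
  linarith

/-- **(L1) for `σ`, Legendre-type model**: if `σ` preserves `v` and is trivial modulo the maximal
ideal, then for a point `(x, y)` with unit `x`, `σ(x, y) - (x, y) ∈ E₁`. -/
theorem frd_sigma_sub_inE1_leg [DecidableEq K] (v : AddValuation K (WithTop ℚ)) {δ ε : K}
    (hδ : 0 < v δ) (hε : v ε = 0) (h2 : v (2 : K) = 0) (σ : K →+* K)
    (hσv : ∀ a, v (σ a) = v a) (hσ : ∀ a, 0 ≤ v a → 0 < v (σ a - a)) {x y : K}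
    (h : (fl_curve δ ε).toAffine.Nonsingular x y)
    (h' : (fl_curve δ ε).toAffine.Nonsingular (σ x) (σ y)) (hx : v x = 0) :
    fl_InE1 v (Point.some (σ x) (σ y) h' - Point.some x y h) := by
  have hy : 0 ≤ v y :=
    frd_y_integral v (W := fl_curve δ ε) rfl rfl
      (by
        rw [fl_curve_a₂, AddValuation.map_neg]
        exact AddValuation.map_le_add v hδ.le hε.ge)
      (by rw [fl_curve_a₄, AddValuation.map_mul, hε, add_zero]; exact hδ.le)
      (by rw [fl_curve_a₆, AddValuation.map_zero]; exact le_top) h.1 hx.ge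
  exact frd_sub_inE1_leg v hδ hε h2 h' h (by rw [hσv, hx]) (hσ x hx.ge) (hσ y hy)

/-- **(L1) for `σ`, good reduction** (short model with unit discriminant): for every integral
point, `σ(x, y) - (x, y) ∈ E₁`. -/
theorem frd_sigma_sub_inE1_of_disc [DecidableEq K] (v : AddValuation K (WithTop ℚ))
    {W : WeierstrassCurve K} (h1 : W.a₁ = 0) (h3 : W.a₃ = 0) (ha2 : 0 ≤ v W.a₂)
    (ha4 : 0 ≤ v W.a₄) (ha6 : 0 ≤ v W.a₆) (hΔ : v W.Δ = 0) (σ : K →+* K)
    (hσv : ∀ a, v (σ a) = v a) (hσ : ∀ a, 0 ≤ v a → 0 < v (σ a - a)) {x y : K}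
    (h : W.toAffine.Nonsingular x y) (h' : W.toAffine.Nonsingular (σ x) (σ y)) (hx : 0 ≤ v x) :
    fl_InE1 v (Point.some (σ x) (σ y) h' - Point.some x y h) := by
  have hy : 0 ≤ v y := frd_y_integral v h1 h3 ha2 ha4 ha6 h.1 hx
  exact frd_sub_inE1_of_disc v (by rw [h1, AddValuation.map_zero]; exact le_top) ha2
    (by rw [h3, AddValuation.map_zero]; exact le_top) ha4 ha6 hΔ h' h (by rw [hσv]; exact hx)
    (by rw [hσv]; exact hy) (hσ x hx) (hσ y hy)

end Fermat.Agent.Lib.Frey
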