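/-
S05 (Frey curve unramified at odd q ≠ p): arithmetic plumbing (pairing with the assembly).
(A1) the case split `q ∤ abc`, `q ∣ a`, `q ∣ b`, `q ∣ c` for a Frey package;
(A2) additive valuation of integers when `0 < v q` and integers are integral;
(A3) a square root of an inertia-fixed unit is inertia-fixed;
(A4) the ring identity behind the inertia-fixed point `P₀ = (t², t² w)`.
-/
import Mathlib
import Fermat.Prelude.Def_FLTPrelim_FreyPackage

set_option autoImplicit false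

namespace Fermat.Agent.Lib.Frey

/-! ### (A1) the case split -/

section Frey

variable (P : FreyPackage) {q : ℕ}

theorem fq_not_dvd_of_gcd {x y : ℤ} (h : gcd x y = 1) (hqp : q.Prime) (hx : (q : ℤ) ∣ x) :
    ¬ (q : ℤ) ∣ y := by
  intro hy
  have h1 : (q : ℤ) ∣ gcd x y := dvd_gcd hx hy
  rw [h] at h1
  have hp : Prime (q : ℤ) := Nat.prime_iff_prime_int.mp hqp
  exact hp.not_isUnit (isUnit_of_dvd_one h1)

/-- At most one of `a, b, c` is divisible by `q`. -/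
theorem fq_cases (hq : q.Prime) :
    (¬ (q : ℤ) ∣ P.a ∧ ¬ (q : ℤ) ∣ P.b ∧ ¬ (q : ℤ) ∣ P.c) ∨
    ((q : ℤ) ∣ P.a ∧ ¬ (q : ℤ) ∣ P.b ∧ ¬ (q : ℤ) ∣ P.c) ∨
    ((q : ℤ) ∣ P.b ∧ ¬ (q : ℤ) ∣ P.a ∧ ¬ (q : ℤ) ∣ P.c) ∨
    ((q : ℤ) ∣ P.c ∧ ¬ (q : ℤ) ∣ P.a ∧ ¬ (q : ℤ) ∣ P.b) := by
  by_cases ha : (q : ℤ) ∣ P.a
  · exact Or.inr (Or.inl ⟨ha, fq_not_dvd_of_gcd P.hgcdab hq ha, fq_not_dvd_of_gcd P.hgcdac hq ha⟩)
  by_cases hb : (q : ℤ) ∣ P.b
  · exact Or.inr (Or.inr (Or.inl ⟨hb, ha, fq_not_dvd_of_gcd P.hgcdbc hq hb⟩))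
  by_cases hc : (q : ℤ) ∣ P.c
  · exact Or.inr (Or.inr (Or.inr ⟨hc, ha, hb⟩))
  · exact Or.inl ⟨ha, hb, hc⟩

theorem fq_not_dvd_pow (hq : q.Prime) {x : ℤ} (hx : ¬ (q : ℤ) ∣ x) (n : ℕ) :
    ¬ (q : ℤ) ∣ x ^ n := fun h =>
  hx ((Nat.prime_iff_prime_int.mp hq).dvd_of_dvd_pow h)

/-- Every nonzero integer is `q^k * z'` with `q ∤ z'`. -/
theorem fq_exists_pow_mul (hq : q.Prime) {z : ℤ} (hz : z ≠ 0) :
    ∃ (k : ℕ) (z' : ℤ), ¬ (q : ℤ) ∣ z' ∧ z = (q : ℤ) ^ k * z' := by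
  have hfin : FiniteMultiplicity (q : ℤ) z := by
    rw [Int.finiteMultiplicity_iff]
    refine ⟨?_, hz⟩
    simpa using hq.ne_one
  obtain ⟨c, hc, hc'⟩ := hfin.exists_eq_pow_mul_and_not_dvd
  exact ⟨_, c, hc', hc⟩

/-- A nonzero integer divisible by `q` is `q^k * z'` with `0 < k` and `q ∤ z'`. -/
theorem fq_exists_pow_mul_pos (hq : q.Prime) {z : ℤ} (hz : z ≠ 0) (hqz : (q : ℤ) ∣ z) :
    ∃ (k : ℕ) (z' : ℤ), 0 < k ∧ ¬ (q : ℤ) ∣ z' ∧ z = (q : ℤ) ^ k * z' := by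
  obtain ⟨k, z', h1, h2⟩ := fq_exists_pow_mul hq hz
  refine ⟨k, z', ?_, h1, h2⟩
  rcases Nat.eq_zero_or_pos k with rfl | hk
  · exfalso
    rw [pow_zero, one_mul] at h2
    exact h1 (h2 ▸ hqz)
  · exact hk

end Frey

/-! ### (A2) valuations of integers -/

section Val

variable {K : Type*} [Field K] (v : AddValuation K (WithTop ℚ)) {q : ℕ}

/-- An integer prime to `q` has valuation `0`. -/
theorem fq_v_int_of_isCoprime (hint : ∀ z : ℤ, 0 ≤ v (z : K)) (hq : 0 < v (q : K)) {z : ℤ}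
    (hz : IsCoprime z (q : ℤ)) : v (z : K) = 0 := by
  refine le_antisymm ?_ (hint z)
  by_contra hlt
  rw [not_le] at hlt
  obtain ⟨u, w, huw⟩ := hz
  have h1 : ((u : K) * (z : K) + (w : K) * (q : K)) = 1 := by
    have := congrArg (fun t : ℤ => (t : K)) huw
    push_cast at this ⊢
    exact this
  have hu : 0 < v ((u : K) * (z : K)) := by
    rw [AddValuation.map_mul]
    exact lt_of_lt_of_le hlt (le_add_of_nonneg_left (hint u))
  have hw : 0 < v ((w : K) * (q : K)) := by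
    rw [AddValuation.map_mul]
    exact lt_of_lt_of_le hq (le_add_of_nonneg_left (hint w))
  have : 0 < v (1 : K) := by
    rw [← h1]
    exact AddValuation.map_lt_add v hu hw
  rw [AddValuation.map_one] at this
  exact lt_irrefl _ this

theorem fq_v_int_of_not_dvd (hqp : q.Prime) (hint : ∀ z : ℤ, 0 ≤ v (z : K))
    (hq : 0 < v (q : K)) {z : ℤ} (h : ¬ (q : ℤ) ∣ z) : v (z : K) = 0 := by
  apply fq_v_int_of_isCoprime v hint hq
  have hp : Prime (q : ℤ) := Nat.prime_iff_prime_int.mp hqp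
  exact (IsCoprime.symm ((Prime.coprime_iff_not_dvd hp).mpr h))

theorem fq_v_int_pos_of_dvd (hint : ∀ z : ℤ, 0 ≤ v (z : K)) (hq : 0 < v (q : K)) {z : ℤ}
    (h : (q : ℤ) ∣ z) : 0 < v (z : K) := by
  obtain ⟨w, rfl⟩ := h
  push_cast
  rw [AddValuation.map_mul]
  exact lt_of_lt_of_le hq (le_add_of_nonneg_right (hint w))

theorem fq_v_int_ne_top [CharZero K] {z : ℤ} (hz : z ≠ 0) : v (z : K) ≠ ⊤ := by
  rw [AddValuation.ne_top_iff]
  exact_mod_cast hz

theorem fq_v_nat_of_not_dvd (hqp : q.Prime) (hint : ∀ z : ℤ, 0 ≤ v (z : K))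
    (hq : 0 < v (q : K)) {n : ℕ} (h : ¬ q ∣ n) : v (n : K) = 0 := by
  have := fq_v_int_of_not_dvd v hqp hint hq (z := (n : ℤ)) (by rwa [Int.natCast_dvd_natCast])
  simpa using this

/-- A prime `ℓ ≠ q` has valuation `0`. -/
theorem fq_v_prime (hqp : q.Prime) (hint : ∀ z : ℤ, 0 ≤ v (z : K)) (hq : 0 < v (q : K))
    {ℓ : ℕ} (hℓ : ℓ.Prime) (hne : q ≠ ℓ) : v (ℓ : K) = 0 :=
  fq_v_nat_of_not_dvd v hqp hint hq (fun h => hne ((Nat.prime_dvd_prime_iff_eq hqp hℓ).mp h))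

theorem fq_v_two (hqp : q.Prime) (hint : ∀ z : ℤ, 0 ≤ v (z : K)) (hq : 0 < v (q : K))
    (hq2 : q ≠ 2) : v (2 : K) = 0 := by
  have := fq_v_prime v hqp hint hq Nat.prime_two hq2
  simpa using this

/-- `v (q^k * z') = k • v q` for `z'` prime to `q`. -/
theorem fq_v_pow_mul (hqp : q.Prime) (hint : ∀ z : ℤ, 0 ≤ v (z : K)) (hq : 0 < v (q : K))
    (k : ℕ) {z' : ℤ} (hz : ¬ (q : ℤ) ∣ z') :
    v ((((q : ℤ) ^ k * z' : ℤ)) : K) = k • v (q : K) := by
  push_cast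
  rw [AddValuation.map_mul, AddValuation.map_pow, fq_v_int_of_not_dvd v hqp hint hq hz, add_zero]

/-- The valuation of a nonzero integer is a non-negative rational number. -/
theorem fq_v_int_eq_coe [CharZero K] (hint : ∀ z : ℤ, 0 ≤ v (z : K)) {z : ℤ} (hz : z ≠ 0) :
    ∃ s : ℚ, 0 ≤ s ∧ v (z : K) = (s : WithTop ℚ) := by
  have h := fq_v_int_ne_top v (K := K) hz
  obtain ⟨s, hs⟩ := WithTop.ne_top_iff_exists.mp h
  refine ⟨s, ?_, hs.symm⟩
  have := hint z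
  rw [← hs] at this
  exact_mod_cast this

end Val

/-! ### (A3) square roots of inertia-fixed units -/

section Sqrt

variable {K : Type*} [Field K] (v : AddValuation K (WithTop ℚ))

/-- If `σ` moves integral elements only inside the maximal ideal, `2` is a unit, `u` is a
`σ`-fixed unit and `w² = u`, then `σ w = w`. -/
theorem fq_sqrt_fixed (σ : K ≃+* K) (hσ : ∀ a, 0 ≤ v a → 0 < v (σ a - a)) (h2 : v 2 = 0)
    {u w : K} (hu : σ u = u) (hv : v u = 0) (hw : w ^ 2 = u) : σ w = w := by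
  have hvw : v w = 0 := by
    have h : v (w ^ 2) = 0 := by rw [hw, hv]
    rw [AddValuation.map_pow] at h
    have hne : v w ≠ ⊤ := by
      intro htop
      have hw0 : w = 0 := (AddValuation.top_iff v).mp htop
      rw [hw0] at hw
      rw [← hw] at hv
      simp at hv
    obtain ⟨s, hs⟩ := WithTop.ne_top_iff_exists.mp hne
    rw [← hs] at h ⊢
    have h' : (2 : ℕ) • s = 0 := by exact_mod_cast h
    have : s = 0 := by
      rw [nsmul_eq_mul] at h'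
      have : (2 : ℚ) * s = 0 := by exact_mod_cast h'
      linarith
    rw [this]
    rfl
  have hsq : (σ w) ^ 2 = w ^ 2 := by rw [← map_pow, hw, hu]
  have hfac : (σ w - w) * (σ w + w) = 0 := by linear_combination hsq
  rcases mul_eq_zero.mp hfac with h | h
  · exact sub_eq_zero.mp h
  · exfalso
    have hσw : σ w = -w := eq_neg_of_add_eq_zero_left h
    have hpos := hσ w hvw.ge
    rw [hσw] at hpos
    have : -w - w = -(2 * w) := by ring
    rw [this, AddValuation.map_neg, AddValuation.map_mul, h2, hvw, add_zero] at hpos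
    exact lt_irrefl _ hpos

end Sqrt

/-! ### (A4) the ring identity for the inertia-fixed point -/

section Ident

variable {K : Type*} [Field K]

/-- With `δ = s t^p` (`p = k + 2`), `X₀ = t²` and `u = (1 - s t^k)(t² - ε)` we have
`t⁴ u = X₀ (X₀ - δ) (X₀ - ε)`; so `Y₀ = t² w` with `w² = u` lies on `Y² = X (X - δ)(X - ε)`. -/
theorem fq_point_identity (t s ε : K) (k : ℕ) :
    t ^ 4 * ((1 - s * t ^ k) * (t ^ 2 - ε))
      = t ^ 2 * (t ^ 2 - s * t ^ (k + 2)) * (t ^ 2 - ε) := by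
  ring

theorem fq_point_equation (t s ε w : K) (k : ℕ) (hw : w ^ 2 = (1 - s * t ^ k) * (t ^ 2 - ε)) :
    (t ^ 2 * w) ^ 2 = t ^ 2 * (t ^ 2 - s * t ^ (k + 2)) * (t ^ 2 - ε) := by
  rw [← fq_point_identity, ← hw]
  ring

end Ident

end Fermat.Agent.Lib.Frey
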