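/-
S05 (Frey curve unramified at odd q ≠ p), Layer 1: the abstract theorems for the Legendre-type
model `Y² = X (X − δ) (X − ε)`:
* `fab_main_mult` (multiplicative reduction, `v δ = m > 0`): from (L1), (L2), (L3) and a
  `σ`-fixed point of level `2m/p`, `σ` fixes every `p`-torsion point;
* `fab_main_good` (good reduction, `δ`, `ε`, `δ − ε` units): from (L1), (L2).
-/
import Mathlib
import Fermat.Agent.Lib.Frey.Defs
import Fermat.Agent.Lib.Frey.Abstract

set_option autoImplicit false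

namespace Fermat.Agent.Lib.Frey


open WeierstrassCurve WeierstrassCurve.Affine WeierstrassCurve.Affine.Point

variable {K : Type*} [Field K]

/-! ### small toolkit for `WithTop ℚ`-valued valuations -/

lemma fab_two_nsmul_nonneg {t : WithTop ℚ} (h : 0 ≤ 2 • t) : 0 ≤ t := by
  induction t using WithTop.recTopCoe with
  | top => exact le_top
  | coe r =>
    have h' : ((0 : ℚ) : WithTop ℚ) ≤ ((2 * r : ℚ) : WithTop ℚ) := by
      simpa [two_nsmul, two_mul] using h
    have := WithTop.coe_le_coe.mp h'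
    exact_mod_cast (by linarith : (0 : ℚ) ≤ r)

lemma fab_two_nsmul_pos {t : WithTop ℚ} (h : 0 < t) : 0 < 2 • t := by
  induction t using WithTop.recTopCoe with
  | top => rw [two_nsmul, WithTop.top_add]; exact WithTop.coe_lt_top (0 : ℚ)
  | coe r =>
    have hr : (0 : ℚ) < r := by exact_mod_cast h
    have : ((0 : ℚ) : WithTop ℚ) < ((2 * r : ℚ) : WithTop ℚ) := by
      exact_mod_cast (by linarith : (0 : ℚ) < 2 * r)
    simpa [two_nsmul, two_mul] using this

variable (v : AddValuation K (WithTop ℚ))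

lemma fab_v_nonneg_of_sq {b : K} (h : 0 ≤ v (b ^ 2)) : 0 ≤ v b := by
  rw [v.map_pow] at h; exact fab_two_nsmul_nonneg h

lemma fab_v_sq_pos {b : K} (h : 0 < v b) : 0 < v (b ^ 2) := by
  rw [v.map_pow]; exact fab_two_nsmul_pos h

/-- sum of a unit and a non-unit-valued element is a unit -/
lemma fab_v_add_eq_zero {x y : K} (hx : v x = 0) (hy : 0 < v y) : v (x + y) = 0 := by
  rw [v.map_add_eq_of_lt_left (by rw [hx]; exact hy), hx]

lemma fab_v_mul_eq_zero {x y : K} (hx : v x = 0) (hy : v y = 0) : v (x * y) = 0 := by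
  rw [v.map_mul, hx, hy, add_zero]

lemma fab_v_mul_pos_left {x y : K} (hx : 0 < v x) (hy : 0 ≤ v y) : 0 < v (x * y) := by
  rw [v.map_mul]; exact add_pos_of_pos_of_nonneg hx hy

lemma fab_v_mul_nonneg {x y : K} (hx : 0 ≤ v x) (hy : 0 ≤ v y) : 0 ≤ v (x * y) := by
  rw [v.map_mul]; exact add_nonneg hx hy


/-- Non-singular reduction of points with `v X = 0` on `Y² = X (X − δ) (X − ε)`,
`v δ > 0`, `v ε = 0`. -/
theorem fab_ns_mult {δ ε : K} (hδ : 0 < v δ) (hε : v ε = 0) {a b : K}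
    (h : (fl_curve δ ε).toAffine.Nonsingular a b) (ha : v a = 0) :
    0 ≤ v b ∧ (v b = 0 ∨
      v (3 * a ^ 2 + 2 * (fl_curve δ ε).a₂ * a + (fl_curve δ ε).a₄) = 0) := by
  have heq : b ^ 2 = a * (a - δ) * (a - ε) := (fl_curve_equation_iff δ ε a b).mp h.1
  have haδ : v (a - δ) = 0 := by
    rw [v.map_sub_eq_of_lt_left (by rw [ha]; exact hδ), ha]
  have hη : 0 ≤ v (a - ε) := v.map_le_sub ha.ge hε.ge
  have hb2 : v (b ^ 2) = v (a - ε) := by
    rw [heq, v.map_mul, v.map_mul, ha, haδ, zero_add, zero_add]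
  have hb : 0 ≤ v b := fab_v_nonneg_of_sq v (by rw [hb2]; exact hη)
  refine ⟨hb, ?_⟩
  rcases eq_or_lt_of_le hb with hb0 | hbpos
  · exact Or.inl hb0.symm
  · right
    have hηpos : 0 < v (a - ε) := by rw [← hb2]; exact fab_v_sq_pos v hbpos
    have hexp : 3 * a ^ 2 + 2 * (fl_curve δ ε).a₂ * a + (fl_curve δ ε).a₄ =
        a * (a - δ) + (a - ε) * ((a - δ) + a) := by
      simp only [fl_curve_a₂, fl_curve_a₄]; ring
    rw [hexp]
    refine fab_v_add_eq_zero v (fab_v_mul_eq_zero v ha haδ) ?_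
    exact fab_v_mul_pos_left v hηpos (v.map_le_add haδ.ge ha.ge)

/-- Non-singular reduction of all integral points on `Y² = X (X − δ) (X − ε)` with
`δ`, `ε`, `δ − ε` units (good reduction). -/
theorem fab_ns_good {δ ε : K} (hδ : v δ = 0) (hε : v ε = 0) (hδε : v (δ - ε) = 0) {a b : K}
    (h : (fl_curve δ ε).toAffine.Nonsingular a b) (ha : 0 ≤ v a) :
    0 ≤ v b ∧ (v b = 0 ∨
      v (3 * a ^ 2 + 2 * (fl_curve δ ε).a₂ * a + (fl_curve δ ε).a₄) = 0) := by
  have heq : b ^ 2 = a * (a - δ) * (a - ε) := (fl_curve_equation_iff δ ε a b).mp h.1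
  have h1 : 0 ≤ v (a - δ) := v.map_le_sub ha hδ.ge
  have h2 : 0 ≤ v (a - ε) := v.map_le_sub ha hε.ge
  have hb : 0 ≤ v b := fab_v_nonneg_of_sq v (by
    rw [heq]; exact fab_v_mul_nonneg v (fab_v_mul_nonneg v ha h1) h2)
  refine ⟨hb, ?_⟩
  rcases eq_or_lt_of_le hb with hb0 | hbpos
  · exact Or.inl hb0.symm
  · right
    have hpos : 0 < v (a * (a - δ) * (a - ε)) := by rw [← heq]; exact fab_v_sq_pos v hbpos
    simp only [fl_curve_a₂, fl_curve_a₄]
    -- one of the three factors is a non-unit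
    by_cases ha0 : 0 < v a
    · have e1 : v (a - δ) = 0 := by
        rw [v.map_sub_eq_of_lt_right (by rw [hδ]; exact ha0), hδ]
      have e2 : v (a - ε) = 0 := by
        rw [v.map_sub_eq_of_lt_right (by rw [hε]; exact ha0), hε]
      have hexp : 3 * a ^ 2 + 2 * -(δ + ε) * a + δ * ε =
          (a - δ) * (a - ε) + a * ((a - ε) + (a - δ)) := by ring
      rw [hexp]
      exact fab_v_add_eq_zero v (fab_v_mul_eq_zero v e1 e2)
        (fab_v_mul_pos_left v ha0 (v.map_le_add e2.ge e1.ge))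
    · have ha' : v a = 0 := le_antisymm (not_lt.mp ha0) ha
      by_cases hd0 : 0 < v (a - δ)
      · have e2 : v (a - ε) = 0 := by
          have : a - ε = (δ - ε) + (a - δ) := by ring
          rw [this]; exact fab_v_add_eq_zero v hδε hd0
        have hexp : 3 * a ^ 2 + 2 * -(δ + ε) * a + δ * ε =
            a * (a - ε) + (a - δ) * ((a - ε) + a) := by ring
        rw [hexp]
        exact fab_v_add_eq_zero v (fab_v_mul_eq_zero v ha' e2)
          (fab_v_mul_pos_left v hd0 (v.map_le_add e2.ge ha'.ge))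
      · have hd' : v (a - δ) = 0 := le_antisymm (not_lt.mp hd0) h1
        have he0 : 0 < v (a - ε) := by
          rw [v.map_mul, v.map_mul, ha', hd', zero_add, zero_add] at hpos
          exact hpos
        have hexp : 3 * a ^ 2 + 2 * -(δ + ε) * a + δ * ε =
            a * (a - δ) + (a - ε) * ((a - δ) + a) := by ring
        rw [hexp]
        exact fab_v_add_eq_zero v (fab_v_mul_eq_zero v ha' hd')
          (fab_v_mul_pos_left v he0 (v.map_le_add hd'.ge ha'.ge))


/-! ### The two abstract theorems -/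

section main

variable {K : Type*} [Field K] [DecidableEq K] (v : AddValuation K (WithTop ℚ))

/-- Hypothesis shape of (L3): a `p`-torsion point differs from a multiple of a point of level
`2m/p` by a point of `E₀`. -/
def fab_HypL3 (δ ε : K) (m : ℚ) (p : ℕ) : Prop :=
  ∀ (x P0 : (fl_curve δ ε).toAffine.Point), p • x = 0 →
    ∀ (X0 Y0 : K) (h0 : (fl_curve δ ε).toAffine.Nonsingular X0 Y0), P0 = .some X0 Y0 h0 →
      v X0 = ((2 * m / p : ℚ) : WithTop ℚ) → ∃ j : ℤ, fl_InE0 v (x - j • P0)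

/-- **Multiplicative case.** -/
theorem fab_main_mult (σ : K ≃+* K) (hσv : ∀ a, v (σ a) = v a)
    (hσI : ∀ a, 0 ≤ v a → 0 < v (σ a - a)) (δ ε : K) (hσδ : σ δ = δ) (hσε : σ ε = ε)
    (m : ℚ) (hm : 0 < m) (hδ : v δ = (m : ℚ)) (hε : v ε = 0) (p : ℕ)
    (L1 : fab_HypL1 v (fl_curve δ ε)) (L2 : fab_HypL2 v (fl_curve δ ε) p)
    (L3 : fab_HypL3 v δ ε m p)
    (X₀ Y₀ : K) (h₀ : (fl_curve δ ε).toAffine.Nonsingular X₀ Y₀) (hX₀ : σ X₀ = X₀)
    (hY₀ : σ Y₀ = Y₀) (hvX₀ : v X₀ = ((2 * m / p : ℚ) : WithTop ℚ))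
    (X Y : K) (h : (fl_curve δ ε).toAffine.Nonsingular X Y)
    (hx : p • (Point.some X Y h) = 0) : σ X = X ∧ σ Y = Y := by
  have hW : (fl_curve δ ε).map (σ : K →+* K) = fl_curve δ ε :=
    fab_fl_curve_map (σ : K →+* K) (by simpa using hσδ) (by simpa using hσε)
  have hδpos : 0 < v δ := by rw [hδ]; exact_mod_cast hm
  obtain ⟨j, hj⟩ := L3 (Point.some X Y h) (Point.some X₀ Y₀ h₀) hx X₀ Y₀ h₀ rfl hvX₀
  have hP₀ : fab_sigma (σ : K →+* K) (fl_curve δ ε) hW (Point.some X₀ Y₀ h₀) =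
      Point.some X₀ Y₀ h₀ :=
    fab_sigma_eq_of_coords hW (by simpa using hX₀) (by simpa using hY₀)
  have hfix := fab_fixed_of_sub_inE0 (σ := (σ : K →+* K)) hW (fun a => by simpa using hσv a)
    (fun a ha => by simpa using hσI a ha) L1 L2
    (fun a b hab ha => fab_ns_mult v hδpos hε hab ha) hP₀ hx j hj
  simpa using fab_coords_of_sigma_eq hW hfix

/-- **Good reduction case.** -/
theorem fab_main_good (σ : K ≃+* K) (hσv : ∀ a, v (σ a) = v a)
    (hσI : ∀ a, 0 ≤ v a → 0 < v (σ a - a)) (δ ε : K) (hσδ : σ δ = δ) (hσε : σ ε = ε)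
    (hδ : v δ = 0) (hε : v ε = 0) (hδε : v (δ - ε) = 0) (p : ℕ)
    (L1 : fab_HypL1 v (fl_curve δ ε)) (L2 : fab_HypL2 v (fl_curve δ ε) p)
    (X Y : K) (h : (fl_curve δ ε).toAffine.Nonsingular X Y)
    (hx : p • (Point.some X Y h) = 0) : σ X = X ∧ σ Y = Y := by
  have hW : (fl_curve δ ε).map (σ : K →+* K) = fl_curve δ ε :=
    fab_fl_curve_map (σ : K →+* K) (by simpa using hσδ) (by simpa using hσε)
  have hσv' : ∀ a, v ((σ : K →+* K) a) = v a := fun a => by simpa using hσv a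
  have hσI' : ∀ a, 0 ≤ v a → 0 < v ((σ : K →+* K) a - a) := fun a ha => by simpa using hσI a ha
  set s := fab_sigma (σ : K →+* K) (fl_curve δ ε) hW with hs
  set x := Point.some X Y h with hxdef
  have hE1 : fl_InE1 v (s x - x) := by
    rcases lt_or_ge (v X) 0 with hX | hX
    · have h1 : fl_InE1 v x := Or.inr ⟨X, Y, h, rfl, hX⟩
      exact L2.sub_mem _ _ (fab_sigma_mem_E1 hW hσv' h1) h1
    · obtain ⟨hb, hns⟩ := fab_ns_good v hδ hε hδε h hX
      exact fab_sigma_sub_mem_E1_of_integral hW hσv' hσI' L1 h hX hb hns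
  have hp : p • (s x - x) = 0 := by
    rw [smul_sub, ← map_nsmul, hx, _root_.map_zero, sub_zero]
  have hfix : s x = x := sub_eq_zero.mp (L2.torsion _ hE1 hp)
  simpa using fab_coords_of_sigma_eq hW hfix

end main

end Fermat.Agent.Lib.Frey
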