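/-
S05, route U (unsigned `X`-only level): a small `ℚ`-valued `ord` toolkit on top of
`v : AddValuation K (WithTop ℚ)` and the DUPLICATION lemma for the level:
`a(2P) = min (2 a(P)) (2m - 2 a(P))` on `Y² = X (X − δ) (X − ε)`, `v δ = m > 0`, `v ε = 0 = v 2`.
-/
import Mathlib

set_option autoImplicit false

namespace Fermat.Agent.Lib.Frey

variable {K : Type*} [Field K] (v : AddValuation K (WithTop ℚ))

/-! ### A `ℚ`-valued order function for nonzero elements -/

/-- `ord z ∈ ℚ` (junk value `0` at `z = 0`). -/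
noncomputable def frd_ord (z : K) : ℚ := (v z).untopD 0

theorem frd_v_eq {z : K} (hz : z ≠ 0) : v z = (frd_ord v z : WithTop ℚ) := by
  have h : v z ≠ ⊤ := (AddValuation.ne_top_iff v).mpr hz
  obtain ⟨r, hr⟩ := WithTop.ne_top_iff_exists.mp h
  rw [frd_ord, ← hr]; rfl

theorem frd_ord_eq_of_v_eq {z : K} {r : ℚ} (h : v z = (r : WithTop ℚ)) : frd_ord v z = r := by
  rw [frd_ord, h]; rfl

theorem frd_ne_zero_of_v_eq {z : K} {r : ℚ} (h : v z = (r : WithTop ℚ)) : z ≠ 0 := by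
  intro h0
  rw [h0, AddValuation.map_zero] at h
  exact WithTop.top_ne_coe h

theorem frd_ord_mul {a b : K} (ha : a ≠ 0) (hb : b ≠ 0) :
    frd_ord v (a * b) = frd_ord v a + frd_ord v b := by
  apply frd_ord_eq_of_v_eq
  rw [AddValuation.map_mul, frd_v_eq v ha, frd_v_eq v hb, WithTop.coe_add]

theorem frd_ord_pow {a : K} (ha : a ≠ 0) (n : ℕ) : frd_ord v (a ^ n) = n * frd_ord v a := by
  induction n with
  | zero => simp [frd_ord]
  | succ n ih =>
    rw [pow_succ, frd_ord_mul v (pow_ne_zero n ha) ha, ih]; push_cast; ring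

theorem frd_ord_neg (a : K) : frd_ord v (-a) = frd_ord v a := by
  rw [frd_ord, frd_ord, AddValuation.map_neg]

/-- strict minimum rule -/
theorem frd_ord_add_of_lt {a b : K} (ha : a ≠ 0) (hb : b ≠ 0)
    (h : frd_ord v a < frd_ord v b) : a + b ≠ 0 ∧ frd_ord v (a + b) = frd_ord v a := by
  have hlt : v a < v b := by
    rw [frd_v_eq v ha, frd_v_eq v hb]; exact_mod_cast h
  have hv : v (a + b) = v a := AddValuation.map_add_eq_of_lt_left (v := v) hlt
  have hne : a + b ≠ 0 := by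
    intro h0
    rw [h0, AddValuation.map_zero, frd_v_eq v ha] at hv
    exact WithTop.top_ne_coe hv
  exact ⟨hne, by rw [frd_ord, hv]; rfl⟩

/-- strict minimum rule when the second summand may vanish -/
theorem frd_ord_add_of_lt' {a b : K} (ha : a ≠ 0) (h : b = 0 ∨ frd_ord v a < frd_ord v b) :
    a + b ≠ 0 ∧ frd_ord v (a + b) = frd_ord v a := by
  by_cases hb : b = 0
  · subst hb; rw [add_zero]; exact ⟨ha, rfl⟩
  · exact frd_ord_add_of_lt v ha hb (h.resolve_left hb)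

theorem frd_ord_sub_of_lt' {a b : K} (ha : a ≠ 0) (h : b = 0 ∨ frd_ord v a < frd_ord v b) :
    a - b ≠ 0 ∧ frd_ord v (a - b) = frd_ord v a := by
  rw [sub_eq_add_neg]
  apply frd_ord_add_of_lt' v ha
  rcases h with h | h
  · left; rw [h, neg_zero]
  · right; rwa [frd_ord_neg]

theorem frd_ord_sub_of_gt' {a b : K} (hb : b ≠ 0) (h : a = 0 ∨ frd_ord v b < frd_ord v a) :
    a - b ≠ 0 ∧ frd_ord v (a - b) = frd_ord v b := by
  have := frd_ord_sub_of_lt' v hb h
  have h2 : a - b = -(b - a) := by ring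
  rw [h2, frd_ord_neg]
  exact ⟨neg_ne_zero.mpr this.1, this.2⟩

/-- lower bound for a nonzero sum -/
theorem frd_ord_add_ge {a b : K} (hab : a + b ≠ 0) {r : ℚ} (ha : a = 0 ∨ r ≤ frd_ord v a)
    (hb : b = 0 ∨ r ≤ frd_ord v b) : r ≤ frd_ord v (a + b) := by
  have h1 : (r : WithTop ℚ) ≤ v a := by
    rcases eq_or_ne a 0 with h0 | h0
    · rw [h0, AddValuation.map_zero]; exact le_top
    · rw [frd_v_eq v h0]; exact_mod_cast ha.resolve_left h0
  have h2 : (r : WithTop ℚ) ≤ v b := by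
    rcases eq_or_ne b 0 with h0 | h0
    · rw [h0, AddValuation.map_zero]; exact le_top
    · rw [frd_v_eq v h0]; exact_mod_cast hb.resolve_left h0
  have := AddValuation.map_le_add v h1 h2
  rw [frd_v_eq v hab] at this
  exact_mod_cast this

theorem frd_ord_sub_ge {a b : K} (hab : a - b ≠ 0) {r : ℚ} (ha : a = 0 ∨ r ≤ frd_ord v a)
    (hb : b = 0 ∨ r ≤ frd_ord v b) : r ≤ frd_ord v (a - b) := by
  rw [sub_eq_add_neg] at hab ⊢
  apply frd_ord_add_ge v hab ha
  rcases hb with h | h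
  · left; rw [h, neg_zero]
  · right; rwa [frd_ord_neg]

/-! ### The unsigned level predicate -/

/-- `frd_IsLvl v m X t`: the unsigned level of a point with `X`-coordinate `X` is `t ∈ [0, m]`. -/
def frd_IsLvl (m : ℚ) (X : K) (t : ℚ) : Prop :=
  (v X ≤ 0 ∧ t = 0) ∨ (∃ s : ℚ, v X = s ∧ 0 < s ∧ s < m ∧ t = s) ∨ ((m : WithTop ℚ) ≤ v X ∧ t = m)

variable {v}

theorem frd_isLvl_of_ord_le {m : ℚ} {X : K} (hX : X ≠ 0) (h : frd_ord v X ≤ 0) :
    frd_IsLvl v m X 0 := by
  left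
  refine ⟨?_, rfl⟩
  rw [frd_v_eq v hX]; exact_mod_cast h

theorem frd_isLvl_of_ord_mid {m : ℚ} {X : K} (hX : X ≠ 0) (h0 : 0 < frd_ord v X)
    (hm : frd_ord v X < m) : frd_IsLvl v m X (frd_ord v X) :=
  Or.inr (Or.inl ⟨frd_ord v X, frd_v_eq v hX, h0, hm, rfl⟩)

theorem frd_isLvl_of_ord_ge {m : ℚ} {X : K} (h : X = 0 ∨ m ≤ frd_ord v X) :
    frd_IsLvl v m X m := by
  right; right
  refine ⟨?_, rfl⟩
  rcases eq_or_ne X 0 with h0 | h0
  · rw [h0, AddValuation.map_zero]; exact le_top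
  · rw [frd_v_eq v h0]; exact_mod_cast h.resolve_left h0

/-- **Duplication for the unsigned level.** -/
theorem frd_lemmaDup {δ ε x y T : K} {m a : ℚ} (hm : 0 < m) (hδ : v δ = (m : ℚ))
    (hε : v ε = 0) (h2 : v (2 : K) = 0) (hy : y ≠ 0) (hxy : y ^ 2 = x * (x - δ) * (x - ε))
    (hT : T * (4 * y ^ 2) = (x ^ 2 - δ * ε) ^ 2) (h : frd_IsLvl v m x a) :
    frd_IsLvl v m T (min (2 * a) (2 * m - 2 * a)) := by
  -- nonvanishing and orders of the constants
  have hδ0 : δ ≠ 0 := frd_ne_zero_of_v_eq v hδ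
  have hε0 : ε ≠ 0 := frd_ne_zero_of_v_eq v (r := 0) (by rw [hε]; rfl)
  have h20 : (2 : K) ≠ 0 := frd_ne_zero_of_v_eq v (r := 0) (by rw [h2]; rfl)
  have oδ : frd_ord v δ = m := frd_ord_eq_of_v_eq v hδ
  have oε : frd_ord v ε = 0 := frd_ord_eq_of_v_eq v (r := 0) (by rw [hε]; rfl)
  have o2 : frd_ord v (2 : K) = 0 := frd_ord_eq_of_v_eq v (r := 0) (by rw [h2]; rfl)
  have hy2 : y ^ 2 ≠ 0 := pow_ne_zero 2 hy
  have hx0 : x ≠ 0 := by
    intro h0; rw [h0] at hxy; simp at hxy; exact hy hxy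
  have hxδ : x - δ ≠ 0 := by
    intro h0; rw [h0] at hxy; simp at hxy; exact hy hxy
  have hxε : x - ε ≠ 0 := by
    intro h0; rw [h0] at hxy; simp at hxy; exact hy hxy
  have h4 : (4 : K) ≠ 0 := by
    have : (4 : K) = 2 * 2 := by norm_num
    rw [this]; exact mul_ne_zero h20 h20
  have o4 : frd_ord v (4 : K) = 0 := by
    have : (4 : K) = 2 * 2 := by norm_num
    rw [this, frd_ord_mul v h20 h20, o2]; ring
  have oδε : frd_ord v (δ * ε) = m := by rw [frd_ord_mul v hδ0 hε0, oδ, oε]; ring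
  have hδε0 : δ * ε ≠ 0 := mul_ne_zero hδ0 hε0
  -- ord of y²
  have oy2 : frd_ord v (y ^ 2) = frd_ord v x + frd_ord v (x - δ) + frd_ord v (x - ε) := by
    rw [hxy, frd_ord_mul v (mul_ne_zero hx0 hxδ) hxε, frd_ord_mul v hx0 hxδ]
  have hden : 4 * y ^ 2 ≠ 0 := mul_ne_zero h4 hy2
  have oden : frd_ord v (4 * y ^ 2) = frd_ord v (y ^ 2) := by
    rw [frd_ord_mul v h4 hy2, o4]; ring
  -- the key relation for ord T when the numerator does not vanish
  have hTord : x ^ 2 - δ * ε ≠ 0 →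
      T ≠ 0 ∧ frd_ord v T = 2 * frd_ord v (x ^ 2 - δ * ε) - frd_ord v (y ^ 2) := by
    intro hnum
    have hT0 : T ≠ 0 := by
      intro h0; rw [h0, zero_mul] at hT
      exact pow_ne_zero 2 hnum hT.symm
    refine ⟨hT0, ?_⟩
    have := congrArg (frd_ord v) hT
    rw [frd_ord_mul v hT0 hden, oden, frd_ord_pow v hnum] at this
    push_cast at this
    linarith
  have ox2 : frd_ord v (x ^ 2) = 2 * frd_ord v x := by
    rw [frd_ord_pow v hx0]; push_cast; ring
  have hx20 : x ^ 2 ≠ 0 := pow_ne_zero 2 hx0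
  rcases h with ⟨hx, ha⟩ | ⟨s, hxs, hs0, hsm, ha⟩ | ⟨hx, ha⟩
  · -- regime Z : `ord x ≤ 0`, level `0`
    rw [ha]
    have hox : frd_ord v x ≤ 0 := by
      rw [frd_v_eq v hx0] at hx; exact_mod_cast hx
    have hmin : min (2 * (0 : ℚ)) (2 * m - 2 * 0) = 0 := by
      rw [mul_zero, sub_zero]; exact min_eq_left (by linarith)
    rw [hmin]
    -- numerator: `ord (x² - δε) = 2 ord x`
    obtain ⟨hnum, onum⟩ := frd_ord_sub_of_lt' v hx20 (b := δ * ε) (Or.inr (by rw [ox2, oδε]; linarith))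
    obtain ⟨hT0, oT⟩ := hTord hnum
    apply frd_isLvl_of_ord_le hT0
    rw [oT, onum, ox2, oy2]
    rcases lt_or_eq_of_le hox with hneg | hzero
    · -- `ord x < 0`
      obtain ⟨-, o1⟩ := frd_ord_sub_of_lt' v hx0 (b := δ) (Or.inr (by rw [oδ]; linarith))
      obtain ⟨-, o2'⟩ := frd_ord_sub_of_lt' v hx0 (b := ε) (Or.inr (by rw [oε]; linarith))
      rw [o1, o2']; linarith
    · -- `ord x = 0`
      obtain ⟨-, o1⟩ := frd_ord_sub_of_lt' v hx0 (b := δ) (Or.inr (by rw [oδ]; linarith))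
      have o2' : 0 ≤ frd_ord v (x - ε) :=
        frd_ord_sub_ge v hxε (Or.inr (by linarith)) (Or.inr (by linarith))
      rw [o1]; linarith
  · -- regime N : `0 < ord x = s < m`, level `s`
    rw [ha]
    have hox : frd_ord v x = s := frd_ord_eq_of_v_eq v hxs
    obtain ⟨-, o1⟩ := frd_ord_sub_of_lt' v hx0 (b := δ) (Or.inr (by rw [oδ, hox]; exact hsm))
    obtain ⟨-, o2'⟩ := frd_ord_sub_of_gt' v (a := x) hε0 (Or.inr (by rw [oε, hox]; exact hs0))
    have oy : frd_ord v (y ^ 2) = 2 * s := by rw [oy2, o1, o2', hox, oε]; ring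
    rcases lt_trichotomy (2 * s) m with hlt | heq | hgt
    · -- `2s < m`
      obtain ⟨hnum, onum⟩ := frd_ord_sub_of_lt' v hx20 (b := δ * ε) (Or.inr (by rw [ox2, oδε, hox]; exact hlt))
      obtain ⟨hT0, oT⟩ := hTord hnum
      have oT' : frd_ord v T = 2 * s := by rw [oT, onum, ox2, hox, oy]; ring
      have hmin : min (2 * s) (2 * m - 2 * s) = 2 * s := min_eq_left (by linarith)
      rw [hmin, ← oT']
      exact frd_isLvl_of_ord_mid hT0 (by rw [oT']; linarith) (by rw [oT']; exact hlt)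
    · -- `2s = m`
      have hmin : min (2 * s) (2 * m - 2 * s) = m := by
        rw [heq]; exact min_eq_left (by linarith)
      rw [hmin]
      apply frd_isLvl_of_ord_ge
      by_cases hnum : x ^ 2 - δ * ε = 0
      · left
        rw [hnum] at hT
        have : T * (4 * y ^ 2) = 0 := by rw [hT]; ring
        exact (mul_eq_zero.mp this).resolve_right hden
      · right
        obtain ⟨hT0, oT⟩ := hTord hnum
        have onum : m ≤ frd_ord v (x ^ 2 - δ * ε) :=
          frd_ord_sub_ge v hnum (Or.inr (by rw [ox2, hox]; linarith)) (Or.inr (by rw [oδε]))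
        rw [oT, oy]; linarith
    · -- `2s > m`
      obtain ⟨hnum, onum⟩ := frd_ord_sub_of_gt' v (a := x ^ 2) hδε0
        (Or.inr (by rw [ox2, oδε, hox]; exact hgt))
      obtain ⟨hT0, oT⟩ := hTord hnum
      have oT' : frd_ord v T = 2 * m - 2 * s := by rw [oT, onum, oδε, oy]
      have hmin : min (2 * s) (2 * m - 2 * s) = 2 * m - 2 * s := min_eq_right (by linarith)
      rw [hmin, ← oT']
      exact frd_isLvl_of_ord_mid hT0 (by rw [oT']; linarith) (by rw [oT']; linarith)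
  · -- regime M : `m ≤ ord x`, level `m`
    rw [ha]
    have hox : m ≤ frd_ord v x := by
      rw [frd_v_eq v hx0] at hx; exact_mod_cast hx
    have hmin : min (2 * m) (2 * m - 2 * m) = 0 := by
      rw [sub_self]; exact min_eq_right (by linarith)
    rw [hmin]
    obtain ⟨hnum, onum⟩ := frd_ord_sub_of_gt' v (a := x ^ 2) hδε0
      (Or.inr (by rw [ox2, oδε]; linarith))
    obtain ⟨hT0, oT⟩ := hTord hnum
    apply frd_isLvl_of_ord_le hT0
    obtain ⟨-, o2'⟩ := frd_ord_sub_of_gt' v (a := x) hε0 (Or.inr (by rw [oε]; linarith))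
    have o1 : m ≤ frd_ord v (x - δ) :=
      frd_ord_sub_ge v hxδ (Or.inr hox) (Or.inr (by rw [oδ]))
    rw [oT, onum, oδε, oy2, o2', oε]; linarith

end Fermat.Agent.Lib.Frey
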