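import Fermat.Agent.Lib.Frey.ULevelVal
import Fermat.Agent.Lib.Frey.ULevelDup

/-!
# The duplication lemma for the unsigned level, stated with `fuc_IsLvl` (S05, route U)

`frd_IsLvl` (file `ULevelDup`) and `fuc_IsLvl` (file `ULevelVal`) are the same predicate; this file
records the equivalence and restates `frd_lemmaDup` with `fuc_IsLvl`, so that the glue code uses
one predicate only.
-/

namespace Fermat.Agent.Lib.Frey

variable {K : Type*} [Field K]

theorem frd_isLvl_iff_fuc (v : AddValuation K (WithTop ℚ)) (m : ℚ) (X : K) (t : ℚ) :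
    frd_IsLvl v m X t ↔ fuc_IsLvl v m X t := Iff.rfl

/-- Duplication lemma for the unsigned level, `fuc_IsLvl` form: if `x` has level `a` and
`T · 4 y² = (x² − δ ε)²` (the `X`-coordinate of `2 P`), then `T` has level `min (2a) (2m − 2a)`. -/
theorem frd_lemmaDup_fuc {v : AddValuation K (WithTop ℚ)} {δ ε x y T : K} {m a : ℚ} (hm : 0 < m)
    (hδ : v δ = (m : ℚ)) (hε : v ε = 0) (h2 : v (2 : K) = 0) (hy : y ≠ 0)
    (hxy : y ^ 2 = x * (x - δ) * (x - ε)) (hT : T * (4 * y ^ 2) = (x ^ 2 - δ * ε) ^ 2)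
    (h : fuc_IsLvl v m x a) : fuc_IsLvl v m T (min (2 * a) (2 * m - 2 * a)) :=
  (frd_isLvl_iff_fuc v m T _).1
    (frd_lemmaDup hm hδ hε h2 hy hxy hT ((frd_isLvl_iff_fuc v m x a).2 h))

end Fermat.Agent.Lib.Frey
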