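import Fermat.Agent.Lib.Frey.ULevelAbs
import Fermat.Agent.Lib.Frey.ULevelU
import Fermat.Agent.Lib.Frey.ULevelDupU
import Fermat.Agent.Lib.Frey.E1
import Fermat.Agent.Lib.Frey.AbstractLeg

/-!
# Glue for the unsigned-level route (S05, route U): `fab_HypL3`

The unsigned level `fuc_lvl` of a point of `Y² = X (X - δ) (X - ε)` satisfies the parallelogram law
`fuc_Law` (from `fuc_lemmaU`, the duplication lemma and the degenerate cases), hence by the abstract
tail `fuc_exists_sub_level_zero` every `p`-torsion point differs from a multiple of a point of level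
`2m/p` by a point of `E₀`.
-/

namespace Fermat.Agent.Lib.Frey

open WeierstrassCurve WeierstrassCurve.Affine WeierstrassCurve.Affine.Point

variable {K : Type*} [Field K] (v : AddValuation K (WithTop ℚ))

/-- unsigned level of a point (`0` at the point at infinity) -/
noncomputable def fuc_lvl (m : ℚ) {W : Affine K} : W.Point → ℚ
  | .zero => 0
  | .some x _ _ => Classical.choose (fuc_isLvl_exists v m x)

theorem fuc_lvl_zero (m : ℚ) {W : Affine K} : fuc_lvl v m (0 : W.Point) = 0 := rfl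

theorem fuc_lvl_some_spec (m : ℚ) {W : Affine K} {x y : K} (h : W.Nonsingular x y) :
    fuc_IsLvl v m x (fuc_lvl v m (Point.some x y h)) :=
  Classical.choose_spec (fuc_isLvl_exists v m x)

theorem fuc_lvl_eq_of_isLvl {m : ℚ} (hm : 0 < m) {W : Affine K} {x y : K} (h : W.Nonsingular x y)
    {t : ℚ} (ht : fuc_IsLvl v m x t) : fuc_lvl v m (Point.some x y h) = t :=
  fuc_isLvl_unique v hm (fuc_lvl_some_spec v m h) ht

theorem fuc_lvl_eq_of_X {m : ℚ} (hm : 0 < m) {W : Affine K} {P : W.Point} (hP : P ≠ 0) {t : ℚ}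
    (ht : fuc_IsLvl v m (fe1_X P) t) : fuc_lvl v m P = t := by
  rcases P with _ | ⟨x, y, h⟩
  · exact absurd rfl hP
  · exact fuc_lvl_eq_of_isLvl v hm h ht

theorem fuc_lvl_nonneg {m : ℚ} (hm : 0 < m) {W : Affine K} (P : W.Point) : 0 ≤ fuc_lvl v m P := by
  rcases P with _ | ⟨x, y, h⟩
  · exact le_rfl
  · exact fuc_isLvl_nonneg v hm (fuc_lvl_some_spec v m h)

theorem fuc_lvl_le {m : ℚ} (hm : 0 < m) {W : Affine K} (P : W.Point) : fuc_lvl v m P ≤ m := by
  rcases P with _ | ⟨x, y, h⟩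
  · exact hm.le
  · exact fuc_isLvl_le v hm (fuc_lvl_some_spec v m h)

theorem fuc_lvl_neg {m : ℚ} (hm : 0 < m) {W : Affine K} (P : W.Point) :
    fuc_lvl v m (-P) = fuc_lvl v m P := by
  rcases P with _ | ⟨x, y, h⟩
  · rfl
  · rw [Point.neg_some]
    exact fuc_lvl_eq_of_isLvl v hm _ (fuc_lvl_some_spec v m h)

theorem fuc_inE0_of_lvl_zero {m : ℚ} (hm : 0 < m) {W : Affine K} {P : W.Point}
    (h : fuc_lvl v m P = 0) : fl_InE0 v P := by
  rcases P with _ | ⟨x, y, hxy⟩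
  · exact Or.inl rfl
  · refine Or.inr ⟨x, y, hxy, rfl, ?_⟩
    have := fuc_lvl_some_spec v m hxy
    rw [h] at this
    exact (fuc_isLvl_zero_iff v hm).mp this

section law

variable {δ ε : K} {m : ℚ}

/-- a point with `Y = 0` has level `0` or `m` -/
theorem fuc_lvl_two_torsion (hm : 0 < m) (hδ : v δ = (m : ℚ)) (hε : v ε = 0) {x : K}
    (hx : x * (x - δ) * (x - ε) = 0) {a : ℚ} (ha : fuc_IsLvl v m x a) :
    min (2 * a) (2 * m - 2 * a) = 0 := by
  have hcases : a = 0 ∨ a = m := by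
    rcases mul_eq_zero.mp hx with h | h
    · rcases mul_eq_zero.mp h with h | h
      · right
        refine fuc_isLvl_unique v hm ha (Or.inr (Or.inr ⟨?_, rfl⟩))
        rw [h, v.map_zero]; exact le_top
      · right
        refine fuc_isLvl_unique v hm ha (Or.inr (Or.inr ⟨?_, rfl⟩))
        rw [sub_eq_zero.mp h, hδ]
    · left
      refine fuc_isLvl_unique v hm ha (Or.inl ⟨?_, rfl⟩)
      rw [sub_eq_zero.mp h, hε]
  rcases hcases with h | h
  · rw [h]; simp [hm.le]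
  · rw [h]; simp [hm.le]

theorem fuc_leg_eqn {x y : K} (h : (fl_curve δ ε).toAffine.Nonsingular x y) :
    y ^ 2 = x * (x - δ) * (x - ε) := (fl_curve_equation_iff δ ε x y).mp h.1

variable [DecidableEq K]

/-- the parallelogram law for `P = Q` -/
theorem fuc_law_self (hm : 0 < m) (hδ : v δ = (m : ℚ)) (hε : v ε = 0) (h2 : v 2 = 0) {x y : K}
    (h : (fl_curve δ ε).toAffine.Nonsingular x y) :
    fuc_lvl v m (Point.some x y h + Point.some x y h) =
      min (2 * fuc_lvl v m (Point.some x y h)) (2 * m - 2 * fuc_lvl v m (Point.some x y h)) := by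
  have hspec := fuc_lvl_some_spec v m h
  have heq := fuc_leg_eqn h
  by_cases hy : y = 0
  · have hneg : y = (fl_curve δ ε).toAffine.negY x y := by
      rw [negY, hy]; simp
    rw [Point.add_self_of_Y_eq hneg, fuc_lvl_zero]
    refine (fuc_lvl_two_torsion v hm hδ hε ?_ hspec).symm
    rw [← heq, hy]; ring
  · have h20 : (2 : K) ≠ 0 := by
      intro h0; rw [h0, v.map_zero] at h2; simp at h2
    obtain ⟨hne, hX⟩ := fe1_X_dbl (W := (fl_curve δ ε).toAffine) rfl rfl h hy h20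
    refine fuc_lvl_eq_of_X v hm hne ?_
    rw [hX]
    refine frd_lemmaDup_fuc hm hδ hε h2 hy heq ?_ hspec
    simp only [fl_curve_a₂, fl_curve_a₄]
    have hT : (((3 * x ^ 2 + 2 * (-(δ + ε)) * x + δ * ε) / (2 * y)) ^ 2 - -(δ + ε) - x - x) *
        (4 * y ^ 2) =
        (3 * x ^ 2 + 2 * (-(δ + ε)) * x + δ * ε) ^ 2 + (δ + ε - 2 * x) * (4 * y ^ 2) := by
      field_simp
      ring
    rw [hT, heq]; ring

theorem fuc_law_some (hm : 0 < m) (hδ : v δ = (m : ℚ)) (hε : v ε = 0) (h2 : v 2 = 0)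
    {x₁ y₁ x₂ y₂ : K} (h₁ : (fl_curve δ ε).toAffine.Nonsingular x₁ y₁)
    (h₂ : (fl_curve δ ε).toAffine.Nonsingular x₂ y₂) :
    let P := Point.some x₁ y₁ h₁
    let Q := Point.some x₂ y₂ h₂
    (fuc_lvl v m (P + Q) = min (fuc_lvl v m P + fuc_lvl v m Q) (2 * m - fuc_lvl v m P - fuc_lvl v m Q) ∧
      fuc_lvl v m (P - Q) = |fuc_lvl v m P - fuc_lvl v m Q|) ∨
    (fuc_lvl v m (P + Q) = |fuc_lvl v m P - fuc_lvl v m Q| ∧
      fuc_lvl v m (P - Q) = min (fuc_lvl v m P + fuc_lvl v m Q) (2 * m - fuc_lvl v m P - fuc_lvl v m Q)) := by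
  intro P Q
  by_cases hx : x₁ = x₂
  · subst hx
    have hlv : fuc_lvl v m Q = fuc_lvl v m P :=
      fuc_lvl_eq_of_isLvl v hm h₂ (fuc_lvl_some_spec v m h₁)
    rcases Y_eq_of_X_eq h₁.1 h₂.1 rfl with hy | hy
    · -- Q = P
      subst hy
      left
      refine ⟨?_, ?_⟩
      · have := fuc_law_self v hm hδ hε h2 h₁
        rw [this]; congr 1 <;> ring
      · show fuc_lvl v m (P - P) = _
        rw [sub_self, sub_self, abs_zero]; rfl
    · -- Q = -P
      have hQ : Q = -P := by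
        show Point.some x₁ y₂ h₂ = -Point.some x₁ y₁ h₁
        rw [Point.neg_some]
        have : y₂ = (fl_curve δ ε).toAffine.negY x₁ y₁ := by
          rw [hy, negY_negY]
        subst this; rfl
      right
      refine ⟨?_, ?_⟩
      · rw [hQ, add_neg_cancel, fuc_lvl_neg v hm, sub_self, abs_zero]; rfl
      · rw [hQ, sub_neg_eq_add, fuc_lvl_neg v hm]
        have := fuc_law_self v hm hδ hε h2 h₁
        rw [this]; congr 1 <;> ring
  · obtain ⟨n1, n2, e1, e2⟩ := fe1_X_add_sub (W := (fl_curve δ ε).toAffine) rfl rfl h₁ h₂ hx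
    have hd : x₁ - x₂ ≠ 0 := sub_ne_zero.mpr hx
    have q1 := fuc_leg_eqn h₁
    have q2 := fuc_leg_eqn h₂
    have hS := fe1_sum (a2 := -(δ + ε)) (a4 := δ * ε) (a6 := 0) hx
      (by rw [q1]; ring) (by rw [q2]; ring)
    have hP := fe1_prod (a2 := -(δ + ε)) (a4 := δ * ε) (a6 := 0) hx
      (by rw [q1]; ring) (by rw [q2]; ring)
    simp only [fl_curve_a₂] at e1 e2
    obtain ⟨b₁, b₂, l1, l2, hb⟩ := fuc_lemmaU v hm hδ hε h2 hx
      (T₁ := fe1_X (P + Q)) (T₂ := fe1_X (P - Q))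
      (by rw [e1, e2, hS]; field_simp; ring)
      (by rw [e1, e2, hP]; field_simp; ring)
      (fuc_lvl_some_spec v m h₁) (fuc_lvl_some_spec v m h₂)
    rw [fuc_lvl_eq_of_X v hm n1 l1, fuc_lvl_eq_of_X v hm n2 l2]
    exact hb

/-- the parallelogram law for the unsigned level on `Y² = X (X - δ) (X - ε)` -/
theorem fuc_law_leg (hm : 0 < m) (hδ : v δ = (m : ℚ)) (hε : v ε = 0) (h2 : v 2 = 0) :
    fuc_Law (fuc_lvl v m (W := (fl_curve δ ε).toAffine)) m := by
  intro P Q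
  rcases P with _ | ⟨x₁, y₁, h₁⟩
  · left
    have hQ0 := fuc_lvl_nonneg v hm Q
    have hQm := fuc_lvl_le v hm Q
    change (fuc_lvl v m (0 + Q) = _ ∧ fuc_lvl v m (0 - Q) = _)
    have hz : fuc_lvl v m (Point.zero : (fl_curve δ ε).toAffine.Point) = 0 := rfl
    rw [zero_add, zero_sub, fuc_lvl_neg v hm, hz]
    refine ⟨fuc_min_val (Or.inl ⟨by ring, by linarith⟩), fuc_abs_val (Or.inr ⟨by ring, by linarith⟩)⟩
  rcases Q with _ | ⟨x₂, y₂, h₂⟩
  · left
    have hP0 := fuc_lvl_nonneg v hm (Point.some x₁ y₁ h₁)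
    have hPm := fuc_lvl_le v hm (Point.some x₁ y₁ h₁)
    change (fuc_lvl v m (Point.some x₁ y₁ h₁ + 0) = _ ∧ fuc_lvl v m (Point.some x₁ y₁ h₁ - 0) = _)
    have hz : fuc_lvl v m (Point.zero : (fl_curve δ ε).toAffine.Point) = 0 := rfl
    rw [add_zero, sub_zero, hz]
    refine ⟨fuc_min_val (Or.inl ⟨by ring, by linarith⟩), fuc_abs_val (Or.inl ⟨by ring, by linarith⟩)⟩
  exact fuc_law_some v hm hδ hε h2 h₁ h₂

/-- **(L3), route U**: `fab_HypL3` for every `p ≥ 2`. -/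
theorem fuc_hypL3 (hm : 0 < m) (hδ : v δ = (m : ℚ)) (hε : v ε = 0) (h2 : v 2 = 0) {p : ℕ}
    (hp : 2 ≤ p) : fab_HypL3 v δ ε m p := by
  intro x P0 hx X0 Y0 h0 hP0 hX0
  have hp' : (2 : ℚ) ≤ p := by exact_mod_cast hp
  have hppos : (0 : ℚ) < p := by linarith
  have hlvl : fuc_lvl v m P0 = 2 * m / p := by
    rw [hP0]
    refine fuc_lvl_eq_of_isLvl v hm h0 ?_
    rcases eq_or_lt_of_le hp' with h | h
    · refine Or.inr (Or.inr ⟨?_, ?_⟩)
      · rw [hX0, ← h]
        have : 2 * m / 2 = m := by ring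
        rw [this]
      · rw [← h]; ring
    · refine Or.inr (Or.inl ⟨2 * m / p, hX0, by positivity, ?_, rfl⟩)
      rw [div_lt_iff₀ hppos]; nlinarith
  obtain ⟨j, hj⟩ := fuc_exists_sub_level_zero (fuc_lvl v m (W := (fl_curve δ ε).toAffine)) m hm
    (fuc_lvl_nonneg v hm) (fuc_lvl_le v hm) (fuc_law_leg v hm hδ hε h2) p (by omega) x P0 hx hlvl
  exact ⟨j, fuc_inE0_of_lvl_zero v hm hj⟩

end law

end Fermat.Agent.Lib.Frey
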