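/-
S05 (Frey curve unramified at odd q ≠ p), Layer 1, part (a): the group law of a Weierstrass curve
over a field presented through collinear triples.  Generic, Mathlib only.
-/
import Mathlib

set_option autoImplicit false

namespace Fermat.Agent.Lib.Frey

open WeierstrassCurve WeierstrassCurve.Affine WeierstrassCurve.Affine.Point Polynomial

variable {F : Type*} [Field F] [DecidableEq F] {W : Affine F}

/-- Symmetric functions of the three intersection points of the line through two points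
(chord or tangent) with a Weierstrass curve, in terms of slope `ℓ` and intercept
`n = y₁ - ℓ x₁`. -/
theorem fab_addPolynomial_coeffs {x₁ x₂ y₁ y₂ : F} (h₁ : W.Equation x₁ y₁)
    (h₂ : W.Equation x₂ y₂) (hxy : ¬(x₁ = x₂ ∧ y₁ = W.negY x₂ y₂)) :
    x₁ + x₂ + W.addX x₁ x₂ (W.slope x₁ x₂ y₁ y₂) =
        (W.slope x₁ x₂ y₁ y₂) ^ 2 + W.a₁ * (W.slope x₁ x₂ y₁ y₂) - W.a₂ ∧
    x₁ * x₂ + x₁ * W.addX x₁ x₂ (W.slope x₁ x₂ y₁ y₂) +
        x₂ * W.addX x₁ x₂ (W.slope x₁ x₂ y₁ y₂) =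
      W.a₄ - 2 * (W.slope x₁ x₂ y₁ y₂) * (y₁ - (W.slope x₁ x₂ y₁ y₂) * x₁)
        - W.a₁ * (y₁ - (W.slope x₁ x₂ y₁ y₂) * x₁) - W.a₃ * (W.slope x₁ x₂ y₁ y₂) ∧
    x₁ * x₂ * W.addX x₁ x₂ (W.slope x₁ x₂ y₁ y₂) =
      (y₁ - (W.slope x₁ x₂ y₁ y₂) * x₁) ^ 2 + W.a₃ * (y₁ - (W.slope x₁ x₂ y₁ y₂) * x₁) - W.a₆ := by
  have h := addPolynomial_slope h₁ h₂ hxy
  rw [addPolynomial_eq, neg_inj, Cubic.prod_X_sub_C_eq, Cubic.toPoly_injective] at h
  have hc := congrArg Cubic.c h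
  have hd := congrArg Cubic.d h
  simp only at hc hd
  refine ⟨?_, ?_, ?_⟩
  · simp only [addX]; ring
  · linear_combination (-1 : F) * hc
  · linear_combination hd

/-- The second point lies on the line through the first with slope `slope`. -/
theorem fab_line_second {x₁ x₂ y₁ y₂ : F} (h₁ : W.Equation x₁ y₁)
    (h₂ : W.Equation x₂ y₂) (hxy : ¬(x₁ = x₂ ∧ y₁ = W.negY x₂ y₂)) :
    y₂ = W.slope x₁ x₂ y₁ y₂ * x₂ + (y₁ - W.slope x₁ x₂ y₁ y₂ * x₁) := by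
  by_cases hx : x₁ = x₂
  · have hy : y₁ ≠ W.negY x₂ y₂ := fun h => hxy ⟨hx, h⟩
    rcases hx, Y_eq_of_Y_ne h₁ h₂ hx hy with ⟨rfl, rfl⟩
    ring
  · rw [slope_of_X_ne hx]
    have : x₁ - x₂ ≠ 0 := sub_ne_zero.mpr hx
    field_simp
    ring

/-- **Collinearity presentation of the group law.**  If three affine points sum to zero, they lie on
a line `Y = ℓ X + n`, and the three `X`-coordinates are the roots (with multiplicity) of the cubic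
obtained by substituting the line into the Weierstrass equation. -/
theorem fab_collinear_of_add_eq_zero {x₁ y₁ x₂ y₂ x₃ y₃ : F} {h₁ : W.Nonsingular x₁ y₁}
    {h₂ : W.Nonsingular x₂ y₂} {h₃ : W.Nonsingular x₃ y₃}
    (hsum : Point.some x₁ y₁ h₁ + Point.some x₂ y₂ h₂ + Point.some x₃ y₃ h₃ = 0) :
    ∃ ℓ n : F, y₁ = ℓ * x₁ + n ∧ y₂ = ℓ * x₂ + n ∧ y₃ = ℓ * x₃ + n ∧
      x₁ + x₂ + x₃ = ℓ ^ 2 + W.a₁ * ℓ - W.a₂ ∧
      x₁ * x₂ + x₁ * x₃ + x₂ * x₃ = W.a₄ - 2 * ℓ * n - W.a₁ * n - W.a₃ * ℓ ∧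
      x₁ * x₂ * x₃ = n ^ 2 + W.a₃ * n - W.a₆ := by
  have hxy : ¬(x₁ = x₂ ∧ y₁ = W.negY x₂ y₂) := by
    rintro ⟨hx, hy⟩
    rw [add_of_Y_eq hx hy, zero_add] at hsum
    exact some_ne_zero h₃ hsum
  rw [add_some hxy] at hsum
  have hneg := eq_neg_of_add_eq_zero_left hsum
  rw [neg_some, Point.some.injEq] at hneg
  obtain ⟨hX, hY⟩ := hneg
  -- hX : addX = x₃ ; hY : addY = negY x₃ y₃
  have hY' : W.negAddY x₁ x₂ y₁ (W.slope x₁ x₂ y₁ y₂) = y₃ := by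
    have := congrArg (W.negY x₃) hY
    rw [negY_negY] at this
    rw [← this, addY, hX, negY_negY]
  obtain ⟨e1, e2, e3⟩ := fab_addPolynomial_coeffs h₁.1 h₂.1 hxy
  refine ⟨W.slope x₁ x₂ y₁ y₂, y₁ - W.slope x₁ x₂ y₁ y₂ * x₁, by ring,
    fab_line_second h₁.1 h₂.1 hxy, ?_, ?_, ?_, ?_⟩
  · rw [← hY', negAddY, hX]; ring
  · rw [← hX]; exact e1
  · rw [← hX]; exact e2
  · rw [← hX]; exact e3

end Fermat.Agent.Lib.Frey
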