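/-
S05 (Frey curve unramified at odd q ≠ p), (L2), subgroup half: for a short integral Weierstrass
model `Y² = X³ + a₂X² + a₄X + a₆`, the kernel of reduction `E₁ = {O} ∪ {v X < 0}` is closed under
addition, negation and subtraction.  Proof through the collinearity presentation of the group law
(`Collinear.lean`), uniformly for chords and tangents.
-/
import Mathlib
import Fermat.Agent.Lib.Frey.Defs
import Fermat.Agent.Lib.Frey.Collinear

set_option autoImplicit false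

namespace Fermat.Agent.Lib.Frey

open WeierstrassCurve WeierstrassCurve.Affine WeierstrassCurve.Affine.Point

variable {K : Type*} [Field K] (v : AddValuation K (WithTop ℚ))

omit [Field K] in
lemma fab_exists_coe_of_lt {t : WithTop ℚ} {c : ℚ} (h : t < (c : WithTop ℚ)) :
    ∃ r : ℚ, t = (r : WithTop ℚ) ∧ r < c := by
  obtain ⟨r, hr, hr0⟩ := WithTop.lt_iff_exists_coe.mp h
  exact ⟨r, hr, by exact_mod_cast hr0⟩

/-- The third point of a line through two points of `E₁` lies in `E₁` (pure valuation form). -/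
theorem fab_E1_third {x₁ x₂ x₃ ℓ n a₂ a₄ a₆ : K} (ha2 : 0 ≤ v a₂) (ha4 : 0 ≤ v a₄)
    (ha6 : 0 ≤ v a₆) (h1 : v x₁ < 0) (h2 : v x₂ < 0)
    (e1 : x₁ + x₂ + x₃ = ℓ ^ 2 - a₂) (e2 : x₁ * x₂ + x₁ * x₃ + x₂ * x₃ = a₄ - 2 * ℓ * n)
    (e3 : x₁ * x₂ * x₃ = n ^ 2 - a₆) : v x₃ < 0 := by
  by_contra h3
  rw [not_lt] at h3
  obtain ⟨w₁, hw₁, hw₁0⟩ := fab_exists_coe_of_lt (c := 0) (by exact_mod_cast h1)
  obtain ⟨w₂, hw₂, hw₂0⟩ := fab_exists_coe_of_lt (c := 0) (by exact_mod_cast h2)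
  have hW : w₁ + w₂ < 0 := by linarith
  -- Step A: `v (2 ℓ n) = w₁ + w₂`
  have h12 : v (x₁ * x₂) = ((w₁ + w₂ : ℚ) : WithTop ℚ) := by
    rw [v.map_mul, hw₁, hw₂]; rfl
  have hs : ((min w₁ w₂ : ℚ) : WithTop ℚ) ≤ v (x₁ + x₂) := by
    refine v.map_le_add ?_ ?_
    · rw [hw₁]; exact_mod_cast min_le_left _ _
    · rw [hw₂]; exact_mod_cast min_le_right _ _
  have h3s : ((w₁ + w₂ : ℚ) : WithTop ℚ) < v (x₃ * (x₁ + x₂)) := by
    rw [v.map_mul]
    have hlt : ((w₁ + w₂ : ℚ) : WithTop ℚ) < ((min w₁ w₂ : ℚ) : WithTop ℚ) := by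
      have : w₁ + w₂ < min w₁ w₂ := by
        rcases min_cases w₁ w₂ with ⟨h, _⟩ | ⟨h, _⟩ <;> rw [h] <;> linarith
      exact_mod_cast this
    calc ((w₁ + w₂ : ℚ) : WithTop ℚ) < ((min w₁ w₂ : ℚ) : WithTop ℚ) := hlt
      _ = 0 + ((min w₁ w₂ : ℚ) : WithTop ℚ) := (zero_add _).symm
      _ ≤ v x₃ + v (x₁ + x₂) := add_le_add h3 hs
  have h4 : ((w₁ + w₂ : ℚ) : WithTop ℚ) < v a₄ :=
    lt_of_lt_of_le (by exact_mod_cast hW) ha4
  have hA : v (2 * ℓ * n) = ((w₁ + w₂ : ℚ) : WithTop ℚ) := by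
    have : 2 * ℓ * n = -(x₁ * x₂) + (a₄ - x₃ * (x₁ + x₂)) := by linear_combination e2
    rw [this, v.map_add_eq_of_lt_left, AddValuation.map_neg, h12]
    rw [AddValuation.map_neg, h12]
    exact lt_of_lt_of_le (lt_min h4 h3s) (v.map_sub _ _)
  -- finite values of `v 2`, `v ℓ`, `v n`
  rw [v.map_mul, v.map_mul] at hA
  obtain ⟨cab, b, hcab, hb, hsum⟩ := WithTop.add_eq_coe.mp hA
  obtain ⟨c, a, hc, ha, hsum'⟩ := WithTop.add_eq_coe.mp hcab.symm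
  have hc0 : (0 : ℚ) ≤ c := by
    have h20 : (0 : WithTop ℚ) ≤ v (2 : K) := by
      have : (2 : K) = 1 + 1 := by norm_num
      rw [this]
      exact v.map_le_add (by rw [v.map_one]) (by rw [v.map_one])
    rw [← hc] at h20
    exact_mod_cast h20
  -- Step B: `2 a ≥ min w₁ w₂`
  have hB : min w₁ w₂ ≤ 2 * a := by
    have hℓ2 : ℓ ^ 2 = (x₁ + x₂) + (x₃ + a₂) := by linear_combination (-1 : K) * e1
    have hle : ((min w₁ w₂ : ℚ) : WithTop ℚ) ≤ v (ℓ ^ 2) := by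
      rw [hℓ2]
      refine v.map_le_add hs (v.map_le_add ?_ ?_)
      · exact le_trans (by exact_mod_cast (min_le_left w₁ w₂).trans hw₁0.le) h3
      · exact le_trans (by exact_mod_cast (min_le_left w₁ w₂).trans hw₁0.le) ha2
    rw [v.map_pow, ← ha, two_nsmul] at hle
    have : ((min w₁ w₂ : ℚ) : WithTop ℚ) ≤ ((a + a : ℚ) : WithTop ℚ) := by exact_mod_cast hle
    have := WithTop.coe_le_coe.mp this
    linarith
  -- Step C: `2 b ≥ w₁ + w₂`
  have hC : w₁ + w₂ ≤ 2 * b := by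
    have hn2 : n ^ 2 = x₁ * x₂ * x₃ + a₆ := by linear_combination (-1 : K) * e3
    have hle : ((w₁ + w₂ : ℚ) : WithTop ℚ) ≤ v (n ^ 2) := by
      rw [hn2]
      refine v.map_le_add ?_ (le_trans (by exact_mod_cast hW.le) ha6)
      rw [v.map_mul, h12]
      calc ((w₁ + w₂ : ℚ) : WithTop ℚ) = ((w₁ + w₂ : ℚ) : WithTop ℚ) + 0 := (add_zero _).symm
        _ ≤ ((w₁ + w₂ : ℚ) : WithTop ℚ) + v x₃ := add_le_add le_rfl h3
    rw [v.map_pow, ← hb, two_nsmul] at hle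
    have : ((w₁ + w₂ : ℚ) : WithTop ℚ) ≤ ((b + b : ℚ) : WithTop ℚ) := by exact_mod_cast hle
    have := WithTop.coe_le_coe.mp this
    linarith
  -- combine
  have hmin : min w₁ w₂ ≤ w₁ ∧ min w₁ w₂ ≤ w₂ := ⟨min_le_left _ _, min_le_right _ _⟩
  rcases min_cases w₁ w₂ with ⟨h, _⟩ | ⟨h, _⟩ <;> rw [h] at hB <;> linarith

variable [DecidableEq K] {W : WeierstrassCurve K}

/-- `E₁` is closed under negation (any Weierstrass curve). -/
theorem fab_E1_neg {P : W.toAffine.Point} (hP : fl_InE1 v P) : fl_InE1 v (-P) := by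
  rcases hP with rfl | ⟨x, y, h, rfl, hx⟩
  · left; exact _root_.neg_zero
  · right
    exact ⟨x, _, _, neg_some h, hx⟩

/-- `E₁` is closed under addition (short integral model). -/
theorem fab_E1_add (h1 : W.a₁ = 0) (h3 : W.a₃ = 0) (ha2 : 0 ≤ v W.a₂) (ha4 : 0 ≤ v W.a₄)
    (ha6 : 0 ≤ v W.a₆) {P Q : W.toAffine.Point} (hP : fl_InE1 v P) (hQ : fl_InE1 v Q) :
    fl_InE1 v (P + Q) := by
  rcases hP with rfl | ⟨x₁, y₁, hp, rfl, hx₁⟩
  · rw [zero_add]; exact hQ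
  rcases hQ with rfl | ⟨x₂, y₂, hq, rfl, hx₂⟩
  · rw [add_zero]; exact Or.inr ⟨x₁, y₁, hp, rfl, hx₁⟩
  -- both affine
  rcases hR : (Point.some x₁ y₁ hp + Point.some x₂ y₂ hq) with _ | ⟨x₃, y₃, hr⟩
  · left; rfl
  · right
    refine ⟨x₃, y₃, hr, rfl, ?_⟩
    -- `P + Q + (-(P+Q)) = 0`
    have hsum : Point.some x₁ y₁ hp + Point.some x₂ y₂ hq + (-(Point.some x₃ y₃ hr)) = 0 := by
      rw [hR]; exact add_neg_cancel _
    rw [neg_some] at hsum
    obtain ⟨ℓ, n, -, -, -, e1, e2, e3⟩ := fab_collinear_of_add_eq_zero hsum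
    have h1' : W.toAffine.a₁ = 0 := h1
    have h3' : W.toAffine.a₃ = 0 := h3
    rw [h1'] at e1 e2
    rw [h3'] at e2 e3
    refine fab_E1_third v ha2 ha4 ha6 hx₁ hx₂ (ℓ := ℓ) (n := n) ?_ ?_ ?_
    · linear_combination e1
    · linear_combination e2
    · linear_combination e3

/-- `E₁` is closed under subtraction (short integral model). -/
theorem fab_E1_sub (h1 : W.a₁ = 0) (h3 : W.a₃ = 0) (ha2 : 0 ≤ v W.a₂) (ha4 : 0 ≤ v W.a₄)
    (ha6 : 0 ≤ v W.a₆) {P Q : W.toAffine.Point} (hP : fl_InE1 v P) (hQ : fl_InE1 v Q) :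
    fl_InE1 v (P - Q) := by
  rw [sub_eq_add_neg]
  exact fab_E1_add v h1 h3 ha2 ha4 ha6 hP (fab_E1_neg v hQ)

end Fermat.Agent.Lib.Frey
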