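/-
S05 (Frey curve unramified at odd q ≠ p), Layer 1, final form: the hypothesis shapes of
`AbstractLeg.lean` discharged from the landed lemmas (L1 = `Diff.lean`, L2 subgroup half =
`E1Sub.lean`, …).
-/
import Mathlib
import Fermat.Agent.Lib.Frey.Defs
import Fermat.Agent.Lib.Frey.Abstract
import Fermat.Agent.Lib.Frey.AbstractLeg
import Fermat.Agent.Lib.Frey.Diff
import Fermat.Agent.Lib.Frey.E1Sub

set_option autoImplicit false

namespace Fermat.Agent.Lib.Frey

open WeierstrassCurve WeierstrassCurve.Affine WeierstrassCurve.Affine.Point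

variable {K : Type*} [Field K] [DecidableEq K] (v : AddValuation K (WithTop ℚ))

/-- (L1) for the Legendre-type model with integral `δ`, `ε` and `v 2 = 0`. -/
theorem fab_L1_leg {δ ε : K} (hδ : 0 ≤ v δ) (hε : 0 ≤ v ε) (h2 : v (2 : K) = 0) :
    fab_HypL1 v (fl_curve δ ε) := by
  intro x₁ y₁ x₂ y₂ h₁ h₂ hx₁ hy₁ _ _ hx hy hns
  refine frd_sub_inE1_short v rfl rfl ?_ ?_ ?_ h2 h₁ h₂ hx₁ hy₁ hx hy hns
  · rw [fl_curve_a₂, AddValuation.map_neg]; exact v.map_le_add hδ hε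
  · rw [fl_curve_a₄, v.map_mul]; exact add_nonneg hδ hε
  · rw [fl_curve_a₆, AddValuation.map_zero]; exact le_top

/-- (L2), subgroup half, for the Legendre-type model with integral `δ`, `ε`. -/
theorem fab_L2_sub_leg {δ ε : K} (hδ : 0 ≤ v δ) (hε : 0 ≤ v ε)
    {P Q : (fl_curve δ ε).toAffine.Point} (hP : fl_InE1 v P) (hQ : fl_InE1 v Q) :
    fl_InE1 v (P - Q) := by
  refine fab_E1_sub v rfl rfl ?_ ?_ ?_ hP hQ
  · rw [fl_curve_a₂, AddValuation.map_neg]; exact v.map_le_add hδ hε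
  · rw [fl_curve_a₄, v.map_mul]; exact add_nonneg hδ hε
  · rw [fl_curve_a₆, AddValuation.map_zero]; exact le_top

/-- (L2) from its torsion half. -/
theorem fab_L2_leg {δ ε : K} (hδ : 0 ≤ v δ) (hε : 0 ≤ v ε) {p : ℕ}
    (htors : ∀ P : (fl_curve δ ε).toAffine.Point, fl_InE1 v P → p • P = 0 → P = 0) :
    fab_HypL2 v (fl_curve δ ε) p :=
  ⟨fun _ _ hP hQ => fab_L2_sub_leg v hδ hε hP hQ, htors⟩

end Fermat.Agent.Lib.Frey
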