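/-
S05 (Frey curve unramified at odd q ≠ p), (L2), torsion half: for a short integral Weierstrass
model `Y² = X³ + a₂X² + a₄X + a₆` over a field with a `ℚ`-valued valuation `v`, the kernel of
reduction `E₁ = {O} ∪ {v X < 0}` has no `p`-torsion when `v p = 0`.

Proof: the parameter `t = X / Y` (`t(O) = 0`) satisfies, for a collinear triple `P₁ + P₂ + P₃ = O`
of points of `E₁`, `v (t₁ + t₂ + t₃) ≥ v t₁ + v t₂ + v t₃`; hence `v (t (k P) - k t(P)) > v t(P)`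
for all `k`, by induction on `k`.
-/
import Mathlib
import Fermat.Agent.Lib.Frey.Defs
import Fermat.Agent.Lib.Frey.Collinear
import Fermat.Agent.Lib.Frey.E1Sub
import Fermat.Agent.Lib.Frey.ULevelVal
import Fermat.Agent.Lib.Frey.AbstractFinal

set_option autoImplicit false

namespace Fermat.Agent.Lib.Frey

open WeierstrassCurve WeierstrassCurve.Affine WeierstrassCurve.Affine.Point

variable {K : Type*} [Field K] (v : AddValuation K (WithTop ℚ))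

/-! ### small valuation lemmas -/

theorem frd_natCast_nonneg (n : ℕ) : (0 : WithTop ℚ) ≤ v (n : K) := by
  induction n with
  | zero => rw [Nat.cast_zero, v.map_zero]; exact le_top
  | succ n ih =>
    rw [Nat.cast_succ]
    exact v.map_le_add ih (by rw [v.map_one])

theorem frd_lb_of_sq {z : K} {s : ℚ} (h : ((2 * s : ℚ) : WithTop ℚ) ≤ v (z ^ 2)) :
    (s : WithTop ℚ) ≤ v z := by
  rcases eq_or_ne z 0 with rfl | hz
  · rw [v.map_zero]; exact le_top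
  · obtain ⟨r, hr⟩ := fuc_exists_ex v hz
    rw [fuc_ex_sq v hr] at h
    rw [hr]
    have h' : 2 * s ≤ 2 * r := by exact_mod_cast h
    have : s ≤ r := by linarith
    exact_mod_cast this

/-! ### the key estimate for a collinear triple -/

/-- For three points of `E₁` on a line `Y = ℓ X + n`, the parameters `t_i = x_i / y_i` satisfy
`v (t₁ + t₂ + t₃) ≥ r₁ + r₂ + r₃`, `r_i = v t_i`. -/
theorem frd_t_sum {x₁ x₂ x₃ y₁ y₂ y₃ ℓ n a₂ a₄ a₆ : K} {r₁ r₂ r₃ : ℚ}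
    (ha2 : 0 ≤ v a₂) (ha4 : 0 ≤ v a₄) (ha6 : 0 ≤ v a₆)
    (hr₁ : 0 < r₁) (hr₂ : 0 < r₂) (hr₃ : 0 < r₃)
    (hx₁ : v x₁ = ((-2 * r₁ : ℚ) : WithTop ℚ)) (hx₂ : v x₂ = ((-2 * r₂ : ℚ) : WithTop ℚ))
    (hx₃ : v x₃ = ((-2 * r₃ : ℚ) : WithTop ℚ))
    (hy₁ : v y₁ = ((-3 * r₁ : ℚ) : WithTop ℚ)) (hy₂ : v y₂ = ((-3 * r₂ : ℚ) : WithTop ℚ))
    (hy₃ : v y₃ = ((-3 * r₃ : ℚ) : WithTop ℚ))
    (l₁ : y₁ = ℓ * x₁ + n) (l₂ : y₂ = ℓ * x₂ + n) (l₃ : y₃ = ℓ * x₃ + n)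
    (e1 : x₁ + x₂ + x₃ = ℓ ^ 2 - a₂) (e2 : x₁ * x₂ + x₁ * x₃ + x₂ * x₃ = a₄ - 2 * ℓ * n)
    (e3 : x₁ * x₂ * x₃ = n ^ 2 - a₆) :
    ((r₁ + r₂ + r₃ : ℚ) : WithTop ℚ) ≤ v (x₁ / y₁ + x₂ / y₂ + x₃ / y₃) := by
  have hy₁0 : y₁ ≠ 0 := fuc_ne_zero_of_ex v hy₁
  have hy₂0 : y₂ ≠ 0 := fuc_ne_zero_of_ex v hy₂
  have hy₃0 : y₃ ≠ 0 := fuc_ne_zero_of_ex v hy₃
  set sR : ℚ := r₁ + r₂ + r₃ with hsR
  -- the key identity
  have key : (x₁ / y₁ + x₂ / y₂ + x₃ / y₃) * (y₁ * y₂ * y₃) =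
      -(3 * a₆ * ℓ ^ 2) + 2 * a₄ * (ℓ * n) - a₂ * n ^ 2 := by
    have : (x₁ / y₁ + x₂ / y₂ + x₃ / y₃) * (y₁ * y₂ * y₃) =
        x₁ * y₂ * y₃ + x₂ * y₁ * y₃ + x₃ * y₁ * y₂ := by
      field_simp
    rw [this, l₁, l₂, l₃]
    linear_combination (3 * ℓ ^ 2) * e3 + (2 * ℓ * n) * e2 + (n ^ 2) * e1
  -- integrality of small integers
  have h2 : (0 : WithTop ℚ) ≤ v (2 : K) := by
    have := frd_natCast_nonneg v 2 (K := K); simpa using this
  have h3 : (0 : WithTop ℚ) ≤ v (3 : K) := by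
    have := frd_natCast_nonneg v 3 (K := K); simpa using this
  have c0 : ((0 : ℚ) : WithTop ℚ) = 0 := rfl
  -- bounds on `ℓ²`, `n²`
  have hℓ2 : ((2 * (-sR) : ℚ) : WithTop ℚ) ≤ v (ℓ ^ 2) := by
    have : ℓ ^ 2 = x₁ + x₂ + x₃ + a₂ := by linear_combination (-1 : K) * e1
    rw [this]
    refine fuc_lb_add v (s := 2 * (-sR)) (t := 0) ?_ (by rw [c0]; exact ha2) le_rfl
      (by rw [hsR]; linarith)
    refine fuc_lb_add v (s := 2 * (-sR)) (t := -2 * r₃) ?_ hx₃.ge le_rfl (by rw [hsR]; linarith)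
    exact fuc_lb_add v (s := -2 * r₁) (t := -2 * r₂) hx₁.ge hx₂.ge (by rw [hsR]; linarith)
      (by rw [hsR]; linarith)
  have hn2 : ((2 * (-sR) : ℚ) : WithTop ℚ) ≤ v (n ^ 2) := by
    have : n ^ 2 = x₁ * x₂ * x₃ + a₆ := by linear_combination (-1 : K) * e3
    rw [this]
    refine fuc_lb_add v (s := 2 * (-sR)) (t := 0) ?_ (by rw [c0]; exact ha6) le_rfl
      (by rw [hsR]; linarith)
    have := fuc_ex_mul v (fuc_ex_mul v hx₁ hx₂) hx₃
    rw [this]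
    have : (2 * (-sR) : ℚ) ≤ -2 * r₁ + -2 * r₂ + -2 * r₃ := by rw [hsR]; linarith
    exact_mod_cast this
  have hℓ : ((-sR : ℚ) : WithTop ℚ) ≤ v ℓ := frd_lb_of_sq v hℓ2
  have hn : ((-sR : ℚ) : WithTop ℚ) ≤ v n := frd_lb_of_sq v hn2
  have hℓn : ((-sR + -sR : ℚ) : WithTop ℚ) ≤ v (ℓ * n) := fuc_lb_mul v hℓ hn
  -- bound on the right-hand side
  have hR : ((2 * (-sR) : ℚ) : WithTop ℚ) ≤
      v (-(3 * a₆ * ℓ ^ 2) + 2 * a₄ * (ℓ * n) - a₂ * n ^ 2) := by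
    have t1 : ((2 * (-sR) : ℚ) : WithTop ℚ) ≤ v (-(3 * a₆ * ℓ ^ 2)) := by
      rw [v.map_neg]
      have := fuc_lb_mul v (fuc_lb_mul v (s := 0) (t := 0) (by rw [c0]; exact h3)
        (by rw [c0]; exact ha6)) hℓ2
      refine fuc_lb_mono v this (by linarith)
    have t2 : ((2 * (-sR) : ℚ) : WithTop ℚ) ≤ v (2 * a₄ * (ℓ * n)) := by
      have := fuc_lb_mul v (fuc_lb_mul v (s := 0) (t := 0) (by rw [c0]; exact h2)
        (by rw [c0]; exact ha4)) hℓn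
      refine fuc_lb_mono v this (by linarith)
    have t3 : ((2 * (-sR) : ℚ) : WithTop ℚ) ≤ v (a₂ * n ^ 2) := by
      have := fuc_lb_mul v (s := 0) (by rw [c0]; exact ha2) hn2
      refine fuc_lb_mono v this (by linarith)
    exact fuc_lb_sub v (fuc_lb_add v t1 t2 le_rfl le_rfl) t3 le_rfl le_rfl
  rw [← key] at hR
  have hY : v (y₁ * y₂ * y₃) = ((-3 * r₁ + -3 * r₂ + -3 * r₃ : ℚ) : WithTop ℚ) :=
    fuc_ex_mul v (fuc_ex_mul v hy₁ hy₂) hy₃
  have := fuc_lb_of_mul v hR hY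
  refine fuc_lb_mono v this ?_
  rw [hsR]; linarith

/-! ### valuations of the coordinates of a point of `E₁` -/

/-- On a short integral model, a point with `v x < 0` has `v x = -2r`, `v y = -3r`, `r > 0`. -/
theorem frd_val_of_E1 {x y a₂ a₄ a₆ : K} (ha2 : 0 ≤ v a₂) (ha4 : 0 ≤ v a₄) (ha6 : 0 ≤ v a₆)
    (heq : y ^ 2 = x ^ 3 + a₂ * x ^ 2 + a₄ * x + a₆) (hx : v x < 0) :
    ∃ r : ℚ, 0 < r ∧ v x = ((-2 * r : ℚ) : WithTop ℚ) ∧ v y = ((-3 * r : ℚ) : WithTop ℚ) := by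
  obtain ⟨w, hw, hw0⟩ := fab_exists_coe_of_lt (c := 0) (by exact_mod_cast hx)
  have c0 : ((0 : ℚ) : WithTop ℚ) = 0 := rfl
  have hx3 : v (x ^ 3) = ((3 * w : ℚ) : WithTop ℚ) := by
    have : x ^ 3 = x * x * x := by ring
    rw [this, fuc_ex_mul v (fuc_ex_mul v hw hw) hw]; congr 1; ring
  have hrest : ((2 * w : ℚ) : WithTop ℚ) ≤ v (a₂ * x ^ 2 + a₄ * x + a₆) := by
    refine fuc_lb_add v (s := 2 * w) (t := 0) ?_ (by rw [c0]; exact ha6) le_rfl (by linarith)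
    refine fuc_lb_add v (s := 0 + 2 * w) (t := 0 + w) ?_ ?_ (by linarith) (by linarith)
    · exact fuc_lb_mul v (by rw [c0]; exact ha2) (fuc_ex_sq v hw).ge
    · exact fuc_lb_mul v (by rw [c0]; exact ha4) hw.ge
  have hy2 : v (y ^ 2) = ((3 * w : ℚ) : WithTop ℚ) := by
    have : y ^ 2 = x ^ 3 + (a₂ * x ^ 2 + a₄ * x + a₆) := by rw [heq]; ring
    rw [this]
    exact fuc_ex_add v hx3 hrest (by linarith)
  have hy0 : y ≠ 0 := by
    intro h0
    rw [h0, zero_pow two_ne_zero, v.map_zero] at hy2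
    exact WithTop.top_ne_coe hy2
  obtain ⟨u, hu⟩ := fuc_exists_ex v hy0
  have h2u : 2 * u = 3 * w := fuc_ex_unique v (fuc_ex_sq v hu) hy2
  refine ⟨-w / 2, by linarith, ?_, ?_⟩
  · rw [hw]; congr 1; ring
  · rw [hu]; congr 1; linarith

variable [DecidableEq K] {W : WeierstrassCurve K}

omit [DecidableEq K] in
/-- Equation of a short model. -/
theorem frd_short_equation (h1 : W.a₁ = 0) (h3 : W.a₃ = 0) {x y : K}
    (h : W.toAffine.Equation x y) : y ^ 2 = x ^ 3 + W.a₂ * x ^ 2 + W.a₄ * x + W.a₆ := by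
  rw [Affine.equation_iff] at h
  have h1' : W.toAffine.a₁ = 0 := h1
  have h3' : W.toAffine.a₃ = 0 := h3
  rw [h1', h3'] at h
  linear_combination h

/-- The parameter `t = X / Y` on points (`t(O) = 0`). -/
noncomputable def frd_t : W.toAffine.Point → K
  | .zero => 0
  | .some x y _ => x / y

omit [DecidableEq K] in
@[simp] theorem frd_t_zero : frd_t (0 : W.toAffine.Point) = 0 := rfl

omit [DecidableEq K] in
@[simp] theorem frd_t_some {x y : K} (h : W.toAffine.Nonsingular x y) :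
    frd_t (Point.some x y h) = x / y := rfl

theorem frd_t_neg (h1 : W.a₁ = 0) (h3 : W.a₃ = 0) (P : W.toAffine.Point) :
    frd_t (-P) = -frd_t P := by
  rcases P with _ | ⟨x, y, h⟩
  · change frd_t (-(0 : W.toAffine.Point)) = -frd_t (0 : W.toAffine.Point)
    rw [_root_.neg_zero, frd_t_zero, _root_.neg_zero]
  · rw [neg_some, frd_t_some, frd_t_some, Affine.negY]
    have h1' : W.toAffine.a₁ = 0 := h1
    have h3' : W.toAffine.a₃ = 0 := h3
    rw [h1', h3']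
    rw [zero_mul, sub_zero, sub_zero, div_neg]

omit [DecidableEq K] in
/-- Valuations of the coordinates and of `t` for an affine point of `E₁`. -/
theorem frd_val_point (h1 : W.a₁ = 0) (h3 : W.a₃ = 0) (ha2 : 0 ≤ v W.a₂) (ha4 : 0 ≤ v W.a₄)
    (ha6 : 0 ≤ v W.a₆) {x y : K} (h : W.toAffine.Equation x y) (hx : v x < 0) :
    ∃ r : ℚ, 0 < r ∧ v x = ((-2 * r : ℚ) : WithTop ℚ) ∧ v y = ((-3 * r : ℚ) : WithTop ℚ) ∧
      v (x / y) = (r : WithTop ℚ) := by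
  obtain ⟨r, hr, hxr, hyr⟩ := frd_val_of_E1 v ha2 ha4 ha6 (frd_short_equation h1 h3 h) hx
  refine ⟨r, hr, hxr, hyr, ?_⟩
  have hy0 : y ≠ 0 := fuc_ne_zero_of_ex v hyr
  have : v (x / y * y) = ((-2 * r : ℚ) : WithTop ℚ) := by rw [div_mul_cancel₀ x hy0, hxr]
  rw [fuc_ex_of_mul v this hyr]; congr 1; ring

/-! ### the induction -/

/-- `E₁` is closed under `k • ·`. -/
theorem frd_E1_nsmul (h1 : W.a₁ = 0) (h3 : W.a₃ = 0) (ha2 : 0 ≤ v W.a₂) (ha4 : 0 ≤ v W.a₄)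
    (ha6 : 0 ≤ v W.a₆) {P : W.toAffine.Point} (hP : fl_InE1 v P) (k : ℕ) :
    fl_InE1 v (k • P) := by
  induction k with
  | zero => left; exact zero_nsmul P
  | succ k ih => rw [succ_nsmul]; exact fab_E1_add v h1 h3 ha2 ha4 ha6 ih hP

/-- `t (k P) ≡ k t(P)` modulo elements of valuation `> v t(P)`. -/
theorem frd_t_nsmul (h1 : W.a₁ = 0) (h3 : W.a₃ = 0) (ha2 : 0 ≤ v W.a₂) (ha4 : 0 ≤ v W.a₄)
    (ha6 : 0 ≤ v W.a₆) {x y : K} (h : W.toAffine.Nonsingular x y) (hx : v x < 0) {r : ℚ}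
    (hr : v (x / y) = (r : WithTop ℚ)) (k : ℕ) :
    (r : WithTop ℚ) < v (frd_t (k • Point.some x y h) - (k : K) * (x / y)) := by
  obtain ⟨r', hr'0, hxr, hyr, htr⟩ := frd_val_point v h1 h3 ha2 ha4 ha6 h.1 hx
  obtain rfl : r = r' := fuc_ex_unique v hr htr
  have hP : fl_InE1 v (Point.some x y h) := Or.inr ⟨x, y, h, rfl, hx⟩
  induction k with
  | zero =>
    rw [zero_nsmul, frd_t_zero, Nat.cast_zero, zero_mul, sub_zero, v.map_zero]
    exact WithTop.coe_lt_top r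
  | succ k ih =>
    have hk := frd_E1_nsmul v h1 h3 ha2 ha4 ha6 hP k
    have hk1 := frd_E1_nsmul v h1 h3 ha2 ha4 ha6 hP (k + 1)
    rcases hk with hk0 | ⟨x₂, y₂, hq, hkP, hx₂⟩
    · -- `k P = O`
      rw [succ_nsmul, hk0, zero_add, frd_t_some]
      rw [hk0, frd_t_zero] at ih
      have : x / y - ((k + 1 : ℕ) : K) * (x / y) = 0 - (k : K) * (x / y) := by
        push_cast; ring
      rw [this]; exact ih
    rcases hk1 with hk10 | ⟨x₃, y₃, hs, hk1P, hx₃⟩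
    · -- `(k+1) P = O`, so `k P = -P`
      have hneg : k • Point.some x y h = -Point.some x y h := by
        rw [succ_nsmul] at hk10
        exact eq_neg_of_add_eq_zero_left hk10
      rw [hk10, frd_t_zero]
      rw [hneg, frd_t_neg h1 h3, frd_t_some] at ih
      have : (0 : K) - ((k + 1 : ℕ) : K) * (x / y) = -(x / y) - (k : K) * (x / y) := by
        push_cast; ring
      rw [this]; exact ih
    · -- the generic case: `P + k P + (-(k+1) P) = O`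
      rw [hk1P, frd_t_some]
      rw [hkP, frd_t_some] at ih
      have hsum : Point.some x y h + Point.some x₂ y₂ hq + (-(Point.some x₃ y₃ hs)) = 0 := by
        rw [← hkP, ← hk1P, succ_nsmul, add_comm (Point.some x y h)]; exact add_neg_cancel _
      rw [neg_some] at hsum
      obtain ⟨ℓ, n, l₁, l₂, l₃, e1, e2, e3⟩ := fab_collinear_of_add_eq_zero hsum
      have h1' : W.toAffine.a₁ = 0 := h1
      have h3' : W.toAffine.a₃ = 0 := h3
      rw [h1'] at e1 e2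
      rw [h3'] at e2 e3
      rw [Affine.negY, h1', h3', zero_mul, sub_zero, sub_zero] at l₃
      obtain ⟨r₂, hr₂0, hxr₂, hyr₂, -⟩ := frd_val_point v h1 h3 ha2 ha4 ha6 hq.1 hx₂
      obtain ⟨r₃, hr₃0, hxr₃, hyr₃, -⟩ := frd_val_point v h1 h3 ha2 ha4 ha6 hs.1 hx₃
      have hyr₃' : v (-y₃) = ((-3 * r₃ : ℚ) : WithTop ℚ) := by rw [v.map_neg, hyr₃]
      have hest := frd_t_sum v ha2 ha4 ha6 hr'0 hr₂0 hr₃0 hxr hxr₂ hxr₃ hyr hyr₂ hyr₃' l₁ l₂ l₃
        (by linear_combination e1) (by linear_combination e2) (by linear_combination e3)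
      have hlt : (r : WithTop ℚ) < v (x / y + x₂ / y₂ + x₃ / -y₃) := by
        refine lt_of_lt_of_le ?_ hest
        have : r < r + r₂ + r₃ := by linarith
        exact_mod_cast this
      have : x₃ / y₃ - ((k + 1 : ℕ) : K) * (x / y) =
          (x₂ / y₂ - (k : K) * (x / y)) - (x / y + x₂ / y₂ + x₃ / -y₃) := by
        push_cast; rw [div_neg]; ring
      rw [this]
      exact lt_of_lt_of_le (lt_min ih hlt) (v.map_sub _ _)

/-- **(L2), torsion half.**  On a short integral model, the kernel of reduction `E₁` has no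
`p`-torsion if `p` is a unit. -/
theorem frd_E1_torsion_free (h1 : W.a₁ = 0) (h3 : W.a₃ = 0) (ha2 : 0 ≤ v W.a₂)
    (ha4 : 0 ≤ v W.a₄) (ha6 : 0 ≤ v W.a₆) {p : ℕ} (hp : v (p : K) = 0)
    {P : W.toAffine.Point} (hP : fl_InE1 v P) (hpP : p • P = 0) : P = 0 := by
  rcases hP with rfl | ⟨x, y, h, rfl, hx⟩
  · rfl
  · exfalso
    obtain ⟨r, -, -, -, htr⟩ := frd_val_point v h1 h3 ha2 ha4 ha6 h.1 hx
    have hlt := frd_t_nsmul v h1 h3 ha2 ha4 ha6 h hx htr p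
    rw [hpP, frd_t_zero, zero_sub, v.map_neg, v.map_mul, hp, zero_add, htr] at hlt
    exact lt_irrefl _ hlt

/-- **(L2) for the Legendre-type model** `Y² = X (X - δ) (X - ε)` with integral `δ`, `ε` and
`v p = 0`: the hypothesis shape `fab_HypL2` of the abstract theorems, fully discharged. -/
theorem frd_L2_leg {δ ε : K} (hδ : 0 ≤ v δ) (hε : 0 ≤ v ε) {p : ℕ} (hp : v (p : K) = 0) :
    fab_HypL2 v (fl_curve δ ε) p :=
  fab_L2_leg v hδ hε (fun _ hP hpP => frd_E1_torsion_free v rfl rfl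
    (by rw [fl_curve_a₂, AddValuation.map_neg]; exact v.map_le_add hδ hε)
    (by rw [fl_curve_a₄, v.map_mul]; exact add_nonneg hδ hε)
    (by rw [fl_curve_a₆, AddValuation.map_zero]; exact le_top) hp hP hpP)

end Fermat.Agent.Lib.Frey
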