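/-
S05, layer 2 (concrete): the chain of variable changes from the Frey curve
`y² + x y = x³ + ((b^p − 1 − a^p)/4) x² − (a^p b^p / 16) x` to the Legendre-type models
`Y² = X (X − δ) (X − ε)` (`fl_curve δ ε`).
-/
import Mathlib
import Fermat.Prelude.Def_FLTPrelim_FreyPackage
import Fermat.Agent.Lib.Frey.Defs

set_option autoImplicit false

namespace Fermat.Agent.Lib.Frey

open WeierstrassCurve

variable {K : Type*} [Field K]

/-- the Legendre-type model is symmetric in the two roots -/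
theorem fq_curve_comm (δ ε : K) : fl_curve δ ε = fl_curve ε δ := by
  unfold fl_curve
  congr 1 <;> ring

/-- translation of the `X`-coordinate by `r` -/
def fq_transl (r : K) : VariableChange K := ⟨1, r, 0, 0⟩

@[simp] theorem fq_transl_u (r : K) : ((fq_transl r).u : K) = 1 := rfl
@[simp] theorem fq_transl_r (r : K) : (fq_transl r).r = r := rfl
@[simp] theorem fq_transl_s (r : K) : (fq_transl r).s = 0 := rfl
@[simp] theorem fq_transl_t (r : K) : (fq_transl r).t = 0 := rfl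

/-- translating `Y² = X (X − δ)(X − ε)` by the root `δ` gives `Y² = X (X + δ)(X − (ε − δ))` -/
theorem fq_transl_curve (δ ε : K) :
    fq_transl δ • fl_curve δ ε = fl_curve (-δ) (ε - δ) := by
  ext
  · simp [variableChange_a₁, fl_curve, fq_transl]
  · simp [variableChange_a₂, fl_curve, fq_transl]; ring
  · simp [variableChange_a₃, fl_curve, fq_transl]
  · simp [variableChange_a₄, fl_curve, fq_transl]; ring
  · simp [variableChange_a₆, fl_curve, fq_transl]; ring

/-- the variable change `(x, y) = (X/4, Y/8 − X/8)` -/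
def fq_vc (h2 : (2 : K) ≠ 0) : VariableChange K :=
  ⟨Units.mk0 (2⁻¹) (inv_ne_zero h2), 0, -(2⁻¹), 0⟩

@[simp] theorem fq_vc_u (h2 : (2 : K) ≠ 0) : ((fq_vc h2).u : K) = 2⁻¹ := rfl
@[simp] theorem fq_vc_r (h2 : (2 : K) ≠ 0) : (fq_vc h2).r = 0 := rfl
@[simp] theorem fq_vc_s (h2 : (2 : K) ≠ 0) : (fq_vc h2).s = -(2⁻¹) := rfl
@[simp] theorem fq_vc_t (h2 : (2 : K) ≠ 0) : (fq_vc h2).t = 0 := rfl

theorem fq_vc_u_inv (h2 : (2 : K) ≠ 0) : (((fq_vc h2).u⁻¹ : Kˣ) : K) = 2 := by
  rw [Units.val_inv_eq_inv_val, fq_vc_u, inv_inv]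

/-- A curve `y² + x y = x³ + a₂ x² + a₄ x` becomes `Y² = X³ + (4a₂+1) X² + 16 a₄ X`. -/
theorem fq_vc_curve (h2 : (2 : K) ≠ 0) (a₂ a₄ A B : K) (ha₂ : 4 * a₂ + 1 = B - A)
    (ha₄ : 16 * a₄ = -(A * B)) :
    fq_vc h2 • (⟨1, a₂, 0, a₄, 0⟩ : WeierstrassCurve K) = fl_curve A (-B) := by
  ext
  · rw [variableChange_a₁, fq_vc_u_inv]
    simp only [fq_vc_s, fl_curve_a₁]
    field_simp
    ring
  · rw [variableChange_a₂, fq_vc_u_inv]
    simp only [fq_vc_s, fq_vc_r, fl_curve_a₂]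
    field_simp
    linear_combination ha₂
  · rw [variableChange_a₃, fq_vc_u_inv]
    simp only [fq_vc_r, fq_vc_t, fl_curve_a₃]
    ring
  · rw [variableChange_a₄, fq_vc_u_inv]
    simp only [fq_vc_s, fq_vc_r, fq_vc_t, fl_curve_a₄]
    linear_combination ha₄
  · rw [variableChange_a₆, fq_vc_u_inv]
    simp only [fq_vc_r, fq_vc_t, fl_curve_a₆]
    ring

end Fermat.Agent.Lib.Frey

namespace Fermat.Agent.Lib.Frey

open WeierstrassCurve

variable {K : Type*} [Field K] [Algebra ℚ K]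

/-- The Frey curve base-changed to `K`, after the variable change `fq_vc`, is
`Y² = X (X − a^p) (X + b^p)`. -/
theorem fq_frey_curve (P : FreyPackage) (h2 : (2 : K) ≠ 0) :
    fq_vc h2 • (P.freyCurve.baseChange K) =
      fl_curve ((P.a : K) ^ P.p) (-((P.b : K) ^ P.p)) := by
  have h4 : (4 : K) ≠ 0 := by
    have : (4 : K) = 2 * 2 := by norm_num
    rw [this]; exact mul_ne_zero h2 h2
  have h16 : (16 : K) ≠ 0 := by
    have : (16 : K) = 4 * 4 := by norm_num
    rw [this]; exact mul_ne_zero h4 h4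
  have e : P.freyCurve.baseChange K =
      (⟨1, algebraMap ℚ K (((P.b : ℚ) ^ P.p - 1 - (P.a : ℚ) ^ P.p) / 4), 0,
        algebraMap ℚ K (-((P.a : ℚ) ^ P.p) * ((P.b : ℚ) ^ P.p) / 16), 0⟩ : WeierstrassCurve K) := by
    ext <;> simp [WeierstrassCurve.baseChange, WeierstrassCurve.map, FreyPackage.freyCurve]
  rw [e]
  refine fq_vc_curve h2 _ _ _ _ ?_ ?_
  · rw [map_div₀, map_sub, map_sub, map_pow, map_pow, map_one, map_intCast, map_intCast,
      map_ofNat]
    field_simp
    ring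
  · rw [map_div₀, map_mul, map_neg, map_pow, map_pow, map_intCast, map_intCast, map_ofNat]
    field_simp

end Fermat.Agent.Lib.Frey
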