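/-
S05, layer 2: the two abstract local statements consumed by the final assembly (coordinate form),
in the conventions of `Lib/Frey/Defs.lean` (`v : AddValuation K (WithTop ℚ)`, `fl_curve δ ε`).
-/
import Mathlib
import Fermat.Agent.Lib.Frey.Defs

set_option autoImplicit false

namespace Fermat.Agent.Lib.Frey

open WeierstrassCurve

/-- **Good reduction**: `δ`, `ε`, `δ - ε`, `2`, `p` units; an automorphism `σ` preserving `v`,
acting trivially on the residue field and fixing `δ, ε` fixes every `p`-torsion point of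
`Y² = X (X - δ) (X - ε)`. -/
def fq_IfaceGood : Prop :=
  ∀ {K : Type} [Field K] [DecidableEq K] (v : AddValuation K (WithTop ℚ)) (σ : K ≃+* K),
    (∀ a : K, v (σ a) = v a) → (∀ a : K, 0 ≤ v a → 0 < v (σ a - a)) →
    ∀ (δ ε : K), σ δ = δ → σ ε = ε → v δ = 0 → v ε = 0 → v (δ - ε) = 0 → v 2 = 0 →
    ∀ (p : ℕ), p.Prime → p ≠ 2 → v (p : K) = 0 →
    ∀ (X Y : K) (h : (fl_curve δ ε).toAffine.Nonsingular X Y),
      p • (Affine.Point.some X Y h) = 0 → σ X = X ∧ σ Y = Y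

/-- **Multiplicative reduction**: `v δ = m > 0`, `ε`, `2`, `p` units, and a `σ`-fixed point
`(X₀, Y₀)` with `v X₀ = 2 m / p` (level `n/p` in the component group): then `σ` fixes every
`p`-torsion point of `Y² = X (X - δ) (X - ε)`. -/
def fq_IfaceMult : Prop :=
  ∀ {K : Type} [Field K] [DecidableEq K] (v : AddValuation K (WithTop ℚ)) (σ : K ≃+* K),
    (∀ a : K, v (σ a) = v a) → (∀ a : K, 0 ≤ v a → 0 < v (σ a - a)) →
    ∀ (δ ε : K) (m : ℚ), σ δ = δ → σ ε = ε → 0 < m → v δ = (m : ℚ) → v ε = 0 → v 2 = 0 →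
    ∀ (p : ℕ), p.Prime → p ≠ 2 → v (p : K) = 0 →
    ∀ (X₀ Y₀ : K), (fl_curve δ ε).toAffine.Nonsingular X₀ Y₀ → σ X₀ = X₀ → σ Y₀ = Y₀ →
      v X₀ = ((2 * m / p : ℚ) : WithTop ℚ) →
    ∀ (X Y : K) (h : (fl_curve δ ε).toAffine.Nonsingular X Y),
      p • (Affine.Point.some X Y h) = 0 → σ X = X ∧ σ Y = Y

end Fermat.Agent.Lib.Frey
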