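/-
S05 (L4): the inertia-fixed point `P₀ = (t², t² w)` on `Y² = X (X - δ) (X - ε)`, `δ = s t^p`,
of level `2 v(t) = 2 v(δ) / p`.
-/
import Fermat.Agent.Lib.Frey.Defs
import Fermat.Agent.Lib.Frey.FqArith

set_option autoImplicit false

namespace Fermat.Agent.Lib.Frey

open WeierstrassCurve

variable {K : Type*} [Field K] (v : AddValuation K (WithTop ℚ))

/-- `v (t^k) = k β` as an element of `WithTop ℚ`. -/
theorem fq_v_pow_coe {t : K} {β : ℚ} (ht : v t = (β : WithTop ℚ)) (k : ℕ) :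
    v (t ^ k) = (((k : ℚ) * β : ℚ) : WithTop ℚ) := by
  rw [AddValuation.map_pow, ht, ← WithTop.coe_nsmul, nsmul_eq_mul]

/-- A point of `Y² = X (X - δ) (X - ε)` with `Y ≠ 0` is nonsingular (`2 ≠ 0`). -/
theorem fq_nonsingular_of_ne_zero {δ ε x y : K} (h2 : (2 : K) ≠ 0)
    (h : y ^ 2 = x * (x - δ) * (x - ε)) (hy : y ≠ 0) :
    (fl_curve δ ε).toAffine.Nonsingular x y := by
  rw [Affine.nonsingular_iff']
  refine ⟨(fl_curve_equation_iff δ ε x y).mpr h, Or.inr ?_⟩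
  simp only [fl_curve_a₁, fl_curve_a₃, zero_mul, add_zero]
  exact mul_ne_zero h2 hy

/-- **L4.** The inertia-fixed point of level `2 β`, `β = v t`, on the curve with `δ = s t^(k+2)`,
`s = ± 1`. -/
theorem fq_exists_fixed_point [IsAlgClosed K] (σ : K ≃+* K)
    (hσ : ∀ a, 0 ≤ v a → 0 < v (σ a - a)) (h2 : v 2 = 0) (t s ε : K)
    (hs : s = 1 ∨ s = -1) (ht : σ t = t) (hε : σ ε = ε) {β : ℚ} (hvt : v t = (β : WithTop ℚ))
    (hβ : 0 < β) (hvε : v ε = 0) (k : ℕ) (hk : 1 ≤ k) :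
    ∃ X₀ Y₀ : K, (fl_curve (s * t ^ (k + 2)) ε).toAffine.Nonsingular X₀ Y₀ ∧
      σ X₀ = X₀ ∧ σ Y₀ = Y₀ ∧ v X₀ = (((2 : ℚ) * β : ℚ) : WithTop ℚ) := by
  have h2ne : (2 : K) ≠ 0 := by
    intro h
    rw [h, AddValuation.map_zero] at h2
    exact WithTop.top_ne_zero h2
  have hvs : v s = 0 := by
    rcases hs with rfl | rfl
    · exact AddValuation.map_one v
    · rw [AddValuation.map_neg, AddValuation.map_one]
  have hσs : σ s = s := by
    rcases hs with rfl | rfl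
    · exact map_one σ
    · rw [map_neg, map_one]
  -- the unit `u`
  set u : K := (1 - s * t ^ k) * (t ^ 2 - ε) with hu
  have hvtk : (0 : WithTop ℚ) < v (s * t ^ k) := by
    rw [AddValuation.map_mul, hvs, zero_add, fq_v_pow_coe v hvt]
    have : (0 : ℚ) < (k : ℚ) * β := by
      have : (1 : ℚ) ≤ (k : ℚ) := by exact_mod_cast hk
      positivity
    exact_mod_cast this
  have hv1 : v (1 - s * t ^ k) = 0 := by
    have := AddValuation.map_sub_eq_of_lt_left (v := v) (x := (1 : K)) (y := s * t ^ k)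
      (by rw [AddValuation.map_one]; exact hvtk)
    rw [this, AddValuation.map_one]
  have hvt2 : v (t ^ 2) = (((2 : ℚ) * β : ℚ) : WithTop ℚ) := by
    have := fq_v_pow_coe v hvt 2
    simpa using this
  have hvt2pos : (0 : WithTop ℚ) < v (t ^ 2) := by
    rw [hvt2]
    have : (0 : ℚ) < 2 * β := by positivity
    exact_mod_cast this
  have hv2 : v (t ^ 2 - ε) = 0 := by
    have := AddValuation.map_sub_eq_of_lt_right (v := v) (x := t ^ 2) (y := ε)
      (by rw [hvε]; exact hvt2pos)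
    rw [this, hvε]
  have hvu : v u = 0 := by rw [hu, AddValuation.map_mul, hv1, hv2, add_zero]
  have hσu : σ u = u := by
    rw [hu]
    simp only [map_mul, map_sub, map_one, map_pow, ht, hε, hσs]
  obtain ⟨w, hw⟩ := IsAlgClosed.exists_pow_nat_eq u (n := 2) (by norm_num)
  have hσw : σ w = w := fq_sqrt_fixed v σ hσ h2 hσu hvu hw
  have hw0 : w ≠ 0 := by
    rintro rfl
    have : u = 0 := by rw [← hw]; ring
    rw [this, AddValuation.map_zero] at hvu
    exact WithTop.top_ne_zero hvu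
  have ht0 : t ≠ 0 := by
    rintro rfl
    rw [AddValuation.map_zero] at hvt
    exact WithTop.top_ne_coe hvt
  refine ⟨t ^ 2, t ^ 2 * w, ?_, ?_, ?_, hvt2⟩
  · apply fq_nonsingular_of_ne_zero h2ne
    · exact fq_point_equation t s ε w k hw
    · exact mul_ne_zero (pow_ne_zero 2 ht0) hw0
  · rw [map_pow, ht]
  · rw [map_mul, map_pow, ht, hσw]

/-- **L4**, in the shape consumed by the assembly: `δ = s t^p`, `m = p · v t`, and the level of
`P₀` is `2 m / p`. -/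
theorem fq_exists_P0 [IsAlgClosed K] (σ : K ≃+* K)
    (hσ : ∀ a, 0 ≤ v a → 0 < v (σ a - a)) (h2 : v 2 = 0) (t s ε : K)
    (hs : s = 1 ∨ s = -1) (ht : σ t = t) (hε : σ ε = ε) (ht0 : t ≠ 0) (htpos : 0 < v t)
    (hvε : v ε = 0) (p : ℕ) (hp : 3 ≤ p) :
    ∃ (m : ℚ) (X₀ Y₀ : K), 0 < m ∧ v (s * t ^ p) = (m : WithTop ℚ) ∧
      (fl_curve (s * t ^ p) ε).toAffine.Nonsingular X₀ Y₀ ∧
      σ X₀ = X₀ ∧ σ Y₀ = Y₀ ∧ v X₀ = (((2 : ℚ) * m / p : ℚ) : WithTop ℚ) := by
  obtain ⟨β, hβ⟩ := WithTop.ne_top_iff_exists.mp ((AddValuation.ne_top_iff v).mpr ht0)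
  have hvt : v t = (β : WithTop ℚ) := hβ.symm
  have hβpos : 0 < β := by
    rw [hvt] at htpos
    exact_mod_cast htpos
  obtain ⟨k, rfl⟩ : ∃ k, p = k + 2 := ⟨p - 2, by omega⟩
  have hk : 1 ≤ k := by omega
  obtain ⟨X₀, Y₀, hns, hX, hY, hvX⟩ :=
    fq_exists_fixed_point v σ hσ h2 t s ε hs ht hε hvt hβpos hvε k hk
  have hvs : v s = 0 := by
    rcases hs with rfl | rfl
    · exact AddValuation.map_one v
    · rw [AddValuation.map_neg, AddValuation.map_one]
  have hpq : (0 : ℚ) < ((k + 2 : ℕ) : ℚ) := by positivity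
  refine ⟨((k + 2 : ℕ) : ℚ) * β, X₀, Y₀, by positivity, ?_, hns, hX, hY, ?_⟩
  · rw [AddValuation.map_mul, hvs, zero_add, fq_v_pow_coe v hvt]
  · rw [hvX]
    congr 1
    field_simp

end Fermat.Agent.Lib.Frey
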