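import Mathlib

/-!
# Point-level variable change for Weierstrass curves over a field

For a field `F`, a Weierstrass curve `W` over `F` and an admissible change of variables
`C = (u, r, s, t)`, the map `(x, y) ↦ (u² x + r, u³ y + u² s x + t)` is a group isomorphism
from the nonsingular points of `C • W` onto those of `W`.  All names carry the prefix `fvc_`.
-/

set_option autoImplicit false

namespace Fermat.Agent.Lib.Frey

open WeierstrassCurve

variable {F : Type*} [Field F]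

/-- The `X`-coordinate of the image of `(x, y)`. -/
def fvc_X (C : VariableChange F) (x : F) : F := (C.u : F) ^ 2 * x + C.r

/-- The `Y`-coordinate of the image of `(x, y)`. -/
def fvc_Y (C : VariableChange F) (x y : F) : F :=
  (C.u : F) ^ 3 * y + (C.u : F) ^ 2 * C.s * x + C.t

lemma fvc_X_injective (C : VariableChange F) : Function.Injective (fvc_X C) := by
  intro x x' h
  have hu : (C.u : F) ^ 2 ≠ 0 := pow_ne_zero _ C.u.ne_zero
  unfold fvc_X at h
  exact mul_left_cancel₀ hu (add_right_cancel h)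

lemma fvc_Y_injective (C : VariableChange F) (x : F) : Function.Injective (fvc_Y C x) := by
  intro y y' h
  have hu : (C.u : F) ^ 3 ≠ 0 := pow_ne_zero _ C.u.ne_zero
  unfold fvc_Y at h
  exact mul_left_cancel₀ hu (add_right_cancel (add_right_cancel h))

section formulas

variable (W : WeierstrassCurve F) (C : VariableChange F)

/-- The Weierstrass polynomial transforms by the factor `u⁻⁶`. -/
lemma fvc_poly (x y : F) :
    y ^ 2 + (C • W).a₁ * x * y + (C • W).a₃ * y
        - (x ^ 3 + (C • W).a₂ * x ^ 2 + (C • W).a₄ * x + (C • W).a₆)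
      = ((C.u : F)⁻¹) ^ 6 * ((fvc_Y C x y) ^ 2 + W.a₁ * (fvc_X C x) * (fvc_Y C x y)
          + W.a₃ * (fvc_Y C x y)
          - ((fvc_X C x) ^ 3 + W.a₂ * (fvc_X C x) ^ 2 + W.a₄ * (fvc_X C x) + W.a₆)) := by
  have hu : (C.u : F) ≠ 0 := C.u.ne_zero
  simp only [variableChange_a₁, variableChange_a₂, variableChange_a₃, variableChange_a₄,
    variableChange_a₆, Units.val_inv_eq_inv_val, fvc_X, fvc_Y]
  field_simp
  ring

lemma fvc_polyY (x y : F) :
    2 * y + (C • W).a₁ * x + (C • W).a₃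
      = ((C.u : F)⁻¹) ^ 3 * (2 * (fvc_Y C x y) + W.a₁ * (fvc_X C x) + W.a₃) := by
  have hu : (C.u : F) ≠ 0 := C.u.ne_zero
  simp only [variableChange_a₁, variableChange_a₃, Units.val_inv_eq_inv_val, fvc_X, fvc_Y]
  field_simp
  ring

lemma fvc_polyX (x y : F) :
    (C • W).a₁ * y - (3 * x ^ 2 + 2 * (C • W).a₂ * x + (C • W).a₄)
      = ((C.u : F)⁻¹) ^ 4 * ((W.a₁ * (fvc_Y C x y)
          - (3 * (fvc_X C x) ^ 2 + 2 * W.a₂ * (fvc_X C x) + W.a₄))
          + C.s * (2 * (fvc_Y C x y) + W.a₁ * (fvc_X C x) + W.a₃)) := by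
  have hu : (C.u : F) ≠ 0 := C.u.ne_zero
  simp only [variableChange_a₁, variableChange_a₂, variableChange_a₄, Units.val_inv_eq_inv_val,
    fvc_X, fvc_Y]
  field_simp
  ring

lemma fvc_equation (x y : F) :
    (C • W).toAffine.Equation x y ↔ W.toAffine.Equation (fvc_X C x) (fvc_Y C x y) := by
  have hu : ((C.u : F)⁻¹) ^ 6 ≠ 0 := pow_ne_zero _ (inv_ne_zero C.u.ne_zero)
  rw [Affine.equation_iff', Affine.equation_iff', fvc_poly W C x y, mul_eq_zero]
  constructor
  · rintro (h | h)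
    · exact absurd h hu
    · exact h
  · intro h
    exact Or.inr h

lemma fvc_nonsingular (x y : F) :
    (C • W).toAffine.Nonsingular x y ↔ W.toAffine.Nonsingular (fvc_X C x) (fvc_Y C x y) := by
  have hu3 : ((C.u : F)⁻¹) ^ 3 ≠ 0 := pow_ne_zero _ (inv_ne_zero C.u.ne_zero)
  have hu4 : ((C.u : F)⁻¹) ^ 4 ≠ 0 := pow_ne_zero _ (inv_ne_zero C.u.ne_zero)
  rw [Affine.nonsingular_iff', Affine.nonsingular_iff', fvc_equation W C x y,
    fvc_polyX W C x y, fvc_polyY W C x y]
  refine and_congr Iff.rfl ?_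
  set PX := W.a₁ * (fvc_Y C x y) - (3 * (fvc_X C x) ^ 2 + 2 * W.a₂ * (fvc_X C x) + W.a₄)
  set PY := 2 * (fvc_Y C x y) + W.a₁ * (fvc_X C x) + W.a₃
  constructor
  · rintro (h | h)
    · by_cases hY : PY = 0
      · left
        intro hX
        apply h
        rw [hX, hY]
        ring
      · exact Or.inr hY
    · right
      intro hY
      apply h
      rw [hY, mul_zero]
  · rintro (h | h)
    · by_cases hY : PY = 0
      · left
        rw [hY, mul_zero, add_zero]
        exact mul_ne_zero hu4 h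
      · exact Or.inr (mul_ne_zero hu3 hY)
    · exact Or.inr (mul_ne_zero hu3 h)

lemma fvc_negY (x y : F) :
    fvc_Y C x ((C • W).toAffine.negY x y) = W.toAffine.negY (fvc_X C x) (fvc_Y C x y) := by
  have hu : (C.u : F) ≠ 0 := C.u.ne_zero
  simp only [Affine.negY, variableChange_a₁, variableChange_a₃, Units.val_inv_eq_inv_val,
    fvc_X, fvc_Y]
  field_simp
  ring

/-- The slope transforms as `ℓ ↦ u ℓ + s`. -/
lemma fvc_slope [DecidableEq F] {x₁ x₂ y₁ y₂ : F} (h₁ : (C • W).toAffine.Equation x₁ y₁)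
    (h₂ : (C • W).toAffine.Equation x₂ y₂)
    (hxy : ¬(x₁ = x₂ ∧ y₁ = (C • W).toAffine.negY x₂ y₂)) :
    W.toAffine.slope (fvc_X C x₁) (fvc_X C x₂) (fvc_Y C x₁ y₁) (fvc_Y C x₂ y₂)
      = (C.u : F) * (C • W).toAffine.slope x₁ x₂ y₁ y₂ + C.s := by
  have hu : (C.u : F) ≠ 0 := C.u.ne_zero
  by_cases hx : x₁ = x₂
  · subst hx
    have hy : y₁ ≠ (C • W).toAffine.negY x₁ y₂ := fun h => hxy ⟨rfl, h⟩
    have hyy : y₁ = y₂ := by
      rcases Affine.Y_eq_of_X_eq h₁ h₂ rfl with h | h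
      · exact h
      · exact absurd h hy
    subst hyy
    have hy' : fvc_Y C x₁ y₁ ≠ W.toAffine.negY (fvc_X C x₁) (fvc_Y C x₁ y₁) := by
      rw [← fvc_negY W C x₁ y₁]
      exact fun h => hy (fvc_Y_injective C x₁ h)
    rw [Affine.slope_of_Y_ne rfl hy', Affine.slope_of_Y_ne rfl hy]
    have hd : y₁ - (C • W).toAffine.negY x₁ y₁ ≠ 0 := sub_ne_zero.mpr hy
    have hd' : fvc_Y C x₁ y₁ - W.toAffine.negY (fvc_X C x₁) (fvc_Y C x₁ y₁) ≠ 0 :=
      sub_ne_zero.mpr hy'
    have e1 : y₁ - (C • W).toAffine.negY x₁ y₁ = 2 * y₁ + (C • W).a₁ * x₁ + (C • W).a₃ := by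
      simp only [Affine.negY]; ring
    have e2 : fvc_Y C x₁ y₁ - W.toAffine.negY (fvc_X C x₁) (fvc_Y C x₁ y₁)
        = 2 * (fvc_Y C x₁ y₁) + W.a₁ * (fvc_X C x₁) + W.a₃ := by
      simp only [Affine.negY]; ring
    have e3 : 3 * x₁ ^ 2 + 2 * (C • W).a₂ * x₁ + (C • W).a₄ - (C • W).a₁ * y₁
        = -((C • W).a₁ * y₁ - (3 * x₁ ^ 2 + 2 * (C • W).a₂ * x₁ + (C • W).a₄)) := by ring
    rw [e1] at hd ⊢
    rw [e2] at hd' ⊢
    rw [e3, fvc_polyX W C x₁ y₁]
    rw [fvc_polyY W C x₁ y₁] at hd ⊢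
    set PY := 2 * (fvc_Y C x₁ y₁) + W.a₁ * (fvc_X C x₁) + W.a₃
    field_simp
    ring
  · have hx' : fvc_X C x₁ ≠ fvc_X C x₂ := fun h => hx (fvc_X_injective C h)
    rw [Affine.slope_of_X_ne hx', Affine.slope_of_X_ne hx]
    have hd : x₁ - x₂ ≠ 0 := sub_ne_zero.mpr hx
    have hd' : fvc_X C x₁ - fvc_X C x₂ ≠ 0 := sub_ne_zero.mpr hx'
    have e : fvc_X C x₁ - fvc_X C x₂ = (C.u : F) ^ 2 * (x₁ - x₂) := by
      simp only [fvc_X]; ring
    rw [e]
    simp only [fvc_Y]
    field_simp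
    ring

lemma fvc_addX (x₁ x₂ ℓ : F) :
    W.toAffine.addX (fvc_X C x₁) (fvc_X C x₂) ((C.u : F) * ℓ + C.s)
      = fvc_X C ((C • W).toAffine.addX x₁ x₂ ℓ) := by
  have hu : (C.u : F) ≠ 0 := C.u.ne_zero
  simp only [Affine.addX, variableChange_a₁, variableChange_a₂, Units.val_inv_eq_inv_val,
    fvc_X]
  field_simp
  ring

lemma fvc_negAddY (x₁ x₂ y₁ ℓ : F) :
    W.toAffine.negAddY (fvc_X C x₁) (fvc_X C x₂) (fvc_Y C x₁ y₁) ((C.u : F) * ℓ + C.s)
      = fvc_Y C ((C • W).toAffine.addX x₁ x₂ ℓ) ((C • W).toAffine.negAddY x₁ x₂ y₁ ℓ) := by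
  have hu : (C.u : F) ≠ 0 := C.u.ne_zero
  simp only [Affine.negAddY, Affine.addX, variableChange_a₁, variableChange_a₂,
    Units.val_inv_eq_inv_val, fvc_X, fvc_Y]
  field_simp
  ring

lemma fvc_addY (x₁ x₂ y₁ ℓ : F) :
    W.toAffine.addY (fvc_X C x₁) (fvc_X C x₂) (fvc_Y C x₁ y₁) ((C.u : F) * ℓ + C.s)
      = fvc_Y C ((C • W).toAffine.addX x₁ x₂ ℓ) ((C • W).toAffine.addY x₁ x₂ y₁ ℓ) := by
  rw [Affine.addY, Affine.addY, fvc_negAddY, fvc_addX, ← fvc_negY]

end formulas

section point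

variable (W : WeierstrassCurve F) (C : VariableChange F)

/-- The map on points `(x, y) ↦ (u² x + r, u³ y + u² s x + t)` from `C • W` to `W`. -/
def fvc_pointFun : (C • W).toAffine.Point → W.toAffine.Point
  | .zero => .zero
  | .some x y h => .some (fvc_X C x) (fvc_Y C x y) ((fvc_nonsingular W C x y).mp h)

@[simp] lemma fvc_pointFun_zero : fvc_pointFun W C 0 = 0 := rfl

@[simp] lemma fvc_pointFun_some {x y : F} (h : (C • W).toAffine.Nonsingular x y) :
    fvc_pointFun W C (.some x y h)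
      = .some (fvc_X C x) (fvc_Y C x y) ((fvc_nonsingular W C x y).mp h) := rfl

lemma fvc_some_congr {W' : WeierstrassCurve F} {x x' y y' : F} (hx : x = x') (hy : y = y')
    (h : W'.toAffine.Nonsingular x y) (h' : W'.toAffine.Nonsingular x' y') :
    (Affine.Point.some x y h : W'.toAffine.Point) = Affine.Point.some x' y' h' := by
  subst hx; subst hy; rfl

variable [DecidableEq F]

lemma fvc_pointFun_add (P Q : (C • W).toAffine.Point) :
    fvc_pointFun W C (P + Q) = fvc_pointFun W C P + fvc_pointFun W C Q := by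
  rcases P with _ | ⟨x₁, y₁, h₁⟩
  · change fvc_pointFun W C (0 + Q) = 0 + fvc_pointFun W C Q
    rw [zero_add, zero_add]
  rcases Q with _ | ⟨x₂, y₂, h₂⟩
  · change fvc_pointFun W C (_ + 0) = _ + 0
    rw [add_zero, add_zero]
  by_cases hxy : x₁ = x₂ ∧ y₁ = (C • W).toAffine.negY x₂ y₂
  · rw [Affine.Point.add_of_Y_eq hxy.1 hxy.2, fvc_pointFun_zero, fvc_pointFun_some,
      fvc_pointFun_some]
    refine (Affine.Point.add_of_Y_eq (congrArg _ hxy.1) ?_).symm
    rw [hxy.2, hxy.1, fvc_negY]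
  · have hxy' : ¬(fvc_X C x₁ = fvc_X C x₂ ∧
        fvc_Y C x₁ y₁ = W.toAffine.negY (fvc_X C x₂) (fvc_Y C x₂ y₂)) := by
      rintro ⟨hx, hy⟩
      have hx' := fvc_X_injective C hx
      subst hx'
      rw [← fvc_negY] at hy
      exact hxy ⟨rfl, fvc_Y_injective C _ hy⟩
    rw [Affine.Point.add_some hxy, fvc_pointFun_some, fvc_pointFun_some, fvc_pointFun_some,
      Affine.Point.add_some hxy']
    have hs := fvc_slope W C h₁.1 h₂.1 hxy
    refine fvc_some_congr ?_ ?_ _ _
    · rw [hs, fvc_addX]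
    · rw [hs, fvc_addY]

/-- The additive homomorphism on points induced by the change of variables. -/
def fvc_pointHom : (C • W).toAffine.Point →+ W.toAffine.Point where
  toFun := fvc_pointFun W C
  map_zero' := rfl
  map_add' := fvc_pointFun_add W C

omit [DecidableEq F] in
lemma fvc_pointFun_injective : Function.Injective (fvc_pointFun W C) := by
  rintro (_ | ⟨x₁, y₁, h₁⟩) (_ | ⟨x₂, y₂, h₂⟩) h
  · rfl
  · exact absurd h (by simp [fvc_pointFun])
  · exact absurd h (by simp [fvc_pointFun])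
  · simp only [fvc_pointFun_some, Affine.Point.some.injEq] at h
    have hx := fvc_X_injective C h.1
    subst hx
    have hy := fvc_Y_injective C _ h.2
    subst hy
    rfl

omit [DecidableEq F] in
lemma fvc_pointFun_surjective : Function.Surjective (fvc_pointFun W C) := by
  have hu : (C.u : F) ≠ 0 := C.u.ne_zero
  rintro (_ | ⟨X, Y, h⟩)
  · exact ⟨0, rfl⟩
  · have hX : fvc_X C ((X - C.r) / (C.u : F) ^ 2) = X := by
      simp only [fvc_X]; field_simp; ring
    have hY : fvc_Y C ((X - C.r) / (C.u : F) ^ 2)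
        ((Y - C.s * (X - C.r) - C.t) / (C.u : F) ^ 3) = Y := by
      simp only [fvc_Y]; field_simp; ring
    have h' : (C • W).toAffine.Nonsingular ((X - C.r) / (C.u : F) ^ 2)
        ((Y - C.s * (X - C.r) - C.t) / (C.u : F) ^ 3) := by
      rw [fvc_nonsingular, hX, hY]
      exact h
    exact ⟨.some _ _ h', fvc_some_congr hX hY _ _⟩

/-- The point-level change of variables as an additive equivalence. -/
noncomputable def fvc_pointEquiv : (C • W).toAffine.Point ≃+ W.toAffine.Point :=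
  AddEquiv.ofBijective (fvc_pointHom W C)
    ⟨fvc_pointFun_injective W C, fvc_pointFun_surjective W C⟩

@[simp] lemma fvc_pointEquiv_zero : fvc_pointEquiv W C 0 = 0 := rfl

@[simp] lemma fvc_pointEquiv_some {x y : F} (h : (C • W).toAffine.Nonsingular x y) :
    fvc_pointEquiv W C (.some x y h)
      = .some (fvc_X C x) (fvc_Y C x y) ((fvc_nonsingular W C x y).mp h) := rfl

end point

end Fermat.Agent.Lib.Frey
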