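/-
S05, layer 2: transfer of torsion points along a change of variables (coordinate form).
-/
import Mathlib
import Fermat.Agent.Lib.Frey.VarChange

set_option autoImplicit false

namespace Fermat.Agent.Lib.Frey

open WeierstrassCurve

variable {F : Type*} [Field F] [DecidableEq F]

/-- A nonzero `n`-torsion point `(X, Y)` of `W` comes from an `n`-torsion point `(X', Y')` of
`W' = C • W`, with `X = u² X' + r`, `Y = u³ Y' + u² s X' + t`. -/
theorem fq_transfer (W W' : WeierstrassCurve F) (C : VariableChange F) (hC : C • W = W')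
    (n : ℕ) {X Y : F} (h : W.toAffine.Nonsingular X Y)
    (hn : n • (Affine.Point.some X Y h) = 0) :
    ∃ (X' Y' : F) (h' : W'.toAffine.Nonsingular X' Y'),
      n • (Affine.Point.some X' Y' h') = 0 ∧ X = fvc_X C X' ∧ Y = fvc_Y C X' Y' := by
  subst hC
  set e := fvc_pointEquiv W C with he
  have h1 : n • (e.symm (Affine.Point.some X Y h)) = 0 := by
    rw [← map_nsmul, hn, map_zero]
  have h2 : e (e.symm (Affine.Point.some X Y h)) = Affine.Point.some X Y h :=
    e.apply_symm_apply _
  rcases hx : e.symm (Affine.Point.some X Y h) with _ | ⟨X', Y', h'⟩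
  · rw [hx] at h2
    have h3 : e Affine.Point.zero = 0 := map_zero e
    rw [h3] at h2
    exact absurd h2 (by intro h4; cases h4)
  · rw [hx] at h1 h2
    rw [he, fvc_pointEquiv_some] at h2
    simp only [Affine.Point.some.injEq] at h2
    exact ⟨X', Y', h', h1, h2.1.symm, h2.2.symm⟩

end Fermat.Agent.Lib.Frey
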