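/-
S05, layer 2: the assembly.  From the two abstract local statements (`fq_IfaceGood`,
`fq_IfaceMult`), a `ℚ`-valued valuation attached to `A` (`fq_IfaceOrd`), and the Frey arithmetic,
deduce that the mod-`p` representation of the Frey curve is unramified at every odd prime `q ≠ p`.
-/
import Mathlib
import Fermat.Prelude.Def_FLTPrelim_FreyPackage
import Fermat.Prelude.Def_FLTPrelim_GaloisRep
import Fermat.Prelude.Def_FLTPrelim_Ramification
import Fermat.Agent.Lib.Frey.Defs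
import Fermat.Agent.Lib.Frey.VarChange
import Fermat.Agent.Lib.Frey.FqIface
import Fermat.Agent.Lib.Frey.FqChain
import Fermat.Agent.Lib.Frey.FqTransfer
import Fermat.Agent.Lib.Frey.FqArith
import Fermat.Agent.Lib.Frey.FqPoint

set_option autoImplicit false

namespace Fermat.Agent.Lib.Frey

open WeierstrassCurve
open scoped Pointwise

/-! ### Unfolding the inertia subgroup -/

section inertia

variable {K L : Type*} [Field K] [Field L] [Algebra K L]

/-- An inertia element stabilises `A` and acts trivially on the residue field. -/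
theorem fq_inertia_spec (A : ValuationSubring L) {σ : L ≃ₐ[K] L}
    (hσ : σ ∈ A.inertiaSubgroupIn K) :
    σ • A = A ∧ ∀ a : L, a ∈ A → σ a ∈ A ∧ σ a - a ∈ A.nonunits := by
  obtain ⟨g, hg, rfl⟩ := hσ
  have hstab : (g : L ≃ₐ[K] L) • A = A := g.2
  refine ⟨hstab, fun a ha => ?_⟩
  have hmem : (g : L ≃ₐ[K] L) a ∈ A := by
    have : (g : L ≃ₐ[K] L) • a ∈ (g : L ≃ₐ[K] L) • A :=
      ValuationSubring.smul_mem_pointwise_smul _ _ _ ha
    rw [hstab] at this
    exact this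
  refine ⟨hmem, ?_⟩
  have h1 : ∀ x : IsLocalRing.ResidueField A, g • x = x := by
    intro x
    have := congrArg (fun f : RingAut (IsLocalRing.ResidueField A) => f x)
      (MonoidHom.mem_ker.mp hg)
    simpa using this
  have h2 := h1 (IsLocalRing.residue A ⟨a, ha⟩)
  rw [← IsLocalRing.ResidueField.residue_smul] at h2
  have h3 : IsLocalRing.residue A (g • (⟨a, ha⟩ : A) - ⟨a, ha⟩) = 0 := by
    rw [map_sub, h2, sub_self]
  rw [IsLocalRing.residue_eq_zero_iff] at h3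
  exact ValuationSubring.coe_mem_nonunits_iff.mpr h3

end inertia

/-! ### The valuation interface -/

/-- A `ℚ`-valued additive valuation attached to a valuation subring of `ℚ̄`, invariant under the
decomposition group. (Provided by `Lib/Frey/Ord.lean`.) -/
def fq_IfaceOrd : Prop :=
  ∀ (A : ValuationSubring (AlgebraicClosure ℚ)) (q : ℕ), q.Prime →
    (q : AlgebraicClosure ℚ) ∈ A.nonunits →
    ∃ v : AddValuation (AlgebraicClosure ℚ) (WithTop ℚ),
      (∀ x, 0 ≤ v x ↔ x ∈ A) ∧ (∀ x, 0 < v x ↔ x ∈ A.nonunits) ∧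
      ∀ σ : AlgebraicClosure ℚ ≃ₐ[ℚ] AlgebraicClosure ℚ, σ • A = A → ∀ a, v (σ a) = v a

section generic

variable {K : Type*} [Field K] [DecidableEq K]

/-- "σ fixes the coordinates of every `n`-torsion point of `W`". -/
def fq_Fixes (σ : K ≃+* K) (n : ℕ) (W : WeierstrassCurve K) : Prop :=
  ∀ (X Y : K) (h : W.toAffine.Nonsingular X Y),
    n • (Affine.Point.some X Y h) = 0 → σ X = X ∧ σ Y = Y

theorem fq_Fixes_of_eq {σ : K ≃+* K} {n : ℕ} {W W' : WeierstrassCurve K} (hW : W = W')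
    (H : fq_Fixes σ n W') : fq_Fixes σ n W := by
  subst hW; exact H

/-- Transfer of `fq_Fixes` along a `σ`-fixed change of variables. -/
theorem fq_Fixes_transfer {σ : K ≃+* K} {n : ℕ} (W W' : WeierstrassCurve K)
    (C : VariableChange K) (hC : C • W = W') (hu : σ (C.u : K) = C.u) (hr : σ C.r = C.r)
    (hs : σ C.s = C.s) (ht : σ C.t = C.t) (H : fq_Fixes σ n W') : fq_Fixes σ n W := by
  intro X Y h hn
  obtain ⟨X', Y', h', hn', hX, hY⟩ := fq_transfer W W' C hC n h hn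
  obtain ⟨hX', hY'⟩ := H X' Y' h' hn'
  constructor
  · rw [hX]; unfold fvc_X
    rw [map_add, map_mul, map_pow, hu, hr, hX']
  · rw [hY]; unfold fvc_Y
    rw [map_add, map_add, map_mul, map_mul, map_mul, map_pow, map_pow, hu, hs, ht, hX', hY']

end generic

section core

variable {K : Type} [Field K] [DecidableEq K] [IsAlgClosed K]

/-- The multiplicative case in abstract form: `δ = s t^p`, `s = ± 1`, `v t = β > 0`. -/
theorem fq_mult_case (hMult : fq_IfaceMult) (v : AddValuation K (WithTop ℚ)) (σ : K ≃+* K)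
    (hσv : ∀ a : K, v (σ a) = v a) (hσm : ∀ a : K, 0 ≤ v a → 0 < v (σ a - a))
    (h2 : v 2 = 0) {p : ℕ} (hp : p.Prime) (hp2 : p ≠ 2) (hvp : v (p : K) = 0)
    (s t ε : K) (hs : s = 1 ∨ s = -1) (ht : σ t = t) (hε : σ ε = ε) {β : ℚ}
    (hvt : v t = (β : WithTop ℚ)) (hβ : 0 < β) (hvε : v ε = 0) :
    fq_Fixes σ p (fl_curve (s * t ^ p) ε) := by
  have hp3 : 3 ≤ p := by
    have := hp.two_le
    omega
  obtain ⟨k, rfl⟩ : ∃ k, p = k + 2 := ⟨p - 2, by omega⟩
  have hk : 1 ≤ k := by omega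
  obtain ⟨X₀, Y₀, hns, hX₀, hY₀, hvX₀⟩ :=
    fq_exists_fixed_point v σ hσm h2 t s ε hs ht hε hvt hβ hvε k hk
  have hσs : σ s = s := by
    rcases hs with rfl | rfl
    · exact map_one σ
    · rw [map_neg, map_one]
  have hvs : v s = 0 := by
    rcases hs with rfl | rfl
    · exact AddValuation.map_one v
    · rw [AddValuation.map_neg, AddValuation.map_one]
  have hσδ : σ (s * t ^ (k + 2)) = s * t ^ (k + 2) := by
    rw [map_mul, map_pow, hσs, ht]
  have hpos : (0 : ℚ) < ((k + 2 : ℕ) : ℚ) * β := by positivity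
  have hvδ : v (s * t ^ (k + 2)) = ((((k + 2 : ℕ) : ℚ) * β : ℚ) : WithTop ℚ) := by
    rw [AddValuation.map_mul, hvs, zero_add, fq_v_pow_coe v hvt]
  have hvX₀' : v X₀ = ((2 * (((k + 2 : ℕ) : ℚ) * β) / ((k + 2 : ℕ) : ℚ) : ℚ) : WithTop ℚ) := by
    rw [hvX₀]
    congr 1
    have : (((k + 2 : ℕ) : ℚ)) ≠ 0 := by positivity
    field_simp
  intro X Y h hn
  exact hMult v σ hσv hσm (s * t ^ (k + 2)) ε _ hσδ hε hpos hvδ hvε h2 (k + 2) hp hp2 hvp
    X₀ Y₀ hns hX₀ hY₀ hvX₀' X Y h hn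

end core

section frey

variable {K : Type} [Field K] [DecidableEq K] [IsAlgClosed K] [CharZero K]

omit [DecidableEq K] [IsAlgClosed K] in
/-- positive rational valuation of an integer divisible by `q` -/
theorem fq_v_int_pos_coe (v : AddValuation K (WithTop ℚ)) (hint : ∀ z : ℤ, 0 ≤ v (z : K))
    {q : ℕ} (hvq : 0 < v (q : K)) {z : ℤ} (hz : z ≠ 0) (hqz : (q : ℤ) ∣ z) :
    ∃ β : ℚ, 0 < β ∧ v (z : K) = (β : WithTop ℚ) := by
  obtain ⟨β, -, hβ⟩ := fq_v_int_eq_coe v hint hz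
  refine ⟨β, ?_, hβ⟩
  have := fq_v_int_pos_of_dvd v hint hvq hqz
  rw [hβ] at this
  exact_mod_cast this

theorem fq_legendre_fixed (hGood : fq_IfaceGood) (hMult : fq_IfaceMult)
    (v : AddValuation K (WithTop ℚ)) (σ : K ≃+* K)
    (hσv : ∀ a : K, v (σ a) = v a) (hσm : ∀ a : K, 0 ≤ v a → 0 < v (σ a - a))
    (hint : ∀ z : ℤ, 0 ≤ v (z : K)) {q : ℕ} (hq : q.Prime) (hvq : 0 < v (q : K))
    (hq2 : q ≠ 2) (P : FreyPackage) (hqp : q ≠ P.p) :
    fq_Fixes σ P.p (fl_curve ((P.a : K) ^ P.p) (-((P.b : K) ^ P.p))) := by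
  have h2 : v (2 : K) = 0 := fq_v_two v hq hint hvq hq2
  have hvp : v (P.p : K) = 0 := fq_v_prime v hq hint hvq P.pp hqp
  have hp2 : P.p ≠ 2 := by have := P.hp5; omega
  have hσz : ∀ z : ℤ, σ (z : K) = z := fun z => map_intCast σ z
  have hFLT : (P.a : K) ^ P.p + (P.b : K) ^ P.p = (P.c : K) ^ P.p := by
    exact_mod_cast congrArg (fun z : ℤ => (z : K)) P.hFLT
  have hunit : ∀ z : ℤ, ¬ (q : ℤ) ∣ z → v ((z : K) ^ P.p) = 0 := by
    intro z hz
    rw [AddValuation.map_pow, fq_v_int_of_not_dvd v hq hint hvq hz, smul_zero]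
  rcases fq_cases P hq with ⟨ha, hb, hc⟩ | ⟨ha, hb, hc⟩ | ⟨hb, ha, hc⟩ | ⟨hc, ha, hb⟩
  · -- good reduction
    intro X Y h hn
    refine hGood v σ hσv hσm _ _ ?_ ?_ ?_ ?_ ?_ h2 P.p P.pp hp2 hvp X Y h hn
    · rw [map_pow, hσz]
    · rw [map_neg, map_pow, hσz]
    · exact hunit _ ha
    · rw [AddValuation.map_neg]; exact hunit _ hb
    · rw [sub_neg_eq_add, hFLT]; exact hunit _ hc
  · -- q ∣ a
    obtain ⟨β, hβ, hvβ⟩ := fq_v_int_pos_coe v hint hvq P.ha0 ha
    have := fq_mult_case hMult v σ hσv hσm h2 P.pp hp2 hvp 1 (P.a : K) (-((P.b : K) ^ P.p))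
      (Or.inl rfl) (hσz _) (by rw [map_neg, map_pow, hσz]) hvβ hβ
      (by rw [AddValuation.map_neg]; exact hunit _ hb)
    rwa [one_mul] at this
  · -- q ∣ b
    obtain ⟨β, hβ, hvβ⟩ := fq_v_int_pos_coe v hint hvq P.hb0 hb
    have := fq_mult_case hMult v σ hσv hσm h2 P.pp hp2 hvp (-1) (P.b : K) ((P.a : K) ^ P.p)
      (Or.inr rfl) (hσz _) (by rw [map_pow, hσz]) hvβ hβ (hunit _ ha)
    rw [neg_one_mul] at this
    exact fq_Fixes_of_eq (fq_curve_comm _ _) this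
  · -- q ∣ c
    obtain ⟨β, hβ, hvβ⟩ := fq_v_int_pos_coe v hint hvq P.hc0 hc
    have := fq_mult_case hMult v σ hσv hσm h2 P.pp hp2 hvp (-1) (P.c : K) (-((P.a : K) ^ P.p))
      (Or.inr rfl) (hσz _) (by rw [map_neg, map_pow, hσz]) hvβ hβ
      (by rw [AddValuation.map_neg]; exact hunit _ ha)
    rw [neg_one_mul] at this
    refine fq_Fixes_transfer _ _ (fq_transl ((P.a : K) ^ P.p)) ?_ ?_ ?_ ?_ ?_ this
    · rw [fq_transl_curve, fq_curve_comm]
      congr 1
      rw [← hFLT]; ring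
    · rw [fq_transl_u, map_one]
    · rw [fq_transl_r, map_pow, hσz]
    · rw [fq_transl_s, map_zero]
    · rw [fq_transl_t, map_zero]

end frey

theorem fq_main (hOrd : fq_IfaceOrd) (hGood : fq_IfaceGood) (hMult : fq_IfaceMult)
    (P : FreyPackage) {q : ℕ} (hq : q.Prime) (hq2 : q ≠ 2) (hqp : q ≠ P.p) :
    P.GaloisRepUnramifiedAt q := by
  intro A hA σ hσ x
  obtain ⟨v, hvA, hvm, hvσ⟩ := hOrd A q hq hA
  obtain ⟨hstab, hin⟩ := fq_inertia_spec A hσ
  have hσv : ∀ a, v ((σ : AlgebraicClosure ℚ ≃+* AlgebraicClosure ℚ) a) = v a := hvσ σ hstab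
  have hσm : ∀ a : AlgebraicClosure ℚ, 0 ≤ v a →
      0 < v ((σ : AlgebraicClosure ℚ ≃+* AlgebraicClosure ℚ) a - a) := by
    intro a ha
    exact (hvm _).mpr ((hin a ((hvA a).mp ha)).2)
  have hint : ∀ z : ℤ, 0 ≤ v (z : AlgebraicClosure ℚ) := fun z => (hvA _).mpr (intCast_mem _ z)
  have hvq : 0 < v (q : AlgebraicClosure ℚ) := (hvm _).mpr hA
  have h2ne : (2 : AlgebraicClosure ℚ) ≠ 0 := two_ne_zero
  have hL := fq_legendre_fixed hGood hMult v (σ : AlgebraicClosure ℚ ≃+* AlgebraicClosure ℚ)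
    hσv hσm hint hq hvq hq2 P hqp
  have hF : fq_Fixes (σ : AlgebraicClosure ℚ ≃+* AlgebraicClosure ℚ) P.p
      (P.freyCurve.baseChange (AlgebraicClosure ℚ)) := by
    refine fq_Fixes_transfer _ _ (fq_vc h2ne) (fq_frey_curve P h2ne) ?_ ?_ ?_ ?_ hL
    · rw [fq_vc_u, map_inv₀, map_ofNat]
    · rw [fq_vc_r, map_zero]
    · rw [fq_vc_s, map_neg, map_inv₀, map_ofNat]
    · rw [fq_vc_t, map_zero]
  apply Subtype.ext
  obtain ⟨pt, hpt⟩ := x
  change σ • pt = pt
  have hn : P.p • pt = 0 := by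
    have := (Submodule.mem_torsionBy_iff _ _).mp hpt
    rwa [natCast_zsmul] at this
  rcases pt with _ | ⟨X, Y, h⟩
  · rfl
  · obtain ⟨hX, hY⟩ := hF X Y h hn
    change Affine.Point.map σ.toAlgHom (Affine.Point.some X Y h) = _
    rw [Affine.Point.map_some]
    exact fvc_some_congr hX hY _ _

end Fermat.Agent.Lib.Frey
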