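/-
S05, X-only unsigned level route: valuation helper lemmas.

`v : AddValuation K (WithTop ℚ)`; exact values are written `v x = (r : ℚ)`, lower bounds
`(r : WithTop ℚ) ≤ v x`.  All side conditions live in `ℚ` (so `linarith` applies).
-/
import Mathlib

namespace Fermat.Agent.Lib.Frey

variable {K : Type*} [Field K] (v : AddValuation K (WithTop ℚ))

lemma fu_exists_coe {x : K} (hx : x ≠ 0) : ∃ r : ℚ, v x = (r : WithTop ℚ) :=
  ⟨(v x).untop (v.ne_top_iff.mpr hx), (WithTop.coe_untop _ _).symm⟩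

lemma fu_ne_zero_of_eq {x : K} {r : ℚ} (h : v x = (r : WithTop ℚ)) : x ≠ 0 := by
  rw [← v.ne_top_iff, h]; exact WithTop.coe_ne_top

lemma fu_ne_zero_of_le {x : K} {r : ℚ} (h : v x ≤ (r : WithTop ℚ)) : x ≠ 0 := by
  rw [← v.ne_top_iff]; intro h'; rw [h'] at h; exact absurd h (by simp)

lemma fu_ne_zero_of_lt {x : K} {r : WithTop ℚ} (h : v x < r) : x ≠ 0 := by
  rw [← v.ne_top_iff]; exact ne_top_of_lt h

lemma fu_mul_eq {x y : K} {r s : ℚ} (hx : v x = (r : WithTop ℚ)) (hy : v y = (s : WithTop ℚ)) :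
    v (x * y) = ((r + s : ℚ) : WithTop ℚ) := by
  rw [v.map_mul, hx, hy, WithTop.coe_add]

lemma fu_mul_ge {x y : K} {r s : ℚ} (hx : (r : WithTop ℚ) ≤ v x) (hy : (s : WithTop ℚ) ≤ v y) :
    ((r + s : ℚ) : WithTop ℚ) ≤ v (x * y) := by
  rw [v.map_mul, WithTop.coe_add]; exact add_le_add hx hy

lemma fu_sq_eq {x : K} {r : ℚ} (hx : v x = (r : WithTop ℚ)) :
    v (x ^ 2) = ((2 * r : ℚ) : WithTop ℚ) := by
  rw [pow_two, fu_mul_eq v hx hx]; congr 1; ring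

lemma fu_sq_ge {x : K} {r : ℚ} (hx : (r : WithTop ℚ) ≤ v x) :
    ((2 * r : ℚ) : WithTop ℚ) ≤ v (x ^ 2) := by
  rw [pow_two]; have := fu_mul_ge v hx hx; rwa [show r + r = 2 * r by ring] at this

lemma fu_ge_of_eq {x : K} {r s : ℚ} (hx : v x = (r : WithTop ℚ)) (h : s ≤ r) :
    (s : WithTop ℚ) ≤ v x := by
  rw [hx]; exact WithTop.coe_le_coe.mpr h

lemma fu_ge_trans {x : K} {r s : ℚ} (hx : (r : WithTop ℚ) ≤ v x) (h : s ≤ r) :
    (s : WithTop ℚ) ≤ v x :=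
  le_trans (WithTop.coe_le_coe.mpr h) hx

lemma fu_add_ge {x y : K} {r : ℚ} (hx : (r : WithTop ℚ) ≤ v x) (hy : (r : WithTop ℚ) ≤ v y) :
    (r : WithTop ℚ) ≤ v (x + y) :=
  v.map_le_add hx hy

lemma fu_sub_ge {x y : K} {r : ℚ} (hx : (r : WithTop ℚ) ≤ v x) (hy : (r : WithTop ℚ) ≤ v y) :
    (r : WithTop ℚ) ≤ v (x - y) :=
  v.map_le_sub hx hy

lemma fu_add_eq {x y : K} {r s : ℚ} (hx : v x = (r : WithTop ℚ)) (hy : (s : WithTop ℚ) ≤ v y)
    (h : r < s) : v (x + y) = (r : WithTop ℚ) := by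
  have hlt : v x < v y := by
    rw [hx]; exact lt_of_lt_of_le (WithTop.coe_lt_coe.mpr h) hy
  rw [v.map_add_eq_of_lt_left hlt, hx]

lemma fu_add_eq' {x y : K} {r s : ℚ} (hx : (s : WithTop ℚ) ≤ v x) (hy : v y = (r : WithTop ℚ))
    (h : r < s) : v (x + y) = (r : WithTop ℚ) := by
  rw [add_comm]; exact fu_add_eq v hy hx h

lemma fu_neg_eq {x : K} {r : ℚ} (hx : v x = (r : WithTop ℚ)) : v (-x) = (r : WithTop ℚ) := by
  rw [v.map_neg, hx]

lemma fu_neg_ge {x : K} {r : ℚ} (hx : (r : WithTop ℚ) ≤ v x) : (r : WithTop ℚ) ≤ v (-x) := by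
  rw [v.map_neg]; exact hx

lemma fu_sub_eq {x y : K} {r s : ℚ} (hx : v x = (r : WithTop ℚ)) (hy : (s : WithTop ℚ) ≤ v y)
    (h : r < s) : v (x - y) = (r : WithTop ℚ) := by
  rw [sub_eq_add_neg]; exact fu_add_eq v hx (fu_neg_ge v hy) h

lemma fu_sub_eq' {x y : K} {r s : ℚ} (hx : (s : WithTop ℚ) ≤ v x) (hy : v y = (r : WithTop ℚ))
    (h : r < s) : v (x - y) = (r : WithTop ℚ) := by
  rw [sub_eq_add_neg]; exact fu_add_eq' v hx (fu_neg_eq v hy) h

/-- cancel an exactly known factor: exact value. -/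
lemma fu_eq_of_mul_eq {x y : K} {r s : ℚ} (h : v (x * y) = (r : WithTop ℚ))
    (hy : v y = (s : WithTop ℚ)) : v x = ((r - s : ℚ) : WithTop ℚ) := by
  have hx0 : x ≠ 0 := left_ne_zero_of_mul (fu_ne_zero_of_eq v h)
  obtain ⟨t, ht⟩ := fu_exists_coe v hx0
  rw [v.map_mul, ht, hy, ← WithTop.coe_add, WithTop.coe_eq_coe] at h
  rw [ht, WithTop.coe_eq_coe]; linarith

/-- cancel an exactly known factor: lower bound. -/
lemma fu_ge_of_mul_ge {x y : K} {r s : ℚ} (h : (r : WithTop ℚ) ≤ v (x * y))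
    (hy : v y = (s : WithTop ℚ)) : ((r - s : ℚ) : WithTop ℚ) ≤ v x := by
  by_cases hx0 : x = 0
  · rw [hx0, v.map_zero]; exact le_top
  obtain ⟨t, ht⟩ := fu_exists_coe v hx0
  rw [v.map_mul, ht, hy, ← WithTop.coe_add, WithTop.coe_le_coe] at h
  rw [ht, WithTop.coe_le_coe]; linarith

/-- cancel a factor bounded below: upper bound. -/
lemma fu_le_of_mul_eq {x y : K} {r s : ℚ} (h : v (x * y) = (r : WithTop ℚ))
    (hy : (s : WithTop ℚ) ≤ v y) : v x ≤ ((r - s : ℚ) : WithTop ℚ) := by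
  have hx0 : x ≠ 0 := left_ne_zero_of_mul (fu_ne_zero_of_eq v h)
  have hy0 : y ≠ 0 := right_ne_zero_of_mul (fu_ne_zero_of_eq v h)
  obtain ⟨t, ht⟩ := fu_exists_coe v hx0
  obtain ⟨u, hu⟩ := fu_exists_coe v hy0
  rw [hu, WithTop.coe_le_coe] at hy
  rw [v.map_mul, ht, hu, ← WithTop.coe_add, WithTop.coe_eq_coe] at h
  rw [ht, WithTop.coe_le_coe]; linarith

/-- trichotomy for the three regimes of a valuation relative to `0 < m`. -/
lemma fu_regime (m : ℚ) (x : K) :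
    v x ≤ 0 ∨ (∃ t : ℚ, v x = (t : WithTop ℚ) ∧ 0 < t ∧ t < m) ∨ (m : WithTop ℚ) ≤ v x := by
  by_cases hx0 : x = 0
  · right; right; rw [hx0, v.map_zero]; exact le_top
  obtain ⟨t, ht⟩ := fu_exists_coe v hx0
  rcases le_or_gt t 0 with h | h
  · left; rw [ht]; exact_mod_cast h
  rcases lt_or_ge t m with h' | h'
  · right; left; exact ⟨t, ht, h, h'⟩
  · right; right; rw [ht]; exact_mod_cast h'

/-! ### Roots of a quadratic: valuations of `T₁`, `T₂` from those of `T₁ + T₂` and `T₁ T₂`. -/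

/-- (R1) if `2 v(S) < v(Π)` then one of the roots has the valuation of `S`. -/
lemma fu_root_split {T₁ T₂ : K} {s : ℚ} (hS : v (T₁ + T₂) = (s : WithTop ℚ))
    (hP : ((2 * s : ℚ) : WithTop ℚ) < v (T₁ * T₂)) :
    v T₁ = (s : WithTop ℚ) ∨ v T₂ = (s : WithTop ℚ) := by
  rcases lt_trichotomy (v T₁) (v T₂) with h | h | h
  · left; rw [← hS, v.map_add_eq_of_lt_left h]
  · exfalso
    have h1 : v T₁ ≤ (s : WithTop ℚ) := by
      rw [← hS]; exact v.map_le_add le_rfl h.le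
    have h2 : v (T₁ * T₂) ≤ ((2 * s : ℚ) : WithTop ℚ) := by
      rw [v.map_mul, ← h, show (2 * s : ℚ) = s + s by ring, WithTop.coe_add]
      exact add_le_add h1 h1
    exact absurd hP (not_lt.mpr h2)
  · right; rw [← hS, v.map_add_eq_of_lt_right h]

/-- (R2) if `v(Π) ≤ 2 v(S)` then both roots have valuation `v(Π)/2`. -/
lemma fu_root_eq {T₁ T₂ : K} {π σ : ℚ} (hP : v (T₁ * T₂) = (π : WithTop ℚ))
    (hS : (σ : WithTop ℚ) ≤ v (T₁ + T₂)) (h : π ≤ 2 * σ) :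
    v T₁ = ((π / 2 : ℚ) : WithTop ℚ) ∧ v T₂ = ((π / 2 : ℚ) : WithTop ℚ) := by
  have h0 := fu_ne_zero_of_eq v hP
  obtain ⟨a, ha⟩ := fu_exists_coe v (left_ne_zero_of_mul h0)
  obtain ⟨b, hb⟩ := fu_exists_coe v (right_ne_zero_of_mul h0)
  have hab : a + b = π := by
    rw [v.map_mul, ha, hb, ← WithTop.coe_add, WithTop.coe_eq_coe] at hP; exact hP
  rcases lt_trichotomy a b with h' | h' | h'
  · exfalso
    have := fu_add_eq v ha (le_of_eq hb.symm) h'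
    rw [this, WithTop.coe_le_coe] at hS; linarith
  · rw [ha, hb, WithTop.coe_eq_coe, WithTop.coe_eq_coe]; constructor <;> linarith
  · exfalso
    have := fu_add_eq' v (le_of_eq ha.symm) hb h'
    rw [this, WithTop.coe_le_coe] at hS; linarith

/-- (R3) both roots have valuation `≤ 0`. -/
lemma fu_root_le {T₁ T₂ : K} {π σ : ℚ} (hP : v (T₁ * T₂) = (π : WithTop ℚ))
    (hS : (σ : WithTop ℚ) ≤ v (T₁ + T₂)) (h : π ≤ σ) (h0 : π ≤ 0) :
    v T₁ ≤ 0 ∧ v T₂ ≤ 0 := by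
  have hne := fu_ne_zero_of_eq v hP
  obtain ⟨a, ha⟩ := fu_exists_coe v (left_ne_zero_of_mul hne)
  obtain ⟨b, hb⟩ := fu_exists_coe v (right_ne_zero_of_mul hne)
  have hab : a + b = π := by
    rw [v.map_mul, ha, hb, ← WithTop.coe_add, WithTop.coe_eq_coe] at hP; exact hP
  rw [ha, hb]
  constructor
  · by_contra hc
    have hc' : 0 < a := by
      rw [not_le] at hc; exact_mod_cast hc
    have := fu_add_eq' v (le_of_eq ha.symm) hb (by linarith : b < a)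
    rw [this, WithTop.coe_le_coe] at hS; linarith
  · by_contra hc
    have hc' : 0 < b := by
      rw [not_le] at hc; exact_mod_cast hc
    have := fu_add_eq v ha (le_of_eq hb.symm) (by linarith : a < b)
    rw [this, WithTop.coe_le_coe] at hS; linarith

/-- (R4) both roots have valuation `≥ μ`. -/
lemma fu_root_ge {T₁ T₂ : K} {μ : ℚ} (hP : ((2 * μ : ℚ) : WithTop ℚ) ≤ v (T₁ * T₂))
    (hS : (μ : WithTop ℚ) ≤ v (T₁ + T₂)) :
    (μ : WithTop ℚ) ≤ v T₁ ∧ (μ : WithTop ℚ) ≤ v T₂ := by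
  have key : ∀ A B : K, ((2 * μ : ℚ) : WithTop ℚ) ≤ v (A * B) → (μ : WithTop ℚ) ≤ v (A + B) →
      (μ : WithTop ℚ) ≤ v A := by
    intro A B hP hS
    by_contra hc
    rw [not_le] at hc
    have hA0 := fu_ne_zero_of_lt v hc
    obtain ⟨a, ha⟩ := fu_exists_coe v hA0
    have haμ : a < μ := by rw [ha] at hc; exact_mod_cast hc
    have hB : ((2 * μ - a : ℚ) : WithTop ℚ) ≤ v B := by
      rw [mul_comm A B] at hP; exact fu_ge_of_mul_ge v hP ha
    have := fu_add_eq v ha hB (by linarith)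
    rw [this, WithTop.coe_le_coe] at hS; linarith
  refine ⟨key T₁ T₂ hP hS, key T₂ T₁ ?_ ?_⟩
  · rwa [mul_comm T₂ T₁]
  · rwa [add_comm T₂ T₁]

end Fermat.Agent.Lib.Frey
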