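/-
S05, X-only unsigned level route: the valuation casework ("Lemma U" at the level of fields).

Curve `Y² = X³ + a₂ X² + a₄ X` with `v a₂ = 0`, `v a₄ = m > 0`, `v 2 = 0`.
For `x₁ ≠ x₂` the `X`-coordinates `T₁, T₂` of `P ± Q` satisfy
`(T₁ + T₂) (x₁ - x₂)² = 2 ((x₁ + x₂)(x₁ x₂ + a₄) + 2 a₂ x₁ x₂)` and
`T₁ T₂ (x₁ - x₂)² = (x₁ x₂ - a₄)²`.
-/
import Fermat.Agent.Lib.Frey.UH3Val

namespace Fermat.Agent.Lib.Frey

/-- The clipped valuation: `0` for `t ≤ 0`, `m` for `t ≥ m`, `t` in between. -/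
noncomputable def fu_clip (m : ℚ) (t : WithTop ℚ) : ℚ :=
  if t ≤ 0 then 0 else if (m : WithTop ℚ) ≤ t then m else t.untopD 0

lemma fu_clip_of_le {m : ℚ} {t : WithTop ℚ} (h : t ≤ 0) : fu_clip m t = 0 := by
  rw [fu_clip, if_pos h]

lemma fu_clip_of_ge {m : ℚ} (hm : 0 < m) {t : WithTop ℚ} (h : (m : WithTop ℚ) ≤ t) :
    fu_clip m t = m := by
  have h0 : ¬ t ≤ 0 := by
    rw [not_le]; exact lt_of_lt_of_le (by exact_mod_cast hm) h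
  rw [fu_clip, if_neg h0, if_pos h]

lemma fu_clip_of_eq {m : ℚ} {t : WithTop ℚ} {s : ℚ} (h : t = (s : WithTop ℚ)) (h0 : 0 ≤ s)
    (h1 : s ≤ m) : fu_clip m t = s := by
  subst h
  rw [fu_clip]
  split_ifs with ha hb
  · have : s ≤ 0 := by exact_mod_cast ha
    linarith
  · have : m ≤ s := by exact_mod_cast hb
    linarith
  · simp

lemma fu_clip_nonneg {m : ℚ} (hm : 0 < m) (t : WithTop ℚ) : 0 ≤ fu_clip m t := by
  rw [fu_clip]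
  split_ifs with ha hb
  · exact le_rfl
  · exact hm.le
  · rw [not_le] at ha
    induction t using WithTop.recTopCoe with
    | top => simp
    | coe s => simp only [WithTop.untopD_coe]; exact_mod_cast ha.le

lemma fu_clip_le {m : ℚ} (hm : 0 < m) (t : WithTop ℚ) : fu_clip m t ≤ m := by
  rw [fu_clip]
  split_ifs with ha hb
  · exact hm.le
  · exact le_rfl
  · rw [not_le] at hb
    induction t using WithTop.recTopCoe with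
    | top => simp at hb
    | coe s => simp only [WithTop.untopD_coe]; exact_mod_cast hb.le

lemma fu_clip_eq_zero {m : ℚ} (hm : 0 < m) {t : WithTop ℚ} (h : fu_clip m t = 0) : t ≤ 0 := by
  by_contra hc
  rw [fu_clip, if_neg hc] at h
  split_ifs at h with hb
  · linarith
  · rw [not_le] at hc
    induction t using WithTop.recTopCoe with
    | top => simp at hb
    | coe s =>
      simp only [WithTop.untopD_coe] at h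
      subst h; simp at hc

/-- `s` and `t` agree in `(ℚ / n ℤ) / ±1`. -/
def fu_Rel (n s t : ℚ) : Prop := ∃ k : ℤ, s = t + n * k ∨ s = -t + n * k

lemma fu_Rel.refl (n s : ℚ) : fu_Rel n s s := ⟨0, Or.inl (by simp)⟩

lemma fu_Rel.of_eq {n s t : ℚ} (h : s = t) : fu_Rel n s t := ⟨0, Or.inl (by simp [h])⟩

lemma fu_Rel.of_eq_neg {n s t : ℚ} (h : s = -t) : fu_Rel n s t := ⟨0, Or.inr (by simp [h])⟩

lemma fu_Rel.symm {n s t : ℚ} (h : fu_Rel n s t) : fu_Rel n t s := by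
  obtain ⟨k, hk | hk⟩ := h
  · exact ⟨-k, Or.inl (by push_cast; linarith)⟩
  · exact ⟨k, Or.inr (by linarith)⟩

lemma fu_Rel.trans {n s t u : ℚ} (h₁ : fu_Rel n s t) (h₂ : fu_Rel n t u) : fu_Rel n s u := by
  obtain ⟨k, hk | hk⟩ := h₁ <;> obtain ⟨l, hl | hl⟩ := h₂
  · exact ⟨k + l, Or.inl (by push_cast; linarith)⟩
  · exact ⟨k + l, Or.inr (by push_cast; linarith)⟩
  · exact ⟨k - l, Or.inr (by push_cast; linarith)⟩
  · exact ⟨k - l, Or.inl (by push_cast; linarith)⟩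

lemma fu_Rel.neg_right {n s t : ℚ} (h : fu_Rel n s t) : fu_Rel n s (-t) := by
  obtain ⟨k, hk | hk⟩ := h
  · exact ⟨k, Or.inr (by linarith)⟩
  · exact ⟨k, Or.inl (by linarith)⟩

lemma fu_Rel.add_mul_right {n s t : ℚ} (h : fu_Rel n s t) (j : ℤ) : fu_Rel n s (t + n * j) := by
  obtain ⟨k, hk | hk⟩ := h
  · exact ⟨k - j, Or.inl (by push_cast; linarith)⟩
  · exact ⟨k + j, Or.inr (by push_cast; linarith)⟩

/-- two representatives in `[0, m]` of the same class mod `± , 2m ℤ` coincide. -/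
lemma fu_Rel.eq_of_mem {m s t : ℚ} (h : fu_Rel (2 * m) s t) (hs0 : 0 ≤ s) (hsm : s ≤ m)
    (ht0 : 0 ≤ t) (htm : t ≤ m) : s = t := by
  obtain ⟨k, hk | hk⟩ := h
  · rcases lt_trichotomy k 0 with h | h | h
    · have : (k : ℚ) ≤ -1 := by exact_mod_cast Int.le_sub_one_of_lt h
      nlinarith
    · subst h; simpa using hk
    · have : (1 : ℚ) ≤ k := by exact_mod_cast h
      nlinarith
  · rcases lt_trichotomy k 0 with h | h | h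
    · have : (k : ℚ) ≤ -1 := by exact_mod_cast Int.le_sub_one_of_lt h
      nlinarith
    · subst h
      have : s = -t := by simpa using hk
      linarith
    · have h1 : (1 : ℚ) ≤ k := by exact_mod_cast h
      have : s + t = 2 * m * k := by linarith
      nlinarith

/-- The conclusion of Lemma U for levels `c₁, c₂` of `P ± Q` and levels `a, b` of `P, Q`. -/
def fu_UConc (n c₁ c₂ a b : ℚ) : Prop :=
  (fu_Rel n c₁ (a + b) ∧ fu_Rel n c₂ (a - b)) ∨ (fu_Rel n c₁ (a - b) ∧ fu_Rel n c₂ (a + b))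

lemma fu_UConc.swap_left {n c₁ c₂ a b : ℚ} (h : fu_UConc n c₁ c₂ a b) : fu_UConc n c₂ c₁ a b := by
  rcases h with ⟨h1, h2⟩ | ⟨h1, h2⟩
  · exact Or.inr ⟨h2, h1⟩
  · exact Or.inl ⟨h2, h1⟩

lemma fu_UConc.swap_right {n c₁ c₂ a b : ℚ} (h : fu_UConc n c₁ c₂ a b) :
    fu_UConc n c₁ c₂ b a := by
  have e : b - a = -(a - b) := by ring
  rcases h with ⟨h1, h2⟩ | ⟨h1, h2⟩
  · exact Or.inl ⟨by rwa [add_comm], by rw [e]; exact h2.neg_right⟩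
  · exact Or.inr ⟨by rw [e]; exact h1.neg_right, by rwa [add_comm]⟩


variable {K : Type*} [Field K] (v : AddValuation K (WithTop ℚ))

/-- Standing hypotheses on the curve `Y² = X³ + a₂ X² + a₄ X`. -/
structure fu_Ctx (a₂ a₄ : K) (m : ℚ) : Prop where
  h2 : v 2 = ((0 : ℚ) : WithTop ℚ)
  ha₂ : v a₂ = ((0 : ℚ) : WithTop ℚ)
  ha₄ : v a₄ = (m : WithTop ℚ)
  hm : 0 < m

variable {v}

lemma fu_Ctx.two_mul {a₂ a₄ : K} {m : ℚ} (hc : fu_Ctx v a₂ a₄ m) (x : K) : v (2 * x) = v x := by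
  rw [v.map_mul, hc.h2, WithTop.coe_zero, zero_add]

lemma fu_Ctx.a₂_mul {a₂ a₄ : K} {m : ℚ} (hc : fu_Ctx v a₂ a₄ m) (x : K) : v (a₂ * x) = v x := by
  rw [v.map_mul, hc.ha₂, WithTop.coe_zero, zero_add]

/-- The numerator of `T₁ + T₂`. -/
def fu_NS (a₂ a₄ x₁ x₂ : K) : K := 2 * ((x₁ + x₂) * (x₁ * x₂ + a₄) + 2 * (a₂ * (x₁ * x₂)))

lemma fu_Ctx.NS_ge {a₂ a₄ : K} {m : ℚ} (hc : fu_Ctx v a₂ a₄ m) {x₁ x₂ : K} {p q r τ : ℚ}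
    (h1 : (p : WithTop ℚ) ≤ v (x₁ + x₂)) (h2 : (q : WithTop ℚ) ≤ v (x₁ * x₂ + a₄))
    (h3 : (r : WithTop ℚ) ≤ v (x₁ * x₂)) (hτ1 : τ ≤ p + q) (hτ2 : τ ≤ r) :
    (τ : WithTop ℚ) ≤ v (fu_NS a₂ a₄ x₁ x₂) := by
  rw [fu_NS, hc.two_mul]
  refine fu_add_ge v (fu_ge_trans v (fu_mul_ge v h1 h2) hτ1) ?_
  rw [hc.two_mul, hc.a₂_mul]
  exact fu_ge_trans v h3 hτ2

lemma fu_Ctx.NS_eq {a₂ a₄ : K} {m : ℚ} (hc : fu_Ctx v a₂ a₄ m) {x₁ x₂ : K} {p q r : ℚ}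
    (h1 : (p : WithTop ℚ) ≤ v (x₁ + x₂)) (h2 : (q : WithTop ℚ) ≤ v (x₁ * x₂ + a₄))
    (h3 : v (x₁ * x₂) = (r : WithTop ℚ)) (h : r < p + q) :
    v (fu_NS a₂ a₄ x₁ x₂) = (r : WithTop ℚ) := by
  rw [fu_NS, hc.two_mul]
  refine fu_add_eq' v (fu_mul_ge v h1 h2) ?_ h
  rw [hc.two_mul, hc.a₂_mul]
  exact h3

/-- The data of Lemma U: `T₁, T₂` are the `X`-coordinates of `P ± Q`. -/
structure fu_Pair (a₂ a₄ x₁ x₂ T₁ T₂ : K) : Prop where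
  hx : x₁ ≠ x₂
  hS : (T₁ + T₂) * (x₁ - x₂) ^ 2 = fu_NS a₂ a₄ x₁ x₂
  hP : T₁ * T₂ * (x₁ - x₂) ^ 2 = (x₁ * x₂ - a₄) ^ 2

lemma fu_Pair.symm {a₂ a₄ x₁ x₂ T₁ T₂ : K} (h : fu_Pair a₂ a₄ x₁ x₂ T₁ T₂) :
    fu_Pair a₂ a₄ x₂ x₁ T₁ T₂ where
  hx := h.hx.symm
  hS := by
    have := h.hS
    rw [fu_NS] at this ⊢
    linear_combination this
  hP := by
    have := h.hP
    linear_combination this

lemma fu_Pair.swap {a₂ a₄ x₁ x₂ T₁ T₂ : K} (h : fu_Pair a₂ a₄ x₁ x₂ T₁ T₂) :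
    fu_Pair a₂ a₄ x₁ x₂ T₂ T₁ where
  hx := h.hx
  hS := by rw [add_comm]; exact h.hS
  hP := by rw [mul_comm T₂ T₁]; exact h.hP

lemma fu_Pair.S_ge {a₂ a₄ x₁ x₂ T₁ T₂ : K} (h : fu_Pair a₂ a₄ x₁ x₂ T₁ T₂) {d τ : ℚ}
    (hd : v (x₁ - x₂) = (d : WithTop ℚ)) (hN : (τ : WithTop ℚ) ≤ v (fu_NS a₂ a₄ x₁ x₂)) :
    ((τ - 2 * d : ℚ) : WithTop ℚ) ≤ v (T₁ + T₂) := by
  rw [← h.hS] at hN
  exact fu_ge_of_mul_ge v hN (fu_sq_eq v hd)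

lemma fu_Pair.S_eq {a₂ a₄ x₁ x₂ T₁ T₂ : K} (h : fu_Pair a₂ a₄ x₁ x₂ T₁ T₂) {d τ : ℚ}
    (hd : v (x₁ - x₂) = (d : WithTop ℚ)) (hN : v (fu_NS a₂ a₄ x₁ x₂) = (τ : WithTop ℚ)) :
    v (T₁ + T₂) = ((τ - 2 * d : ℚ) : WithTop ℚ) := by
  rw [← h.hS] at hN
  exact fu_eq_of_mul_eq v hN (fu_sq_eq v hd)

lemma fu_Pair.P_ge {a₂ a₄ x₁ x₂ T₁ T₂ : K} (h : fu_Pair a₂ a₄ x₁ x₂ T₁ T₂) {d c : ℚ}
    (hd : v (x₁ - x₂) = (d : WithTop ℚ)) (hN : (c : WithTop ℚ) ≤ v (x₁ * x₂ - a₄)) :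
    ((2 * c - 2 * d : ℚ) : WithTop ℚ) ≤ v (T₁ * T₂) := by
  have := fu_sq_ge v hN
  rw [← h.hP] at this
  exact fu_ge_of_mul_ge v this (fu_sq_eq v hd)

lemma fu_Pair.P_eq {a₂ a₄ x₁ x₂ T₁ T₂ : K} (h : fu_Pair a₂ a₄ x₁ x₂ T₁ T₂) {d c : ℚ}
    (hd : v (x₁ - x₂) = (d : WithTop ℚ)) (hN : v (x₁ * x₂ - a₄) = (c : WithTop ℚ)) :
    v (T₁ * T₂) = ((2 * c - 2 * d : ℚ) : WithTop ℚ) := by
  have := fu_sq_eq v hN
  rw [← h.hP] at this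
  exact fu_eq_of_mul_eq v this (fu_sq_eq v hd)


lemma fu_exists_coe_of_le {x : K} (h : v x ≤ 0) : ∃ t : ℚ, v x = (t : WithTop ℚ) ∧ t ≤ 0 := by
  have hx0 : x ≠ 0 := by
    rw [← v.ne_top_iff]; intro h'; rw [h'] at h; exact absurd h (by simp)
  obtain ⟨t, ht⟩ := fu_exists_coe v hx0
  refine ⟨t, ht, ?_⟩
  rw [ht] at h; exact_mod_cast h

section regimes

variable {a₂ a₄ x₁ x₂ T₁ T₂ : K} {m : ℚ}

/-- Regime ZZ: `v x₁ ≤ 0`, `v x₂ ≤ 0`. -/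
lemma fu_reg_ZZ (hc : fu_Ctx v a₂ a₄ m) (h : fu_Pair a₂ a₄ x₁ x₂ T₁ T₂) {t₁ t₂ : ℚ}
    (h₁ : v x₁ = (t₁ : WithTop ℚ)) (h₂ : v x₂ = (t₂ : WithTop ℚ)) (ht₁ : t₁ ≤ 0) (ht₂ : t₂ ≤ 0) :
    v T₁ ≤ 0 ∧ v T₂ ≤ 0 := by
  obtain ⟨d, hd⟩ := fu_exists_coe v (sub_ne_zero.mpr h.hx)
  have hm := hc.hm
  obtain ⟨μ, hμ1, hμ2, hμ3⟩ : ∃ μ : ℚ, μ ≤ t₁ ∧ μ ≤ t₂ ∧ (μ = t₁ ∨ μ = t₂) :=
    ⟨min t₁ t₂, min_le_left _ _, min_le_right _ _, min_choice _ _⟩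
  have hdμ : μ ≤ d := by
    have := fu_sub_ge v (fu_ge_of_eq v h₁ hμ1) (fu_ge_of_eq v h₂ hμ2)
    rw [hd, WithTop.coe_le_coe] at this; exact this
  have h12 : v (x₁ * x₂) = ((t₁ + t₂ : ℚ) : WithTop ℚ) := fu_mul_eq v h₁ h₂
  have hc4 : v (x₁ * x₂ - a₄) = ((t₁ + t₂ : ℚ) : WithTop ℚ) :=
    fu_sub_eq v h12 (le_of_eq hc.ha₄.symm) (by linarith)
  have hP := h.P_eq hd hc4
  have hsum : (μ : WithTop ℚ) ≤ v (x₁ + x₂) :=
    fu_add_ge v (fu_ge_of_eq v h₁ hμ1) (fu_ge_of_eq v h₂ hμ2)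
  have hq : ((t₁ + t₂ : ℚ) : WithTop ℚ) ≤ v (x₁ * x₂ + a₄) :=
    fu_add_ge v (le_of_eq h12.symm) (fu_ge_of_eq v hc.ha₄ (by linarith))
  have hNS := hc.NS_ge hsum hq (le_of_eq h12.symm) (le_refl (μ + (t₁ + t₂))) (by linarith)
  have hS := h.S_ge hd hNS
  refine fu_root_le v hP hS ?_ ?_
  · rcases hμ3 with rfl | rfl <;> linarith
  · rcases hμ3 with rfl | rfl <;> linarith

/-- Regime ZN: `v x₁ ≤ 0 < v x₂ < m`. -/
lemma fu_reg_ZN (hc : fu_Ctx v a₂ a₄ m) (h : fu_Pair a₂ a₄ x₁ x₂ T₁ T₂) {t₁ t₂ : ℚ}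
    (h₁ : v x₁ = (t₁ : WithTop ℚ)) (h₂ : v x₂ = (t₂ : WithTop ℚ)) (ht₁ : t₁ ≤ 0) (ht₂ : 0 < t₂)
    (ht₂' : t₂ < m) : v T₁ = (t₂ : WithTop ℚ) ∧ v T₂ = (t₂ : WithTop ℚ) := by
  have hd : v (x₁ - x₂) = (t₁ : WithTop ℚ) := fu_sub_eq v h₁ (le_of_eq h₂.symm) (by linarith)
  have h12 : v (x₁ * x₂) = ((t₁ + t₂ : ℚ) : WithTop ℚ) := fu_mul_eq v h₁ h₂
  have hc4 : v (x₁ * x₂ - a₄) = ((t₁ + t₂ : ℚ) : WithTop ℚ) :=
    fu_sub_eq v h12 (le_of_eq hc.ha₄.symm) (by linarith)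
  have hP := h.P_eq hd hc4
  have hsum : (t₁ : WithTop ℚ) ≤ v (x₁ + x₂) :=
    fu_add_ge v (le_of_eq h₁.symm) (fu_ge_of_eq v h₂ (by linarith))
  have hq : ((t₁ + t₂ : ℚ) : WithTop ℚ) ≤ v (x₁ * x₂ + a₄) :=
    fu_add_ge v (le_of_eq h12.symm) (fu_ge_of_eq v hc.ha₄ (by linarith))
  have hNS := hc.NS_ge hsum hq (le_of_eq h12.symm) (le_refl (t₁ + (t₁ + t₂))) (by linarith)
  have hS := h.S_ge hd hNS
  have := fu_root_eq v hP hS (by linarith)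
  have e : (2 * (t₁ + t₂) - 2 * t₁) / 2 = t₂ := by ring
  rwa [e] at this

/-- Regime ZM: `v x₁ ≤ 0`, `m ≤ v x₂`. -/
lemma fu_reg_ZM (hc : fu_Ctx v a₂ a₄ m) (h : fu_Pair a₂ a₄ x₁ x₂ T₁ T₂) {t₁ : ℚ}
    (h₁ : v x₁ = (t₁ : WithTop ℚ)) (h₂ : (m : WithTop ℚ) ≤ v x₂) (ht₁ : t₁ ≤ 0) :
    (m : WithTop ℚ) ≤ v T₁ ∧ (m : WithTop ℚ) ≤ v T₂ := by
  have hm := hc.hm
  have hd : v (x₁ - x₂) = (t₁ : WithTop ℚ) := fu_sub_eq v h₁ h₂ (by linarith)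
  have h12 : ((t₁ + m : ℚ) : WithTop ℚ) ≤ v (x₁ * x₂) := fu_mul_ge v (le_of_eq h₁.symm) h₂
  have hc4 : ((t₁ + m : ℚ) : WithTop ℚ) ≤ v (x₁ * x₂ - a₄) :=
    fu_sub_ge v h12 (fu_ge_of_eq v hc.ha₄ (by linarith))
  have hP := h.P_ge hd hc4
  have hsum : (t₁ : WithTop ℚ) ≤ v (x₁ + x₂) :=
    fu_add_ge v (le_of_eq h₁.symm) (fu_ge_trans v h₂ (by linarith))
  have hq : ((t₁ + m : ℚ) : WithTop ℚ) ≤ v (x₁ * x₂ + a₄) :=
    fu_add_ge v h12 (fu_ge_of_eq v hc.ha₄ (by linarith))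
  have hNS := hc.NS_ge hsum hq h12 (le_refl (t₁ + (t₁ + m))) (by linarith)
  have hS := h.S_ge hd hNS
  exact fu_root_ge v (fu_ge_trans v hP (by linarith)) (fu_ge_trans v hS (by linarith))

/-- Regime NM: `0 < v x₁ < m ≤ v x₂`. -/
lemma fu_reg_NM (hc : fu_Ctx v a₂ a₄ m) (h : fu_Pair a₂ a₄ x₁ x₂ T₁ T₂) {t₁ : ℚ}
    (h₁ : v x₁ = (t₁ : WithTop ℚ)) (h₂ : (m : WithTop ℚ) ≤ v x₂) (ht₁ : 0 < t₁) (ht₁' : t₁ < m) :
    v T₁ = ((m - t₁ : ℚ) : WithTop ℚ) ∧ v T₂ = ((m - t₁ : ℚ) : WithTop ℚ) := by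
  have hd : v (x₁ - x₂) = (t₁ : WithTop ℚ) := fu_sub_eq v h₁ h₂ ht₁'
  have h12 : ((t₁ + m : ℚ) : WithTop ℚ) ≤ v (x₁ * x₂) := fu_mul_ge v (le_of_eq h₁.symm) h₂
  have hc4 : v (x₁ * x₂ - a₄) = (m : WithTop ℚ) := fu_sub_eq' v h12 hc.ha₄ (by linarith)
  have hP := h.P_eq hd hc4
  have hsum : (t₁ : WithTop ℚ) ≤ v (x₁ + x₂) :=
    fu_add_ge v (le_of_eq h₁.symm) (fu_ge_trans v h₂ ht₁'.le)
  have hq : (m : WithTop ℚ) ≤ v (x₁ * x₂ + a₄) :=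
    fu_add_ge v (fu_ge_trans v h12 (by linarith)) (le_of_eq hc.ha₄.symm)
  have hNS := hc.NS_ge hsum hq h12 (le_refl (t₁ + m)) (le_refl _)
  have hS := h.S_ge hd hNS
  have := fu_root_eq v hP hS (by linarith)
  have e : (2 * m - 2 * t₁) / 2 = m - t₁ := by ring
  rwa [e] at this

/-- Regime MM: `m ≤ v x₁`, `m ≤ v x₂`. -/
lemma fu_reg_MM (hc : fu_Ctx v a₂ a₄ m) (h : fu_Pair a₂ a₄ x₁ x₂ T₁ T₂)
    (h₁ : (m : WithTop ℚ) ≤ v x₁) (h₂ : (m : WithTop ℚ) ≤ v x₂) : v T₁ ≤ 0 ∧ v T₂ ≤ 0 := by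
  have hm := hc.hm
  obtain ⟨d, hd⟩ := fu_exists_coe v (sub_ne_zero.mpr h.hx)
  have hdm : m ≤ d := by
    have := fu_sub_ge v h₁ h₂
    rw [hd, WithTop.coe_le_coe] at this; exact this
  have h12 : ((m + m : ℚ) : WithTop ℚ) ≤ v (x₁ * x₂) := fu_mul_ge v h₁ h₂
  have hc4 : v (x₁ * x₂ - a₄) = (m : WithTop ℚ) := fu_sub_eq' v h12 hc.ha₄ (by linarith)
  have hP := h.P_eq hd hc4
  have hsum : (m : WithTop ℚ) ≤ v (x₁ + x₂) := fu_add_ge v h₁ h₂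
  have hq : (m : WithTop ℚ) ≤ v (x₁ * x₂ + a₄) :=
    fu_add_ge v (fu_ge_trans v h12 (by linarith)) (le_of_eq hc.ha₄.symm)
  have hNS := hc.NS_ge hsum hq h12 (le_refl (m + m)) (le_refl _)
  have hS := h.S_ge hd hNS
  exact fu_root_le v hP hS (by linarith) (by linarith)

/-- Regime NN: `0 < v x₁ ≤ v x₂ < m`. -/
lemma fu_reg_NN (hc : fu_Ctx v a₂ a₄ m) (h : fu_Pair a₂ a₄ x₁ x₂ T₁ T₂) {t₁ t₂ : ℚ}
    (h₁ : v x₁ = (t₁ : WithTop ℚ)) (h₂ : v x₂ = (t₂ : WithTop ℚ)) (ht₁ : 0 < t₁) (h12le : t₁ ≤ t₂)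
    (ht₂ : t₂ < m) :
    (fu_clip m (v T₁) = t₂ - t₁ ∧ fu_clip m (v T₂) = min (t₁ + t₂) (2 * m - t₁ - t₂)) ∨
    (fu_clip m (v T₂) = t₂ - t₁ ∧ fu_clip m (v T₁) = min (t₁ + t₂) (2 * m - t₁ - t₂)) := by
  have hm := hc.hm
  obtain ⟨d, hd, hd1, hd2⟩ : ∃ d : ℚ, v (x₁ - x₂) = (d : WithTop ℚ) ∧ t₁ ≤ d ∧
      (t₁ < t₂ → d = t₁) := by
    rcases h12le.lt_or_eq with hlt | heq
    · exact ⟨t₁, fu_sub_eq v h₁ (le_of_eq h₂.symm) hlt, le_rfl, fun _ => rfl⟩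
    · obtain ⟨d, hd⟩ := fu_exists_coe v (sub_ne_zero.mpr h.hx)
      refine ⟨d, hd, ?_, fun hlt => absurd heq hlt.ne⟩
      have := fu_sub_ge v (le_of_eq h₁.symm) (fu_ge_of_eq v h₂ h12le)
      rw [hd, WithTop.coe_le_coe] at this; exact this
  have h12 : v (x₁ * x₂) = ((t₁ + t₂ : ℚ) : WithTop ℚ) := fu_mul_eq v h₁ h₂
  have hsum : (t₁ : WithTop ℚ) ≤ v (x₁ + x₂) :=
    fu_add_ge v (le_of_eq h₁.symm) (fu_ge_of_eq v h₂ h12le)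
  have hq : ((min (t₁ + t₂) m : ℚ) : WithTop ℚ) ≤ v (x₁ * x₂ + a₄) :=
    fu_add_ge v (fu_ge_of_eq v h12 (min_le_left _ _)) (fu_ge_of_eq v hc.ha₄ (min_le_right _ _))
  have hqlt : t₂ < min (t₁ + t₂) m := lt_min (by linarith) ht₂
  have hNS := hc.NS_eq hsum hq h12 (by linarith)
  have hS := h.S_eq hd hNS
  -- the small root
  have hsmall : ∀ T : K, v T = ((t₁ + t₂ - 2 * d : ℚ) : WithTop ℚ) → fu_clip m (v T) = t₂ - t₁ := by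
    intro T hT
    rcases h12le.lt_or_eq with hlt | heq
    · have := hd2 hlt
      exact fu_clip_of_eq hT (by linarith) (by linarith) |>.trans (by linarith)
    · rw [fu_clip_of_le]
      · linarith
      · rw [hT]; exact_mod_cast (by linarith : t₁ + t₂ - 2 * d ≤ 0)
  rcases lt_trichotomy (t₁ + t₂) m with hlt | heq | hgt
  · -- t₁ + t₂ < m
    have hc4 : v (x₁ * x₂ - a₄) = ((t₁ + t₂ : ℚ) : WithTop ℚ) :=
      fu_sub_eq v h12 (le_of_eq hc.ha₄.symm) hlt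
    have hP := h.P_eq hd hc4
    have hmin : min (t₁ + t₂) (2 * m - t₁ - t₂) = t₁ + t₂ := min_eq_left (by linarith)
    have hbig : ∀ A B : K, v (A * B) = ((2 * (t₁ + t₂) - 2 * d : ℚ) : WithTop ℚ) →
        v A = ((t₁ + t₂ - 2 * d : ℚ) : WithTop ℚ) →
        fu_clip m (v B) = min (t₁ + t₂) (2 * m - t₁ - t₂) := by
      intro A B hAB hA
      rw [mul_comm A B] at hAB
      have := fu_eq_of_mul_eq v hAB hA
      rw [hmin]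
      exact (fu_clip_of_eq this (by linarith) (by linarith)).trans (by ring)
    have hcond : ((2 * (t₁ + t₂ - 2 * d) : ℚ) : WithTop ℚ) < v (T₁ * T₂) := by
      rw [hP]; exact_mod_cast (by linarith : 2 * (t₁ + t₂ - 2 * d) < 2 * (t₁ + t₂) - 2 * d)
    rcases fu_root_split v hS hcond with hT | hT
    · exact Or.inl ⟨hsmall T₁ hT, hbig T₁ T₂ hP hT⟩
    · exact Or.inr ⟨hsmall T₂ hT, hbig T₂ T₁ (by rwa [mul_comm T₂ T₁]) hT⟩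
  · -- t₁ + t₂ = m
    have hc4 : (m : WithTop ℚ) ≤ v (x₁ * x₂ - a₄) :=
      fu_sub_ge v (fu_ge_of_eq v h12 heq.ge) (le_of_eq hc.ha₄.symm)
    have hP := h.P_ge hd hc4
    have hmin : min (t₁ + t₂) (2 * m - t₁ - t₂) = m := by
      rw [heq, show 2 * m - t₁ - t₂ = 2 * m - (t₁ + t₂) by ring, heq]
      rw [show 2 * m - m = m by ring, min_self]
    have hbig : ∀ A B : K, ((2 * m - 2 * d : ℚ) : WithTop ℚ) ≤ v (A * B) →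
        v A = ((t₁ + t₂ - 2 * d : ℚ) : WithTop ℚ) →
        fu_clip m (v B) = min (t₁ + t₂) (2 * m - t₁ - t₂) := by
      intro A B hAB hA
      rw [mul_comm A B] at hAB
      have := fu_ge_of_mul_ge v hAB hA
      rw [hmin]
      exact fu_clip_of_ge hm (fu_ge_trans v this (by linarith))
    have hcond : ((2 * (t₁ + t₂ - 2 * d) : ℚ) : WithTop ℚ) < v (T₁ * T₂) := by
      refine lt_of_lt_of_le ?_ hP
      exact_mod_cast (by linarith : 2 * (t₁ + t₂ - 2 * d) < 2 * m - 2 * d)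
    rcases fu_root_split v hS hcond with hT | hT
    · exact Or.inl ⟨hsmall T₁ hT, hbig T₁ T₂ hP hT⟩
    · exact Or.inr ⟨hsmall T₂ hT, hbig T₂ T₁ (by rwa [mul_comm T₂ T₁]) hT⟩
  · -- m < t₁ + t₂
    have hc4 : v (x₁ * x₂ - a₄) = (m : WithTop ℚ) :=
      fu_sub_eq' v (le_of_eq h12.symm) hc.ha₄ hgt
    have hP := h.P_eq hd hc4
    have hmin : min (t₁ + t₂) (2 * m - t₁ - t₂) = 2 * m - t₁ - t₂ := min_eq_right (by linarith)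
    have hbig : ∀ A B : K, v (A * B) = ((2 * m - 2 * d : ℚ) : WithTop ℚ) →
        v A = ((t₁ + t₂ - 2 * d : ℚ) : WithTop ℚ) →
        fu_clip m (v B) = min (t₁ + t₂) (2 * m - t₁ - t₂) := by
      intro A B hAB hA
      rw [mul_comm A B] at hAB
      have := fu_eq_of_mul_eq v hAB hA
      rw [hmin]
      exact (fu_clip_of_eq this (by linarith) (by linarith)).trans (by ring)
    have hcond : ((2 * (t₁ + t₂ - 2 * d) : ℚ) : WithTop ℚ) < v (T₁ * T₂) := by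
      rw [hP]; exact_mod_cast (by linarith : 2 * (t₁ + t₂ - 2 * d) < 2 * m - 2 * d)
    rcases fu_root_split v hS hcond with hT | hT
    · exact Or.inl ⟨hsmall T₁ hT, hbig T₁ T₂ hP hT⟩
    · exact Or.inr ⟨hsmall T₂ hT, hbig T₂ T₁ (by rwa [mul_comm T₂ T₁]) hT⟩


/-- **Lemma U** at the level of fields: the levels of `T₁, T₂` (the `X`-coordinates of `P ± Q`)
are `± (a + b)` and `± (a - b)` mod `2m`, in some order. -/
theorem fu_U_field (hc : fu_Ctx v a₂ a₄ m) (h : fu_Pair a₂ a₄ x₁ x₂ T₁ T₂) :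
    fu_UConc (2 * m) (fu_clip m (v T₁)) (fu_clip m (v T₂)) (fu_clip m (v x₁))
      (fu_clip m (v x₂)) := by
  have hm := hc.hm
  -- the six ordered regimes
  have ZZ : ∀ {x₁ x₂ : K}, fu_Pair a₂ a₄ x₁ x₂ T₁ T₂ → v x₁ ≤ 0 → v x₂ ≤ 0 →
      fu_UConc (2 * m) (fu_clip m (v T₁)) (fu_clip m (v T₂)) (fu_clip m (v x₁))
        (fu_clip m (v x₂)) := by
    intro x₁ x₂ h z1 z2
    obtain ⟨t₁, h₁, ht₁⟩ := fu_exists_coe_of_le z1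
    obtain ⟨t₂, h₂, ht₂⟩ := fu_exists_coe_of_le z2
    obtain ⟨r1, r2⟩ := fu_reg_ZZ hc h h₁ h₂ ht₁ ht₂
    rw [fu_clip_of_le r1, fu_clip_of_le r2, fu_clip_of_le z1, fu_clip_of_le z2]
    exact Or.inl ⟨fu_Rel.of_eq (by ring), fu_Rel.of_eq (by ring)⟩
  have ZN : ∀ {x₁ x₂ : K}, fu_Pair a₂ a₄ x₁ x₂ T₁ T₂ → v x₁ ≤ 0 →
      (∃ t : ℚ, v x₂ = (t : WithTop ℚ) ∧ 0 < t ∧ t < m) →
      fu_UConc (2 * m) (fu_clip m (v T₁)) (fu_clip m (v T₂)) (fu_clip m (v x₁))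
        (fu_clip m (v x₂)) := by
    intro x₁ x₂ h z1 n2
    obtain ⟨t₁, h₁, ht₁⟩ := fu_exists_coe_of_le z1
    obtain ⟨t₂, h₂, ht₂, ht₂'⟩ := n2
    obtain ⟨r1, r2⟩ := fu_reg_ZN hc h h₁ h₂ ht₁ ht₂ ht₂'
    rw [fu_clip_of_eq r1 ht₂.le ht₂'.le, fu_clip_of_eq r2 ht₂.le ht₂'.le, fu_clip_of_le z1,
      fu_clip_of_eq h₂ ht₂.le ht₂'.le]
    exact Or.inl ⟨fu_Rel.of_eq (by ring), fu_Rel.of_eq_neg (by ring)⟩
  have ZM : ∀ {x₁ x₂ : K}, fu_Pair a₂ a₄ x₁ x₂ T₁ T₂ → v x₁ ≤ 0 → (m : WithTop ℚ) ≤ v x₂ →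
      fu_UConc (2 * m) (fu_clip m (v T₁)) (fu_clip m (v T₂)) (fu_clip m (v x₁))
        (fu_clip m (v x₂)) := by
    intro x₁ x₂ h z1 m2
    obtain ⟨t₁, h₁, ht₁⟩ := fu_exists_coe_of_le z1
    obtain ⟨r1, r2⟩ := fu_reg_ZM hc h h₁ m2 ht₁
    rw [fu_clip_of_ge hm r1, fu_clip_of_ge hm r2, fu_clip_of_le z1, fu_clip_of_ge hm m2]
    exact Or.inl ⟨fu_Rel.of_eq (by ring), fu_Rel.of_eq_neg (by ring)⟩
  have NM : ∀ {x₁ x₂ : K}, fu_Pair a₂ a₄ x₁ x₂ T₁ T₂ →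
      (∃ t : ℚ, v x₁ = (t : WithTop ℚ) ∧ 0 < t ∧ t < m) → (m : WithTop ℚ) ≤ v x₂ →
      fu_UConc (2 * m) (fu_clip m (v T₁)) (fu_clip m (v T₂)) (fu_clip m (v x₁))
        (fu_clip m (v x₂)) := by
    intro x₁ x₂ h n1 m2
    obtain ⟨t₁, h₁, ht₁, ht₁'⟩ := n1
    obtain ⟨r1, r2⟩ := fu_reg_NM hc h h₁ m2 ht₁ ht₁'
    rw [fu_clip_of_eq r1 (by linarith) (by linarith), fu_clip_of_eq r2 (by linarith) (by linarith),
      fu_clip_of_eq h₁ ht₁.le ht₁'.le, fu_clip_of_ge hm m2]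
    exact Or.inl ⟨⟨1, Or.inr (by push_cast; ring)⟩, fu_Rel.of_eq_neg (by ring)⟩
  have MM : ∀ {x₁ x₂ : K}, fu_Pair a₂ a₄ x₁ x₂ T₁ T₂ → (m : WithTop ℚ) ≤ v x₁ →
      (m : WithTop ℚ) ≤ v x₂ →
      fu_UConc (2 * m) (fu_clip m (v T₁)) (fu_clip m (v T₂)) (fu_clip m (v x₁))
        (fu_clip m (v x₂)) := by
    intro x₁ x₂ h m1 m2
    obtain ⟨r1, r2⟩ := fu_reg_MM hc h m1 m2
    rw [fu_clip_of_le r1, fu_clip_of_le r2, fu_clip_of_ge hm m1, fu_clip_of_ge hm m2]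
    exact Or.inl ⟨⟨-1, Or.inl (by push_cast; ring)⟩, fu_Rel.of_eq (by ring)⟩
  have NN : ∀ {x₁ x₂ : K}, fu_Pair a₂ a₄ x₁ x₂ T₁ T₂ → ∀ t₁ t₂ : ℚ,
      v x₁ = (t₁ : WithTop ℚ) → 0 < t₁ → v x₂ = (t₂ : WithTop ℚ) → t₂ < m → t₁ ≤ t₂ →
      fu_UConc (2 * m) (fu_clip m (v T₁)) (fu_clip m (v T₂)) (fu_clip m (v x₁))
        (fu_clip m (v x₂)) := by
    intro x₁ x₂ h t₁ t₂ h₁ ht₁ h₂ ht₂ hle
    have hrelmin : fu_Rel (2 * m) (min (t₁ + t₂) (2 * m - t₁ - t₂)) (t₁ + t₂) := by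
      rcases min_choice (t₁ + t₂) (2 * m - t₁ - t₂) with e | e
      · rw [e]; exact fu_Rel.refl _ _
      · rw [e]; exact ⟨1, Or.inr (by push_cast; ring)⟩
    rw [fu_clip_of_eq h₁ ht₁.le (by linarith), fu_clip_of_eq h₂ (by linarith) ht₂.le]
    rcases fu_reg_NN hc h h₁ h₂ ht₁ hle ht₂ with ⟨r1, r2⟩ | ⟨r1, r2⟩
    · rw [r1, r2]
      exact Or.inr ⟨fu_Rel.of_eq_neg (by ring), hrelmin⟩
    · rw [r1, r2]
      exact Or.inl ⟨hrelmin, fu_Rel.of_eq_neg (by ring)⟩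
  rcases fu_regime v m x₁ with z1 | n1 | m1 <;> rcases fu_regime v m x₂ with z2 | n2 | m2
  · exact ZZ h z1 z2
  · exact ZN h z1 n2
  · exact ZM h z1 m2
  · exact (ZN h.symm z2 n1).swap_right
  · obtain ⟨t₁, h₁, ht₁, ht₁'⟩ := n1
    obtain ⟨t₂, h₂, ht₂, ht₂'⟩ := n2
    rcases le_total t₁ t₂ with hle | hle
    · exact NN h t₁ t₂ h₁ ht₁ h₂ ht₂' hle
    · exact (NN h.symm t₂ t₁ h₂ ht₂ h₁ ht₁' hle).swap_right
  · exact NM h n1 m2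
  · exact (ZM h.symm z2 m1).swap_right
  · exact (NM h.symm n2 m1).swap_right
  · exact MM h m1 m2

end regimes


lemma fu_coe_le_zero {r : ℚ} (h : r ≤ 0) : (r : WithTop ℚ) ≤ 0 := by exact_mod_cast h

section duplication

variable {a₂ a₄ x y T : K} {m : ℚ}

/-- Duplication: `T = X(2P)` for `P = (x, y)` with `y ≠ 0`. -/
theorem fu_U_dbl (hc : fu_Ctx v a₂ a₄ m) (hy : y ^ 2 = x * (x ^ 2 + a₂ * x + a₄)) (hy0 : y ≠ 0)
    (hT : T * (2 * y) ^ 2 = (x ^ 2 - a₄) ^ 2) :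
    fu_Rel (2 * m) (fu_clip m (v T)) (2 * fu_clip m (v x)) := by
  have hm := hc.hm
  have hx0 : x ≠ 0 := by
    rintro rfl
    apply hy0
    simpa using hy
  obtain ⟨t, ht⟩ := fu_exists_coe v hx0
  obtain ⟨r, hr⟩ := fu_exists_coe v hy0
  have h2y : v ((2 * y) ^ 2) = ((2 * r : ℚ) : WithTop ℚ) := by
    apply fu_sq_eq; rw [hc.two_mul]; exact hr
  have hy2 : v (x * (x ^ 2 + a₂ * x + a₄)) = ((2 * r : ℚ) : WithTop ℚ) := by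
    rw [← hy]; exact fu_sq_eq v hr
  have hx2 : v (x ^ 2) = ((2 * t : ℚ) : WithTop ℚ) := fu_sq_eq v ht
  have ha2x : v (a₂ * x) = (t : WithTop ℚ) := by rw [hc.a₂_mul]; exact ht
  rcases le_or_gt t 0 with hZ | hpos
  · -- Z
    have hq : ((2 * t : ℚ) : WithTop ℚ) ≤ v (x ^ 2 + a₂ * x + a₄) :=
      fu_add_ge v (fu_add_ge v (le_of_eq hx2.symm) (fu_ge_of_eq v ha2x (by linarith)))
        (fu_ge_of_eq v hc.ha₄ (by linarith))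
    have h3 : ((t + 2 * t : ℚ) : WithTop ℚ) ≤ v (x * (x ^ 2 + a₂ * x + a₄)) :=
      fu_mul_ge v (le_of_eq ht.symm) hq
    rw [hy2, WithTop.coe_le_coe] at h3
    have hnum : v (x ^ 2 - a₄) = ((2 * t : ℚ) : WithTop ℚ) :=
      fu_sub_eq v hx2 (le_of_eq hc.ha₄.symm) (by linarith)
    have hnum2 := fu_sq_eq v hnum
    rw [← hT] at hnum2
    have hvT := fu_eq_of_mul_eq v hnum2 h2y
    rw [fu_clip_of_le (by rw [hvT]; exact fu_coe_le_zero (by linarith)),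
      fu_clip_of_le (by rw [ht]; exact fu_coe_le_zero hZ)]
    exact fu_Rel.of_eq (by ring)
  rcases lt_or_ge t m with hN | hM
  · -- N
    have hq : v (x ^ 2 + a₂ * x + a₄) = (t : WithTop ℚ) :=
      fu_add_eq v (fu_add_eq' v (le_of_eq hx2.symm) ha2x (by linarith)) (le_of_eq hc.ha₄.symm) hN
    have h3 : v (x * (x ^ 2 + a₂ * x + a₄)) = ((t + t : ℚ) : WithTop ℚ) := fu_mul_eq v ht hq
    rw [hy2, WithTop.coe_eq_coe] at h3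
    rw [fu_clip_of_eq ht hpos.le hN.le]
    rcases lt_trichotomy (2 * t) m with hlt | heq | hgt
    · have hnum : v (x ^ 2 - a₄) = ((2 * t : ℚ) : WithTop ℚ) :=
        fu_sub_eq v hx2 (le_of_eq hc.ha₄.symm) hlt
      have hnum2 := fu_sq_eq v hnum
      rw [← hT] at hnum2
      have hvT := fu_eq_of_mul_eq v hnum2 h2y
      rw [fu_clip_of_eq hvT (by linarith) (by linarith)]
      exact fu_Rel.of_eq (by linarith)
    · have hnum : (m : WithTop ℚ) ≤ v (x ^ 2 - a₄) :=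
        fu_sub_ge v (fu_ge_of_eq v hx2 heq.ge) (le_of_eq hc.ha₄.symm)
      have hnum2 := fu_sq_ge v hnum
      rw [← hT] at hnum2
      have hvT := fu_ge_of_mul_ge v hnum2 h2y
      rw [fu_clip_of_ge hm (fu_ge_trans v hvT (by linarith))]
      exact fu_Rel.of_eq (by linarith)
    · have hnum : v (x ^ 2 - a₄) = (m : WithTop ℚ) :=
        fu_sub_eq' v (le_of_eq hx2.symm) hc.ha₄ hgt
      have hnum2 := fu_sq_eq v hnum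
      rw [← hT] at hnum2
      have hvT := fu_eq_of_mul_eq v hnum2 h2y
      rw [fu_clip_of_eq hvT (by linarith) (by linarith)]
      exact ⟨1, Or.inr (by push_cast; linarith)⟩
  · -- M
    have hq : (m : WithTop ℚ) ≤ v (x ^ 2 + a₂ * x + a₄) :=
      fu_add_ge v (fu_add_ge v (fu_ge_of_eq v hx2 (by linarith)) (fu_ge_of_eq v ha2x hM))
        (le_of_eq hc.ha₄.symm)
    have h3 : ((t + m : ℚ) : WithTop ℚ) ≤ v (x * (x ^ 2 + a₂ * x + a₄)) :=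
      fu_mul_ge v (le_of_eq ht.symm) hq
    rw [hy2, WithTop.coe_le_coe] at h3
    have hnum : v (x ^ 2 - a₄) = (m : WithTop ℚ) :=
      fu_sub_eq' v (le_of_eq hx2.symm) hc.ha₄ (by linarith)
    have hnum2 := fu_sq_eq v hnum
    rw [← hT] at hnum2
    have hvT := fu_eq_of_mul_eq v hnum2 h2y
    rw [fu_clip_of_le (by rw [hvT]; exact fu_coe_le_zero (by linarith)),
      fu_clip_of_ge hm (by rw [ht]; exact WithTop.coe_le_coe.mpr hM)]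
    exact ⟨-1, Or.inl (by push_cast; ring)⟩

/-- The `2`-torsion points (`y = 0`) have level `0` or `m`. -/
theorem fu_U_tors (hc : fu_Ctx v a₂ a₄ m) (h0 : x * (x ^ 2 + a₂ * x + a₄) = 0) :
    fu_Rel (2 * m) 0 (2 * fu_clip m (v x)) := by
  have hm := hc.hm
  rcases fu_regime v m x with z | ⟨t, ht, hpos, hN⟩ | M
  · rw [fu_clip_of_le z]; exact fu_Rel.of_eq (by ring)
  · exfalso
    have hx0 := fu_ne_zero_of_eq v ht
    have hq0 : x ^ 2 + a₂ * x + a₄ = 0 := (mul_eq_zero.mp h0).resolve_left hx0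
    have hx2 : v (x ^ 2) = ((2 * t : ℚ) : WithTop ℚ) := fu_sq_eq v ht
    have ha2x : v (a₂ * x) = (t : WithTop ℚ) := by rw [hc.a₂_mul]; exact ht
    have hq : v (x ^ 2 + a₂ * x + a₄) = (t : WithTop ℚ) :=
      fu_add_eq v (fu_add_eq' v (le_of_eq hx2.symm) ha2x (by linarith)) (le_of_eq hc.ha₄.symm) hN
    rw [hq0, v.map_zero] at hq
    exact WithTop.top_ne_coe hq
  · rw [fu_clip_of_ge hm M]; exact ⟨-1, Or.inl (by push_cast; ring)⟩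

end duplication

end Fermat.Agent.Lib.Frey
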