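/-
S05, X-only unsigned level route: the level of a point, Lemma U for points, `lvl (k • P)`,
and the final statement: every `p`-torsion point differs from a multiple of `P₀` by a point
of `E₀`.
-/
import Fermat.Agent.Lib.Frey.UH3Reg
import Fermat.Agent.Lib.Frey.Defs

namespace Fermat.Agent.Lib.Frey

open WeierstrassCurve

variable {K : Type*} [Field K]

/-- The curve `Y² = X³ + a₂ X² + a₄ X`. -/
def fu_W (a₂ a₄ : K) : WeierstrassCurve K := ⟨0, a₂, 0, a₄, 0⟩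

@[simp] lemma fu_W_a₁ (a₂ a₄ : K) : (fu_W a₂ a₄).a₁ = 0 := rfl
@[simp] lemma fu_W_a₂ (a₂ a₄ : K) : (fu_W a₂ a₄).a₂ = a₂ := rfl
@[simp] lemma fu_W_a₃ (a₂ a₄ : K) : (fu_W a₂ a₄).a₃ = 0 := rfl
@[simp] lemma fu_W_a₄ (a₂ a₄ : K) : (fu_W a₂ a₄).a₄ = a₄ := rfl
@[simp] lemma fu_W_a₆ (a₂ a₄ : K) : (fu_W a₂ a₄).a₆ = 0 := rfl

lemma fl_curve_eq_fu_W (δ ε : K) : fl_curve δ ε = fu_W (-(δ + ε)) (δ * ε) := rfl

lemma fu_W_equation_iff (a₂ a₄ x y : K) :
    (fu_W a₂ a₄).toAffine.Equation x y ↔ y ^ 2 = x * (x ^ 2 + a₂ * x + a₄) := by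
  rw [Affine.equation_iff]
  simp only [fu_W_a₁, fu_W_a₂, fu_W_a₃, fu_W_a₄, fu_W_a₆]
  constructor <;> intro h <;> linear_combination h

lemma fu_W_negY (a₂ a₄ x y : K) : (fu_W a₂ a₄).toAffine.negY x y = -y := by
  simp [Affine.negY]

lemma fu_pair_of_eqn {a₂ a₄ x₁ x₂ y₁ y₂ : K} (h₁ : y₁ ^ 2 = x₁ * (x₁ ^ 2 + a₂ * x₁ + a₄))
    (h₂ : y₂ ^ 2 = x₂ * (x₂ ^ 2 + a₂ * x₂ + a₄)) (hx : x₁ ≠ x₂) :
    fu_Pair a₂ a₄ x₁ x₂ (((y₁ - y₂) / (x₁ - x₂)) ^ 2 - a₂ - x₁ - x₂)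
      (((y₁ + y₂) / (x₁ - x₂)) ^ 2 - a₂ - x₁ - x₂) where
  hx := hx
  hS := by
    have hD : x₁ - x₂ ≠ 0 := sub_ne_zero.mpr hx
    rw [fu_NS]
    field_simp
    linear_combination 2 * h₁ + 2 * h₂
  hP := by
    have hD : x₁ - x₂ ≠ 0 := sub_ne_zero.mpr hx
    have key : ∀ A B : K, A = x₁ * (x₁ ^ 2 + a₂ * x₁ + a₄) → B = x₂ * (x₂ ^ 2 + a₂ * x₂ + a₄) →
        (A + B - (a₂ + x₁ + x₂) * (x₁ - x₂) ^ 2) ^ 2 - 4 * A * B =
          (x₁ * x₂ - a₄) ^ 2 * (x₁ - x₂) ^ 2 := by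
      intro A B hA hB
      subst hA hB
      ring
    have := key (y₁ ^ 2) (y₂ ^ 2) h₁ h₂
    field_simp
    linear_combination this

lemma fu_dbl_of_eqn {a₂ a₄ x y : K} (h : y ^ 2 = x * (x ^ 2 + a₂ * x + a₄)) (h2 : (2 : K) ≠ 0)
    (hy : y ≠ 0) :
    (((3 * x ^ 2 + 2 * a₂ * x + a₄) / (2 * y)) ^ 2 - a₂ - x - x) * (2 * y) ^ 2 =
      (x ^ 2 - a₄) ^ 2 := by
  have h2y : 2 * y ≠ 0 := mul_ne_zero h2 hy
  rw [sub_sub, sub_sub, sub_mul, div_pow, div_mul_cancel₀ _ (pow_ne_zero 2 h2y)]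
  linear_combination (-(4 * a₂) - 8 * x) * h

/-- The unsigned level of a point: `0` at infinity, the clipped valuation of `X` otherwise. -/
noncomputable def fu_lvl (v : AddValuation K (WithTop ℚ)) (m : ℚ) {a₂ a₄ : K} :
    (fu_W a₂ a₄).toAffine.Point → ℚ
  | .zero => 0
  | .some x _ _ => fu_clip m (v x)

variable {v : AddValuation K (WithTop ℚ)} {m : ℚ} {a₂ a₄ : K}

@[simp] lemma fu_lvl_zero : fu_lvl v m (0 : (fu_W a₂ a₄).toAffine.Point) = 0 := rfl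

@[simp] lemma fu_lvl_some {x y : K} (h : (fu_W a₂ a₄).toAffine.Nonsingular x y) :
    fu_lvl v m (Affine.Point.some x y h) = fu_clip m (v x) := rfl

lemma fu_lvl_neg (P : (fu_W a₂ a₄).toAffine.Point) : fu_lvl v m (-P) = fu_lvl v m P := by
  rcases P with _ | ⟨x, y, h⟩
  · rfl
  · rw [Affine.Point.neg_some]; rfl

lemma fu_lvl_nonneg (hm : 0 < m) (P : (fu_W a₂ a₄).toAffine.Point) : 0 ≤ fu_lvl v m P := by
  rcases P with _ | ⟨x, y, h⟩
  · exact le_rfl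
  · exact fu_clip_nonneg hm _

lemma fu_lvl_le (hm : 0 < m) (P : (fu_W a₂ a₄).toAffine.Point) : fu_lvl v m P ≤ m := by
  rcases P with _ | ⟨x, y, h⟩
  · exact hm.le
  · exact fu_clip_le hm _

variable [DecidableEq K]

/-- Duplication. -/
theorem fu_lvl_two (hc : fu_Ctx v a₂ a₄ m) (P : (fu_W a₂ a₄).toAffine.Point) :
    fu_Rel (2 * m) (fu_lvl v m (P + P)) (2 * fu_lvl v m P) := by
  rcases P with _ | ⟨x, y, h⟩
  · show fu_Rel (2 * m) (fu_lvl v m ((0 : (fu_W a₂ a₄).toAffine.Point) + 0))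
      (2 * fu_lvl v m (0 : (fu_W a₂ a₄).toAffine.Point))
    rw [add_zero, fu_lvl_zero]
    exact fu_Rel.of_eq (by ring)
  · have heq := (fu_W_equation_iff a₂ a₄ x y).mp h.1
    have h2 : (2 : K) ≠ 0 := by
      have := fu_ne_zero_of_eq v hc.h2
      exact this
    by_cases hy : y = (fu_W a₂ a₄).toAffine.negY x y
    · rw [Affine.Point.add_self_of_Y_eq hy]
      rw [fu_W_negY] at hy
      have hy0 : y = 0 := by
        have : 2 * y = 0 := by linear_combination hy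
        rcases mul_eq_zero.mp this with h' | h'
        · exact absurd h' h2
        · exact h'
      have : x * (x ^ 2 + a₂ * x + a₄) = 0 := by rw [← heq, hy0]; ring
      exact fu_U_tors hc this
    · rw [Affine.Point.add_self_of_Y_ne hy]
      have hy0 : y ≠ 0 := by
        rintro rfl
        apply hy
        rw [fu_W_negY]; ring
      have h2y : 2 * y ≠ 0 := mul_ne_zero h2 hy0
      rw [fu_lvl_some, fu_lvl_some]
      refine fu_U_dbl hc heq hy0 ?_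
      rw [Affine.slope_of_Y_ne rfl hy, fu_W_negY]
      simp only [Affine.addX, fu_W_a₁, fu_W_a₂, fu_W_a₄]
      have := fu_dbl_of_eqn heq h2 hy0
      rw [← this]
      congr 1
      have e : y - -y = 2 * y := by ring
      rw [e]
      ring

/-- **Lemma U** for points. -/
theorem fu_U_point (hc : fu_Ctx v a₂ a₄ m) (P Q : (fu_W a₂ a₄).toAffine.Point) :
    fu_UConc (2 * m) (fu_lvl v m (P + Q)) (fu_lvl v m (P - Q)) (fu_lvl v m P) (fu_lvl v m Q) := by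
  rcases P with _ | ⟨x₁, y₁, h₁⟩
  · show fu_UConc (2 * m) (fu_lvl v m ((0 : (fu_W a₂ a₄).toAffine.Point) + Q))
      (fu_lvl v m ((0 : (fu_W a₂ a₄).toAffine.Point) - Q))
      (fu_lvl v m (0 : (fu_W a₂ a₄).toAffine.Point)) _
    rw [zero_add, zero_sub, fu_lvl_neg, fu_lvl_zero]
    exact Or.inl ⟨fu_Rel.of_eq (by ring), fu_Rel.of_eq_neg (by ring)⟩
  rcases Q with _ | ⟨x₂, y₂, h₂⟩
  · show fu_UConc (2 * m) (fu_lvl v m (_ + (0 : (fu_W a₂ a₄).toAffine.Point)))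
      (fu_lvl v m (_ - (0 : (fu_W a₂ a₄).toAffine.Point))) _
      (fu_lvl v m (0 : (fu_W a₂ a₄).toAffine.Point))
    rw [add_zero, sub_zero, fu_lvl_zero]
    exact Or.inl ⟨fu_Rel.of_eq (by ring), fu_Rel.of_eq (by ring)⟩
  by_cases hx : x₁ = x₂
  · -- `P = ± Q`
    rcases (Affine.Point.X_eq_iff (h₁ := h₁) (h₂ := h₂)).mp hx with hPQ | hPQ
    · rw [hPQ, sub_self, fu_lvl_zero]
      have := fu_lvl_two hc (Affine.Point.some x₂ y₂ h₂)
      refine Or.inl ⟨?_, fu_Rel.of_eq (by ring)⟩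
      rwa [two_mul (fu_lvl v m _)] at this
    · rw [hPQ, neg_add_cancel, fu_lvl_zero, fu_lvl_neg]
      have := fu_lvl_two hc (Affine.Point.some x₂ y₂ h₂)
      refine Or.inr ⟨fu_Rel.of_eq (by ring), ?_⟩
      rw [show -Affine.Point.some x₂ y₂ h₂ - Affine.Point.some x₂ y₂ h₂ =
        -(Affine.Point.some x₂ y₂ h₂ + Affine.Point.some x₂ y₂ h₂) by abel, fu_lvl_neg]
      rwa [two_mul (fu_lvl v m _)] at this
  · have e₁ := (fu_W_equation_iff a₂ a₄ x₁ y₁).mp h₁.1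
    have e₂ := (fu_W_equation_iff a₂ a₄ x₂ y₂).mp h₂.1
    have hpair := fu_pair_of_eqn e₁ e₂ hx
    rw [sub_eq_add_neg, Affine.Point.neg_some, Affine.Point.add_of_X_ne hx,
      Affine.Point.add_of_X_ne hx]
    simp only [fu_lvl_some]
    rw [Affine.slope_of_X_ne hx, Affine.slope_of_X_ne hx, fu_W_negY]
    simp only [Affine.addX, fu_W_a₁, fu_W_a₂]
    have := fu_U_field hc hpair
    convert this using 3 <;> ring


lemma fu_Rel.add_sub {n b c : ℚ} (h : fu_Rel n b c) (a : ℚ) :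
    (fu_Rel n (b + a) (c + a) ∧ fu_Rel n (b - a) (c - a)) ∨
      (fu_Rel n (b + a) (c - a) ∧ fu_Rel n (b - a) (c + a)) := by
  obtain ⟨k, hk | hk⟩ := h
  · exact Or.inl ⟨⟨k, Or.inl (by linarith)⟩, ⟨k, Or.inl (by linarith)⟩⟩
  · exact Or.inr ⟨⟨k, Or.inr (by linarith)⟩, ⟨k, Or.inr (by linarith)⟩⟩

/-- `lvl (k • P) ≡ ± k · lvl P` modulo `2m`. -/
theorem fu_lvl_nsmul (hc : fu_Ctx v a₂ a₄ m) (P : (fu_W a₂ a₄).toAffine.Point) (k : ℕ) :
    fu_Rel (2 * m) (fu_lvl v m (k • P)) (k * fu_lvl v m P) := by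
  have main : ∀ k : ℕ, fu_Rel (2 * m) (fu_lvl v m (k • P)) (k * fu_lvl v m P) ∧
      fu_Rel (2 * m) (fu_lvl v m ((k + 1) • P)) ((k + 1 : ℕ) * fu_lvl v m P) := by
    intro k
    induction k with
    | zero =>
      refine ⟨?_, ?_⟩
      · rw [zero_smul, fu_lvl_zero]; exact fu_Rel.of_eq (by simp)
      · rw [zero_add, one_smul]; exact fu_Rel.of_eq (by simp)
    | succ k ih =>
      obtain ⟨ih0, ih1⟩ := ih
      refine ⟨ih1, ?_⟩
      have hU := fu_U_point hc ((k + 1) • P) P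
      have e1 : (k + 1) • P + P = (k + 1 + 1) • P := by rw [succ_nsmul P (k + 1)]
      have e2 : (k + 1) • P - P = k • P := by rw [succ_nsmul P k]; abel
      rw [e1, e2] at hU
      have hcp : ((k + 1 : ℕ) : ℚ) * fu_lvl v m P + fu_lvl v m P =
          ((k + 1 + 1 : ℕ) : ℚ) * fu_lvl v m P := by push_cast; ring
      have hcm : ((k + 1 : ℕ) : ℚ) * fu_lvl v m P - fu_lvl v m P = (k : ℚ) * fu_lvl v m P := by
        push_cast; ring
      rcases ih1.add_sub (fu_lvl v m P) with ⟨hp, hm'⟩ | ⟨hp, hm'⟩ <;>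
        rw [hcp] at * <;> rw [hcm] at * <;> rcases hU with ⟨hX, hY⟩ | ⟨hX, hY⟩
      · exact hX.trans hp
      · exact ((hX.trans hm').trans ih0.symm).trans (hY.trans hp)
      · exact ((hX.trans hp).trans ih0.symm).trans (hY.trans hm')
      · exact hX.trans hm'
  exact (main k).1

/-- **Main statement of the unsigned-level route**: if `p • x = 0` and `P₀` has level `2m/p`,
then `x - j • P₀` has level `0` for some integer `j`. -/
theorem fu_exists_sub_lvl_zero (hc : fu_Ctx v a₂ a₄ m) (p : ℕ) (hp : 0 < p)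
    (x P₀ : (fu_W a₂ a₄).toAffine.Point) (hx : p • x = 0)
    (hP₀ : fu_lvl v m P₀ = 2 * m / p) : ∃ j : ℤ, fu_lvl v m (x - j • P₀) = 0 := by
  have hm := hc.hm
  have hp' : (0 : ℚ) < p := by exact_mod_cast hp
  -- the level of `x` is a multiple of `2m/p`
  obtain ⟨k, hk⟩ : ∃ k : ℤ, fu_lvl v m x = k * (2 * m / p) := by
    have := fu_lvl_nsmul hc x p
    rw [hx, fu_lvl_zero] at this
    obtain ⟨k, hk | hk⟩ := this
    · refine ⟨-k, ?_⟩
      field_simp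
      push_cast
      linarith
    · refine ⟨k, ?_⟩
      field_simp
      linarith
  -- `N • P₀` has the same level as `x`
  set N := k.natAbs with hN
  have hrel : fu_Rel (2 * m) (fu_lvl v m (N • P₀)) (fu_lvl v m x) := by
    have := fu_lvl_nsmul hc P₀ N
    rw [hP₀] at this
    rcases Int.natAbs_eq k with h | h
    · have e : (N : ℚ) * (2 * m / p) = fu_lvl v m x := by
        rw [hk]; congr 1
        have : (k : ℚ) = ((N : ℤ) : ℚ) := by rw [hN, ← h]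
        rw [this]; simp
      rwa [e] at this
    · have e : (N : ℚ) * (2 * m / p) = -fu_lvl v m x := by
        rw [hk, ← neg_mul]; congr 1
        have : (k : ℚ) = ((-(N : ℤ) : ℤ) : ℚ) := by rw [hN, ← h]
        rw [this]; simp
      rw [e] at this
      simpa using this.neg_right
  have heq : fu_lvl v m (N • P₀) = fu_lvl v m x :=
    hrel.eq_of_mem (fu_lvl_nonneg hm _) (fu_lvl_le hm _) (fu_lvl_nonneg hm _) (fu_lvl_le hm _)
  have hzero : ∀ Q : (fu_W a₂ a₄).toAffine.Point,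
      fu_Rel (2 * m) (fu_lvl v m Q) (fu_lvl v m x - fu_lvl v m (N • P₀)) → fu_lvl v m Q = 0 := by
    intro Q hQ
    rw [heq, sub_self] at hQ
    exact hQ.eq_of_mem (fu_lvl_nonneg hm _) (fu_lvl_le hm _) le_rfl hm.le
  rcases fu_U_point hc x (N • P₀) with ⟨_, h2⟩ | ⟨h1, _⟩
  · refine ⟨(N : ℤ), ?_⟩
    rw [natCast_zsmul]
    exact hzero _ h2
  · refine ⟨-(N : ℤ), ?_⟩
    rw [neg_zsmul, natCast_zsmul, sub_neg_eq_add]
    exact hzero _ h1


omit [DecidableEq K] in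
lemma fu_ctx_of_fl (v : AddValuation K (WithTop ℚ)) (δ ε : K) (m : ℚ)
    (hδ : v δ = (m : WithTop ℚ)) (hm : 0 < m) (hε : v ε = 0) (h2 : v 2 = 0) :
    fu_Ctx v (-(δ + ε)) (δ * ε) m where
  h2 := h2.trans WithTop.coe_zero.symm
  ha₂ := by
    rw [v.map_neg]
    exact fu_add_eq' v (le_of_eq hδ.symm) (hε.trans WithTop.coe_zero.symm) hm
  ha₄ := by rw [v.map_mul, hδ, hε, add_zero]
  hm := hm

omit [DecidableEq K] in
lemma fu_inE0_of_lvl_zero (hm : 0 < m) (Q : (fu_W a₂ a₄).toAffine.Point)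
    (h : fu_lvl v m Q = 0) : fl_InE0 v Q := by
  rcases Q with _ | ⟨X, Y, hXY⟩
  · exact Or.inl rfl
  · exact Or.inr ⟨X, Y, hXY, rfl, fu_clip_eq_zero hm h⟩

/-- **Output of the unsigned-level route for the Legendre-type model** `Y² = X (X − δ) (X − ε)`:
every `p`-torsion point `x` differs from an integer multiple of a point `P₀` with
`v (X P₀) = 2m/p` by a point of `E₀`. -/
theorem fu_exists_sub_inE0 (v : AddValuation K (WithTop ℚ)) (δ ε : K) (m : ℚ)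
    (hδ : v δ = (m : WithTop ℚ)) (hm : 0 < m) (hε : v ε = 0) (h2 : v 2 = 0)
    (p : ℕ) (hp : 2 < p) (x P0 : (fl_curve δ ε).toAffine.Point) (hx : p • x = 0)
    (X0 Y0 : K) (h0 : (fl_curve δ ε).toAffine.Nonsingular X0 Y0)
    (hP0 : P0 = Affine.Point.some X0 Y0 h0)
    (hX0 : v X0 = ((2 * m / p : ℚ) : WithTop ℚ)) :
    ∃ j : ℤ, fl_InE0 v (x - j • P0) := by
  have hc := fu_ctx_of_fl v δ ε m hδ hm hε h2
  have hp' : (2 : ℚ) < p := by exact_mod_cast hp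
  have hlvl : fu_lvl v m (a₂ := -(δ + ε)) (a₄ := δ * ε) P0 = 2 * m / p := by
    subst hP0
    refine fu_clip_of_eq hX0 (by positivity) ?_
    rw [div_le_iff₀ (by linarith)]
    nlinarith
  obtain ⟨j, hj⟩ := fu_exists_sub_lvl_zero (a₂ := -(δ + ε)) (a₄ := δ * ε) hc p (by omega) x P0 hx
    hlvl
  exact ⟨j, fu_inE0_of_lvl_zero (a₂ := -(δ + ε)) (a₄ := δ * ε) hm _ hj⟩

end Fermat.Agent.Lib.Frey
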