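/-
S05 (Frey curve unramified at odd q ≠ p): the two curve-theoretic interface statements of
`FqIface.lean` (`fq_IfaceGood`, `fq_IfaceMult`) proved from the abstract theorems
`fab_main_good` / `fab_main_mult` and the landed inputs
(L1) `Diff.lean` (via `fab_L1_leg`), (L2) `E1.lean` (`fe1_torsion`) + `E1Sub.lean`,
(L3) `UH3Level.lean` (`fu_exists_sub_inE0`).
-/
import Mathlib
import Fermat.Agent.Lib.Frey.Defs
import Fermat.Agent.Lib.Frey.AbstractLeg
import Fermat.Agent.Lib.Frey.AbstractFinal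
import Fermat.Agent.Lib.Frey.E1
import Fermat.Agent.Lib.Frey.UH3Level
import Fermat.Agent.Lib.Frey.FqIface

set_option autoImplicit false

namespace Fermat.Agent.Lib.Frey

open WeierstrassCurve WeierstrassCurve.Affine WeierstrassCurve.Affine.Point

section

variable {K : Type*} [Field K] [DecidableEq K] (v : AddValuation K (WithTop ℚ))

/-- (L2) for the Legendre-type model with integral `δ`, `ε`, `v 2 = 0`, `p` an odd prime with
`v p = 0`. -/
theorem fab_L2_leg_final {δ ε : K} (hδ : 0 ≤ v δ) (hε : 0 ≤ v ε) (h2 : v (2 : K) = 0) {p : ℕ}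
    (hp : p.Prime) (hp2 : p ≠ 2) (hvp : v (p : K) = 0) : fab_HypL2 v (fl_curve δ ε) p := by
  refine fab_L2_leg v hδ hε (fun P hP hpP => ?_)
  refine fe1_torsion v (W := fl_curve δ ε) rfl rfl ?_ ?_ ?_ h2 p hp hp2 hvp hP hpP
  · rw [fl_curve_a₂, AddValuation.map_neg]; exact v.map_le_add hδ hε
  · rw [fl_curve_a₄, v.map_mul]; exact add_nonneg hδ hε
  · rw [fl_curve_a₆, AddValuation.map_zero]; exact le_top

end

/-- **Good reduction interface.** -/
theorem fab_ifaceGood : fq_IfaceGood := by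
  intro K _ _ v σ hσv hσI δ ε hσδ hσε hδ hε hδε h2 p hp hp2 hvp X Y h hx
  exact fab_main_good v σ hσv hσI δ ε hσδ hσε hδ hε hδε p
    (fab_L1_leg v hδ.ge hε.ge h2) (fab_L2_leg_final v hδ.ge hε.ge h2 hp hp2 hvp) X Y h hx

/-- **Multiplicative reduction interface.** -/
theorem fab_ifaceMult : fq_IfaceMult := by
  intro K _ _ v σ hσv hσI δ ε m hσδ hσε hm hδ hε h2 p hp hp2 hvp X₀ Y₀ h₀ hX₀ hY₀ hvX₀ X Y h hx
  have hδ0 : (0 : WithTop ℚ) ≤ v δ := by rw [hδ]; exact_mod_cast hm.le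
  have hp3 : 2 < p := lt_of_le_of_ne hp.two_le (Ne.symm hp2)
  exact fab_main_mult v σ hσv hσI δ ε hσδ hσε m hm hδ hε p
    (fab_L1_leg v hδ0 hε.ge h2) (fab_L2_leg_final v hδ0 hε.ge h2 hp hp2 hvp)
    (fun x P0 hx' X0 Y0 h0 hP0 hX0 =>
      fu_exists_sub_inE0 v δ ε m hδ hm hε h2 p hp3 x P0 hx' X0 Y0 h0 hP0 hX0)
    X₀ Y₀ h₀ hX₀ hY₀ hvX₀ X Y h hx

end Fermat.Agent.Lib.Frey
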