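import Mathlib
import Fermat.Agent.Lib.Frey.Ord
import Fermat.Agent.Lib.Frey.FqMain

/-!
# `fq_IfaceOrd` holds

The `ℚ`-valued valuation `ford_vQ` of `Lib/Frey/Ord.lean` discharges the interface `fq_IfaceOrd`
of `Lib/Frey/FqMain.lean`.
-/

set_option autoImplicit false

namespace Fermat.Agent.Lib.Frey

open scoped Pointwise

theorem ford_ifaceOrd : fq_IfaceOrd := by
  intro A q hq hA
  refine ⟨ford_vQ A hq hA, ford_vQ_nonneg_iff hq hA, ford_vQ_pos_iff hq hA, ?_⟩
  intro σ hσ a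
  exact ford_vQ_decomposition hq hA σ hσ a

end Fermat.Agent.Lib.Frey
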