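/-
S05, final wiring: the two local interface statements `fq_IfaceGood`, `fq_IfaceMult` of
`FqMain.lean` follow from the abstract theorems `fab_main_good` / `fab_main_mult`
(`AbstractLeg.lean`) with (L1) `fab_L1_leg` (difference lemma), (L2) `fab_L2_leg` + `fe1_torsion`
(kernel of reduction: subgroup, no `p`-torsion) and (L3) `fu_exists_sub_inE0` (unsigned level);
together with `ford_ifaceOrd` this gives the statement of S05.
-/
import Mathlib
import Fermat.Agent.Lib.Frey.FqMain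
import Fermat.Agent.Lib.Frey.OrdIface
import Fermat.Agent.Lib.Frey.AbstractFinal
import Fermat.Agent.Lib.Frey.AbstractLeg
import Fermat.Agent.Lib.Frey.E1
import Fermat.Agent.Lib.Frey.UH3Level

set_option autoImplicit false

namespace Fermat.Agent.Lib.Frey

open WeierstrassCurve

section

variable {K : Type*} [Field K] [DecidableEq K] (v : AddValuation K (WithTop ℚ))

/-- (L2) for the Legendre-type model with integral `δ`, `ε`. -/
theorem fq_L2_leg {δ ε : K} (hδ : 0 ≤ v δ) (hε : 0 ≤ v ε) (h2 : v (2 : K) = 0) {p : ℕ}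
    (hp : p.Prime) (hp2 : p ≠ 2) (hvp : v (p : K) = 0) : fab_HypL2 v (fl_curve δ ε) p := by
  refine fab_L2_leg v hδ hε (fun P hP hpP => ?_)
  refine fe1_torsion v rfl rfl ?_ ?_ ?_ h2 p hp hp2 hvp hP hpP
  · rw [fl_curve_a₂, AddValuation.map_neg]; exact v.map_le_add hδ hε
  · rw [fl_curve_a₄, v.map_mul]; exact add_nonneg hδ hε
  · rw [fl_curve_a₆, AddValuation.map_zero]; exact le_top

end

/-- The good-reduction interface statement. -/
theorem fq_ifaceGood : fq_IfaceGood := by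
  intro K _ _ v σ hσv hσI δ ε hσδ hσε hδ hε hδε h2 p hp hp2 hvp X Y h hx
  exact fab_main_good v σ hσv hσI δ ε hσδ hσε hδ hε hδε p
    (fab_L1_leg v hδ.ge hε.ge h2) (fq_L2_leg v hδ.ge hε.ge h2 hp hp2 hvp) X Y h hx

/-- The multiplicative-reduction interface statement. -/
theorem fq_ifaceMult : fq_IfaceMult := by
  intro K _ _ v σ hσv hσI δ ε m hσδ hσε hm hδ hε h2 p hp hp2 hvp X₀ Y₀ h₀ hX₀ hY₀ hvX₀ X Y h hx
  have hδ0 : 0 ≤ v δ := by
    rw [hδ]; exact_mod_cast hm.le
  have hp3 : 2 < p := lt_of_le_of_ne hp.two_le (Ne.symm hp2)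
  exact fab_main_mult v σ hσv hσI δ ε hσδ hσε m hm hδ hε p
    (fab_L1_leg v hδ0 hε.ge h2) (fq_L2_leg v hδ0 hε.ge h2 hp hp2 hvp)
    (fun x P0 hx X0 Y0 h0 hP0 hX0 =>
      fu_exists_sub_inE0 v δ ε m hδ hm hε h2 p hp3 x P0 hx X0 Y0 h0 hP0 hX0)
    X₀ Y₀ h₀ hX₀ hY₀ hvX₀ X Y h hx

/-- **S05.** The mod-`p` representation of the Frey curve is unramified at every odd `q ≠ p`. -/
theorem fq_frey_unramified (P : FreyPackage) {q : ℕ} (hq : q.Prime) (hq2 : q ≠ 2)
    (hqp : q ≠ P.p) : P.GaloisRepUnramifiedAt q :=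
  fq_main ford_ifaceOrd fq_ifaceGood fq_ifaceMult P hq hq2 hqp

end Fermat.Agent.Lib.Frey
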