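/-
S05: towards the `ℚ`-valued order function attached to a valuation subring `A` of an algebraic
extension `L` of `ℚ` lying over a prime `q`: every nonzero algebraic `x` satisfies
`v(x)^k = v(q)^j` for some `k > 0`, `j ∈ ℤ`.
-/
import Mathlib
import Fermat.Agent.Lib.Frey.FqArith

set_option autoImplicit false

namespace Fermat.Agent.Lib.Frey

open ValuationSubring

section TwoMax

variable {L : Type*} [Field L] {Γ₀ : Type*} [LinearOrderedCommGroupWithZero Γ₀]

/-- If a finite sum of nonzero terms vanishes, the maximal valuation is attained twice. -/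
theorem fq_exists_ne_val_eq (w : Valuation L Γ₀) {ι : Type*} [DecidableEq ι] (s : Finset ι)
    (f : ι → L) (hs : s.Nonempty) (hf : ∀ i ∈ s, f i ≠ 0) (hsum : ∑ i ∈ s, f i = 0) :
    ∃ i ∈ s, ∃ j ∈ s, i ≠ j ∧ w (f i) = w (f j) := by
  obtain ⟨i, hi, hmax⟩ := Finset.exists_max_image s (fun i => w (f i)) hs
  by_contra hcon
  replace hcon : ∀ i ∈ s, ∀ j ∈ s, i ≠ j → w (f i) ≠ w (f j) := by
    intro a ha b hb hab hval
    exact hcon ⟨a, ha, b, hb, hab, hval⟩
  have hlt : ∀ j ∈ s.erase i, w (f j) < w (f i) := by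
    intro j hj
    have hj' := Finset.mem_erase.mp hj
    exact lt_of_le_of_ne (hmax j hj'.2) (fun h => hcon i hi j hj'.2 (Ne.symm hj'.1) h.symm)
  have hne : w (f i) ≠ 0 := (Valuation.ne_zero_iff w).mpr (hf i hi)
  have h1 : w (∑ j ∈ s.erase i, f j) < w (f i) := Valuation.map_sum_lt w hne hlt
  have h2 : f i = -∑ j ∈ s.erase i, f j := by
    rw [eq_neg_iff_add_eq_zero, Finset.add_sum_erase s f hi, hsum]
  rw [h2, Valuation.map_neg] at h1
  exact lt_irrefl _ h1

end TwoMax

section Mult

variable {L : Type*} [Field L] (A : ValuationSubring L) {q : ℕ}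

theorem fq_val_intCast_le_one (z : ℤ) : A.valuation (z : L) ≤ 1 :=
  (A.valuation_le_one_iff _).mpr (intCast_mem A z)

/-- An integer prime to `q` is a unit of a valuation ring lying over `q`. -/
theorem fq_val_intCast_eq_one (hqp : q.Prime) (hq : (q : L) ∈ A.nonunits) {z : ℤ}
    (hz : ¬ (q : ℤ) ∣ z) : A.valuation (z : L) = 1 := by
  have hz' : IsCoprime z (q : ℤ) :=
    (IsCoprime.symm ((Prime.coprime_iff_not_dvd (Nat.prime_iff_prime_int.mp hqp)).mpr hz))
  refine le_antisymm (fq_val_intCast_le_one A z) ?_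
  by_contra hlt
  rw [not_le] at hlt
  obtain ⟨u, w, huw⟩ := hz'
  have h1 : ((u : L) * (z : L) + (w : L) * (q : L)) = 1 := by
    have := congrArg (fun t : ℤ => (t : L)) huw
    push_cast at this ⊢
    exact this
  have hq' : A.valuation (q : L) < 1 := (mem_nonunits_iff (A := A)).mp hq
  have hu : A.valuation ((u : L) * (z : L)) < 1 := by
    rw [map_mul]
    calc A.valuation (u : L) * A.valuation (z : L) ≤ 1 * A.valuation (z : L) := by
          gcongr
          exact fq_val_intCast_le_one A u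
      _ < 1 := by rwa [one_mul]
  have hw : A.valuation ((w : L) * (q : L)) < 1 := by
    rw [map_mul]
    calc A.valuation (w : L) * A.valuation (q : L) ≤ 1 * A.valuation (q : L) := by
          gcongr
          exact fq_val_intCast_le_one A w
      _ < 1 := by rwa [one_mul]
  have : A.valuation (1 : L) < 1 := by
    rw [← h1]
    exact lt_of_le_of_lt (A.valuation.map_add _ _) (max_lt hu hw)
  simp at this

/-- The valuation of a nonzero integer is a power of the valuation of `q`. -/
theorem fq_val_intCast_eq_pow (hqp : q.Prime) (hq : (q : L) ∈ A.nonunits) {z : ℤ}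
    (hz : z ≠ 0) : ∃ e : ℕ, A.valuation (z : L) = A.valuation (q : L) ^ e := by
  obtain ⟨k, z', hz', rfl⟩ := fq_exists_pow_mul hqp hz
  refine ⟨k, ?_⟩
  push_cast
  rw [map_mul, map_pow, fq_val_intCast_eq_one A hqp hq hz', mul_one]

/-- **Existence of the rational order.** For `x ≠ 0` algebraic over `ℚ`, some positive power of
`v(x)` is an integral power of `v(q)`. -/
theorem fq_exists_pow_eq_zpow [CharZero L] [Algebra ℚ L] (hqp : q.Prime) (hq : (q : L) ∈ A.nonunits) {x : L}
    (hx : x ≠ 0) (halg : IsAlgebraic ℚ x) :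
    ∃ (k : ℕ) (j : ℤ), 0 < k ∧ A.valuation x ^ k = A.valuation (q : L) ^ j := by
  have halgZ : IsAlgebraic ℤ x := (IsFractionRing.isAlgebraic_iff ℤ ℚ L).mpr halg
  obtain ⟨P, hP0, hPx⟩ := halgZ
  set w := A.valuation with hw
  have hπ0 : w (q : L) ≠ 0 := by
    rw [Valuation.ne_zero_iff]
    exact_mod_cast hqp.ne_zero
  have hwx0 : w x ≠ 0 := (Valuation.ne_zero_iff w).mpr hx
  -- the vanishing sum
  have hsum : ∑ i ∈ P.support, ((P.coeff i : ℤ) : L) * x ^ i = 0 := by
    have := hPx
    rw [Polynomial.aeval_def, Polynomial.eval₂_eq_sum, Polynomial.sum_def] at this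
    simpa using this
  have hsupp : P.support.Nonempty := by
    rw [Finset.nonempty_iff_ne_empty, Ne, Polynomial.support_eq_empty]
    exact hP0
  have hterm : ∀ i ∈ P.support, ((P.coeff i : ℤ) : L) * x ^ i ≠ 0 := by
    intro i hi
    have : P.coeff i ≠ 0 := Polynomial.mem_support_iff.mp hi
    exact mul_ne_zero (by exact_mod_cast this) (pow_ne_zero _ hx)
  obtain ⟨i, hi, j, hj, hij, hval⟩ :=
    fq_exists_ne_val_eq w P.support (fun i => ((P.coeff i : ℤ) : L) * x ^ i) hsupp hterm hsum
  simp only [map_mul, map_pow] at hval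
  obtain ⟨ei, hei⟩ := fq_val_intCast_eq_pow A hqp hq (Polynomial.mem_support_iff.mp hi)
  obtain ⟨ej, hej⟩ := fq_val_intCast_eq_pow A hqp hq (Polynomial.mem_support_iff.mp hj)
  rw [← hw] at hei hej
  rw [hei, hej] at hval
  -- hval : π^ei * (w x)^i = π^ej * (w x)^j
  have key : ∀ (a b : ℕ) (ea eb : ℕ), a < b →
      w (q : L) ^ ea * w x ^ a = w (q : L) ^ eb * w x ^ b →
      ∃ (k : ℕ) (j : ℤ), 0 < k ∧ w x ^ k = w (q : L) ^ j := by
    intro a b ea eb hab h
    refine ⟨b - a, (ea : ℤ) - (eb : ℤ), Nat.sub_pos_of_lt hab, ?_⟩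
    have hb : w x ^ b = w x ^ a * w x ^ (b - a) := by
      rw [← pow_add]
      congr 1
      omega
    rw [hb] at h
    have hxa : w x ^ a ≠ 0 := pow_ne_zero _ hwx0
    have hπb : w (q : L) ^ eb ≠ 0 := pow_ne_zero _ hπ0
    rw [zpow_sub₀ hπ0, zpow_natCast, zpow_natCast, eq_div_iff hπb]
    have h' : w (q : L) ^ ea * w x ^ a = (w x ^ (b - a) * w (q : L) ^ eb) * w x ^ a := by
      rw [h]; ac_rfl
    exact (mul_right_cancel₀ hxa h').symm
  rcases lt_or_gt_of_ne hij with hlt | hgt
  · exact key i j ei ej hlt hval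
  · exact key j i ej ei hgt hval.symm

end Mult

end Fermat.Agent.Lib.Frey
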