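/-
S05: the `ℚ`-valued additive valuation attached to a valuation subring `A` of an algebraic
extension `L` of `ℚ` lying over a prime `q`, normalised by `ord q = 1`.
-/
import Mathlib
import Fermat.Agent.Lib.Frey.FqOrdExists

set_option autoImplicit false

namespace Fermat.Agent.Lib.Frey

open ValuationSubring

section Abstract

variable {Γ : Type*} [LinearOrderedCommGroupWithZero Γ]

/-- `g` has order `r ∈ ℚ` with respect to `π`: `g^k = π^j` with `r = j / k`. -/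
def fq_IsOrd (π g : Γ) (r : ℚ) : Prop :=
  ∃ (k : ℕ) (j : ℤ), 0 < k ∧ g ^ k = π ^ j ∧ r = (j : ℚ) / (k : ℚ)

variable {π : Γ}

theorem fq_isOrd_one (π : Γ) : fq_IsOrd π 1 0 := ⟨1, 0, one_pos, by simp, by simp⟩

theorem fq_isOrd_self (π : Γ) : fq_IsOrd π π 1 := ⟨1, 1, one_pos, by simp, by simp⟩

theorem fq_pow_pow_eq (_hπ0 : π ≠ 0) {g : Γ} {k k' : ℕ} {j : ℤ} (h : g ^ k = π ^ j) :
    g ^ (k * k') = π ^ (j * (k' : ℤ)) := by
  rw [pow_mul, h, zpow_mul, zpow_natCast]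

theorem fq_isOrd_unique (hπ0 : 0 < π) (hπ1 : π < 1) {g : Γ} {r r' : ℚ}
    (h : fq_IsOrd π g r) (h' : fq_IsOrd π g r') : r = r' := by
  obtain ⟨k, j, hk, hg, rfl⟩ := h
  obtain ⟨k', j', hk', hg', rfl⟩ := h'
  have e1 : g ^ (k * k') = π ^ (j * (k' : ℤ)) := fq_pow_pow_eq hπ0.ne' hg
  have e2 : g ^ (k * k') = π ^ (j' * (k : ℤ)) := by
    rw [mul_comm k k']
    exact fq_pow_pow_eq hπ0.ne' hg'
  have e3 : j * (k' : ℤ) = j' * (k : ℤ) :=
    (zpow_right_inj₀ hπ0 hπ1.ne).mp (e1.symm.trans e2)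
  have hkq : (k : ℚ) ≠ 0 := by exact_mod_cast hk.ne'
  have hkq' : (k' : ℚ) ≠ 0 := by exact_mod_cast hk'.ne'
  rw [div_eq_div_iff hkq hkq']
  exact_mod_cast e3

theorem fq_isOrd_mul (hπ0 : π ≠ 0) {g h : Γ} {r s : ℚ}
    (hg : fq_IsOrd π g r) (hh : fq_IsOrd π h s) : fq_IsOrd π (g * h) (r + s) := by
  obtain ⟨k, j, hk, hgk, rfl⟩ := hg
  obtain ⟨k', j', hk', hhk, rfl⟩ := hh
  refine ⟨k * k', j * k' + j' * k, Nat.mul_pos hk hk', ?_, ?_⟩
  · rw [mul_pow, fq_pow_pow_eq hπ0 hgk, mul_comm k k', fq_pow_pow_eq hπ0 hhk, ← zpow_add₀ hπ0]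
  · have hkq : (k : ℚ) ≠ 0 := by exact_mod_cast hk.ne'
    have hkq' : (k' : ℚ) ≠ 0 := by exact_mod_cast hk'.ne'
    push_cast
    field_simp

theorem fq_isOrd_le_iff (hπ0 : 0 < π) (hπ1 : π < 1) {g h : Γ} {r s : ℚ}
    (hg : fq_IsOrd π g r) (hh : fq_IsOrd π h s) : g ≤ h ↔ s ≤ r := by
  obtain ⟨k, j, hk, hgk, rfl⟩ := hg
  obtain ⟨k', j', hk', hhk, rfl⟩ := hh
  have hkk : k * k' ≠ 0 := (Nat.mul_pos hk hk').ne'
  rw [← pow_le_pow_iff_left₀ (zero_le : (0 : Γ) ≤ g) zero_le hkk,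
    fq_pow_pow_eq hπ0.ne' hgk]
  have : h ^ (k * k') = π ^ (j' * (k : ℤ)) := by
    rw [mul_comm k k']
    exact fq_pow_pow_eq hπ0.ne' hhk
  rw [this, zpow_le_zpow_iff_right_of_lt_one₀ hπ0 hπ1]
  have hkq : (0 : ℚ) < (k : ℚ) := by exact_mod_cast hk
  have hkq' : (0 : ℚ) < (k' : ℚ) := by exact_mod_cast hk'
  rw [div_le_div_iff₀ hkq' hkq]
  exact_mod_cast Iff.rfl

theorem fq_isOrd_lt_iff (hπ0 : 0 < π) (hπ1 : π < 1) {g h : Γ} {r s : ℚ}
    (hg : fq_IsOrd π g r) (hh : fq_IsOrd π h s) : g < h ↔ s < r := by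
  rw [← not_le, ← not_le, fq_isOrd_le_iff hπ0 hπ1 hh hg]

end Abstract

section Val

variable {L : Type*} [Field L] {Γ : Type*} [LinearOrderedCommGroupWithZero Γ]
  (w : Valuation L Γ) (π : Γ) (hex : ∀ x : L, x ≠ 0 → ∃ r : ℚ, fq_IsOrd π (w x) r)

open Classical in
/-- The order function (junk value `⊤` at `0`). -/
noncomputable def fq_ordFun (x : L) : WithTop ℚ :=
  if h : x = 0 then ⊤ else ((Classical.choose (hex x h) : ℚ) : WithTop ℚ)

theorem fq_ordFun_zero : fq_ordFun w π hex 0 = ⊤ := by simp [fq_ordFun]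

variable {w π}

theorem fq_ordFun_eq (hπ0 : 0 < π) (hπ1 : π < 1) {x : L} (hx : x ≠ 0) {r : ℚ}
    (hr : fq_IsOrd π (w x) r) : fq_ordFun w π hex x = (r : WithTop ℚ) := by
  unfold fq_ordFun
  rw [dif_neg hx]
  congr 1
  exact fq_isOrd_unique hπ0 hπ1 (Classical.choose_spec (hex x hx)) hr

theorem fq_ordFun_spec (hπ0 : 0 < π) (hπ1 : π < 1) {x : L} (hx : x ≠ 0) :
    ∃ r : ℚ, fq_IsOrd π (w x) r ∧ fq_ordFun w π hex x = (r : WithTop ℚ) := by
  obtain ⟨r, hr⟩ := hex x hx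
  exact ⟨r, hr, fq_ordFun_eq hex hπ0 hπ1 hx hr⟩

/-- The `ℚ`-valued additive valuation. -/
noncomputable def fq_ordVal (hπ0 : 0 < π) (hπ1 : π < 1) : AddValuation L (WithTop ℚ) :=
  AddValuation.of (fq_ordFun w π hex) (fq_ordFun_zero w π hex)
    (by
      have := fq_ordFun_eq hex hπ0 hπ1 (x := (1 : L)) one_ne_zero (r := 0)
        (by rw [map_one]; exact fq_isOrd_one π)
      simpa using this)
    (by
      intro x y
      by_cases hx : x = 0
      · subst hx; simp [fq_ordFun_zero]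
      by_cases hy : y = 0
      · subst hy; simp [fq_ordFun_zero]
      by_cases hxy : x + y = 0
      · rw [hxy, fq_ordFun_zero]; exact le_top
      obtain ⟨r, hr, er⟩ := fq_ordFun_spec hex hπ0 hπ1 hx
      obtain ⟨s, hs, es⟩ := fq_ordFun_spec hex hπ0 hπ1 hy
      obtain ⟨t, ht, et⟩ := fq_ordFun_spec hex hπ0 hπ1 hxy
      rw [er, es, et]
      have hmax := w.map_add x y
      rcases le_max_iff.mp hmax with h | h
      · have : r ≤ t := (fq_isOrd_le_iff hπ0 hπ1 ht hr).mp h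
        exact le_trans (min_le_left _ _) (by exact_mod_cast this)
      · have : s ≤ t := (fq_isOrd_le_iff hπ0 hπ1 ht hs).mp h
        exact le_trans (min_le_right _ _) (by exact_mod_cast this))
    (by
      intro x y
      by_cases hx : x = 0
      · subst hx; simp [fq_ordFun_zero]
      by_cases hy : y = 0
      · subst hy; simp [fq_ordFun_zero]
      obtain ⟨r, hr, er⟩ := fq_ordFun_spec hex hπ0 hπ1 hx
      obtain ⟨s, hs, es⟩ := fq_ordFun_spec hex hπ0 hπ1 hy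
      have hmul : fq_IsOrd π (w (x * y)) (r + s) := by
        rw [map_mul]; exact fq_isOrd_mul hπ0.ne' hr hs
      rw [er, es, fq_ordFun_eq hex hπ0 hπ1 (mul_ne_zero hx hy) hmul]
      rfl)

theorem fq_ordVal_apply (hπ0 : 0 < π) (hπ1 : π < 1) (x : L) :
    fq_ordVal hex hπ0 hπ1 x = fq_ordFun w π hex x := rfl

theorem fq_ordVal_nonneg_iff (hπ0 : 0 < π) (hπ1 : π < 1) (x : L) :
    0 ≤ fq_ordVal hex hπ0 hπ1 x ↔ w x ≤ 1 := by
  rw [fq_ordVal_apply]
  by_cases hx : x = 0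
  · subst hx; simp [fq_ordFun_zero]
  obtain ⟨r, hr, er⟩ := fq_ordFun_spec hex hπ0 hπ1 hx
  rw [er, fq_isOrd_le_iff hπ0 hπ1 hr (fq_isOrd_one π)]
  exact_mod_cast Iff.rfl

theorem fq_ordVal_pos_iff (hπ0 : 0 < π) (hπ1 : π < 1) (x : L) :
    0 < fq_ordVal hex hπ0 hπ1 x ↔ w x < 1 := by
  rw [fq_ordVal_apply]
  by_cases hx : x = 0
  · subst hx; simp [fq_ordFun_zero]
  obtain ⟨r, hr, er⟩ := fq_ordFun_spec hex hπ0 hπ1 hx
  rw [er, fq_isOrd_lt_iff hπ0 hπ1 hr (fq_isOrd_one π)]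
  exact_mod_cast Iff.rfl

theorem fq_ordVal_of_val_eq (hπ0 : 0 < π) (hπ1 : π < 1) {x y : L} (h : w x = w y) :
    fq_ordVal hex hπ0 hπ1 x = fq_ordVal hex hπ0 hπ1 y := by
  rw [fq_ordVal_apply, fq_ordVal_apply]
  by_cases hx : x = 0
  · have hy : y = 0 := by
      rw [← Valuation.zero_iff w, ← h, Valuation.zero_iff]; exact hx
    rw [hx, hy]
  have hy : y ≠ 0 := by
    intro hy
    apply hx
    rw [← Valuation.zero_iff w, h, Valuation.zero_iff]; exact hy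
  obtain ⟨r, hr, er⟩ := fq_ordFun_spec hex hπ0 hπ1 hx
  rw [er]
  rw [h] at hr
  exact (fq_ordFun_eq hex hπ0 hπ1 hy hr).symm

theorem fq_ordVal_self (hπ0 : 0 < π) (hπ1 : π < 1) {x : L} (hx : w x = π) :
    fq_ordVal hex hπ0 hπ1 x = 1 := by
  rw [fq_ordVal_apply]
  have hx0 : x ≠ 0 := by
    intro h
    rw [h, map_zero] at hx
    exact hπ0.ne hx
  have := fq_ordFun_eq hex hπ0 hπ1 hx0 (r := 1) (by rw [hx]; exact fq_isOrd_self π)
  simpa using this

end Val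

/-! ### The concrete order function of a valuation subring over `q` -/

section Concrete

variable {L : Type*} [Field L] [CharZero L] [Algebra ℚ L] [Algebra.IsAlgebraic ℚ L]
  (A : ValuationSubring L) {q : ℕ} (hqp : q.Prime) (hq : (q : L) ∈ A.nonunits)

include hqp hq in
theorem fq_ord_exists (x : L) (hx : x ≠ 0) :
    ∃ r : ℚ, fq_IsOrd (A.valuation (q : L)) (A.valuation x) r := by
  obtain ⟨k, j, hk, h⟩ := fq_exists_pow_eq_zpow A hqp hq hx (Algebra.IsAlgebraic.isAlgebraic x)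
  exact ⟨_, k, j, hk, h, rfl⟩

omit [Algebra ℚ L] [Algebra.IsAlgebraic ℚ L] in
include hqp in
theorem fq_val_q_pos : 0 < A.valuation (q : L) := by
  rw [zero_lt_iff, Valuation.ne_zero_iff]
  exact_mod_cast hqp.ne_zero

omit [CharZero L] [Algebra ℚ L] [Algebra.IsAlgebraic ℚ L] in
include hq in
theorem fq_val_q_lt_one : A.valuation (q : L) < 1 := (mem_nonunits_iff (A := A)).mp hq

/-- The `ℚ`-valued additive valuation of `A`, normalised by `ord q = 1`. -/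
noncomputable def fq_ord : AddValuation L (WithTop ℚ) :=
  fq_ordVal (fq_ord_exists A hqp hq) (fq_val_q_pos A hqp) (fq_val_q_lt_one A hq)

theorem fq_ord_nonneg_iff (x : L) : 0 ≤ fq_ord A hqp hq x ↔ x ∈ A := by
  unfold fq_ord
  rw [fq_ordVal_nonneg_iff, A.valuation_le_one_iff]

theorem fq_ord_pos_iff (x : L) : 0 < fq_ord A hqp hq x ↔ x ∈ A.nonunits := by
  unfold fq_ord
  rw [fq_ordVal_pos_iff, ValuationSubring.mem_nonunits_iff]

theorem fq_ord_q : fq_ord A hqp hq (q : L) = 1 :=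
  fq_ordVal_self _ _ _ rfl

theorem fq_ord_int_nonneg (z : ℤ) : 0 ≤ fq_ord A hqp hq (z : L) :=
  (fq_ord_nonneg_iff A hqp hq _).mpr (intCast_mem A z)

theorem fq_ord_q_pos : 0 < fq_ord A hqp hq (q : L) := by
  rw [fq_ord_q]; exact zero_lt_one

/-- Invariance under a ring automorphism preserving the valuation. -/
theorem fq_ord_map (σ : L ≃+* L) (hσ : ∀ x, A.valuation (σ x) = A.valuation x) (x : L) :
    fq_ord A hqp hq (σ x) = fq_ord A hqp hq x :=
  fq_ordVal_of_val_eq _ _ _ (hσ x)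

end Concrete

end Fermat.Agent.Lib.Frey
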