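/-
S05: the interface statement `fq_IfaceOrd`: every valuation subring `A` of `ℚ̄` lying over a prime
`q` carries a `ℚ`-valued additive valuation with `0 ≤ v x ↔ x ∈ A`, `0 < v x ↔ x ∈ A.nonunits`,
invariant under every automorphism stabilising `A`.
-/
import Fermat.Agent.Lib.Frey.FqOrd
import Fermat.Agent.Lib.Frey.FqMain

set_option autoImplicit false

namespace Fermat.Agent.Lib.Frey

open ValuationSubring
open scoped Pointwise

section Stab

variable {L : Type*} [Field L] [Algebra ℚ L] (A : ValuationSubring L)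

/-- An automorphism stabilising `A` maps units of `A` to units of `A`. -/
theorem fq_val_eq_one_of_stab (σ : L ≃ₐ[ℚ] L) (hσ : σ • A = A) {y : L}
    (hy : A.valuation y = 1) : A.valuation (σ y) = 1 := by
  have hmem : ∀ z : L, z ∈ A → σ z ∈ A := by
    intro z hz
    have := ValuationSubring.smul_mem_pointwise_smul σ z A hz
    rw [hσ] at this
    exact this
  have hy0 : y ≠ 0 := by
    intro h
    rw [h, map_zero] at hy
    exact zero_ne_one hy
  have h1 : y ∈ A := (A.valuation_le_one_iff y).mp hy.le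
  have h2 : y⁻¹ ∈ A := by
    apply (A.valuation_le_one_iff _).mp
    rw [map_inv₀, hy, inv_one]
  have h3 : A.valuation (σ y) ≤ 1 := (A.valuation_le_one_iff _).mpr (hmem y h1)
  have h4 : A.valuation (σ y)⁻¹ ≤ 1 := by
    have := (A.valuation_le_one_iff _).mpr (hmem _ h2)
    rwa [map_inv₀] at this
  have hσy0 : A.valuation (σ y) ≠ 0 := by
    rw [Valuation.ne_zero_iff]
    exact (map_ne_zero_iff σ σ.injective).mpr hy0
  rw [map_inv₀] at h4
  have h5 : 1 ≤ A.valuation (σ y) := by
    rwa [inv_le_one₀ (zero_lt_iff.mpr hσy0)] at h4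
  exact le_antisymm h3 h5

end Stab

section Concrete

variable {L : Type*} [Field L] [CharZero L] [Algebra ℚ L] [Algebra.IsAlgebraic ℚ L]
  (A : ValuationSubring L) {q : ℕ} (hqp : q.Prime) (hq : (q : L) ∈ A.nonunits)

/-- Invariance of `fq_ord` under automorphisms stabilising `A`. -/
theorem fq_ord_stab (σ : L ≃ₐ[ℚ] L) (hσ : σ • A = A) (x : L) :
    fq_ord A hqp hq (σ x) = fq_ord A hqp hq x := by
  apply fq_ord_map A hqp hq (σ : L ≃+* L)
  intro x
  show A.valuation (σ x) = A.valuation x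
  by_cases hx : x = 0
  · rw [hx, map_zero]
  obtain ⟨k, j, hk, hkj⟩ :=
    fq_exists_pow_eq_zpow A hqp hq hx (Algebra.IsAlgebraic.isAlgebraic x)
  have hπ0 : A.valuation (q : L) ≠ 0 := (fq_val_q_pos A hqp).ne'
  have hq0 : (q : L) ≠ 0 := by exact_mod_cast hqp.ne_zero
  -- the unit `y = x^k q^(-j)`
  have hy : A.valuation (x ^ k * (q : L) ^ (-j)) = 1 := by
    rw [map_mul, map_pow, map_zpow₀, hkj, ← zpow_add₀ hπ0, add_neg_cancel, zpow_zero]
  have hσy := fq_val_eq_one_of_stab A σ hσ hy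
  have hσq : σ (q : L) = (q : L) := map_natCast σ q
  rw [map_mul, map_pow, map_zpow₀, hσq, map_mul, map_pow, map_zpow₀, zpow_neg,
    mul_inv_eq_one₀ (zpow_ne_zero _ hπ0)] at hσy
  -- `v(σ x)^k = v(x)^k`
  have hpow : A.valuation (σ x) ^ k = A.valuation x ^ k := by rw [hσy, hkj]
  exact (pow_left_inj₀ zero_le zero_le hk.ne').mp hpow

end Concrete

/-- The interface statement for the assembly. -/
theorem fq_ifaceOrd : fq_IfaceOrd := by
  intro A q hqp hq
  have : Algebra.IsAlgebraic ℚ (AlgebraicClosure ℚ) := AlgebraicClosure.isAlgebraic ℚ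
  refine ⟨fq_ord A hqp hq, fq_ord_nonneg_iff A hqp hq, fq_ord_pos_iff A hqp hq, ?_⟩
  intro σ hσ a
  exact fq_ord_stab A hqp hq σ hσ a

end Fermat.Agent.Lib.Frey
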