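/-
S05, Layer 0 (pure valued-field algebra): three collinear points near the node.

For the Legendre-type model `Y² = X (X − δ) (X − ε)` (`v δ = m > 0`, `v ε = 0`, `v 2 = 0`,
`γ² = −ε`) a line `Y = μ X + ν` meets the curve in three points whose `X`-coordinates satisfy
`X₁ + X₂ + X₃ = μ² + δ + ε`, `X₁X₂ + X₁X₃ + X₂X₃ = δ ε − 2 μ ν`, `X₁X₂X₃ = ν²`.
Main result `fl_level_sum_node`: if all three points reduce to the node (`0 < v X_i`), their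
levels (see `fl_HasLevel`) add up to an integer multiple of `2m`.
-/
import Fermat.Agent.Lib.Frey.Defs

namespace Fermat.Agent.Lib.Frey

variable {K : Type*} [Field K] (v : AddValuation K (WithTop ℚ))

lemma fl_exists_rat {x : K} (hx : x ≠ 0) : ∃ s : ℚ, v x = (s : WithTop ℚ) := by
  have h : v x ≠ ⊤ := (AddValuation.ne_top_iff v).mpr hx
  exact ⟨(v x).untop h, (WithTop.coe_untop _ h).symm⟩

lemma fl_ne_zero_of_val {x : K} {s : ℚ} (h : v x = (s : WithTop ℚ)) : x ≠ 0 := by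
  rintro rfl
  rw [AddValuation.map_zero] at h
  exact WithTop.top_ne_coe h

lemma fl_ne_zero_of_val_zero {x : K} (h : v x = 0) : x ≠ 0 :=
  fl_ne_zero_of_val v (s := 0) (by rw [h]; rfl)

lemma fl_val_two_mul {x : K} (h2 : v 2 = 0) : v (2 * x) = v x := by
  rw [AddValuation.map_mul, h2, zero_add]

lemma fl_val_gamma {ε γ : K} (hε : v ε = 0) (hγ : γ ^ 2 = -ε) : v γ = 0 := by
  have hε0 : ε ≠ 0 := fl_ne_zero_of_val_zero v hε
  have hγ0 : γ ≠ 0 := by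
    rintro rfl
    apply hε0
    have : (0 : K) ^ 2 = -ε := hγ
    simpa using this.symm
  have h : v (γ ^ 2) = 0 := by rw [hγ, AddValuation.map_neg, hε]
  rw [AddValuation.map_pow] at h
  obtain ⟨s, hs⟩ := fl_exists_rat v hγ0
  rw [hs] at h ⊢
  have h0 : 2 • s = (0 : ℚ) := by exact_mod_cast h
  have : s = 0 := by
    simpa using h0
  rw [this]; rfl

lemma fl_val_mu {γ μ : K} (hγ0 : v γ = 0) (hμ : 0 < v (μ - γ)) : v μ = 0 := by
  have h : μ = (μ - γ) + γ := by ring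
  rw [h, AddValuation.map_add_eq_of_lt_right v (by rw [hγ0]; exact hμ), hγ0]

lemma fl_val_mu_add {γ μ : K} (hγ0 : v γ = 0) (h2 : v 2 = 0) (hμ : 0 < v (μ - γ)) :
    v (μ + γ) = 0 := by
  have h : μ + γ = (μ - γ) + 2 * γ := by ring
  have h2γ : v (2 * γ) = 0 := by rw [fl_val_two_mul v h2, hγ0]
  rw [h, AddValuation.map_add_eq_of_lt_right v (by rw [h2γ]; exact hμ), h2γ]

/-- Type of a point near the node lying on a line `Y = μ X + ν` with `μ ≡ γ`. -/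
lemma fl_node_type {γ μ ν X : K} {m t : ℚ} (hγ0 : v γ = 0) (h2 : v 2 = 0)
    (hμ : 0 < v (μ - γ)) (hX : 0 < v X) (hl : fl_HasLevel v γ m X (μ * X + ν) t) :
    (∃ s : ℚ, v X = s ∧ 0 < s ∧ s < m ∧ (s : WithTop ℚ) < v ν ∧ t = s) ∨
    (∃ s : ℚ, v X = s ∧ 0 < s ∧ s < m ∧ v ν = s ∧ t = -s) ∨
    ((m : WithTop ℚ) ≤ v X ∧ t = m) := by
  rcases hl with ⟨h, -⟩ | ⟨s, hs, hs0, hsm, hlt, ht⟩ | ⟨s, hs, hs0, hsm, hlt, ht⟩ | h
  · exact absurd hX (not_lt.mpr h)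
  · refine Or.inl ⟨s, hs, hs0, hsm, ?_, ht⟩
    have h1 : (s : WithTop ℚ) < v ((μ - γ) * X) := by
      rw [AddValuation.map_mul, hs]
      calc (s : WithTop ℚ) = 0 + s := (zero_add _).symm
        _ < v (μ - γ) + s := WithTop.add_lt_add_right (WithTop.coe_ne_top) hμ
    have h3 : ν = (μ * X + ν - γ * X) - (μ - γ) * X := by ring
    rw [h3]
    exact lt_of_lt_of_le (lt_min hlt h1) (AddValuation.map_sub v _ _)
  · refine Or.inr (Or.inl ⟨s, hs, hs0, hsm, ?_, ht⟩)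
    have h1 : v ((μ + γ) * X) = s := by
      rw [AddValuation.map_mul, hs, fl_val_mu_add v hγ0 h2 hμ, zero_add]
    have h3 : ν = (μ * X + ν + γ * X) - (μ + γ) * X := by ring
    rw [h3, AddValuation.map_sub_eq_of_lt_right v (by rw [h1]; exact hlt), h1]
  · exact Or.inr (Or.inr h)

/-- pure arithmetic: the case "two points on the `+` branch, one at level `m`". -/
lemma fl_bbc_arith {xi xj xk w m : ℚ} (hS : xi + xj + xk = 2 * w)
    (hi0 : 0 < xi) (hi : xi < w) (hj0 : 0 < xj) (hj : xj < w) (hk : m ≤ xk)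
    (F1 : xi < w ∧ xj < w ∧ xk < w → m = w)
    (F2 : xi < xk ∧ xj < xk ∧ xi + xj < w → m = xi + xj)
    (F3 : xi < xk ∧ xj < xk ∧ xi + xj = w → w ≤ m) :
    xi + xj + m = 2 * m := by
  rcases lt_trichotomy xk w with h | h | h
  · have := F1 ⟨hi, hj, h⟩
    linarith
  · have := F3 ⟨by linarith, by linarith, by linarith⟩
    linarith
  · have := F2 ⟨by linarith, by linarith, by linarith⟩
    linarith

lemma fl_add3_lt {a b c : K} {g : WithTop ℚ} (ha : g < v a) (hb : g < v b) (hc : g < v c) :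
    g < v (a + b + c) :=
  AddValuation.map_lt_add v (AddValuation.map_lt_add v ha hb) hc

lemma fl_add3_eq {a b c : K} (hb : v a < v b) (hc : v a < v c) : v (a + b + c) = v a := by
  rw [AddValuation.map_add_eq_of_lt_left v (x := a + b) (y := c),
    AddValuation.map_add_eq_of_lt_left v hb]
  rw [AddValuation.map_add_eq_of_lt_left v hb]
  exact hc

/-- The rational facts extracted from `e₂` and `e₃` when `ν ≠ 0`. -/
lemma fl_node_facts {δ ε μ ν X₁ X₂ X₃ : K} {m x₁ x₂ x₃ w : ℚ}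
    (hδε : v (δ * ε) = (m : WithTop ℚ)) (h2 : v 2 = 0) (hμ0 : v μ = 0)
    (e2 : X₁ * X₂ + X₁ * X₃ + X₂ * X₃ = δ * ε - 2 * μ * ν) (e3 : X₁ * X₂ * X₃ = ν ^ 2)
    (h₁ : v X₁ = (x₁ : WithTop ℚ)) (h₂ : v X₂ = (x₂ : WithTop ℚ)) (h₃ : v X₃ = (x₃ : WithTop ℚ))
    (hw : v ν = (w : WithTop ℚ)) :
    x₁ + x₂ + x₃ = 2 * w ∧
    (x₁ < w ∧ x₂ < w ∧ x₃ < w → m = w) ∧
    (x₁ < x₃ ∧ x₂ < x₃ ∧ x₁ + x₂ < w → m = x₁ + x₂) ∧
    (x₁ < x₃ ∧ x₂ < x₃ ∧ x₁ + x₂ = w → w ≤ m) ∧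
    (m < x₁ + x₂ ∧ m < x₁ + x₃ ∧ m < x₂ + x₃ → w = m) := by
  have hS : x₁ + x₂ + x₃ = 2 * w := by
    have h := congrArg v e3
    rw [AddValuation.map_mul, AddValuation.map_mul, AddValuation.map_pow, h₁, h₂, h₃, hw] at h
    have h' : ((x₁ + x₂ + x₃ : ℚ) : WithTop ℚ) = ((2 • w : ℚ) : WithTop ℚ) := by
      have e : ((2 • w : ℚ) : WithTop ℚ) = 2 • (w : WithTop ℚ) := by norm_cast
      rw [e, ← h]; norm_cast
    have := WithTop.coe_injective h'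
    rw [this]; simp
  have h12 : v (X₁ * X₂) = ((x₁ + x₂ : ℚ) : WithTop ℚ) := by
    rw [AddValuation.map_mul, h₁, h₂]; rfl
  have h13 : v (X₁ * X₃) = ((x₁ + x₃ : ℚ) : WithTop ℚ) := by
    rw [AddValuation.map_mul, h₁, h₃]; rfl
  have h23 : v (X₂ * X₃) = ((x₂ + x₃ : ℚ) : WithTop ℚ) := by
    rw [AddValuation.map_mul, h₂, h₃]; rfl
  have hb : v (2 * μ * ν) = (w : WithTop ℚ) := by
    rw [AddValuation.map_mul, AddValuation.map_mul, h2, hμ0, hw, zero_add, zero_add]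
  have e2' : (X₁ * X₂ + X₁ * X₃ + X₂ * X₃) + 2 * μ * ν = δ * ε := by rw [e2]; ring
  refine ⟨hS, ?_, ?_, ?_, ?_⟩
  · rintro ⟨ha, hb', hc⟩
    have hlt : (w : WithTop ℚ) < v (X₁ * X₂ + X₁ * X₃ + X₂ * X₃) := by
      apply fl_add3_lt
      · rw [h12]; exact_mod_cast (by linarith : w < x₁ + x₂)
      · rw [h13]; exact_mod_cast (by linarith : w < x₁ + x₃)
      · rw [h23]; exact_mod_cast (by linarith : w < x₂ + x₃)
    have h := AddValuation.map_add_eq_of_lt_right v (x := X₁ * X₂ + X₁ * X₃ + X₂ * X₃)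
      (y := 2 * μ * ν) (by rw [hb]; exact hlt)
    rw [e2', hδε, hb] at h
    exact_mod_cast h
  · rintro ⟨ha, hb', hc⟩
    have hval : v (X₁ * X₂ + X₁ * X₃ + X₂ * X₃) = ((x₁ + x₂ : ℚ) : WithTop ℚ) := by
      rw [fl_add3_eq v, h12]
      · rw [h12, h13]; exact_mod_cast (by linarith : x₁ + x₂ < x₁ + x₃)
      · rw [h12, h23]; exact_mod_cast (by linarith : x₁ + x₂ < x₂ + x₃)
    have h := AddValuation.map_add_eq_of_lt_left v (x := X₁ * X₂ + X₁ * X₃ + X₂ * X₃)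
      (y := 2 * μ * ν) (by rw [hb, hval]; exact_mod_cast hc)
    rw [e2', hδε, hval] at h
    exact_mod_cast h
  · rintro ⟨ha, hb', hc⟩
    have hval : v (X₁ * X₂ + X₁ * X₃ + X₂ * X₃) = ((x₁ + x₂ : ℚ) : WithTop ℚ) := by
      rw [fl_add3_eq v, h12]
      · rw [h12, h13]; exact_mod_cast (by linarith : x₁ + x₂ < x₁ + x₃)
      · rw [h12, h23]; exact_mod_cast (by linarith : x₁ + x₂ < x₂ + x₃)
    have h := AddValuation.map_add v (X₁ * X₂ + X₁ * X₃ + X₂ * X₃) (2 * μ * ν)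
    rw [e2', hδε, hval, hb, hc, min_self] at h
    exact_mod_cast h
  · rintro ⟨ha, hb', hc⟩
    have hlt : (m : WithTop ℚ) < v (X₁ * X₂ + X₁ * X₃ + X₂ * X₃) := by
      apply fl_add3_lt
      · rw [h12]; exact_mod_cast ha
      · rw [h13]; exact_mod_cast hb'
      · rw [h23]; exact_mod_cast hc
    have e2'' : 2 * μ * ν = δ * ε - (X₁ * X₂ + X₁ * X₃ + X₂ * X₃) := by rw [e2]; ring
    have h := AddValuation.map_sub_eq_of_lt_left v (x := δ * ε)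
      (y := X₁ * X₂ + X₁ * X₃ + X₂ * X₃) (by rw [hδε]; exact hlt)
    rw [← e2'', hb, hδε] at h
    exact_mod_cast h

/-- The case `ν = 0`, `X₃ = 0` (the line passes through the 2-torsion point `(0,0)`). -/
lemma fl_node_zero {δ ε ν X₁ X₂ : K} {m t₁ t₂ t₃ : ℚ}
    (hδε : v (δ * ε) = (m : WithTop ℚ)) (hν : ν = 0)
    (e2 : X₁ * X₂ = δ * ε)
    (T₁ : (∃ s : ℚ, v X₁ = s ∧ 0 < s ∧ s < m ∧ (s : WithTop ℚ) < v ν ∧ t₁ = s) ∨
      (∃ s : ℚ, v X₁ = s ∧ 0 < s ∧ s < m ∧ v ν = s ∧ t₁ = -s) ∨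
      ((m : WithTop ℚ) ≤ v X₁ ∧ t₁ = m))
    (T₂ : (∃ s : ℚ, v X₂ = s ∧ 0 < s ∧ s < m ∧ (s : WithTop ℚ) < v ν ∧ t₂ = s) ∨
      (∃ s : ℚ, v X₂ = s ∧ 0 < s ∧ s < m ∧ v ν = s ∧ t₂ = -s) ∨
      ((m : WithTop ℚ) ≤ v X₂ ∧ t₂ = m))
    (T₃ : (∃ s : ℚ, v (0 : K) = s ∧ 0 < s ∧ s < m ∧ (s : WithTop ℚ) < v ν ∧ t₃ = s) ∨
      (∃ s : ℚ, v (0 : K) = s ∧ 0 < s ∧ s < m ∧ v ν = s ∧ t₃ = -s) ∨
      ((m : WithTop ℚ) ≤ v (0 : K) ∧ t₃ = m))
    (h₁ : 0 < v X₁) (h₂ : 0 < v X₂) :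
    t₁ + t₂ + t₃ = 2 * m := by
  have hνtop : v ν = ⊤ := by rw [hν, AddValuation.map_zero]
  have ht₃ : t₃ = m := by
    rcases T₃ with ⟨s, hs, -⟩ | ⟨s, hs, -⟩ | ⟨-, h⟩
    · rw [AddValuation.map_zero] at hs; exact absurd hs WithTop.top_ne_coe
    · rw [AddValuation.map_zero] at hs; exact absurd hs WithTop.top_ne_coe
    · exact h
  have hprod : X₁ * X₂ ≠ 0 := by
    rw [e2]; exact fl_ne_zero_of_val v hδε
  have hX₁ : X₁ ≠ 0 := left_ne_zero_of_mul hprod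
  have hX₂ : X₂ ≠ 0 := right_ne_zero_of_mul hprod
  obtain ⟨x₁, hx₁⟩ := fl_exists_rat v hX₁
  obtain ⟨x₂, hx₂⟩ := fl_exists_rat v hX₂
  have hsum : x₁ + x₂ = m := by
    have h := congrArg v e2
    rw [AddValuation.map_mul, hx₁, hx₂, hδε] at h
    exact_mod_cast h
  have hx₁0 : 0 < x₁ := by rw [hx₁] at h₁; exact_mod_cast h₁
  have hx₂0 : 0 < x₂ := by rw [hx₂] at h₂; exact_mod_cast h₂
  have ht₁ : t₁ = x₁ := by
    rcases T₁ with ⟨s, hs, -, -, -, ht⟩ | ⟨s, -, -, -, hs, -⟩ | ⟨h, -⟩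
    · rw [hx₁] at hs
      have : x₁ = s := by exact_mod_cast hs
      rw [ht, this]
    · rw [hνtop] at hs; exact absurd hs WithTop.top_ne_coe
    · rw [hx₁] at h
      have : m ≤ x₁ := by exact_mod_cast h
      linarith
  have ht₂ : t₂ = x₂ := by
    rcases T₂ with ⟨s, hs, -, -, -, ht⟩ | ⟨s, -, -, -, hs, -⟩ | ⟨h, -⟩
    · rw [hx₂] at hs
      have : x₂ = s := by exact_mod_cast hs
      rw [ht, this]
    · rw [hνtop] at hs; exact absurd hs WithTop.top_ne_coe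
    · rw [hx₂] at h
      have : m ≤ x₂ := by exact_mod_cast h
      linarith
  rw [ht₁, ht₂, ht₃]; linarith

/-- rational form of the type datum -/
lemma fl_node_type_rat {m t x w : ℚ} {X ν : K} (hx : v X = (x : WithTop ℚ))
    (hw : v ν = (w : WithTop ℚ))
    (T : (∃ s : ℚ, v X = s ∧ 0 < s ∧ s < m ∧ (s : WithTop ℚ) < v ν ∧ t = s) ∨
      (∃ s : ℚ, v X = s ∧ 0 < s ∧ s < m ∧ v ν = s ∧ t = -s) ∨
      ((m : WithTop ℚ) ≤ v X ∧ t = m)) :
    (0 < x ∧ x < m ∧ x < w ∧ t = x) ∨ (0 < x ∧ x < m ∧ w = x ∧ t = -x) ∨ (m ≤ x ∧ t = m) := by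
  rcases T with ⟨s, hs, h0, hm, hlt, ht⟩ | ⟨s, hs, h0, hm, hlt, ht⟩ | ⟨h, ht⟩
  · rw [hx] at hs
    have e : x = s := by exact_mod_cast hs
    subst e
    rw [hw] at hlt
    exact Or.inl ⟨h0, hm, by exact_mod_cast hlt, ht⟩
  · rw [hx] at hs
    have e : x = s := by exact_mod_cast hs
    subst e
    rw [hw] at hlt
    exact Or.inr (Or.inl ⟨h0, hm, by exact_mod_cast hlt, ht⟩)
  · rw [hx] at h
    exact Or.inr (Or.inr ⟨by exact_mod_cast h, ht⟩)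

theorem fl_level_sum_node_aux {δ ε γ μ ν X₁ X₂ X₃ : K} {m t₁ t₂ t₃ : ℚ}
    (hm : 0 < m) (hδ : v δ = (m : WithTop ℚ)) (hε : v ε = 0) (h2 : v 2 = 0)
    (hγ : γ ^ 2 = -ε) (hμ : 0 < v (μ - γ))
    (e2 : X₁ * X₂ + X₁ * X₃ + X₂ * X₃ = δ * ε - 2 * μ * ν) (e3 : X₁ * X₂ * X₃ = ν ^ 2)
    (hl₁ : fl_HasLevel v γ m X₁ (μ * X₁ + ν) t₁) (hl₂ : fl_HasLevel v γ m X₂ (μ * X₂ + ν) t₂)
    (hl₃ : fl_HasLevel v γ m X₃ (μ * X₃ + ν) t₃)
    (h₁ : 0 < v X₁) (h₂ : 0 < v X₂) (h₃ : 0 < v X₃) :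
    ∃ k : ℤ, t₁ + t₂ + t₃ = k * (2 * m) := by
  have hγ0 := fl_val_gamma v hε hγ
  have hμ0 := fl_val_mu v hγ0 hμ
  have hδε : v (δ * ε) = (m : WithTop ℚ) := by rw [AddValuation.map_mul, hδ, hε, add_zero]
  have T₁ := fl_node_type v hγ0 h2 hμ h₁ hl₁
  have T₂ := fl_node_type v hγ0 h2 hμ h₂ hl₂
  have T₃ := fl_node_type v hγ0 h2 hμ h₃ hl₃
  by_cases hν : ν = 0
  · -- some `X_i` vanishes
    have h0 : X₁ * X₂ * X₃ = 0 := by rw [e3, hν]; ring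
    rcases mul_eq_zero.mp h0 with h0' | h0'
    · rcases mul_eq_zero.mp h0' with h0'' | h0''
      · subst h0''
        refine ⟨1, ?_⟩
        have := fl_node_zero v hδε hν (X₁ := X₂) (X₂ := X₃) (by rw [hν] at e2; linear_combination e2)
          T₂ T₃ T₁ h₂ h₃
        push_cast; linarith
      · subst h0''
        refine ⟨1, ?_⟩
        have := fl_node_zero v hδε hν (X₁ := X₁) (X₂ := X₃) (by rw [hν] at e2; linear_combination e2)
          T₁ T₃ T₂ h₁ h₃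
        push_cast; linarith
    · subst h0'
      refine ⟨1, ?_⟩
      have := fl_node_zero v hδε hν (X₁ := X₁) (X₂ := X₂) (by rw [hν] at e2; linear_combination e2)
        T₁ T₂ T₃ h₁ h₂
      push_cast; linarith
  · have hprod : X₁ * X₂ * X₃ ≠ 0 := by rw [e3]; exact pow_ne_zero 2 hν
    have hX₃ : X₃ ≠ 0 := right_ne_zero_of_mul hprod
    have hX₁ : X₁ ≠ 0 := left_ne_zero_of_mul (left_ne_zero_of_mul hprod)
    have hX₂ : X₂ ≠ 0 := right_ne_zero_of_mul (left_ne_zero_of_mul hprod)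
    obtain ⟨x₁, hx₁⟩ := fl_exists_rat v hX₁
    obtain ⟨x₂, hx₂⟩ := fl_exists_rat v hX₂
    obtain ⟨x₃, hx₃⟩ := fl_exists_rat v hX₃
    obtain ⟨w, hw⟩ := fl_exists_rat v hν
    obtain ⟨hS, F1, F2c, F3c, F4⟩ := fl_node_facts v hδε h2 hμ0 e2 e3 hx₁ hx₂ hx₃ hw
    obtain ⟨-, -, F2b, F3b, -⟩ := fl_node_facts v hδε h2 hμ0 (X₁ := X₁) (X₂ := X₃) (X₃ := X₂)
      (by linear_combination e2) (by linear_combination e3) hx₁ hx₃ hx₂ hw
    obtain ⟨-, -, F2a, F3a, -⟩ := fl_node_facts v hδε h2 hμ0 (X₁ := X₂) (X₂ := X₃) (X₃ := X₁)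
      (by linear_combination e2) (by linear_combination e3) hx₂ hx₃ hx₁ hw
    have R₁ := fl_node_type_rat v hx₁ hw T₁
    have R₂ := fl_node_type_rat v hx₂ hw T₂
    have R₃ := fl_node_type_rat v hx₃ hw T₃
    rcases R₁ with ⟨a0, am, aw, at'⟩ | ⟨a0, am, aw, at'⟩ | ⟨am, at'⟩ <;>
    rcases R₂ with ⟨b0, bm, bw, bt⟩ | ⟨b0, bm, bw, bt⟩ | ⟨bm, bt⟩ <;>
    rcases R₃ with ⟨c0, cm, cw, ct⟩ | ⟨c0, cm, cw, ct⟩ | ⟨cm, ct⟩
    -- BBB
    · have := F1 ⟨aw, bw, cw⟩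
      exact ⟨1, by push_cast; linarith⟩
    -- BBM
    · exact ⟨0, by push_cast; linarith⟩
    -- BBC
    · have := fl_bbc_arith hS a0 aw b0 bw cm F1 F2c F3c
      exact ⟨1, by push_cast; linarith⟩
    -- BMB
    · exact ⟨0, by push_cast; linarith⟩
    -- BMM
    · exfalso; linarith
    -- BMC
    · exfalso; linarith
    -- BCB
    · have := fl_bbc_arith (xi := x₁) (xj := x₃) (xk := x₂) (by linarith) a0 aw c0 cw bm
        (fun h => F1 ⟨h.1, h.2.2, h.2.1⟩) F2b F3b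
      exact ⟨1, by push_cast; linarith⟩
    -- BCM
    · exfalso; linarith
    -- BCC
    · exfalso
      have := F4 ⟨by linarith, by linarith, by linarith⟩
      linarith
    -- MBB
    · exact ⟨0, by push_cast; linarith⟩
    -- MBM
    · exfalso; linarith
    -- MBC
    · exfalso; linarith
    -- MMB
    · exfalso; linarith
    -- MMM
    · exfalso; linarith
    -- MMC
    · exfalso; linarith
    -- MCB
    · exfalso; linarith
    -- MCM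
    · exfalso; linarith
    -- MCC
    · exfalso; linarith
    -- CBB
    · have := fl_bbc_arith (xi := x₂) (xj := x₃) (xk := x₁) (by linarith) b0 bw c0 cw am
        (fun h => F1 ⟨h.2.2, h.1, h.2.1⟩) F2a F3a
      exact ⟨1, by push_cast; linarith⟩
    -- CBM
    · exfalso; linarith
    -- CBC
    · exfalso
      have := F4 ⟨by linarith, by linarith, by linarith⟩
      linarith
    -- CMB
    · exfalso; linarith
    -- CMM
    · exfalso; linarith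
    -- CMC
    · exfalso; linarith
    -- CCB
    · exfalso
      have := F4 ⟨by linarith, by linarith, by linarith⟩
      linarith
    -- CCM
    · exfalso; linarith
    -- CCC
    · exfalso
      have := F4 ⟨by linarith, by linarith, by linarith⟩
      linarith

/-- Replacing `γ` by `-γ` negates the level (modulo `2m`). -/
lemma fl_hasLevel_neg_gamma {γ X Y : K} {m t : ℚ} (hl : fl_HasLevel v γ m X Y t) :
    ∃ t' : ℚ, fl_HasLevel v (-γ) m X Y t' ∧ (t' = -t ∨ t' = -t + 2 * m) := by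
  rcases hl with ⟨h, ht⟩ | ⟨s, hs, hs0, hsm, hlt, ht⟩ | ⟨s, hs, hs0, hsm, hlt, ht⟩ | ⟨h, ht⟩
  · exact ⟨0, Or.inl ⟨h, rfl⟩, Or.inl (by rw [ht]; ring)⟩
  · refine ⟨-s, Or.inr (Or.inr (Or.inl ⟨s, hs, hs0, hsm, ?_, rfl⟩)), Or.inl (by rw [ht])⟩
    have : Y + -γ * X = Y - γ * X := by ring
    rw [this]; exact hlt
  · refine ⟨s, Or.inr (Or.inl ⟨s, hs, hs0, hsm, ?_, rfl⟩), Or.inl (by rw [ht]; ring)⟩
    have : Y - -γ * X = Y + γ * X := by ring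
    rw [this]; exact hlt
  · exact ⟨m, Or.inr (Or.inr (Or.inr ⟨h, rfl⟩)), Or.inr (by rw [ht]; ring)⟩

/-- **Three collinear points near the node**: the levels add up to a multiple of `2m`. -/
theorem fl_level_sum_node {δ ε γ μ ν X₁ X₂ X₃ : K} {m t₁ t₂ t₃ : ℚ}
    (hm : 0 < m) (hδ : v δ = (m : WithTop ℚ)) (hε : v ε = 0) (h2 : v 2 = 0)
    (hγ : γ ^ 2 = -ε)
    (e1 : X₁ + X₂ + X₃ = μ ^ 2 + δ + ε)
    (e2 : X₁ * X₂ + X₁ * X₃ + X₂ * X₃ = δ * ε - 2 * μ * ν) (e3 : X₁ * X₂ * X₃ = ν ^ 2)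
    (hl₁ : fl_HasLevel v γ m X₁ (μ * X₁ + ν) t₁) (hl₂ : fl_HasLevel v γ m X₂ (μ * X₂ + ν) t₂)
    (hl₃ : fl_HasLevel v γ m X₃ (μ * X₃ + ν) t₃)
    (h₁ : 0 < v X₁) (h₂ : 0 < v X₂) (h₃ : 0 < v X₃) :
    ∃ k : ℤ, t₁ + t₂ + t₃ = k * (2 * m) := by
  have hγ0 := fl_val_gamma v hε hγ
  -- `(μ - γ)(μ + γ) = μ² + ε` lies in the maximal ideal
  have hprod : (μ - γ) * (μ + γ) = X₁ + X₂ + X₃ - δ := by
    rw [e1]; linear_combination -hγ
  have hδ0 : (0 : WithTop ℚ) < v δ := by rw [hδ]; exact_mod_cast hm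
  have hpos : 0 < v ((μ - γ) * (μ + γ)) := by
    rw [hprod]
    refine lt_of_lt_of_le (lt_min (fl_add3_lt v h₁ h₂ h₃) hδ0) (AddValuation.map_sub v _ _)
  -- not both factors are in the maximal ideal, since their difference is `2γ`
  have h2γ : v (2 * γ) = 0 := by rw [fl_val_two_mul v h2, hγ0]
  have hnot : ¬ (0 < v (μ - γ) ∧ 0 < v (μ + γ)) := by
    rintro ⟨ha, hb⟩
    have : (0 : WithTop ℚ) < v ((μ + γ) - (μ - γ)) :=
      lt_of_lt_of_le (lt_min hb ha) (AddValuation.map_sub v _ _)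
    have e : (μ + γ) - (μ - γ) = 2 * γ := by ring
    rw [e, h2γ] at this
    exact lt_irrefl _ this
  rw [AddValuation.map_mul] at hpos
  by_cases ha : 0 < v (μ - γ)
  · exact fl_level_sum_node_aux v hm hδ hε h2 hγ ha e2 e3 hl₁ hl₂ hl₃ h₁ h₂ h₃
  · have hb : 0 < v (μ + γ) := by
      by_contra hb
      have ha := not_lt.mp ha
      have hb := not_lt.mp hb
      have : v (μ - γ) + v (μ + γ) ≤ 0 := by
        calc v (μ - γ) + v (μ + γ) ≤ 0 + 0 := add_le_add ha hb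
          _ = 0 := add_zero 0
      exact absurd hpos (not_lt.mpr this)
    obtain ⟨t₁', hl₁', ht₁⟩ := fl_hasLevel_neg_gamma v hl₁
    obtain ⟨t₂', hl₂', ht₂⟩ := fl_hasLevel_neg_gamma v hl₂
    obtain ⟨t₃', hl₃', ht₃⟩ := fl_hasLevel_neg_gamma v hl₃
    have hγ' : (-γ) ^ 2 = -ε := by rw [neg_sq, hγ]
    have hb' : 0 < v (μ - -γ) := by rw [sub_neg_eq_add]; exact hb
    obtain ⟨k, hk⟩ := fl_level_sum_node_aux v hm hδ hε h2 hγ' hb' e2 e3 hl₁' hl₂' hl₃' h₁ h₂ h₃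
    rcases ht₁ with ht₁ | ht₁ <;> rcases ht₂ with ht₂ | ht₂ <;> rcases ht₃ with ht₃ | ht₃
    · exact ⟨-k, by push_cast; linarith⟩
    · exact ⟨-k + 1, by push_cast; linarith⟩
    · exact ⟨-k + 1, by push_cast; linarith⟩
    · exact ⟨-k + 2, by push_cast; linarith⟩
    · exact ⟨-k + 1, by push_cast; linarith⟩
    · exact ⟨-k + 2, by push_cast; linarith⟩
    · exact ⟨-k + 2, by push_cast; linarith⟩
    · exact ⟨-k + 3, by push_cast; linarith⟩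

end Fermat.Agent.Lib.Frey
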