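import Mathlib

/-!
# Abstract tail of the unsigned-level argument (S05, route U)

`G` an additive commutative group, `a : G → ℚ` a function with values in `[0, m]` which satisfies the
"parallelogram law" `{a (P+Q), a (P-Q)} = {min (a P + a Q) (2m - a P - a Q), |a P - a Q|}`
(as unordered pairs).  Then `a (k • P)` is the distance of `k * a P` to `2m ℤ`, and for a point `x`
killed by `p` and a point `P0` of level `2m/p` some `x - j • P0` has level `0`.
-/

namespace Fermat.Agent.Lib.Frey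

/-- `r ≡ ± s (mod 2m ℤ)`. -/
def fuc_Near (m s r : ℚ) : Prop := ∃ z : ℤ, r = s + z * (2 * m) ∨ r = -s + z * (2 * m)

theorem fuc_int_eq_zero_of_abs_lt {m : ℚ} (hm : 0 < m) (w : ℤ) (h1 : (w : ℚ) * (2 * m) ≤ m)
    (h2 : -m ≤ (w : ℚ) * (2 * m)) : w = 0 := by
  rcases lt_trichotomy w 0 with h | h | h
  · have : (w : ℚ) ≤ -1 := by exact_mod_cast Int.le_sub_one_of_lt h
    nlinarith
  · exact h
  · have : (1 : ℚ) ≤ w := by exact_mod_cast Int.add_one_le_of_lt h
    nlinarith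

theorem fuc_near_unique {m s r r' : ℚ} (hm : 0 < m) (hr : 0 ≤ r) (hr' : 0 ≤ r') (hrm : r ≤ m)
    (hrm' : r' ≤ m) (h : fuc_Near m s r) (h' : fuc_Near m s r') : r = r' := by
  obtain ⟨z, hz⟩ := h
  obtain ⟨z', hz'⟩ := h'
  rcases hz with hz | hz <;> rcases hz' with hz' | hz'
  · -- r - r' = (z - z') 2m
    have hw : ((z - z' : ℤ) : ℚ) * (2 * m) = r - r' := by push_cast; rw [hz, hz']; ring
    have h0 := fuc_int_eq_zero_of_abs_lt hm (z - z') (by rw [hw]; linarith) (by rw [hw]; linarith)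
    rw [h0] at hw; simp at hw; linarith
  · -- r + r' = (z + z') 2m
    have hw : ((z + z' : ℤ) : ℚ) * (2 * m) = r + r' := by push_cast; rw [hz, hz']; ring
    rcases lt_trichotomy (z + z') 0 with h | h | h
    · have : ((z + z' : ℤ) : ℚ) ≤ -1 := by exact_mod_cast Int.le_sub_one_of_lt h
      nlinarith
    · rw [h] at hw; simp at hw; linarith
    · have h1 : (1 : ℚ) ≤ ((z + z' : ℤ) : ℚ) := by exact_mod_cast Int.add_one_le_of_lt h
      have : 2 * m ≤ r + r' := by rw [← hw]; nlinarith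
      linarith
  · have hw : ((z + z' : ℤ) : ℚ) * (2 * m) = r + r' := by push_cast; rw [hz, hz']; ring
    rcases lt_trichotomy (z + z') 0 with h | h | h
    · have : ((z + z' : ℤ) : ℚ) ≤ -1 := by exact_mod_cast Int.le_sub_one_of_lt h
      nlinarith
    · rw [h] at hw; simp at hw; linarith
    · have h1 : (1 : ℚ) ≤ ((z + z' : ℤ) : ℚ) := by exact_mod_cast Int.add_one_le_of_lt h
      have : 2 * m ≤ r + r' := by rw [← hw]; nlinarith
      linarith
  · have hw : ((z - z' : ℤ) : ℚ) * (2 * m) = r - r' := by push_cast; rw [hz, hz']; ring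
    have h0 := fuc_int_eq_zero_of_abs_lt hm (z - z') (by rw [hw]; linarith) (by rw [hw]; linarith)
    rw [h0] at hw; simp at hw; linarith

theorem fuc_near_neg {m s r : ℚ} (h : fuc_Near m s r) : fuc_Near m (-s) r := by
  obtain ⟨z, hz | hz⟩ := h
  · exact ⟨z, Or.inr (by rw [hz]; ring)⟩
  · exact ⟨z, Or.inl (by rw [hz])⟩

theorem fuc_near_self (m s : ℚ) : fuc_Near m s s := ⟨0, Or.inl (by simp)⟩

section

variable {G : Type*} [AddCommGroup G] (a : G → ℚ) (m : ℚ)

/-- the parallelogram law for an unsigned level function -/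
def fuc_Law : Prop :=
  ∀ P Q, (a (P + Q) = min (a P + a Q) (2 * m - a P - a Q) ∧ a (P - Q) = |a P - a Q|) ∨
         (a (P + Q) = |a P - a Q| ∧ a (P - Q) = min (a P + a Q) (2 * m - a P - a Q))

variable {a m}

theorem fuc_level_zero (hU : fuc_Law a m) : a 0 = 0 := by
  rcases hU 0 0 with ⟨_, h⟩ | ⟨h, _⟩
  · simpa using h
  · simpa using h

/-- one step: `t ≡ ± (k+1) α` gives one of `min (t+α) (2m-t-α)`, `|t-α|` `≡ ± (k+2) α` and the other
`≡ ± k α`. -/
theorem fuc_step_near {m α t s : ℚ} (ht : fuc_Near m s t) :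
    (fuc_Near m (s + α) (min (t + α) (2 * m - t - α)) ∧ fuc_Near m (s - α) |t - α|) ∨
    (fuc_Near m (s - α) (min (t + α) (2 * m - t - α)) ∧ fuc_Near m (s + α) |t - α|) := by
  obtain ⟨z, hz | hz⟩ := ht
  · left
    constructor
    · rcases min_choice (t + α) (2 * m - t - α) with h | h
      · exact ⟨z, Or.inl (by rw [h, hz]; ring)⟩
      · exact ⟨1 - z, Or.inr (by rw [h, hz]; push_cast; ring)⟩
    · rcases abs_choice (t - α) with h | h
      · exact ⟨z, Or.inl (by rw [h, hz]; ring)⟩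
      · exact ⟨-z, Or.inr (by rw [h, hz]; push_cast; ring)⟩
  · right
    constructor
    · rcases min_choice (t + α) (2 * m - t - α) with h | h
      · exact ⟨z, Or.inr (by rw [h, hz]; ring)⟩
      · exact ⟨1 - z, Or.inl (by rw [h, hz]; push_cast; ring)⟩
    · rcases abs_choice (t - α) with h | h
      · exact ⟨z, Or.inr (by rw [h, hz]; ring)⟩
      · exact ⟨-z, Or.inl (by rw [h, hz]; push_cast; ring)⟩

theorem fuc_min_range {m t α : ℚ} (ht0 : 0 ≤ t) (htm : t ≤ m) (hα0 : 0 ≤ α) (hαm : α ≤ m) :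
    0 ≤ min (t + α) (2 * m - t - α) ∧ min (t + α) (2 * m - t - α) ≤ m := by
  constructor
  · exact le_min (by linarith) (by linarith)
  · rcases le_total (t + α) m with h | h
    · exact (min_le_left _ _).trans h
    · exact (min_le_right _ _).trans (by linarith)

theorem fuc_abs_range {m t α : ℚ} (ht0 : 0 ≤ t) (htm : t ≤ m) (hα0 : 0 ≤ α) (hαm : α ≤ m) :
    0 ≤ |t - α| ∧ |t - α| ≤ m :=
  ⟨abs_nonneg _, abs_le.mpr ⟨by linarith, by linarith⟩⟩

/-- selection principle: an unordered pair `{A, B} = {u, w}`, `B` and `w` both `≡ ± s` in `[0,m]`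
forces `A = u`. -/
theorem fuc_select {m s A B u w : ℚ} (hm : 0 < m)
    (h : (A = u ∧ B = w) ∨ (A = w ∧ B = u))
    (hB0 : 0 ≤ B) (hBm : B ≤ m) (hw0 : 0 ≤ w) (hwm : w ≤ m)
    (hB : fuc_Near m s B) (hw : fuc_Near m s w) : A = u := by
  rcases h with ⟨h1, _⟩ | ⟨h1, h2⟩
  · exact h1
  · have : B = w := fuc_near_unique hm hB0 hw0 hBm hwm hB hw
    rw [h1, ← this, h2]

theorem fuc_level_nsmul_aux (hm : 0 < m) (h0 : ∀ P, 0 ≤ a P) (hle : ∀ P, a P ≤ m)
    (hU : fuc_Law a m) (P : G) (k : ℕ) :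
    fuc_Near m (k * a P) (a (k • P)) ∧ fuc_Near m ((k + 1 : ℕ) * a P) (a ((k + 1) • P)) := by
  induction k with
  | zero =>
    constructor
    · simp only [Nat.cast_zero, zero_mul, zero_smul]
      rw [fuc_level_zero hU]
      exact fuc_near_self m 0
    · simp only [zero_add, Nat.cast_one, one_mul, one_smul]
      exact fuc_near_self m _
  | succ k ih =>
    refine ⟨ih.2, ?_⟩
    obtain ⟨ihk, ihk1⟩ := ih
    set α := a P with hα
    set t := a ((k + 1) • P) with ht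
    have hlaw := hU ((k + 1) • P) P
    have e1 : (k + 1) • P + P = (k + 1 + 1) • P := by rw [succ_nsmul P (k + 1)]
    have e2 : (k + 1) • P - P = k • P := by rw [succ_nsmul P k]; abel
    rw [e1, e2] at hlaw
    have hs1 : ((k + 1 : ℕ) : ℚ) * α + α = ((k + 1 + 1 : ℕ) : ℚ) * α := by push_cast; ring
    have hs2 : ((k + 1 : ℕ) : ℚ) * α - α = (k : ℚ) * α := by push_cast; ring
    have hmin := fuc_min_range (m := m) (h0 ((k + 1) • P)) (hle ((k + 1) • P)) (h0 P) (hle P)
    have habs := fuc_abs_range (m := m) (h0 ((k + 1) • P)) (hle ((k + 1) • P)) (h0 P) (hle P)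
    rcases fuc_step_near (α := α) ihk1 with ⟨hn1, hn2⟩ | ⟨hn1, hn2⟩
    · rw [hs1] at hn1; rw [hs2] at hn2
      -- u = min, w = abs
      have := fuc_select (s := (k : ℚ) * α) (A := a ((k + 1 + 1) • P)) (B := a (k • P))
        (u := min (t + α) (2 * m - t - α)) (w := |t - α|) hm hlaw (h0 _) (hle _) habs.1 habs.2 ihk hn2
      rw [this]; exact hn1
    · rw [hs2] at hn1; rw [hs1] at hn2
      -- u = abs, w = min
      have := fuc_select (s := (k : ℚ) * α) (A := a ((k + 1 + 1) • P)) (B := a (k • P))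
        (u := |t - α|) (w := min (t + α) (2 * m - t - α)) hm hlaw.symm (h0 _) (hle _) hmin.1 hmin.2
        ihk hn1
      rw [this]; exact hn2

/-- `a (k • P) ≡ ± k * a P (mod 2m ℤ)`, i.e. `a (k • P)` is the distance from `k * a P` to `2m ℤ`. -/
theorem fuc_level_nsmul (hm : 0 < m) (h0 : ∀ P, 0 ≤ a P) (hle : ∀ P, a P ≤ m)
    (hU : fuc_Law a m) (P : G) (k : ℕ) :
    ∃ z : ℤ, a (k • P) = k * a P + z * (2 * m) ∨ a (k • P) = -(k * a P) + z * (2 * m) :=
  (fuc_level_nsmul_aux hm h0 hle hU P k).1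

/-- Main abstract statement. -/
theorem fuc_exists_sub_level_zero {G : Type*} [AddCommGroup G] (a : G → ℚ) (m : ℚ) (hm : 0 < m)
    (h0 : ∀ P, 0 ≤ a P) (hle : ∀ P, a P ≤ m)
    (hU : ∀ P Q, (a (P + Q) = min (a P + a Q) (2 * m - a P - a Q) ∧ a (P - Q) = |a P - a Q|) ∨
      (a (P + Q) = |a P - a Q| ∧ a (P - Q) = min (a P + a Q) (2 * m - a P - a Q)))
    (p : ℕ) (hp : 0 < p) (x P0 : G) (hx : p • x = 0) (hP0 : a P0 = 2 * m / p) :
    ∃ j : ℤ, a (x - j • P0) = 0 := by
  have hU' : fuc_Law a m := hU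
  have hp' : (0 : ℚ) < p := by exact_mod_cast hp
  -- step 2: p * a x ∈ 2m ℤ
  have h1 := (fuc_level_nsmul_aux hm h0 hle hU' x p).1
  rw [hx, fuc_level_zero hU'] at h1
  obtain ⟨z', hz'⟩ : ∃ z' : ℤ, (p : ℚ) * a x = z' * (2 * m) := by
    obtain ⟨z, hz | hz⟩ := h1
    · exact ⟨-z, by push_cast; linarith⟩
    · exact ⟨z, by linarith⟩
  have hax : a x = z' * (2 * m / p) := by
    field_simp
    linarith
  have hz0 : 0 ≤ z' := by
    by_contra hneg
    rw [not_le] at hneg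
    have : (z' : ℚ) ≤ -1 := by exact_mod_cast Int.le_sub_one_of_lt hneg
    have h3 := h0 x
    have : (p : ℚ) * a x < 0 := by rw [hz']; nlinarith
    nlinarith
  obtain ⟨j, rfl⟩ := Int.eq_ofNat_of_zero_le hz0
  -- step 3: a (j • P0) = a x
  have h2 := (fuc_level_nsmul_aux hm h0 hle hU' P0 j).1
  have h3 : a (j • P0) = a x := by
    refine fuc_near_unique hm (h0 _) (h0 _) (hle _) (hle _) h2 ?_
    rw [hP0, hax]
    push_cast
    exact fuc_near_self m _
  -- step 4
  rcases hU' x (j • P0) with ⟨_, h⟩ | ⟨h, _⟩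
  · refine ⟨(j : ℤ), ?_⟩
    rw [natCast_zsmul, h, h3]; simp
  · refine ⟨-(j : ℤ), ?_⟩
    rw [neg_zsmul, natCast_zsmul, sub_neg_eq_add, h, h3]; simp

end

end Fermat.Agent.Lib.Frey
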