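import Mathlib
import Fermat.Agent.Lib.Frey.VarChange
import Fermat.Prelude.Def_FLTPrelim_GaloisRep

/-!
# Base change of the point-level variable change, and Galois equivariance

For Weierstrass curves `W₁ W₂` over a ring `R` with `C • W₂ = W₁`, and a field `K` over `R`,
we get `fvc_baseChangeEquiv : (W₁⁄K).Point ≃+ (W₂⁄K).Point`, compatible with the action of
`K ≃ₐ[S] K` on points defined in `Fermat.Prelude.Def_FLTPrelim_GaloisRep`.
-/

set_option autoImplicit false

namespace Fermat.Agent.Lib.Frey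

open WeierstrassCurve

section congr

variable {F : Type*} [Field F] [DecidableEq F]

/-- Transport of points along an equality of curves. -/
def fvc_pointCongr {W W' : WeierstrassCurve F} (h : W = W') :
    W.toAffine.Point ≃+ W'.toAffine.Point := by
  subst h
  exact AddEquiv.refl _

lemma fvc_pointCongr_zero {W W' : WeierstrassCurve F} (h : W = W') :
    fvc_pointCongr h 0 = 0 := by
  subst h; rfl

lemma fvc_pointCongr_some {W W' : WeierstrassCurve F} (h : W = W') {x y : F}
    (hxy : W.toAffine.Nonsingular x y) :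
    fvc_pointCongr h (.some x y hxy) = .some x y (h ▸ hxy) := by
  subst h; rfl

/-- The point-level change of variables, for a curve `W'` which is *equal* to `C • W`. -/
noncomputable def fvc_pointEquivOfEq (W W' : WeierstrassCurve F) (C : VariableChange F)
    (h : C • W = W') : W'.toAffine.Point ≃+ W.toAffine.Point :=
  (fvc_pointCongr h.symm).trans (fvc_pointEquiv W C)

lemma fvc_pointEquivOfEq_zero (W W' : WeierstrassCurve F) (C : VariableChange F)
    (h : C • W = W') : fvc_pointEquivOfEq W W' C h 0 = 0 := map_zero _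

omit [DecidableEq F] in
lemma fvc_nonsingular_ofEq (W W' : WeierstrassCurve F) (C : VariableChange F)
    (h : C • W = W') (x y : F) :
    W'.toAffine.Nonsingular x y ↔ W.toAffine.Nonsingular (fvc_X C x) (fvc_Y C x y) := by
  subst h; exact fvc_nonsingular W C x y

lemma fvc_pointEquivOfEq_some (W W' : WeierstrassCurve F) (C : VariableChange F)
    (h : C • W = W') {x y : F} (hxy : W'.toAffine.Nonsingular x y) :
    fvc_pointEquivOfEq W W' C h (.some x y hxy)
      = .some (fvc_X C x) (fvc_Y C x y) ((fvc_nonsingular_ofEq W W' C h x y).mp hxy) := by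
  subst h; rfl

end congr

section baseChange

variable {R : Type*} [CommRing R] {K : Type*} [Field K] [DecidableEq K] [Algebra R K]
  (W₁ W₂ : WeierstrassCurve R) (C : VariableChange R)

omit [DecidableEq K] in
lemma fvc_baseChange_eq (h : C • W₂ = W₁) : (C.baseChange K) • (W₂.baseChange K) = W₁.baseChange K := by
  rw [← h]
  exact map_variableChange W₂ C (algebraMap R K)

/-- The base change to `K` of the point-level change of variables `C`, where `C • W₂ = W₁`. -/
noncomputable def fvc_baseChangeEquiv (h : C • W₂ = W₁) :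
    (W₁.baseChange K).toAffine.Point ≃+ (W₂.baseChange K).toAffine.Point :=
  fvc_pointEquivOfEq (W₂.baseChange K) (W₁.baseChange K) (C.baseChange K)
    (fvc_baseChange_eq W₁ W₂ C h)

lemma fvc_baseChangeEquiv_zero (h : C • W₂ = W₁) : fvc_baseChangeEquiv (K := K) W₁ W₂ C h 0 = 0 := map_zero _

omit [DecidableEq K] in
lemma fvc_baseChange_nonsingular (h : C • W₂ = W₁) (x y : K) :
    (W₁.baseChange K).toAffine.Nonsingular x y ↔
      (W₂.baseChange K).toAffine.Nonsingular (fvc_X (C.baseChange K) x)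
        (fvc_Y (C.baseChange K) x y) :=
  fvc_nonsingular_ofEq _ _ _ (fvc_baseChange_eq W₁ W₂ C h) x y

lemma fvc_baseChangeEquiv_some (h : C • W₂ = W₁) {x y : K} (hxy : (W₁.baseChange K).toAffine.Nonsingular x y) :
    fvc_baseChangeEquiv W₁ W₂ C h (.some x y hxy)
      = .some (fvc_X (C.baseChange K) x) (fvc_Y (C.baseChange K) x y)
          ((fvc_baseChange_nonsingular W₁ W₂ C h x y).mp hxy) :=
  fvc_pointEquivOfEq_some _ _ _ _ hxy

omit [DecidableEq K] in
lemma fvc_X_baseChange (x : K) :
    fvc_X (C.baseChange K) x = algebraMap R K (C.u : R) ^ 2 * x + algebraMap R K C.r := rfl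

omit [DecidableEq K] in
lemma fvc_Y_baseChange (x y : K) :
    fvc_Y (C.baseChange K) x y = algebraMap R K (C.u : R) ^ 3 * y
      + algebraMap R K (C.u : R) ^ 2 * algebraMap R K C.s * x + algebraMap R K C.t := rfl

section galois

variable {S : Type*} [CommRing S] [Algebra R S] [Algebra S K] [IsScalarTower R S K]

omit [DecidableEq K] in
lemma fvc_algEquiv_algebraMap (σ : K ≃ₐ[S] K) (r : R) :
    σ (algebraMap R K r) = algebraMap R K r := by
  rw [IsScalarTower.algebraMap_apply R S K, σ.commutes]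

omit [DecidableEq K] in
lemma fvc_algEquiv_X (σ : K ≃ₐ[S] K) (x : K) :
    σ (fvc_X (C.baseChange K) x) = fvc_X (C.baseChange K) (σ x) := by
  simp only [fvc_X_baseChange, map_add, map_mul, map_pow, fvc_algEquiv_algebraMap]

omit [DecidableEq K] in
lemma fvc_algEquiv_Y (σ : K ≃ₐ[S] K) (x y : K) :
    σ (fvc_Y (C.baseChange K) x y) = fvc_Y (C.baseChange K) (σ x) (σ y) := by
  simp only [fvc_Y_baseChange, map_add, map_mul, map_pow, fvc_algEquiv_algebraMap]

/-- The action of `σ` on an affine point, in coordinates. -/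
lemma fvc_smul_some (W' : WeierstrassCurve R) (σ : K ≃ₐ[S] K) {x y : K}
    (hxy : (W'.baseChange K).toAffine.Nonsingular x y) :
    ∃ hxy' : (W'.baseChange K).toAffine.Nonsingular (σ x) (σ y),
      σ • (Affine.Point.some x y hxy : (W'.baseChange K).toAffine.Point)
        = Affine.Point.some (σ x) (σ y) hxy' :=
  ⟨_, rfl⟩

lemma fvc_smul_zero' (W' : WeierstrassCurve R) (σ : K ≃ₐ[S] K) :
    σ • (0 : (W'.baseChange K).toAffine.Point) = 0 := rfl

lemma fvc_smul_some_eq_iff (W' : WeierstrassCurve R) (σ : K ≃ₐ[S] K) {x y : K}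
    (hxy : (W'.baseChange K).toAffine.Nonsingular x y) :
    σ • (Affine.Point.some x y hxy : (W'.baseChange K).toAffine.Point)
        = Affine.Point.some x y hxy ↔ σ x = x ∧ σ y = y := by
  obtain ⟨hxy', he⟩ := fvc_smul_some W' σ hxy
  rw [he]
  constructor
  · intro h
    simpa only [Affine.Point.some.injEq] using h
  · rintro ⟨hx, hy⟩
    exact fvc_some_congr hx hy _ _

/-- Galois equivariance of the base-changed change of variables. -/
lemma fvc_baseChangeEquiv_smul (h : C • W₂ = W₁) (σ : K ≃ₐ[S] K) (P : (W₁.baseChange K).toAffine.Point) :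
    fvc_baseChangeEquiv W₁ W₂ C h (σ • P) = σ • fvc_baseChangeEquiv W₁ W₂ C h P := by
  rcases P with _ | ⟨x, y, hxy⟩
  · change fvc_baseChangeEquiv W₁ W₂ C h (σ • 0) = σ • fvc_baseChangeEquiv W₁ W₂ C h 0
    rw [fvc_smul_zero', fvc_baseChangeEquiv_zero, fvc_smul_zero']
  · obtain ⟨hxy', he⟩ := fvc_smul_some W₁ σ hxy
    rw [he, fvc_baseChangeEquiv_some, fvc_baseChangeEquiv_some]
    obtain ⟨hxy'', he'⟩ := fvc_smul_some W₂ σ
      ((fvc_baseChange_nonsingular W₁ W₂ C h x y).mp hxy)
    rw [he']
    exact fvc_some_congr (fvc_algEquiv_X C σ x).symm (fvc_algEquiv_Y C σ x y).symm _ _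

/-- If `σ` fixes the `n`-torsion points of `W₂⁄K`, it fixes the `n`-torsion of `W₁⁄K`. -/
lemma fvc_torsion_fixed (h : C • W₂ = W₁) (n : ℕ) (σ : K ≃ₐ[S] K)
    (hfix : ∀ Q : (W₂.baseChange K).toAffine.Point, n • Q = 0 → σ • Q = Q)
    (x : Submodule.torsionBy ℤ (W₁.baseChange K).toAffine.Point n) : σ • x = x := by
  apply Subtype.ext
  change σ • (x : (W₁.baseChange K).toAffine.Point) = x
  have hx : (n : ℤ) • (x : (W₁.baseChange K).toAffine.Point) = 0 :=
    (Submodule.mem_torsionBy_iff _ _).mp x.2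
  rw [natCast_zsmul] at hx
  apply (fvc_baseChangeEquiv W₁ W₂ C h).injective
  rw [fvc_baseChangeEquiv_smul]
  apply hfix
  rw [← map_nsmul, hx, map_zero]

/-- Coordinate form of `fvc_torsion_fixed`. -/
lemma fvc_torsion_fixed_coord (h : C • W₂ = W₁) (n : ℕ) (σ : K ≃ₐ[S] K)
    (hfix : ∀ (X Y : K) (hXY : (W₂.baseChange K).toAffine.Nonsingular X Y),
      n • (Affine.Point.some X Y hXY : (W₂.baseChange K).toAffine.Point) = 0 →
        σ X = X ∧ σ Y = Y)
    (x : Submodule.torsionBy ℤ (W₁.baseChange K).toAffine.Point n) : σ • x = x := by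
  refine fvc_torsion_fixed W₁ W₂ C h n σ ?_ x
  rintro (_ | ⟨X, Y, hXY⟩) hQ
  · rfl
  · exact (fvc_smul_some_eq_iff W₂ σ hXY).mpr (hfix X Y hXY hQ)

end galois

end baseChange

end Fermat.Agent.Lib.Frey
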